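import Fermat.Agent.Corollaries.QA.Embed
import Fermat.Agent.Corollaries.HM.RealExist
import Fermat.Agent.Corollaries.ThreeSq.Forms

/-!
# The level and the `u`-invariant of a number field

* `level F` is the least `n` such that `-1` is a sum of `n` squares in the field `F` (`0` if there is
  none);
* `level_eq_zero_iff`: a number field has level `0` iff it has a real embedding;
* `level_mem`: otherwise the level is `1`, `2` or `4`; `level_le_two_iff`;
* `sum_three_squares_iff_dyadic`: sums of three squares in a number field;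
* `level_imag_quadratic`: the level of `ℚ(√-n)`;
* `exists_anisotropic_four`, `u_invariant_eq_four`.
-/

set_option autoImplicit false
set_option maxHeartbeats 400000

open Quaternion

namespace Fermat.Agent.Cor.QA

open IsDedekindDomain NumberField
open Fermat.Agent.Cor.HM
open Fermat.Agent.CFT.Global (locPow LocalSymbols)

/-! ### The level of a field -/

/-- The level of a field: the least `n` such that `-1` is a sum of `n` squares, `0` if there is no
such `n`. -/
noncomputable def level (F : Type*) [Field F] : ℕ :=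
  sInf {n : ℕ | ∃ f : Fin n → F, ∑ i, f i ^ 2 = -1}

section Field

variable {F : Type*} [Field F]

lemma exists_sum_of_le {m n : ℕ} (h : m ≤ n) (hm : ∃ f : Fin m → F, ∑ i, f i ^ 2 = -1) :
    ∃ f : Fin n → F, ∑ i, f i ^ 2 = -1 := by
  induction n, h using Nat.le_induction with
  | base => exact hm
  | succ n _ ih =>
    obtain ⟨f, hf⟩ := ih
    exact ⟨Fin.snoc f 0, by simp [Fin.sum_univ_castSucc, hf]⟩

/-- `level F ≤ n` for `n ≥ 1` together with `-1` being a sum of squares. -/
lemma level_le_iff {n : ℕ} : (level F ≤ n ∧ ∃ (m : ℕ) (f : Fin m → F), ∑ i, f i ^ 2 = -1) ↔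
    ∃ f : Fin n → F, ∑ i, f i ^ 2 = -1 := by
  constructor
  · rintro ⟨h, m, hm⟩
    exact exists_sum_of_le h (Nat.sInf_mem (s := {n : ℕ | ∃ f : Fin n → F, ∑ i, f i ^ 2 = -1})
      ⟨m, hm⟩)
  · intro h
    exact ⟨Nat.sInf_le h, n, h⟩

lemma not_sum_zero [NeZero (1 : F)] : ¬ ∃ f : Fin 0 → F, ∑ i, f i ^ 2 = -1 := by
  rintro ⟨f, hf⟩
  rw [Fin.sum_univ_zero] at hf
  exact one_ne_zero (neg_eq_zero.mp hf.symm)

/-- If `-1` is a sum of three squares it is a sum of two squares. -/
theorem sum_two_of_three (h2 : (2 : F) ≠ 0) (h : ∃ x y z : F, x ^ 2 + y ^ 2 + z ^ 2 = -1) :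
    ∃ x y : F, x ^ 2 + y ^ 2 = -1 := by
  obtain ⟨x, y, z, h⟩ := h
  by_cases hx : 1 + x ^ 2 = 0
  · exact ⟨x, 0, by linear_combination hx⟩
  · refine ⟨(y - x * z) / (1 + x ^ 2), (z + x * y) / (1 + x ^ 2), ?_⟩
    rw [div_pow, div_pow, ← add_div, div_eq_iff (pow_ne_zero 2 hx)]
    linear_combination (1 + x ^ 2) * h

/-- A vanishing sum of four squares. -/
theorem sum_two_of_four_zero {x y z t : F} (h0 : ¬ (x = 0 ∧ y = 0 ∧ z = 0 ∧ t = 0))
    (h : x ^ 2 + y ^ 2 + z ^ 2 + t ^ 2 = 0) : ∃ x y : F, x ^ 2 + y ^ 2 = -1 := by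
  by_cases h1 : z ^ 2 + t ^ 2 = 0
  · by_cases ht : t = 0
    · have hz : z = 0 := by
        rw [ht] at h1
        simpa using h1
      rw [ht, hz] at h
      by_cases hy : y = 0
      · exfalso
        rw [hy] at h
        apply h0
        exact ⟨by simpa using h, hy, hz, ht⟩
      · refine ⟨x / y, 0, ?_⟩
        field_simp
        linear_combination h
    · refine ⟨z / t, 0, ?_⟩
      field_simp
      linear_combination h1
  · refine ⟨(x * z + y * t) / (z ^ 2 + t ^ 2), (x * t - y * z) / (z ^ 2 + t ^ 2), ?_⟩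
    rw [div_pow, div_pow, ← add_div, div_eq_iff (pow_ne_zero 2 h1)]
    linear_combination (z ^ 2 + t ^ 2) * h

end Field

/-! ### Number fields -/

section NF

variable {K : Type} [Field K] [NumberField K]

/-- The quaternion algebra `ℍ[K,-1,-1]` splits at the finite places which do not divide `2`. -/
theorem isSplitAt_neg_one {v : HeightOneSpectrum (𝓞 K)} (hv : ((2 : ℕ) : 𝓞 K) ∉ v.asIdeal) :
    IsSplitAt v (-1 : K) (-1) := by
  obtain ⟨LS⟩ := Fermat.Agent.CFT.Bridge.nonempty_localSymbols_all (p := 2) K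
    (Fermat.Agent.CFT.Global2.Unr.isPrimitiveRoot_neg_one' K)
  have h0 : Fermat.Agent.CFT.SUnits.ord v (-1 : Kˣ) = 0 := by
    rw [ord_neg]
    exact Fermat.Agent.CFT.SUnits.ord_one (K := K) (R := 𝓞 K) _
  have h1 := (sym_eq_one_iff LS v (-1) (-1)).mp (LS.unit_mem v hv (-1) (-1) h0 h0)
  rwa [Units.val_neg, Units.val_one] at h1

theorem isSplitAt_neg_one_iff (v : HeightOneSpectrum (𝓞 K)) :
    IsSplitAt v (-1 : K) (-1) ↔ ∃ x y : v.adicCompletion K, x ^ 2 + y ^ 2 = -1 := by
  have h1 := sol_iff (F := v.adicCompletion K) (a := algebraMap K _ (-1)) (b := algebraMap K _ (-1))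
    (two_adic v) ((map_ne_zero _).mpr (neg_ne_zero.mpr one_ne_zero))
  refine Iff.trans h1 ?_
  rw [map_neg, map_one]
  constructor
  · rintro ⟨s, t, h⟩
    exact ⟨s, t, by linear_combination -h⟩
  · rintro ⟨s, t, h⟩
    exact ⟨s, t, by linear_combination -h⟩

/-- **Sums of three squares in a number field**: `c ≠ 0` is a sum of three squares iff it is totally
positive and `-c` is not a square in `K_v` for every `v ∣ 2` such that `-1` is not a sum of two
squares in `K_v`. -/
theorem sum_three_squares_iff_dyadic {c : K} (hc : c ≠ 0) :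
    (∃ x y z : K, x ^ 2 + y ^ 2 + z ^ 2 = c) ↔
      (∀ v : HeightOneSpectrum (𝓞 K), ((2 : ℕ) : 𝓞 K) ∈ v.asIdeal →
        (∃ x y : v.adicCompletion K, x ^ 2 + y ^ 2 = -1) ∨
          ¬ IsSquare (-algebraMap K (v.adicCompletion K) c)) ∧
      ∀ σ : K →+* ℝ, 0 < σ c := by
  have h1 := ternary_iff (a := (-1 : K)) (b := -1) (c := -c) (neg_ne_zero.mpr one_ne_zero)
    (neg_ne_zero.mpr one_ne_zero) (neg_ne_zero.mpr hc)
  have h2 : (∃ x y z : K, x ^ 2 + y ^ 2 + z ^ 2 = c) ↔
      ∃ x y z : K, -c = -1 * x ^ 2 + -1 * y ^ 2 - -1 * -1 * z ^ 2 := by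
    refine exists_congr fun x => exists_congr fun y => exists_congr fun z => ?_
    constructor
    · intro h
      linear_combination h
    · intro h
      linear_combination h
  rw [h2, h1]
  refine and_congr ⟨fun h v _ => ?_, fun h v hv => ?_⟩ ⟨fun h σ => ?_, fun h σ _ _ => ?_⟩
  · rw [← isSplitAt_neg_one_iff, ← map_neg]
    by_cases hs : IsSplitAt v (-1 : K) (-1)
    · exact Or.inl hs
    · exact Or.inr (h v hs)
  · by_cases h3 : ((2 : ℕ) : 𝓞 K) ∈ v.asIdeal
    · have h4 := h v h3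
      rw [← isSplitAt_neg_one_iff, ← map_neg] at h4
      exact h4.resolve_left hv
    · exact absurd (isSplitAt_neg_one h3) hv
  · have h3 := h σ (by rw [map_neg, map_one]; norm_num) (by rw [map_neg, map_one]; norm_num)
    rw [map_neg] at h3
    linarith
  · rw [map_neg]
    linarith [h σ]

/-- In a number field without real embedding `-1` is a sum of four squares. -/
theorem neg_one_sum_four (h : IsEmpty (K →+* ℝ)) : ∃ f : Fin 4 → K, ∑ i, f i ^ 2 = -1 := by
  obtain ⟨x, y, z, t, h1⟩ := (sum_four_squares_nf (-1 : K)).mpr fun σ => h.elim σ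
  exact ⟨![x, y, z, t], by rw [Fin.sum_univ_four, h1]; simp⟩

/-- `-1` is not a sum of squares in a field with a real embedding. -/
theorem not_sum_of_real (σ : K →+* ℝ) (n : ℕ) : ¬ ∃ f : Fin n → K, ∑ i, f i ^ 2 = -1 := by
  rintro ⟨f, hf⟩
  have h1 := congrArg σ hf
  rw [map_sum, map_neg, map_one] at h1
  have h2 : 0 ≤ ∑ i, σ (f i ^ 2) := Finset.sum_nonneg fun i _ => by
    rw [map_pow]
    positivity
  linarith

/-- A number field has level `0` iff it has a real embedding. -/
theorem level_eq_zero_iff : level K = 0 ↔ Nonempty (K →+* ℝ) := by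
  constructor
  · intro h
    by_contra hcon
    rw [not_nonempty_iff] at hcon
    have h1 := (level_le_iff (F := K) (n := 0)).mp ⟨h.le, 4, neg_one_sum_four hcon⟩
    exact not_sum_zero h1
  · rintro ⟨σ⟩
    rw [level, Nat.sInf_eq_zero]
    right
    ext n
    simp only [Set.mem_ofPred_eq, Set.mem_empty_iff_false, iff_false]
    exact not_sum_of_real σ n

theorem level_le_two_iff (h : IsEmpty (K →+* ℝ)) : level K ≤ 2 ↔
    ∀ v : HeightOneSpectrum (𝓞 K), ((2 : ℕ) : 𝓞 K) ∈ v.asIdeal →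
      ∃ x y : v.adicCompletion K, x ^ 2 + y ^ 2 = -1 := by
  have h1 : level K ≤ 2 ↔ ∃ f : Fin 2 → K, ∑ i, f i ^ 2 = -1 :=
    ⟨fun hl => level_le_iff.mp ⟨hl, 4, neg_one_sum_four h⟩, fun hl => (level_le_iff.mpr hl).1⟩
  rw [h1]
  have h3 := sum_three_squares_iff_dyadic (K := K) (c := -1) (neg_ne_zero.mpr one_ne_zero)
  have h4 : (∃ f : Fin 2 → K, ∑ i, f i ^ 2 = -1) ↔ ∃ x y z : K, x ^ 2 + y ^ 2 + z ^ 2 = -1 := by
    constructor
    · rintro ⟨f, hf⟩
      exact ⟨f 0, f 1, 0, by rw [Fin.sum_univ_two] at hf; linear_combination hf⟩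
    · intro h'
      obtain ⟨x, y, hxy⟩ := sum_two_of_three two_ne_zero h'
      exact ⟨![x, y], by rw [Fin.sum_univ_two]; exact hxy⟩
  rw [h4, h3]
  constructor
  · rintro ⟨h5, -⟩ v hv
    refine (h5 v hv).resolve_right (not_not.mpr ?_)
    rw [map_neg, map_one, neg_neg]
    exact ⟨1, (mul_one 1).symm⟩
  · intro h5
    exact ⟨fun v hv => Or.inl (h5 v hv), fun σ => h.elim σ⟩

/-- **The level of a number field without real embedding is `1`, `2` or `4`.** -/
theorem level_mem (h : IsEmpty (K →+* ℝ)) : level K = 1 ∨ level K = 2 ∨ level K = 4 := by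
  have h4 : level K ≤ 4 := (level_le_iff.mpr (neg_one_sum_four h)).1
  have h0 : level K ≠ 0 := fun h' => not_nonempty_iff.mpr h (level_eq_zero_iff.mp h')
  have h3 : level K ≤ 3 → level K ≤ 2 := by
    intro h'
    obtain ⟨f, hf⟩ := level_le_iff.mp ⟨h', 4, neg_one_sum_four h⟩
    obtain ⟨x, y, hxy⟩ := sum_two_of_three two_ne_zero ⟨f 0, f 1, f 2, by
      rw [Fin.sum_univ_three] at hf
      exact hf⟩
    exact (level_le_iff.mpr ⟨![x, y], by rw [Fin.sum_univ_two]; exact hxy⟩).1
  omega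

theorem level_eq_one_iff : level K = 1 ↔ ∃ i : K, i ^ 2 = -1 := by
  constructor
  · intro h
    have hne : {n : ℕ | ∃ f : Fin n → K, ∑ i, f i ^ 2 = -1}.Nonempty := by
      by_contra hcon
      rw [Set.not_nonempty_iff_eq_empty] at hcon
      rw [level, hcon, Nat.sInf_empty] at h
      exact absurd h (by norm_num)
    have h1 := Nat.sInf_mem hne
    rw [← level, h] at h1
    obtain ⟨f, hf⟩ := h1
    exact ⟨f 0, by rw [Fin.sum_univ_one] at hf; exact hf⟩
  · rintro ⟨i, hi⟩
    have h1 : ∃ f : Fin 1 → K, ∑ i, f i ^ 2 = -1 := ⟨fun _ => i, by rw [Fin.sum_univ_one]; exact hi⟩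
    have h2 := (level_le_iff.mpr h1).1
    have h3 : level K ≠ 0 := by
      intro h'
      obtain ⟨σ⟩ := level_eq_zero_iff.mp h'
      exact not_sum_of_real σ 1 h1
    omega

/-! ### The `u`-invariant -/

theorem infinite_places (K : Type) [Field K] [NumberField K] :
    Infinite (HeightOneSpectrum (𝓞 K)) := by
  classical
  by_contra hcon
  rw [not_infinite_iff_finite] at hcon
  have := Fintype.ofFinite (HeightOneSpectrum (𝓞 K))
  obtain ⟨v⟩ := nonempty_places K
  obtain ⟨π, hπ⟩ := Fermat.Agent.CFT.Global.exists_ord_eq_one v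
  obtain ⟨w, hw, -⟩ := exists_notMem_locPow_all (K := K) Finset.univ (a := π) (by
    intro b hb
    rw [← hb, Fermat.Agent.CFT.SUnits.ord_pow] at hπ
    omega)
  exact hw (Finset.mem_univ w)

/-- **Every number field has an anisotropic form in four variables.** -/
theorem exists_anisotropic_four (K : Type) [Field K] [NumberField K] :
    ∃ a : Fin 4 → K, (∀ i, a i ≠ 0) ∧ ∀ x : Fin 4 → K, ∑ i, a i * x i ^ 2 = 0 → x = 0 := by
  classical
  have : Infinite (HeightOneSpectrum (𝓞 K)) := infinite_places K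
  obtain ⟨T, hT⟩ := Infinite.exists_subset_card_eq (HeightOneSpectrum (𝓞 K)) 2
  obtain ⟨a, b, ha, hb, h1, -⟩ := exists_ramified_all (K := K) T ∅ (by
    rw [hT, Finset.card_empty]
    decide)
  obtain ⟨v, hv⟩ : T.Nonempty := Finset.card_pos.mp (by omega)
  refine ⟨![1, -a, -b, a * b], fun i => ?_, fun x hx => ?_⟩
  · fin_cases i
    · exact one_ne_zero
    · exact neg_ne_zero.mpr ha
    · exact neg_ne_zero.mpr hb
    · exact mul_ne_zero ha hb
  · by_contra hx0
    apply (h1 v).mpr hv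
    rw [Fin.sum_univ_four] at hx
    simp only [Matrix.cons_val_zero, Matrix.cons_val_one, Matrix.cons_val] at hx
    obtain ⟨X, Y, Z, h0, h⟩ := sol_of_norm_zero (a := a) (b := b) (r := x 0) (x := x 1) (y := x 2)
      (z := x 3) (fun h' => hx0 (by
        funext i
        fin_cases i
        · exact h'.1
        · exact h'.2.1
        · exact h'.2.2.1
        · exact h'.2.2.2)) (by linear_combination hx)
    refine ⟨algebraMap K _ X, algebraMap K _ Y, algebraMap K _ Z, fun h' => h0 ?_, ?_⟩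
    · simpa using h'
    · rw [← map_pow, ← map_pow, ← map_pow, ← map_mul, ← map_mul, ← map_add, h]

/-- **The `u`-invariant of a number field without real embedding is `4`**: there are anisotropic
forms in four variables, and every form in at least five variables is isotropic. -/
theorem u_invariant_eq_four (K : Type) [Field K] [NumberField K] (h : IsEmpty (K →+* ℝ)) :
    (∃ a : Fin 4 → K, (∀ i, a i ≠ 0) ∧ ∀ x : Fin 4 → K, ∑ i, a i * x i ^ 2 = 0 → x = 0) ∧
      ∀ n, 5 ≤ n → ∀ a : Fin n → K, ∃ x : Fin n → K, x ≠ 0 ∧ ∑ i, a i * x i ^ 2 = 0 := by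
  refine ⟨exists_anisotropic_four K, fun n hn a => ?_⟩
  by_cases ha : ∀ i, a i ≠ 0
  · exact allFive_nf K n a hn ha fun σ => h.elim σ
  · push Not at ha
    obtain ⟨i, hi⟩ := ha
    classical
    refine ⟨Pi.single i 1, fun h' => one_ne_zero (α := K) ?_, ?_⟩
    · have := congrFun h' i
      rwa [Pi.single_eq_same] at this
    · refine Finset.sum_eq_zero fun j _ => ?_
      by_cases hj : j = i
      · rw [hj, hi, zero_mul]
      · rw [Pi.single_eq_of_ne hj, zero_pow two_ne_zero, mul_zero]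

/-! ### Imaginary quadratic fields -/

/-- `-1` is a sum of two squares in `ℚ(√-n)` iff `n` is a sum of three squares. -/
theorem sum_two_imag_iff {n : ℕ} (hn : 0 < n) {δ : K} (hδ : δ ^ 2 = -(n : K))
    (hK : ∀ z : K, ∃ x y : ℚ, z = (x : K) + (y : K) * δ) :
    (∃ x y : K, x ^ 2 + y ^ 2 = -1) ↔ ∃ x y z : ℚ, x ^ 2 + y ^ 2 + z ^ 2 = (n : ℚ) := by
  have hδ0 : δ ≠ 0 := by
    rintro rfl
    rw [zero_pow two_ne_zero] at hδ
    have : (n : K) = 0 := by linear_combination hδ
    rw [Nat.cast_eq_zero] at this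
    omega
  constructor
  · rintro ⟨x, y, h⟩
    obtain ⟨x₁, x₂, rfl⟩ := hK x
    obtain ⟨y₁, y₂, rfl⟩ := hK y
    have h1 : (((x₁ ^ 2 + y₁ ^ 2 + 1 - n * (x₂ ^ 2 + y₂ ^ 2) : ℚ)) : K) +
        ((2 * (x₁ * x₂ + y₁ * y₂) : ℚ) : K) * δ = 0 := by
      push_cast
      linear_combination h - ((x₂ : K) ^ 2 + (y₂ : K) ^ 2) * hδ
    set A : ℚ := x₁ ^ 2 + y₁ ^ 2 + 1 - n * (x₂ ^ 2 + y₂ ^ 2) with hA
    set B : ℚ := 2 * (x₁ * x₂ + y₁ * y₂) with hB
    have hB0 : B = 0 := by
      by_contra hB0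
      have hBK : (B : K) ≠ 0 := by exact_mod_cast hB0
      have h3 : δ = ((-A / B : ℚ) : K) := by
        push_cast
        field_simp
        linear_combination h1
      have h4 : ((-A / B : ℚ) : K) ^ 2 = -((n : ℚ) : K) := by
        rw [← h3, hδ]
        simp
      have h5 : (-A / B : ℚ) ^ 2 = -(n : ℚ) := by exact_mod_cast h4
      have h6 : (0 : ℚ) < n := by exact_mod_cast hn
      nlinarith [sq_nonneg (-A / B : ℚ)]
    have hA0 : A = 0 := by
      rw [hB0] at h1
      have : (A : K) = 0 := by simpa using h1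
      exact_mod_cast this
    have hm : x₂ ^ 2 + y₂ ^ 2 ≠ 0 := by
      intro hm
      rw [hm] at hA
      rw [hA0] at hA
      nlinarith [sq_nonneg x₁, sq_nonneg y₁]
    have hB1 : x₁ * x₂ + y₁ * y₂ = 0 := by linarith
    refine ⟨x₂ / (x₂ ^ 2 + y₂ ^ 2), y₂ / (x₂ ^ 2 + y₂ ^ 2),
      (x₁ * y₂ - x₂ * y₁) / (x₂ ^ 2 + y₂ ^ 2), ?_⟩
    rw [div_pow, div_pow, div_pow, ← add_div, ← add_div, div_eq_iff (pow_ne_zero 2 hm)]
    linear_combination (x₂ ^ 2 + y₂ ^ 2) * (hA.symm.trans hA0) - (x₁ * x₂ + y₁ * y₂) * hB1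
  · rintro ⟨x, y, z, h⟩
    refine sum_two_of_four_zero (x := δ) (y := (x : K)) (z := (y : K)) (t := (z : K))
      (fun h' => hδ0 h'.1) ?_
    have h1 : (x : K) ^ 2 + (y : K) ^ 2 + (z : K) ^ 2 = (n : K) := by exact_mod_cast h
    linear_combination hδ + h1

/-- **The level of the imaginary quadratic field `ℚ(√-n)`** is `1` if `n` is a square, `4` if
`n = 4 ^ a * (8 * b + 7)`, and `2` otherwise. -/
theorem level_imag_quadratic {n : ℕ} (hn : 0 < n) {δ : K} (hδ : δ ^ 2 = -(n : K))
    (hK : ∀ z : K, ∃ x y : ℚ, z = (x : K) + (y : K) * δ) :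
    (level K = 1 ↔ IsSquare n) ∧ (level K = 4 ↔ ∃ a b : ℕ, n = 4 ^ a * (8 * b + 7)) ∧
      (level K = 2 ↔ ¬ IsSquare n ∧ ∀ a b : ℕ, n ≠ 4 ^ a * (8 * b + 7)) := by
  have hE : IsEmpty (K →+* ℝ) := ⟨fun σ => by
    have h1 := congrArg σ hδ
    rw [map_pow, map_neg, map_natCast] at h1
    have h2 : (0 : ℝ) < n := by exact_mod_cast hn
    nlinarith [sq_nonneg (σ δ)]⟩
  have hδ0 : δ ≠ 0 := by
    rintro rfl
    rw [zero_pow two_ne_zero] at hδ
    have : (n : K) = 0 := by linear_combination hδ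
    rw [Nat.cast_eq_zero] at this
    omega
  have hm := level_mem hE
  have h1 : level K = 1 ↔ IsSquare n := by
    rw [level_eq_one_iff]
    constructor
    · rintro ⟨i, hi⟩
      obtain ⟨x, y, rfl⟩ := hK i
      have h3 : (((x ^ 2 - n * y ^ 2 + 1 : ℚ)) : K) + ((2 * (x * y) : ℚ) : K) * δ = 0 := by
        push_cast
        linear_combination hi - (y : K) ^ 2 * hδ
      set A : ℚ := x ^ 2 - n * y ^ 2 + 1 with hA
      set B : ℚ := 2 * (x * y) with hB
      have hB0 : B = 0 := by
        by_contra hB0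
        have hBK : (B : K) ≠ 0 := by exact_mod_cast hB0
        have h3 : δ = ((-A / B : ℚ) : K) := by
          push_cast
          field_simp
          linear_combination h3
        have h4 : ((-A / B : ℚ) : K) ^ 2 = -((n : ℚ) : K) := by
          rw [← h3, hδ]
          simp
        have h5 : (-A / B : ℚ) ^ 2 = -(n : ℚ) := by exact_mod_cast h4
        have h6 : (0 : ℚ) < n := by exact_mod_cast hn
        nlinarith [sq_nonneg (-A / B : ℚ)]
      have hA0 : A = 0 := by
        rw [hB0] at h3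
        have : (A : K) = 0 := by simpa using h3
        exact_mod_cast this
      have hxy : x = 0 := by
        have h4 : x * y = 0 := by linarith
        rcases mul_eq_zero.mp h4 with h | h
        · exact h
        · rw [h] at hA
          rw [hA0] at hA
          nlinarith [sq_nonneg x]
      rw [hxy] at hA
      have h5 : (n : ℚ) * y ^ 2 = 1 := by linarith
      have hy : y ≠ 0 := by
        rintro rfl
        simp at h5
      have h6 : IsSquare (n : ℚ) := ⟨1 / y, by field_simp; linear_combination h5⟩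
      exact Rat.isSquare_natCast_iff.mp h6
    · rintro ⟨m, hm⟩
      have hmK : (m : K) ≠ 0 := by
        intro h
        rw [Nat.cast_eq_zero] at h
        rw [h] at hm
        omega
      refine ⟨δ / m, ?_⟩
      rw [div_pow, hδ, div_eq_iff (pow_ne_zero 2 hmK), hm]
      push_cast
      ring
  have h2 : level K ≤ 2 ↔ ∀ a b : ℕ, n ≠ 4 ^ a * (8 * b + 7) := by
    have h3 : level K ≤ 2 ↔ ∃ x y : K, x ^ 2 + y ^ 2 = -1 := by
      constructor
      · intro h
        obtain ⟨f, hf⟩ := level_le_iff.mp ⟨h, 4, neg_one_sum_four hE⟩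
        exact ⟨f 0, f 1, by rw [Fin.sum_univ_two] at hf; exact hf⟩
      · rintro ⟨x, y, h⟩
        exact (level_le_iff.mpr ⟨![x, y], by rw [Fin.sum_univ_two]; exact h⟩).1
    rw [h3, sum_two_imag_iff hn hδ hK, Fermat.Agent.Cor.ThreeSq.rat_iff_int,
      Fermat.Agent.Cor.ThreeSq.sum_three_squares_iff]
  refine ⟨h1, ?_, ?_⟩
  · constructor
    · intro h
      by_contra! hcon
      have := h2.mpr hcon
      omega
    · rintro ⟨a, b, hab⟩
      have h3 : ¬ level K ≤ 2 := fun h => h2.mp h a b hab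
      omega
  · constructor
    · intro h
      exact ⟨fun h' => by rw [← h1] at h'; omega, h2.mp h.le⟩
    · rintro ⟨h3, h4⟩
      have h5 := h2.mpr h4
      have h6 : level K ≠ 1 := fun h' => h3 (h1.mp h')
      omega

end NF

end Fermat.Agent.Cor.QA
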