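import Fermat.Agent.Corollaries.QA.LevelTwo

/-!
# The level of the cyclotomic fields

`level_cyclotomic`: for odd `n > 2` the level of `ℚ(ζ_n)` is `2` if the order of `2` modulo `n` is even,
and `4` if it is odd. `level_cyclotomic_of_four_dvd`: it is `1` if `4 ∣ n`.
`level_cyclotomic_prime`: for an odd prime `p` it is `4` if `p ≡ 7 mod 8`, and `2` if `p ≡ 3` or `5 mod 8`.
-/

set_option autoImplicit false
set_option maxHeartbeats 400000

namespace Fermat.Agent.Cor.QA

open IsDedekindDomain NumberField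
open Fermat.Agent.Cor.HM

variable {K : Type} [Field K] [NumberField K]

omit [NumberField K] in
lemma liesOver_two {v : HeightOneSpectrum (𝓞 K)} (hv : ((2 : ℕ) : 𝓞 K) ∈ v.asIdeal) :
    v.asIdeal.LiesOver (Ideal.span {((2 : ℕ) : ℤ)}) := by
  have := v.isPrime
  refine ⟨?_⟩
  have h1 : Ideal.span {((2 : ℕ) : ℤ)} ≤ v.asIdeal.under ℤ := by
    rw [Ideal.span_singleton_le_iff_mem, Ideal.mem_comap, map_natCast]
    exact hv
  exact (Ideal.IsMaximal.eq_of_le
    (PrincipalIdealRing.isMaximal_of_irreducible (Int.prime_two.irreducible))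
    (Ideal.IsPrime.ne_top inferInstance) h1)

lemma exists_place_two : ∃ v : HeightOneSpectrum (𝓞 K), ((2 : ℕ) : 𝓞 K) ∈ v.asIdeal := by
  have : (Ideal.span {((2 : ℕ) : ℤ)}).IsMaximal :=
    PrincipalIdealRing.isMaximal_of_irreducible (Int.prime_two.irreducible)
  obtain ⟨⟨P, hP, hl⟩⟩ := (Ideal.span {((2 : ℕ) : ℤ)}).nonempty_primesOver (S := 𝓞 K)
  have h2 : ((2 : ℕ) : 𝓞 K) ∈ P := by
    have h3 : ((2 : ℕ) : ℤ) ∈ P.under ℤ := by
      rw [← hl.over]
      exact Ideal.mem_span_singleton_self _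
    rw [Ideal.mem_comap, map_natCast] at h3
    exact h3
  exact ⟨⟨P, hP, fun h => two_ne_zero (α := 𝓞 K) (by
    rw [h, Ideal.mem_bot] at h2
    exact_mod_cast h2)⟩, h2⟩

/-- If `-1` is a square in `K` then `2` is ramified at every place above `2`. -/
lemma two_le_ram {i : K} (hi : i ^ 2 = -1) {v : HeightOneSpectrum (𝓞 K)}
    (hv : ((2 : ℕ) : 𝓞 K) ∈ v.asIdeal) : 2 ≤ ram v := by
  have hint : IsIntegral ℤ i := by
    refine IsIntegral.of_pow (n := 2) two_pos ?_
    rw [hi]
    exact isIntegral_one.neg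
  set j : 𝓞 K := ⟨i, hint⟩ with hj
  have hj2 : j ^ 2 = -1 := by
    apply FaithfulSMul.algebraMap_injective (𝓞 K) K
    rw [map_pow, map_neg, map_one]
    exact hi
  have := v.isPrime
  have h1 : 1 + j ∈ v.asIdeal := by
    refine Ideal.IsPrime.mem_of_pow_mem v.isPrime 2 ?_
    have e : (1 + j) ^ 2 = j * ((2 : ℕ) : 𝓞 K) := by
      push_cast
      linear_combination hj2
    rw [e]
    exact Ideal.mul_mem_left _ _ hv
  rw [← two_mem_pow_iff]
  have e : (2 : 𝓞 K) = -j * (1 + j) ^ 2 := by linear_combination (2 + j) * hj2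
  rw [e]
  exact Ideal.mul_mem_left _ _ (Ideal.pow_mem_pow h1 2)

section Cyc

variable {n : ℕ} [NeZero n] [IsCyclotomicExtension {n} ℚ K]

lemma isEmpty_real_of_cyclotomic (n : ℕ) [NeZero n] [IsCyclotomicExtension {n} ℚ K] (hn : 2 < n) :
    IsEmpty (K →+* ℝ) := by
  refine ⟨fun σ => ?_⟩
  have hz := (IsCyclotomicExtension.zeta_spec n ℚ K).map_of_injective σ.injective
  have h1 : σ (IsCyclotomicExtension.zeta n ℚ K) ^ 2 = 1 := by
    have h2 := hz.pow_eq_one
    have h3 : |σ (IsCyclotomicExtension.zeta n ℚ K)| = 1 := by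
      have h4 := congrArg abs h2
      rw [abs_pow, abs_one] at h4
      exact (pow_eq_one_iff_of_nonneg (abs_nonneg _) (NeZero.ne n)).mp h4
    rw [← sq_abs, h3, one_pow]
  exact absurd (Nat.le_of_dvd two_pos (hz.dvd_of_pow_eq_one 2 h1)) (by omega)

/-- The local degree at `2` of `ℚ(ζ_n)`, `n` odd. -/
lemma localDegree_cyclotomic (n : ℕ) [NeZero n] [IsCyclotomicExtension {n} ℚ K] (hn : Odd n)
    {v : HeightOneSpectrum (𝓞 K)} (hv : ((2 : ℕ) : 𝓞 K) ∈ v.asIdeal) :
    Ideal.ramificationIdx' (Ideal.span {(2 : ℤ)}) v.asIdeal = 1 ∧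
      Ideal.inertiaDeg' (Ideal.span {(2 : ℤ)}) v.asIdeal = orderOf (2 : ZMod n) := by
  have : Fact (Nat.Prime 2) := ⟨Nat.prime_two⟩
  have := v.isPrime
  have := v.isMaximal
  have : (Ideal.span {((2 : ℕ) : ℤ)}).IsMaximal :=
    PrincipalIdealRing.isMaximal_of_irreducible (Int.prime_two.irreducible)
  have := liesOver_two hv
  have hnd : ¬ 2 ∣ n := by
    rw [← even_iff_two_dvd, Nat.not_even_iff_odd]
    exact hn
  have h1 := IsCyclotomicExtension.Rat.inertiaDeg_eq_of_not_dvd (m := n) 2 K v.asIdeal hnd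
  have h2 := IsCyclotomicExtension.Rat.ramificationIdx_eq_of_not_dvd (m := n) 2 K v.asIdeal hnd
  have h3 := Ideal.inertiaDeg'_eq_inertiaDeg (Ideal.span {((2 : ℕ) : ℤ)}) v.asIdeal
  have h4 := Ideal.ramificationIdx'_eq_ramificationIdx (Ideal.span {((2 : ℕ) : ℤ)}) v.asIdeal
    (by
      rw [Ne, Ideal.span_singleton_eq_bot]
      norm_num)
  rw [Nat.cast_ofNat] at h1 h3 h4
  exact ⟨h4.trans h2, h3.trans h1⟩

/-- **The level of `ℚ(ζ_n)`, `n > 2` odd**, is `2` if the order of `2` modulo `n` is even, and `4` if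
it is odd. -/
theorem level_cyclotomic (n : ℕ) [NeZero n] [IsCyclotomicExtension {n} ℚ K] (h2 : 2 < n)
    (hn : Odd n) : level K = if Even (orderOf (2 : ZMod n)) then 2 else 4 := by
  have hE := isEmpty_real_of_cyclotomic (K := K) n h2
  obtain ⟨v, hv⟩ := exists_place_two (K := K)
  have h1 : level K ≤ 2 ↔ Even (orderOf (2 : ZMod n)) := by
    rw [level_le_two_iff_even' hE]
    constructor
    · intro h
      have h3 := h v hv
      rwa [(localDegree_cyclotomic n hn hv).1, (localDegree_cyclotomic n hn hv).2, one_mul] at h3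
    · intro h w hw
      rwa [(localDegree_cyclotomic n hn hw).1, (localDegree_cyclotomic n hn hw).2, one_mul]
  have h3 : level K ≠ 1 := by
    intro h
    obtain ⟨i, hi⟩ := level_eq_one_iff.mp h
    have h4 := two_le_ram hi hv
    rw [← ram_eq_ramificationIdx, (localDegree_cyclotomic n hn hv).1] at h4
    omega
  have h4 := level_mem hE
  split_ifs with h5
  · have := h1.mpr h5
    omega
  · have : ¬ level K ≤ 2 := fun h => h5 (h1.mp h)
    omega

/-- The level of `ℚ(ζ_n)` is `1` if `4 ∣ n`. -/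
theorem level_cyclotomic_of_four_dvd (n : ℕ) [NeZero n] [IsCyclotomicExtension {n} ℚ K]
    (h : 4 ∣ n) : level K = 1 := by
  obtain ⟨m, rfl⟩ := h
  have hz := IsCyclotomicExtension.zeta_spec (4 * m) ℚ K
  have h1 : IsPrimitiveRoot (IsCyclotomicExtension.zeta (4 * m) ℚ K ^ (2 * m)) 2 :=
    hz.pow (Nat.pos_of_ne_zero (NeZero.ne _)) (by ring)
  exact level_eq_one_iff.mpr ⟨IsCyclotomicExtension.zeta (4 * m) ℚ K ^ m, by
    rw [← pow_mul, mul_comm m 2, h1.eq_neg_one_of_two_right]⟩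

/-- **The level of `ℚ(ζ_p)`** is `4` for the primes `p ≡ 7 mod 8` and `2` for the primes
`p ≡ 3, 5 mod 8`. -/
theorem level_cyclotomic_prime (p : ℕ) [Fact p.Prime] [IsCyclotomicExtension {p} ℚ K] :
    (p % 8 = 7 → level K = 4) ∧ (p % 8 = 3 ∨ p % 8 = 5 → level K = 2) := by
  have hp := (Fact.out : p.Prime)
  have hs : p ≠ 2 → (IsSquare (2 : ZMod p) ↔ p % 8 = 1 ∨ p % 8 = 7) :=
    fun h => ZMod.exists_sq_eq_two_iff h
  constructor
  · intro h7
    have h2 : 2 < p := by
      have := hp.two_le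
      rcases this.eq_or_lt with h | h
      · omega
      · exact h
    have hodd : Odd p := hp.odd_of_ne_two (by omega)
    rw [level_cyclotomic p h2 hodd, if_neg]
    rw [Nat.not_even_iff_odd]
    have h3 := (hs (by omega)).mpr (Or.inr h7)
    have h20 : (2 : ZMod p) ≠ 0 := by
      intro h
      have : ((2 : ℕ) : ZMod p) = 0 := by exact_mod_cast h
      rw [ZMod.natCast_eq_zero_iff] at this
      have := Nat.le_of_dvd two_pos this
      omega
    have h4 : (2 : ZMod p) ^ (p / 2) = 1 := (ZMod.euler_criterion p h20).mp h3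
    refine Odd.of_dvd_nat ?_ (orderOf_dvd_of_pow_eq_one h4)
    rw [Nat.odd_iff]
    omega
  · intro h35
    have h2 : 2 < p := by
      have := hp.two_le
      rcases this.eq_or_lt with h | h
      · omega
      · exact h
    have hodd : Odd p := hp.odd_of_ne_two (by omega)
    rw [level_cyclotomic p h2 hodd, if_pos]
    by_contra hne
    rw [Nat.not_even_iff_odd] at hne
    obtain ⟨k, hk⟩ := hne
    have h3 : IsSquare (2 : ZMod p) := by
      refine ⟨2 ^ (k + 1), ?_⟩
      have h4 := pow_orderOf_eq_one (2 : ZMod p)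
      rw [hk] at h4
      rw [← pow_add, show k + 1 + (k + 1) = 2 * k + 1 + 1 by ring, pow_succ, h4, one_mul]
    have := (hs (by omega)).mp h3
    omega

end Cyc

end Fermat.Agent.Cor.QA
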