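import Fermat.Agent.Corollaries.QA.SevenThree
import Fermat.Agent.Corollaries.QA.Cyclotomic
import Fermat.Agent.Corollaries.HM.InjK

/-!
# The Pythagoras number of a number field

`pyth F` is the least `n` such that every sum of squares in the field `F` is a sum of `n` squares. For a
number field `K` it is `2` if `-1` is a square in `K`, `4` if `e(v) f(v)` is odd for some place `v ∣ 2`,
and `3` otherwise.
-/

set_option autoImplicit false
set_option maxHeartbeats 400000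

namespace Fermat.Agent.Cor.QA

open IsDedekindDomain NumberField
open Fermat.Agent.Cor.HM
open Fermat.Agent.CFT Fermat.Agent.CFT.Global
open Fermat.Agent.CFT.SUnits (ord ord_mul ord_div ord_pow ord_one)

/-- Every sum of squares in `F` is a sum of `n` squares. -/
def PythLE (F : Type*) [Field F] (n : ℕ) : Prop :=
  ∀ (m : ℕ) (f : Fin m → F), ∃ g : Fin n → F, ∑ i, f i ^ 2 = ∑ i, g i ^ 2

/-- The Pythagoras number of a field: the least `n` such that every sum of squares is a sum of `n`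
squares (`0` if there is no such `n`). -/
noncomputable def pyth (F : Type*) [Field F] : ℕ :=
  sInf {n : ℕ | PythLE F n}

lemma PythLE.mono {F : Type*} [Field F] {m n : ℕ} (h : m ≤ n) (hm : PythLE F m) : PythLE F n := by
  induction n, h using Nat.le_induction with
  | base => exact hm
  | succ n _ ih =>
    intro k f
    obtain ⟨g, hg⟩ := ih k f
    exact ⟨Fin.snoc g 0, by rw [hg]; simp [Fin.sum_univ_castSucc]⟩

lemma pyth_le_iff {F : Type*} [Field F] {N : ℕ} (hN : PythLE F N) {n : ℕ} :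
    pyth F ≤ n ↔ PythLE F n :=
  ⟨fun h => PythLE.mono h (Nat.sInf_mem (s := {n : ℕ | PythLE F n}) ⟨N, hN⟩), fun h => Nat.sInf_le h⟩

variable {K : Type} [Field K] [NumberField K]

variable (K) in
/-- **Siegel**: every sum of squares in a number field is a sum of four squares. -/
theorem pythLE_four : PythLE K 4 := by
  intro m f
  obtain ⟨x, y, z, t, h⟩ := sum_squares_nf Finset.univ f
  exact ⟨![x, y, z, t], by rw [h, Fin.sum_univ_four]; rfl⟩

/-- A totally positive element of odd order at a given place. -/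
lemma exists_pos_ord_one (v : HeightOneSpectrum (𝓞 K)) :
    ∃ c : Kˣ, ord v c = 1 ∧ ∀ σ : K →+* ℝ, 0 < σ c := by
  obtain ⟨π, hπ⟩ := exists_ord_eq_one v
  set N := Ideal.absNorm v.asIdeal with hN
  have hN1 : 1 ≤ N := Nat.one_le_iff_ne_zero.mpr (by
    rw [hN, Ne, Ideal.absNorm_eq_zero_iff]
    exact v.ne_bot)
  have hNv : (N : 𝓞 K) ∈ v.asIdeal := Ideal.absNorm_mem _
  obtain ⟨k, hk⟩ : ∃ k : ℕ, ∀ σ : K →+* ℝ, -σ π < k := by
    obtain ⟨M, hM⟩ := (Set.finite_range fun σ : K →+* ℝ => -σ π).bddAbove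
    obtain ⟨k, hk⟩ := exists_nat_gt M
    exact ⟨k, fun σ => lt_of_le_of_lt (hM ⟨σ, rfl⟩) hk⟩
  have h1 : v.valuation K (π : K) = WithZero.exp (-1 : ℤ) := by
    rw [Fermat.Agent.CFT.SUnits.valuation_eq_exp_neg_ord K (R := 𝓞 K) v π, hπ]
  have h2 : v.valuation K ((N : K) ^ 2 * k) < WithZero.exp (-1 : ℤ) := by
    have e : ((N : K) ^ 2 * k) = algebraMap (𝓞 K) K ((N : 𝓞 K) ^ 2 * k) := by
      rw [map_mul, map_pow, map_natCast, map_natCast]
    rw [e, HeightOneSpectrum.valuation_of_algebraMap]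
    refine lt_of_le_of_lt ((v.intValuation_le_pow_iff_mem _ 2).mpr
      (Ideal.mul_mem_right _ _ (Ideal.pow_mem_pow hNv 2))) ?_
    rw [WithZero.exp_lt_exp]
    norm_num
  have h3 : v.valuation K ((π : K) + (N : K) ^ 2 * k) = WithZero.exp (-1 : ℤ) := by
    rw [Valuation.map_add_eq_of_lt_left _ (by rw [h1]; exact h2), h1]
  have h0 : (π : K) + (N : K) ^ 2 * k ≠ 0 := by
    intro h
    rw [h, map_zero] at h3
    exact WithZero.exp_ne_zero h3.symm
  refine ⟨Units.mk0 _ h0, ?_, fun σ => ?_⟩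
  · have h4 := Fermat.Agent.CFT.SUnits.valuation_eq_exp_neg_ord K (R := 𝓞 K) v (Units.mk0 _ h0)
    rw [Units.val_mk0, h3, WithZero.exp_inj] at h4
    omega
  · rw [Units.val_mk0, map_add, map_mul, map_pow, map_natCast, map_natCast]
    have h5 := hk σ
    have h6 : (1 : ℝ) ≤ (N : ℝ) ^ 2 := one_le_pow₀ (by exact_mod_cast hN1)
    nlinarith [Nat.cast_nonneg (α := ℝ) k]

lemma not_pythLE_one : ¬ PythLE K 1 := by
  intro h
  obtain ⟨v, -⟩ := exists_place_two (K := K)
  obtain ⟨c, hc, hpos⟩ := exists_pos_ord_one v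
  obtain ⟨x, y, z, t, h4⟩ := (sum_four_squares_nf (c : K)).mpr fun σ => (hpos σ).le
  obtain ⟨g, hg⟩ := h 4 ![x, y, z, t]
  have h5 : (c : K) = g 0 ^ 2 := by
    rw [h4, ← Fin.sum_univ_one (fun i => g i ^ 2), ← hg, Fin.sum_univ_four]
    rfl
  have hg0 : g 0 ≠ 0 := by
    intro h0
    rw [h0] at h5
    exact c.ne_zero (by rw [h5]; ring)
  have h6 : c = Units.mk0 (g 0) hg0 ^ 2 := by
    ext
    rw [Units.val_pow_eq_pow_val, Units.val_mk0, h5]
  rw [h6, ord_pow] at hc
  omega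

/-- **`P(K) ≤ 2` iff `-1` is a square in `K`.** -/
theorem pythLE_two_iff : PythLE K 2 ↔ ∃ i : K, i ^ 2 = -1 := by
  constructor
  · intro h
    by_contra hcon
    obtain ⟨v, hv, hv1⟩ := exists_notMem_locPow_all
      (finite_aboveP (K := K) 2 two_ne_zero).toFinset (a := (-1 : Kˣ)) (fun c hc => hcon ⟨c, by
        rw [← Units.val_pow_eq_pow_val, hc, Units.val_neg, Units.val_one]⟩)
    have hv2 : ((2 : ℕ) : 𝓞 K) ∉ v.asIdeal := fun h' => hv (by
      rw [Set.Finite.mem_toFinset]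
      exact h')
    have h3 : Ideal.absNorm v.asIdeal % 4 = 3 := by
      by_contra h'
      exact hv1 ((neg_one_mem_locPow_iff hv2).mpr h')
    obtain ⟨c, hc, hpos⟩ := exists_pos_ord_one v
    obtain ⟨x, y, z, t, h4⟩ := (sum_four_squares_nf (c : K)).mpr fun σ => (hpos σ).le
    obtain ⟨g, hg⟩ := h 4 ![x, y, z, t]
    have h5 : (c : K) = g 0 ^ 2 - ((-1 : Kˣ) : K) * g 1 ^ 2 := by
      rw [Units.val_neg, Units.val_one, neg_one_mul, sub_neg_eq_add,
        ← Fin.sum_univ_two (fun i => g i ^ 2), ← hg, Fin.sum_univ_four, h4]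
      rfl
    obtain ⟨LS⟩ := Fermat.Agent.CFT.Bridge.nonempty_localSymbols_all (p := 2) K
      (Fermat.Agent.CFT.Global2.Unr.isPrimitiveRoot_neg_one' K)
    have h6 : LS.sym v (-1) c = 1 := sym_eq_one_of_adic LS _ _
      ⟨algebraMap K _ (g 0), algebraMap K _ (g 1), by
        rw [← map_pow, ← map_pow, ← map_mul, ← map_sub, ← h5]⟩
    have h7 := sym_neg_one LS hv2 c
    rw [if_pos h3, hc, h6] at h7
    exact absurd h7 (by decide)
  · rintro ⟨i, hi⟩ m f
    refine ⟨![(∑ j, f j ^ 2 + 1) / 2, i * (∑ j, f j ^ 2 - 1) / 2], ?_⟩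
    rw [Fin.sum_univ_two]
    change _ = ((∑ j, f j ^ 2 + 1) / 2) ^ 2 + (i * (∑ j, f j ^ 2 - 1) / 2) ^ 2
    linear_combination (-(∑ j, f j ^ 2 - 1) ^ 2 / 4) * hi

/-- **`P(K) ≤ 3` iff all the local degrees at `2` are even.** -/
theorem pythLE_three_iff : PythLE K 3 ↔
    ∀ v : HeightOneSpectrum (𝓞 K), ((2 : ℕ) : 𝓞 K) ∈ v.asIdeal →
      Even (Ideal.ramificationIdx' (Ideal.span {(2 : ℤ)}) v.asIdeal *
        Ideal.inertiaDeg' (Ideal.span {(2 : ℤ)}) v.asIdeal) := by
  constructor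
  · intro h
    rw [← seven_sum_three_squares_iff]
    obtain ⟨g, hg⟩ := h 4 ![2, 1, 1, 1]
    refine ⟨g 0, g 1, g 2, ?_⟩
    rw [Fin.sum_univ_four, Fin.sum_univ_three] at hg
    rw [← hg]
    change (2 : K) ^ 2 + 1 ^ 2 + 1 ^ 2 + 1 ^ 2 = 7
    norm_num
  · intro h m f
    obtain ⟨x, y, z, hc⟩ := forall_sum_three_squares_iff.mpr h (∑ j, f j ^ 2) fun σ => by
      rw [map_sum]
      exact Finset.sum_nonneg fun i _ => by
        rw [map_pow]
        positivity
    exact ⟨![x, y, z], by rw [Fin.sum_univ_three, ← hc]; rfl⟩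

/-- **The Pythagoras number of a number field** is `2`, `3` or `4`: it is `2` iff `-1` is a square, and
`4` iff one of the local degrees at `2` is odd. -/
theorem pyth_number_field : (pyth K = 2 ∨ pyth K = 3 ∨ pyth K = 4) ∧
    (pyth K = 2 ↔ ∃ i : K, i ^ 2 = -1) ∧
    (pyth K = 4 ↔ ∃ v : HeightOneSpectrum (𝓞 K), ((2 : ℕ) : 𝓞 K) ∈ v.asIdeal ∧
      Odd (Ideal.ramificationIdx' (Ideal.span {(2 : ℤ)}) v.asIdeal *
        Ideal.inertiaDeg' (Ideal.span {(2 : ℤ)}) v.asIdeal)) := by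
  have h4 := (pyth_le_iff (pythLE_four K)).mpr (pythLE_four K)
  have h1 : ¬ pyth K ≤ 1 := by
    rw [pyth_le_iff (pythLE_four K)]
    exact not_pythLE_one
  have h2 := pyth_le_iff (pythLE_four K) (n := 2)
  rw [pythLE_two_iff] at h2
  have h3 := pyth_le_iff (pythLE_four K) (n := 3)
  rw [pythLE_three_iff] at h3
  refine ⟨by omega, ?_, ?_⟩
  · rw [← h2]
    omega
  · have h5 : pyth K = 4 ↔ ¬ pyth K ≤ 3 := by omega
    rw [h5, h3]
    push Not
    simp only [Nat.not_even_iff_odd]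

end Fermat.Agent.Cor.QA
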