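import Mathlib

/-!
# Quaternion algebras over a field of characteristic different from two

`ℍ[F,a,b]` is the quaternion algebra with `i ^ 2 = a`, `j ^ 2 = b`, `a, b ≠ 0`.

* `injective_lift`: quaternion algebras are simple (in the form needed);
* `mat_iff`: `ℍ[F,a,b]` is a matrix algebra iff `a x ^ 2 + b y ^ 2 = z ^ 2` has a non-trivial
  solution;
* `equiv_mul_norm`, `exists_equiv_of_value`, `value_of_equiv`: change of the generators;
* `equiv_baseChange`.
-/

set_option autoImplicit false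
set_option maxHeartbeats 400000

open Quaternion

namespace Fermat.Agent.Cor.QA

section Lift

variable {F : Type*} [Field F] {A : Type*} [Ring A] [Algebra F A] {a b : F}

/-- The quaternion basis given by two anticommuting elements. -/
@[simps]
def mkBasis (I J : A) (hI : I * I = algebraMap F A a) (hJ : J * J = algebraMap F A b)
    (hIJ : J * I = -(I * J)) : QuaternionAlgebra.Basis A a 0 b where
  i := I
  j := J
  k := I * J
  i_mul_i := by rw [hI, zero_smul, add_zero, Algebra.algebraMap_eq_smul_one]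
  j_mul_j := by rw [hJ, Algebra.algebraMap_eq_smul_one]
  i_mul_j := rfl
  j_mul_i := by rw [hIJ, zero_smul, zero_sub]

/-- Homomorphisms from a quaternion algebra are injective. -/
theorem injective_hom [Nontrivial A] (h2 : (2 : F) ≠ 0) (ha : a ≠ 0) (hb : b ≠ 0)
    (f : ℍ[F,a,b] →ₐ[F] A) : Function.Injective f := by
  have key : ∀ x : ℍ[F,a,b], f x = 0 → x.re = 0 := by
    intro x hx
    set i : ℍ[F,a,b] := ⟨0, 1, 0, 0⟩ with hi
    set j : ℍ[F,a,b] := ⟨0, 0, 1, 0⟩ with hj
    have h1 : f (a • x + i * x * i) = 0 := by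
      rw [map_add, map_smul, map_mul, map_mul, hx, smul_zero, mul_zero, zero_mul, add_zero]
    have h3 : f (b • (a • x + i * x * i) + j * (a • x + i * x * i) * j) = 0 := by
      rw [map_add, map_smul, map_mul, map_mul, h1, smul_zero, mul_zero, zero_mul, add_zero]
    have h4 : b • (a • x + i * x * i) + j * (a • x + i * x * i) * j =
        algebraMap F _ (4 * a * b * x.re) := by
      rw [QuaternionAlgebra.algebraMap_eq]
      ext <;> simp [hi, hj] <;> ring
    rw [h4, AlgHom.commutes, map_eq_zero] at h3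
    have h5 : (4 : F) ≠ 0 := by
      have : (4 : F) = 2 * 2 := by norm_num
      rw [this]
      exact mul_ne_zero h2 h2
    simpa [h5, ha, hb] using h3
  rw [injective_iff_map_eq_zero]
  intro x hx
  have h0 := key x hx
  have h1 := key (x * ⟨0, 1, 0, 0⟩) (by rw [map_mul, hx, zero_mul])
  have h3 := key (x * ⟨0, 0, 1, 0⟩) (by rw [map_mul, hx, zero_mul])
  have h4 := key (x * ⟨0, 0, 0, 1⟩) (by rw [map_mul, hx, zero_mul])
  simp [ha, hb] at h1 h3 h4
  ext
  · exact h0
  · exact h1
  · exact h3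
  · exact h4

/-- A homomorphism to an algebra of dimension `4` is an isomorphism. -/
theorem exists_equiv_of_hom [Nontrivial A] (h2 : (2 : F) ≠ 0) (ha : a ≠ 0) (hb : b ≠ 0)
    (h4 : Module.finrank F A = 4) (f : ℍ[F,a,b] →ₐ[F] A) : Nonempty (ℍ[F,a,b] ≃ₐ[F] A) := by
  have hfin : Module.Finite F A := Module.finite_of_finrank_pos (by rw [h4]; norm_num)
  have hinj := injective_hom h2 ha hb f
  have hsurj : Function.Surjective f.toLinearMap :=
    (LinearMap.injective_iff_surjective_of_finrank_eq_finrank (by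
      rw [h4, QuaternionAlgebra.finrank_eq_four])).mp hinj
  exact ⟨AlgEquiv.ofBijective f ⟨hinj, hsurj⟩⟩

/-- The isomorphism given by anticommuting elements in an algebra of dimension `4`. -/
theorem exists_equiv_of_gen [Nontrivial A] (h2 : (2 : F) ≠ 0) (ha : a ≠ 0) (hb : b ≠ 0)
    (h4 : Module.finrank F A = 4) (I J : A) (hI : I * I = algebraMap F A a)
    (hJ : J * J = algebraMap F A b) (hIJ : J * I = -(I * J)) : Nonempty (ℍ[F,a,b] ≃ₐ[F] A) :=
  exists_equiv_of_hom h2 ha hb h4 (mkBasis I J hI hJ hIJ).liftHom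

end Lift

section Split

variable {F : Type*} [Field F] {a b : F}

/-- `a x ^ 2 + b y ^ 2 = z ^ 2` has a non-trivial solution iff `b` is a norm from `F(√a)`. -/
theorem sol_iff (h2 : (2 : F) ≠ 0) (ha : a ≠ 0) :
    (∃ x y z : F, ¬ (x = 0 ∧ y = 0 ∧ z = 0) ∧ a * x ^ 2 + b * y ^ 2 = z ^ 2) ↔
      ∃ s t : F, b = s ^ 2 - a * t ^ 2 := by
  constructor
  · rintro ⟨x, y, z, h0, h⟩
    by_cases hy : y = 0
    · subst hy
      have hx : x ≠ 0 := by
        rintro rfl
        apply h0
        refine ⟨rfl, rfl, ?_⟩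
        simpa using h.symm
      have hz : z ≠ 0 := by
        rintro rfl
        simp [ha, hx] at h
      have ha' : a = (z / x) ^ 2 := by
        field_simp
        linear_combination h
      refine ⟨(b + 1) / 2, (b - 1) * x / (2 * z), ?_⟩
      rw [ha']
      field_simp
      ring
    · refine ⟨z / y, x / y, ?_⟩
      field_simp
      linear_combination h
  · rintro ⟨s, t, h⟩
    exact ⟨t, 1, s, fun h' => one_ne_zero h'.2.1, by rw [h]; ring⟩

/-- An isotropic vector of the norm form gives a solution of `a x ^ 2 + b y ^ 2 = z ^ 2`. -/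
theorem sol_of_norm_zero {r x y z : F} (h0 : ¬ (r = 0 ∧ x = 0 ∧ y = 0 ∧ z = 0))
    (h : r ^ 2 - a * x ^ 2 - b * y ^ 2 + a * b * z ^ 2 = 0) :
    ∃ x y z : F, ¬ (x = 0 ∧ y = 0 ∧ z = 0) ∧ a * x ^ 2 + b * y ^ 2 = z ^ 2 := by
  by_cases h6 : y ^ 2 - a * z ^ 2 = 0
  · by_cases h7 : z = 0
    · have h8 : y = 0 := by
        rw [h7] at h6
        simpa using h6
      refine ⟨x, 0, r, fun h' => h0 ⟨h'.2.2, h'.1, h8, h7⟩, ?_⟩
      rw [h7, h8] at h
      linear_combination -h
    · exact ⟨z, 0, y, fun h' => h7 h'.1, by linear_combination -h6⟩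
  · exact ⟨r * z + x * y, y ^ 2 - a * z ^ 2, r * y + a * (x * z), fun h' => h6 h'.2.1, by
      linear_combination -(y ^ 2 - a * z ^ 2) * h⟩

/-- **The splitting criterion**: `ℍ[F,a,b]` is isomorphic to `M₂(F)` iff
`a x ^ 2 + b y ^ 2 = z ^ 2` has a non-trivial solution. -/
theorem mat_iff (h2 : (2 : F) ≠ 0) (ha : a ≠ 0) (hb : b ≠ 0) :
    Nonempty (ℍ[F,a,b] ≃ₐ[F] Matrix (Fin 2) (Fin 2) F) ↔
      ∃ x y z : F, ¬ (x = 0 ∧ y = 0 ∧ z = 0) ∧ a * x ^ 2 + b * y ^ 2 = z ^ 2 := by
  constructor
  · rintro ⟨e⟩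
    set N : Matrix (Fin 2) (Fin 2) F := !![0, 1; 0, 0] with hN
    have hN0 : N ≠ 0 := by
      intro h
      have := congrFun (congrFun h 0) 1
      simp [hN] at this
    have hNN : N * N = 0 := by
      ext i j
      fin_cases i <;> fin_cases j <;> simp [hN, Matrix.mul_apply]
    obtain ⟨x, hx⟩ := e.surjective N
    have hx0 : x ≠ 0 := by
      rintro rfl
      rw [map_zero] at hx
      exact hN0 hx.symm
    have hxx : x * x = 0 := e.injective (by rw [map_mul, hx, hNN, map_zero])
    have hre := congrArg QuaternionAlgebra.re hxx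
    have hi := congrArg QuaternionAlgebra.imI hxx
    have hj := congrArg QuaternionAlgebra.imJ hxx
    have hk := congrArg QuaternionAlgebra.imK hxx
    simp at hre hi hj hk
    have hr : x.re = 0 := by
      by_contra hr
      have h1 : x.imI = 0 := by
        have : 2 * x.re * x.imI = 0 := by linear_combination hi
        simpa [h2, hr] using this
      have h3 : x.imJ = 0 := by
        have : 2 * x.re * x.imJ = 0 := by linear_combination hj
        simpa [h2, hr] using this
      have h4 : x.imK = 0 := by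
        have : 2 * x.re * x.imK = 0 := by linear_combination hk
        simpa [h2, hr] using this
      rw [h1, h3, h4] at hre
      simp at hre
      exact hr hre
    have h5 : a * x.imI ^ 2 + b * x.imJ ^ 2 - a * b * x.imK ^ 2 = 0 := by
      rw [hr] at hre
      linear_combination hre
    refine sol_of_norm_zero (r := 0) (x := x.imI) (y := x.imJ) (z := x.imK)
      (fun h' => hx0 ?_) (by linear_combination -h5)
    ext
    · exact hr
    · exact h'.2.1
    · exact h'.2.2.1
    · exact h'.2.2.2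
  · intro h
    obtain ⟨s, t, hst⟩ := (sol_iff h2 ha).mp h
    obtain ⟨e⟩ := exists_equiv_of_gen (A := Matrix (Fin 2) (Fin 2) F) h2 ha hb
      (by rw [Module.finrank_matrix]; simp) !![0, a; 1, 0] !![s, -(a * t); t, -s] (by
        ext i j
        fin_cases i <;> fin_cases j <;> simp [Matrix.mul_apply, Matrix.algebraMap_matrix_apply])
      (by
        ext i j
        fin_cases i <;> fin_cases j <;>
          simp [Matrix.mul_apply, Matrix.algebraMap_matrix_apply, hst] <;> ring)
      (by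
        ext i j
        fin_cases i <;> fin_cases j <;> simp [Matrix.mul_apply] <;> ring)
    exact ⟨e⟩

end Split

section Change

variable {F : Type*} [Field F] {a b : F}

/-- Change of the second generator by a norm. -/
theorem equiv_mul_norm (h2 : (2 : F) ≠ 0) (ha : a ≠ 0) (hb : b ≠ 0) {s t : F}
    (hn : s ^ 2 - a * t ^ 2 ≠ 0) : Nonempty (ℍ[F,a,b * (s ^ 2 - a * t ^ 2)] ≃ₐ[F] ℍ[F,a,b]) := by
  refine exists_equiv_of_gen h2 ha (mul_ne_zero hb hn) (QuaternionAlgebra.finrank_eq_four ..)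
    ⟨0, 1, 0, 0⟩ ⟨0, 0, s, t⟩ ?_ ?_ ?_
  · rw [QuaternionAlgebra.algebraMap_eq]
    ext <;> simp
  · rw [QuaternionAlgebra.algebraMap_eq]
    ext <;> simp <;> ring
  · ext <;> simp

/-- A pure quaternion with square `c` is the first generator of a suitable pair of generators. -/
theorem exists_equiv_of_value (h2 : (2 : F) ≠ 0) (ha : a ≠ 0) (hb : b ≠ 0) {c x y z : F}
    (hc : c ≠ 0) (h : c = a * x ^ 2 + b * y ^ 2 - a * b * z ^ 2) :
    ∃ d : F, d ≠ 0 ∧ Nonempty (ℍ[F,c,d] ≃ₐ[F] ℍ[F,a,b]) := by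
  have key : ∀ x' y' z' : F, a * x * x' + b * y * y' - a * b * z * z' = 0 →
      a * x' ^ 2 + b * y' ^ 2 - a * b * z' ^ 2 ≠ 0 →
      ∃ d : F, d ≠ 0 ∧ Nonempty (ℍ[F,c,d] ≃ₐ[F] ℍ[F,a,b]) := by
    intro x' y' z' h1 h3
    refine ⟨_, h3, exists_equiv_of_gen h2 hc h3 (QuaternionAlgebra.finrank_eq_four ..)
      ⟨0, x, y, z⟩ ⟨0, x', y', z'⟩ ?_ ?_ ?_⟩
    · rw [QuaternionAlgebra.algebraMap_eq]
      ext <;> simp <;> first | ring1 | linear_combination -h
    · rw [QuaternionAlgebra.algebraMap_eq]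
      ext <;> simp <;> ring
    · ext <;> simp <;> first | ring1 | linear_combination 2 * h1
  by_cases h3 : b * y ^ 2 + a * x ^ 2 = 0
  · by_cases h4 : a * z ^ 2 - y ^ 2 = 0
    · by_cases h5 : b * z ^ 2 - x ^ 2 = 0
      · exfalso
        have h6 : 2 * (a * b * z ^ 2) = 0 := by
          linear_combination h3 + b * h4 + a * h5
        have h7 : z = 0 := by simpa [h2, ha, hb] using h6
        rw [h7] at h4 h5
        apply hc
        have h8 : y = 0 := by simpa using h4
        have h9 : x = 0 := by simpa using h5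
        rw [h, h7, h8, h9]
        ring
      · refine key (b * z) 0 x (by ring) ?_
        have e : a * (b * z) ^ 2 + b * 0 ^ 2 - a * b * x ^ 2 = a * b * (b * z ^ 2 - x ^ 2) := by ring
        rw [e]
        exact mul_ne_zero (mul_ne_zero ha hb) h5
    · refine key 0 (a * z) y (by ring) ?_
      have e : a * 0 ^ 2 + b * (a * z) ^ 2 - a * b * y ^ 2 = a * b * (a * z ^ 2 - y ^ 2) := by ring
      rw [e]
      exact mul_ne_zero (mul_ne_zero ha hb) h4
  · refine key (b * y) (-(a * x)) 0 (by ring) ?_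
    have e : a * (b * y) ^ 2 + b * (-(a * x)) ^ 2 - a * b * 0 ^ 2 =
        a * b * (b * y ^ 2 + a * x ^ 2) := by ring
    rw [e]
    exact mul_ne_zero (mul_ne_zero ha hb) h3

/-- The elements of `ℍ[F,a,b]` with square in `F`. -/
theorem value_or_of_sq (h2 : (2 : F) ≠ 0) {c : F} {q : ℍ[F,a,b]} (hq : q * q = algebraMap F _ c) :
    (c = a * q.imI ^ 2 + b * q.imJ ^ 2 - a * b * q.imK ^ 2 ∧ q.re = 0) ∨
      q = algebraMap F _ q.re ∧ c = q.re ^ 2 := by
  rw [QuaternionAlgebra.algebraMap_eq] at hq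
  have hre := congrArg QuaternionAlgebra.re hq
  have hi := congrArg QuaternionAlgebra.imI hq
  have hj := congrArg QuaternionAlgebra.imJ hq
  have hk := congrArg QuaternionAlgebra.imK hq
  simp at hre hi hj hk
  by_cases hr : q.re = 0
  · left
    rw [hr] at hre
    exact ⟨by linear_combination -hre, hr⟩
  · right
    have h1 : q.imI = 0 := by
      have : 2 * q.re * q.imI = 0 := by linear_combination hi
      simpa [h2, hr] using this
    have h3 : q.imJ = 0 := by
      have : 2 * q.re * q.imJ = 0 := by linear_combination hj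
      simpa [h2, hr] using this
    have h4 : q.imK = 0 := by
      have : 2 * q.re * q.imK = 0 := by linear_combination hk
      simpa [h2, hr] using this
    rw [h1, h3, h4] at hre
    refine ⟨?_, by linear_combination -hre⟩
    rw [QuaternionAlgebra.algebraMap_eq]
    ext
    · rfl
    · exact h1
    · exact h3
    · exact h4

/-- The pure quaternions of a split quaternion algebra represent everything. -/
theorem value_of_split (h2 : (2 : F) ≠ 0) (h : Nonempty (ℍ[F,a,b] ≃ₐ[F] Matrix (Fin 2) (Fin 2) F))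
    (c : F) : ∃ x y z : F, c = a * x ^ 2 + b * y ^ 2 - a * b * z ^ 2 := by
  obtain ⟨e⟩ := h
  obtain ⟨q, hq⟩ := e.surjective !![0, c; 1, 0]
  have h1 : q * q = algebraMap F _ c := by
    apply e.injective
    rw [map_mul, hq, AlgEquiv.commutes]
    ext i j
    fin_cases i <;> fin_cases j <;> simp [Matrix.mul_apply, Matrix.algebraMap_matrix_apply]
  rcases value_or_of_sq h2 h1 with h | h
  · exact ⟨_, _, _, h.1⟩
  · exfalso
    rw [h.1, AlgEquiv.commutes] at hq
    have := congrFun (congrFun hq 1) 0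
    simp [Matrix.algebraMap_matrix_apply] at this

/-- A solution of `a x ^ 2 + b y ^ 2 = z ^ 2` from an isotropic pure quaternion. -/
theorem split_of_pure (h2 : (2 : F) ≠ 0) (ha : a ≠ 0) (hb : b ≠ 0) {x y z : F}
    (h0 : ¬ (x = 0 ∧ y = 0 ∧ z = 0)) (h : a * x ^ 2 + b * y ^ 2 - a * b * z ^ 2 = 0) :
    Nonempty (ℍ[F,a,b] ≃ₐ[F] Matrix (Fin 2) (Fin 2) F) :=
  (mat_iff h2 ha hb).mpr (sol_of_norm_zero (r := 0) (x := x) (y := y) (z := z)
    (fun h' => h0 h'.2) (by linear_combination -h))

/-- `c` is the square of an element of `ℍ[F,a,b]` iff it is a square in `F` or a value of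
`a x ^ 2 + b y ^ 2 - a b z ^ 2`. -/
theorem exists_sq_iff (h2 : (2 : F) ≠ 0) {c : F} :
    (∃ q : ℍ[F,a,b], q * q = algebraMap F _ c) ↔
      IsSquare c ∨ ∃ x y z : F, c = a * x ^ 2 + b * y ^ 2 - a * b * z ^ 2 := by
  constructor
  · rintro ⟨q, hq⟩
    rcases value_or_of_sq h2 hq with h | h
    · exact Or.inr ⟨_, _, _, h.1⟩
    · exact Or.inl ⟨q.re, by rw [h.2, sq]⟩
  · rintro (⟨r, rfl⟩ | ⟨x, y, z, h⟩)
    · exact ⟨algebraMap F _ r, (map_mul _ _ _).symm⟩
    · refine ⟨⟨0, x, y, z⟩, ?_⟩
      rw [QuaternionAlgebra.algebraMap_eq]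
      ext <;> simp <;> first | ring1 | linear_combination -h

/-- Base change of isomorphisms. -/
theorem equiv_baseChange {c d : F} (h2 : (2 : F) ≠ 0) (hc : c ≠ 0) (hd : d ≠ 0)
    (h : Nonempty (ℍ[F,c,d] ≃ₐ[F] ℍ[F,a,b])) (E : Type*) [Field E] [Algebra F E] :
    Nonempty (ℍ[E,algebraMap F E c,algebraMap F E d] ≃ₐ[E]
      ℍ[E,algebraMap F E a,algebraMap F E b]) := by
  obtain ⟨e⟩ := h
  have hE : (2 : E) ≠ 0 := by
    rw [← map_ofNat (algebraMap F E) 2]
    exact (map_ne_zero _).mpr h2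
  let f : ℍ[F,a,b] →ₐ[F] ℍ[E,algebraMap F E a,algebraMap F E b] :=
    (mkBasis (F := F) (a := a) (b := b) (A := ℍ[E,algebraMap F E a,algebraMap F E b])
      ⟨0, 1, 0, 0⟩ ⟨0, 0, 1, 0⟩ (by
        rw [IsScalarTower.algebraMap_apply F E ℍ[E,algebraMap F E a,algebraMap F E b],
          QuaternionAlgebra.algebraMap_eq]
        ext <;> simp) (by
        rw [IsScalarTower.algebraMap_apply F E ℍ[E,algebraMap F E a,algebraMap F E b],
          QuaternionAlgebra.algebraMap_eq]
        ext <;> simp) (by ext <;> simp)).liftHom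
  have key : ∀ (x : ℍ[F,c,d]) (r : F), x * x = algebraMap F _ r →
      f (e x) * f (e x) = algebraMap E _ (algebraMap F E r) := by
    intro x r hx
    rw [← map_mul, ← map_mul, hx, AlgEquiv.commutes, AlgHom.commutes]
    exact IsScalarTower.algebraMap_apply F E _ r
  refine exists_equiv_of_gen hE ((map_ne_zero _).mpr hc) ((map_ne_zero _).mpr hd)
    (QuaternionAlgebra.finrank_eq_four ..) (f (e ⟨0, 1, 0, 0⟩)) (f (e ⟨0, 0, 1, 0⟩)) ?_ ?_ ?_
  · refine key _ _ ?_
    rw [QuaternionAlgebra.algebraMap_eq]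
    ext <;> simp
  · refine key _ _ ?_
    rw [QuaternionAlgebra.algebraMap_eq]
    ext <;> simp
  · rw [← map_mul, ← map_mul, ← map_mul, ← map_mul, ← map_neg, ← map_neg]
    congr 2
    ext <;> simp

end Change

end Fermat.Agent.Cor.QA
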