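import Mathlib

/-! # Galois theory for the local-global principle of Albert, Brauer, Hasse and Noether

`exists_sylow_field`: a finite Galois extension `L/K` has an intermediate field `M` of degree
prime to `p` over which the degree of `L` is a power of `p`.

`exists_step_field`: a Galois extension `L/K` of degree `p ^ (r + 1)` has an intermediate field
`N` which is Galois of degree `p` over `K`. -/

namespace Fermat.Agent.Cor.QA

open Module IntermediateField

section

variable (K L : Type*) [Field K] [Field L] [Algebra K L] [FiniteDimensional K L] [IsGalois K L]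
  (p : ℕ) [hp : Fact p.Prime]

/-- The fixed field of a Sylow subgroup. -/
theorem exists_sylow_field :
    ∃ M : IntermediateField K L, ¬ p ∣ finrank K M ∧ ∃ r : ℕ, finrank M L = p ^ r := by
  classical
  obtain ⟨P⟩ : Nonempty (Sylow p (L ≃ₐ[K] L)) := inferInstance
  have hc : finrank (fixedField (P : Subgroup (L ≃ₐ[K] L))) L
      = Nat.card (P : Subgroup (L ≃ₐ[K] L)) := finrank_fixedField_eq_card _
  have hm := finrank_mul_finrank K (fixedField (P : Subgroup (L ≃ₐ[K] L))) L
  have hg : Nat.card (L ≃ₐ[K] L) = finrank K L := IsGalois.card_aut_eq_finrank K L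
  have hi := Subgroup.card_mul_index (P : Subgroup (L ≃ₐ[K] L))
  refine ⟨fixedField (P : Subgroup (L ≃ₐ[K] L)), ?_, ?_⟩
  · have hpos : 0 < Nat.card (P : Subgroup (L ≃ₐ[K] L)) := Nat.card_pos
    have h : finrank K (fixedField (P : Subgroup (L ≃ₐ[K] L)))
        = (P : Subgroup (L ≃ₐ[K] L)).index := by
      rw [hc, ← hg, ← hi, mul_comm] at hm
      exact Nat.eq_of_mul_eq_mul_left hpos hm
    rw [h]
    exact P.not_dvd_index
  · obtain ⟨r, hr⟩ := IsPGroup.iff_card.mp P.2
    exact ⟨r, by rw [hc]; exact hr⟩

/-- The first step of a tower of a Galois extension of degree a power of `p`. -/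
theorem exists_step_field {r : ℕ} (h : finrank K L = p ^ (r + 1)) :
    ∃ N : IntermediateField K L, IsGalois K N ∧ finrank K N = p ∧ finrank N L = p ^ r := by
  classical
  have hg : Nat.card (L ≃ₐ[K] L) = p ^ (r + 1) := by
    rw [IsGalois.card_aut_eq_finrank K L, h]
  obtain ⟨H, hH⟩ := Sylow.exists_subgroup_card_pow_prime (G := L ≃ₐ[K] L) p (n := r)
    (by rw [hg]; exact pow_dvd_pow p (Nat.le_succ r))
  have hpos : 0 < p ^ r := pow_pos hp.out.pos r
  have hidx : H.index = p := by
    have := Subgroup.card_mul_index H
    rw [hH, hg, pow_succ] at this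
    exact Nat.eq_of_mul_eq_mul_left hpos this
  have hn : H.Normal := by
    refine Subgroup.normal_of_index_eq_minFac_card ?_
    rw [hidx, hg, Nat.pow_minFac (Nat.succ_ne_zero r), hp.out.minFac_eq]
  have hc : finrank (fixedField H) L = p ^ r := by
    rw [finrank_fixedField_eq_card, hH]
  refine ⟨fixedField H, IsGalois.of_fixedField_normal_subgroup H, ?_, hc⟩
  have hm := finrank_mul_finrank K (fixedField H) L
  rw [hc, h, pow_succ, mul_comm] at hm
  exact Nat.eq_of_mul_eq_mul_left hpos hm

end

end Fermat.Agent.Cor.QA
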