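import Fermat.Agent.Corollaries.QA.Azumaya
import Mathlib.RingTheory.SimpleModule.Isotypic
import Mathlib.RingTheory.SimpleModule.WedderburnArtin
import Mathlib.LinearAlgebra.FiniteDimensional.Lemmas
import Mathlib.Algebra.Central.Matrix
import Mathlib.RingTheory.SimpleRing.Matrix

/-!
# The theorem of Skolem and Noether

* `exists_linearEquiv_of_finrank_eq`: two modules of the same finite dimension over a simple
  finite-dimensional algebra are isomorphic;
* `skolem_noether`: two homomorphisms `f, g : B → A` from a simple algebra to a finite-dimensional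
  central simple algebra over a field are conjugate: `g b = u * f b * u⁻¹`;
* `exists_conj_of_algEquiv`: every automorphism of a central simple algebra is inner;
  `exists_conj_of_subalgebra`: isomorphic simple subalgebras are conjugate.
-/

set_option autoImplicit false

open TensorProduct MulOpposite

namespace Fermat.Agent.Cor.QA

universe u v w

section Modules

/-- **Modules over a simple algebra are determined by their dimension.** -/
theorem exists_linearEquiv_of_finrank_eq {K R M N : Type*} [Field K] [Ring R] [Algebra K R]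
    [IsSimpleRing R] [IsArtinianRing R] [AddCommGroup M] [Module R M] [Module K M]
    [IsScalarTower K R M] [FiniteDimensional K M] [AddCommGroup N] [Module R N] [Module K N]
    [IsScalarTower K R N] [FiniteDimensional K N]
    (h : Module.finrank K M = Module.finrank K N) : Nonempty (M ≃ₗ[R] N) := by
  have hfM : Module.Finite R M := Module.Finite.of_restrictScalars_finite K R M
  have hfN : Module.Finite R N := Module.Finite.of_restrictScalars_finite K R N
  by_cases hM : Nontrivial M
  swap
  · rw [not_nontrivial_iff_subsingleton] at hM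
    have hN : Subsingleton N := by
      rw [← Module.finrank_zero_iff (R := K), ← h, Module.finrank_zero_iff]
      exact hM
    exact ⟨0, 0, fun _ => Subsingleton.elim _ _, fun _ => Subsingleton.elim _ _⟩
  have hN : Nontrivial N := by
    rw [← Module.finrank_pos_iff (R := K), ← h, Module.finrank_pos_iff]
    exact hM
  obtain ⟨p, hp, S, hS, ⟨e⟩⟩ := (IsSimpleRing.isIsotypic R M).linearEquiv_fun
  obtain ⟨q, hq, T, hT, ⟨f⟩⟩ := (IsSimpleRing.isIsotypic R N).linearEquiv_fun
  have hfS : Module.Finite K S :=
    Module.Finite.of_injective (S.subtype.restrictScalars K) Subtype.val_injective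
  have hfT : Module.Finite K T :=
    Module.Finite.of_injective (T.subtype.restrictScalars K) Subtype.val_injective
  -- the simple modules `S` and `T` are isomorphic
  obtain ⟨g⟩ : Nonempty (T ≃ₗ[R] S) := by
    let eS := Submodule.equivMapOfInjective (LinearMap.inl R M N) LinearMap.inl_injective S
    let eT := Submodule.equivMapOfInjective (LinearMap.inr R M N) LinearMap.inr_injective T
    have h1 : IsSimpleModule R (S.map (LinearMap.inl R M N)) := IsSimpleModule.congr eS.symm
    have h2 : IsSimpleModule R (T.map (LinearMap.inr R M N)) := IsSimpleModule.congr eT.symm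
    obtain ⟨g⟩ := (IsSimpleRing.isIsotypic R (M × N)) (S.map (LinearMap.inl R M N))
      (T.map (LinearMap.inr R M N))
    exact ⟨(eT.trans g).trans eS.symm⟩
  have h1 : Module.finrank K M = p * Module.finrank K S := by
    rw [(e.restrictScalars K).finrank_eq, Module.finrank_pi_fintype]
    simp
  have h2 : Module.finrank K N = q * Module.finrank K S := by
    rw [(f.restrictScalars K).finrank_eq, Module.finrank_pi_fintype]
    simp [(g.restrictScalars K).finrank_eq]
  have hpos : 0 < Module.finrank K S := by
    have := IsSimpleModule.nontrivial R S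
    exact Module.finrank_pos
  obtain rfl : p = q := Nat.eq_of_mul_eq_mul_right hpos (h1.symm.trans (h.trans h2))
  exact ⟨e.trans ((LinearEquiv.piCongrRight fun _ => g.symm).trans f.symm)⟩

end Modules

section Bimodule

variable {K : Type u} [Field K] {A : Type v} [Ring A] [Algebra K A] {B : Type w} [Ring B]
  [Algebra K B]

/-- The action `(b ⊗ a) • x = f b * x * a`. -/
noncomputable def bimodHom (f : B →ₐ[K] A) : B ⊗[K] Aᵐᵒᵖ →ₐ[K] Module.End K A :=
  (AlgHom.mulLeftRight K A).comp (Algebra.TensorProduct.map f (AlgHom.id K Aᵐᵒᵖ))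

theorem bimodHom_tmul (f : B →ₐ[K] A) (b : B) (a x : A) :
    bimodHom f (b ⊗ₜ op a) x = f b * x * a := by
  simp [bimodHom]

/-- The algebra `A` as a `B`-`A` bimodule via `f`. -/
def Bimod (_ : B →ₐ[K] A) : Type v := A

variable (f : B →ₐ[K] A)

instance : AddCommGroup (Bimod f) := inferInstanceAs (AddCommGroup A)

instance : Module K (Bimod f) := inferInstanceAs (Module K A)

noncomputable instance : Module (B ⊗[K] Aᵐᵒᵖ) (Bimod f) :=
  Module.compHom A (bimodHom f).toRingHom

theorem bimod_smul_def (r : B ⊗[K] Aᵐᵒᵖ) (x : Bimod f) : r • x = (bimodHom f r : A →ₗ[K] A) x :=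
  rfl

instance : IsScalarTower K (B ⊗[K] Aᵐᵒᵖ) (Bimod f) where
  smul_assoc c r x := by
    rw [bimod_smul_def, bimod_smul_def, map_smul]
    rfl

instance [FiniteDimensional K A] : FiniteDimensional K (Bimod f) :=
  inferInstanceAs (Module.Finite K A)

end Bimodule

section Main

variable {K : Type u} [Field K] {A : Type v} [Ring A] [Algebra K A] {B : Type w} [Ring B]
  [Algebra K B]

/-- **The theorem of Skolem and Noether.** Two homomorphisms from a simple algebra of finite
dimension to a finite-dimensional central simple algebra over the field `K` are conjugate. -/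
theorem skolem_noether [Algebra.IsCentral K A] [IsSimpleRing A] [FiniteDimensional K A]
    [IsSimpleRing B] (f g : B →ₐ[K] A) : ∃ u : Aˣ, ∀ b : B, g b = u * f b * ↑u⁻¹ := by
  have hB : FiniteDimensional K B :=
    FiniteDimensional.of_injective f.toLinearMap (RingHom.injective (f : B →+* A))
  have h1 : IsSimpleRing (Aᵐᵒᵖ ⊗[K] B) := isSimpleRing_tensor B
  have h2 : IsSimpleRing (B ⊗[K] Aᵐᵒᵖ) :=
    IsSimpleRing.of_ringEquiv (Algebra.TensorProduct.comm K Aᵐᵒᵖ B).toRingEquiv h1
  have h3 : IsArtinianRing (B ⊗[K] Aᵐᵒᵖ) := IsArtinianRing.of_finite K _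
  have hdim : Module.finrank K (Bimod f) = Module.finrank K (Bimod g) := rfl
  obtain ⟨e⟩ := exists_linearEquiv_of_finrank_eq (R := B ⊗[K] Aᵐᵒᵖ) hdim
  -- the underlying map
  have key : ∀ (f g : B →ₐ[K] A) (φ : Bimod f →ₗ[B ⊗[K] Aᵐᵒᵖ] Bimod g) (F : A → A),
      (F = fun x => φ x) → ∀ (b : B) (x a : A), F (f b * x * a) = g b * F x * a := by
    intro f g φ F hF b x a
    have h := φ.map_smul (b ⊗ₜ op a) x
    rw [bimod_smul_def, bimod_smul_def, bimodHom_tmul, bimodHom_tmul] at h
    rw [hF]
    exact h
  let φ : A → A := fun x => e x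
  let ψ : A → A := fun x => e.symm x
  have hφ : ∀ (b : B) (x a : A), φ (f b * x * a) = g b * φ x * a := key f g e.toLinearMap φ rfl
  have hψ : ∀ (b : B) (x a : A), ψ (g b * x * a) = f b * ψ x * a :=
    key g f e.symm.toLinearMap ψ rfl
  have h4 : ∀ a, φ a = φ 1 * a := fun a => by simpa using hφ 1 1 a
  have h5 : ∀ a, ψ a = ψ 1 * a := fun a => by simpa using hψ 1 1 a
  have h6 : φ 1 * ψ 1 = 1 := by
    rw [← h4]
    exact e.apply_symm_apply (1 : A)
  have h7 : ψ 1 * φ 1 = 1 := by
    rw [← h5]
    exact e.symm_apply_apply (1 : A)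
  refine ⟨⟨φ 1, ψ 1, h6, h7⟩, fun b => ?_⟩
  change g b = φ 1 * f b * ψ 1
  have h8 : φ 1 * f b = g b * φ 1 := by
    rw [← h4]
    simpa using hφ b 1 1
  rw [h8, mul_assoc, h6, mul_one]

/-- **Every automorphism of a central simple algebra is inner.** -/
theorem exists_conj_of_algEquiv [Algebra.IsCentral K A] [IsSimpleRing A] [FiniteDimensional K A]
    (σ : A ≃ₐ[K] A) : ∃ u : Aˣ, ∀ x : A, σ x = u * x * ↑u⁻¹ :=
  skolem_noether (AlgHom.id K A) (σ : A →ₐ[K] A)

/-- Two isomorphic simple subalgebras of a central simple algebra are conjugate. -/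
theorem exists_conj_of_subalgebra [Algebra.IsCentral K A] [IsSimpleRing A]
    [FiniteDimensional K A] (S T : Subalgebra K A) [IsSimpleRing S] (e : S ≃ₐ[K] T) :
    ∃ u : Aˣ, ∀ x : S, (e x : A) = u * x * ↑u⁻¹ :=
  skolem_noether S.val (T.val.comp (e : S →ₐ[K] T))

/-- The automorphisms of the matrix algebra `Mₙ(K)`, `n ≠ 0`, are the conjugations. -/
theorem exists_conj_of_matrix {n : ℕ} (hn : n ≠ 0)
    (σ : Matrix (Fin n) (Fin n) K ≃ₐ[K] Matrix (Fin n) (Fin n) K) :
    ∃ u : (Matrix (Fin n) (Fin n) K)ˣ, ∀ x : Matrix (Fin n) (Fin n) K,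
      σ x = (u : Matrix (Fin n) (Fin n) K) * x * (↑u⁻¹ : Matrix (Fin n) (Fin n) K) :=
  have : NeZero n := ⟨hn⟩
  exists_conj_of_algEquiv σ

end Main

end Fermat.Agent.Cor.QA
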