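import Fermat.Agent.Corollaries.QA.BrauerRes
import Fermat.Agent.Corollaries.QA.SkolemNoether

/-!
# Splitting fields of division algebras

`K` is a field, `D` a finite-dimensional central division algebra over `K`, `dim D = n ^ 2`.

* `exists_split_of_selfCentralizing`: a subfield of `D` which is its own centralizer splits `D`;
* `exists_maximal_subfield`: such a subfield exists;
* `exists_finite_splitting`: every class in the Brauer group is split by a finite extension;
* `degree_dvd_of_split`: the degree `n` divides the degree of every finite splitting field.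
-/

set_option autoImplicit false

open Quaternion TensorProduct MulOpposite

namespace Fermat.Agent.Cor.QA

universe u v

section Centralizer

variable {K : Type u} [Field K]

/-- **A self-centralizing subfield splits a division algebra.** -/
theorem exists_split_of_selfCentralizing {L : Type u} [Field L] [Algebra K L] {D : Type u} [Ring D]
    [Algebra K D] [Algebra.IsCentral K D] [IsSimpleRing D] [FiniteDimensional K D]
    (hD : ∀ x : D, x ≠ 0 → IsUnit x) (f : L →ₐ[K] D)
    (hf : ∀ x : D, (∀ l : L, f l * x = x * f l) → x ∈ f.range) :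
    ∃ m : ℕ, m ≠ 0 ∧ Nonempty (L ⊗[K] Dᵐᵒᵖ ≃ₐ[L] Matrix (Fin m) (Fin m) L) := by
  classical
  let _ : Module L D := Module.compHom D f.toRingHom
  have hL : ∀ (l : L) (x : D), l • x = f l * x := fun l x => rfl
  have hT : IsScalarTower K L D := ⟨fun c l x => by
    rw [hL, hL, map_smul, smul_mul_assoc]⟩
  have hfin : FiniteDimensional L D := Module.Finite.of_restrictScalars_finite K L D
  -- the right multiplications
  let r : Dᵐᵒᵖ →ₐ[K] Module.End L D :=
    { toFun := fun d =>
        { toFun := fun x => x * d.unop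
          map_add' := fun x y => add_mul x y _
          map_smul' := fun l x => by rw [hL, hL, mul_assoc]; rfl }
      map_one' := by ext x; simp
      map_mul' := fun d d' => by
        ext x
        simp [mul_assoc]
      map_zero' := by ext x; simp
      map_add' := fun d d' => by
        ext x
        simp [mul_add]
      commutes' := fun c => by
        ext x
        change x * algebraMap K D c = algebraMap K (Module.End L D) c x
        rw [Module.algebraMap_end_apply, ← Algebra.commutes, Algebra.smul_def] }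
  have hr : ∀ (d : Dᵐᵒᵖ) (x : D), r d x = x * d.unop := fun d x => rfl
  let ρ : L ⊗[K] Dᵐᵒᵖ →ₐ[L] Module.End L D :=
    Algebra.TensorProduct.lift (Algebra.ofId L _) r (fun l d => Algebra.commutes l _)
  have hρ : ∀ (l : L) (d : Dᵐᵒᵖ) (x : D), ρ (l ⊗ₜ d) x = f l * x * d.unop := by
    intro l d x
    simp only [ρ, Algebra.TensorProduct.lift_tmul, Module.End.mul_apply, hr]
    change l • (x * d.unop) = _
    rw [hL, mul_assoc]
  let _ : Module (L ⊗[K] Dᵐᵒᵖ) D := Module.compHom D ρ.toRingHom
  have hR : ∀ (s : L ⊗[K] Dᵐᵒᵖ) (x : D), s • x = ρ s x := fun s x => rfl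
  have hsimple : IsSimpleModule (L ⊗[K] Dᵐᵒᵖ) D := by
    rw [isSimpleModule_iff]
    refine ⟨fun N => ?_⟩
    by_cases hN : ∃ x ∈ N, x ≠ 0
    · right
      obtain ⟨x, hx, hx0⟩ := hN
      obtain ⟨w, rfl⟩ := hD x hx0
      rw [eq_top_iff]
      intro y _
      have h := N.smul_mem (1 ⊗ₜ[K] op (↑w⁻¹ * y)) hx
      rw [hR, hρ, map_one, one_mul, unop_op, ← mul_assoc, w.mul_inv, one_mul] at h
      exact h
    · left
      push Not at hN
      rw [eq_bot_iff]
      intro y hy
      rw [hN y hy]
      exact Submodule.zero_mem _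
  have hend : ∀ φ : Module.End (L ⊗[K] Dᵐᵒᵖ) D, ∃ c : L, ∀ x : D, φ x = c • x := by
    intro φ
    have h1 : ∀ x : D, φ x = φ 1 * x := by
      intro x
      have h := φ.map_smul (1 ⊗ₜ[K] op x) 1
      rw [hR, hR, hρ, hρ] at h
      simpa using h
    have h2 : ∀ l : L, φ (f l) = f l * φ 1 := by
      intro l
      have h := φ.map_smul (l ⊗ₜ[K] op 1) 1
      rw [hR, hR, hρ, hρ] at h
      simpa using h
    obtain ⟨c, hc⟩ := hf (φ 1) fun l => by rw [← h2, ← h1]
    exact ⟨c, fun x => by rw [h1, ← hc, hL]; rfl⟩
  have hsurj : Function.Surjective ρ := by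
    intro g
    let g' : Module.End (Module.End (L ⊗[K] Dᵐᵒᵖ) D) D :=
      { toFun := g
        map_add' := g.map_add
        map_smul' := by
          intro φ x
          obtain ⟨c, hc⟩ := hend φ
          rw [Module.End.smul_def, Module.End.smul_def, hc, RingHom.id_apply, hc, g.map_smul] }
    let b := Module.finBasis L D
    obtain ⟨s, hs⟩ := jacobson_density g' (Finset.univ.image b)
    refine ⟨s, b.ext fun i => ?_⟩
    have h := hs (b i) (Finset.mem_image_of_mem b (Finset.mem_univ i))
    rw [← hR, ← h]
    rfl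
  have hRs : IsSimpleRing (L ⊗[K] Dᵐᵒᵖ) := isSimpleRing_baseChange L Dᵐᵒᵖ
  have hinj : Function.Injective ρ := RingHom.injective (ρ : L ⊗[K] Dᵐᵒᵖ →+* Module.End L D)
  exact ⟨Module.finrank L D, (Module.finrank_pos (R := L) (M := D)).ne',
    ⟨(AlgEquiv.ofBijective ρ ⟨hinj, hsurj⟩).trans (algEquivMatrix (Module.finBasis L D))⟩⟩

/-- A commutative subalgebra of maximal dimension is its own centralizer. -/
theorem exists_maximal_commutative {D : Type u} [Ring D] [Algebra K D] [FiniteDimensional K D] :
    ∃ M : Subalgebra K D, (∀ x ∈ M, ∀ y ∈ M, x * y = y * x) ∧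
      ∀ x : D, (∀ y ∈ M, y * x = x * y) → x ∈ M := by
  classical
  let S := {M : Subalgebra K D // ∀ x ∈ M, ∀ y ∈ M, x * y = y * x}
  have hne : (Set.univ : Set S).Nonempty := by
    refine ⟨⟨⊥, fun x hx y hy => ?_⟩, Set.mem_univ _⟩
    obtain ⟨c, rfl⟩ := Algebra.mem_bot.mp hx
    exact Algebra.commutes c y
  obtain ⟨⟨M, hM⟩, -, hmax⟩ := (measure fun M : S =>
    Module.finrank K D - Module.finrank K M.1).wf.has_min Set.univ hne
  refine ⟨M, hM, fun x hx => ?_⟩
  have hcomm : ∀ a ∈ (M : Set D) ∪ {x}, ∀ b ∈ (M : Set D) ∪ {x}, a * b = b * a := by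
    rintro a (ha | ha) b (hb | hb)
    · exact hM a ha b hb
    · rw [Set.mem_singleton_iff.mp hb]
      exact hx a ha
    · rw [Set.mem_singleton_iff.mp ha]
      exact (hx b hb).symm
    · rw [Set.mem_singleton_iff.mp ha, Set.mem_singleton_iff.mp hb]
  let N : Subalgebra K D := Algebra.adjoin K ((M : Set D) ∪ {x})
  have hN : ∀ a ∈ N, ∀ b ∈ N, a * b = b * a := by
    intro a ha b hb
    have h0 := Algebra.isMulCommutative_adjoin K hcomm
    exact congrArg Subtype.val (h0.is_comm.comm (⟨a, ha⟩ : N) ⟨b, hb⟩)
  have hMN : M ≤ N := fun y hy => Algebra.subset_adjoin (Or.inl hy)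
  have h1 := hmax ⟨N, hN⟩ (Set.mem_univ _)
  have h2 : Module.finrank K N ≤ Module.finrank K M := by
    by_contra hlt
    push Not at hlt
    apply h1
    have h3 : Module.finrank K N ≤ Module.finrank K D := Submodule.finrank_le N.toSubmodule
    change Module.finrank K D - Module.finrank K N < Module.finrank K D - Module.finrank K M
    omega
  have h3 : Subalgebra.toSubmodule M = Subalgebra.toSubmodule N :=
    Submodule.eq_of_le_of_finrank_le hMN h2
  have h4 : x ∈ Subalgebra.toSubmodule N := Algebra.subset_adjoin (Or.inr rfl)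
  rw [← h3] at h4
  exact h4

/-- **A division algebra has a maximal subfield**, which is its own centralizer. -/
theorem exists_maximal_subfield {D : Type u} [Ring D] [Nontrivial D] [Algebra K D]
    [FiniteDimensional K D] (hD : ∀ x : D, x ≠ 0 → IsUnit x) :
    ∃ (L : Type u) (_ : Field L) (_ : Algebra K L) (_ : FiniteDimensional K L) (f : L →ₐ[K] D),
      ∀ x : D, (∀ l : L, f l * x = x * f l) → x ∈ f.range := by
  obtain ⟨M, hM, hmax⟩ := exists_maximal_commutative (K := K) (D := D)
  have hfield : IsField M := by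
    refine ⟨⟨0, 1, zero_ne_one⟩, fun x y => Subtype.ext (hM x x.2 y y.2), fun {x} hx => ?_⟩
    obtain ⟨w, hw⟩ := hD (x : D) (fun h => hx (Subtype.ext h))
    have h1 : (↑w⁻¹ : D) ∈ M := by
      apply hmax
      intro y hy
      have h2 : Commute y (w : D) := by rw [hw]; exact hM y hy x x.2
      exact h2.units_inv_right.eq
    exact ⟨⟨_, h1⟩, Subtype.ext (by
      change (x : D) * ↑w⁻¹ = 1
      rw [← hw, w.mul_inv])⟩
  let _ : Field M := hfield.toField
  refine ⟨M, inferInstance, inferInstanceAs (Algebra K M),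
    inferInstanceAs (Module.Finite K M.toSubmodule), M.val, fun x hx => ?_⟩
  exact ⟨⟨x, hmax x fun y hy => hx ⟨y, hy⟩⟩, rfl⟩

end Centralizer

section Index

variable {K : Type u} [Field K]

/-- The action of a split algebra: if `L ⊗ D ≃ M_k(L)` for a division algebra `D`, then
`dim D = k ^ 2` and `k` divides `[L : K]`. -/
theorem dvd_of_split {L : Type u} [Field L] [Algebra K L] [FiniteDimensional K L] {D : Type u}
    [DivisionRing D] [Algebra K D] [FiniteDimensional K D] {k : ℕ} (hk : k ≠ 0)
    (e : L ⊗[K] D ≃ₐ[L] Matrix (Fin k) (Fin k) L) :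
    Module.finrank K D = k ^ 2 ∧ k ∣ Module.finrank K L := by
  have h1 : Module.finrank K D = k ^ 2 := by
    have h := e.toLinearEquiv.finrank_eq
    rw [Module.finrank_baseChange, Module.finrank_matrix, Fintype.card_fin, Module.finrank_self,
      mul_one] at h
    rw [h, pow_two]
  refine ⟨h1, ?_⟩
  let ρ : D →+* Module.End L (Fin k → L) :=
    ((Matrix.toLinAlgEquiv' : Matrix (Fin k) (Fin k) L ≃ₐ[L] _).toAlgHom.comp
      e.toAlgHom).toRingHom.comp (Algebra.TensorProduct.includeRight : D →ₐ[K] L ⊗[K] D).toRingHom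
  let _ : Module D (Fin k → L) := Module.compHom (Fin k → L) ρ
  have hsm : ∀ (d : D) (x : Fin k → L), d • x = ρ d x := fun d x => rfl
  have hT : IsScalarTower K D (Fin k → L) := ⟨fun c d x => by
    rw [hsm, hsm]
    have h2 : ρ (c • d) = c • ρ d := by
      change Matrix.toLinAlgEquiv' (e (1 ⊗ₜ (c • d))) = c • Matrix.toLinAlgEquiv' (e (1 ⊗ₜ d))
      rw [TensorProduct.tmul_smul, ← algebraMap_smul L c ((1 : L) ⊗ₜ[K] d), map_smul, map_smul,
        algebraMap_smul]
    rw [h2]
    rfl⟩
  have h3 := Module.finrank_mul_finrank K D (Fin k → L)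
  have h4 := Module.finrank_mul_finrank K L (Fin k → L)
  rw [Module.finrank_fintype_fun_eq_card, Fintype.card_fin] at h4
  rw [← h4, h1, pow_two, mul_assoc, mul_comm (Module.finrank K L)] at h3
  exact ⟨_, (Nat.eq_of_mul_eq_mul_left (Nat.pos_of_ne_zero hk) h3).symm⟩

/-- **The degree of a division algebra divides the degree of every finite splitting field.** -/
theorem degree_dvd_of_split (L : Type u) [Field L] [Algebra K L] [FiniteDimensional K L]
    {D : CSA.{u, u} K} (hD : IsDivision D) (h : brauerRes K L (brauerMk D) = 1) {n : ℕ}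
    (hn : Module.finrank K D = n ^ 2) : n ∣ Module.finrank K L := by
  obtain ⟨k, hk, ⟨e⟩⟩ := (brauerRes_eq_one_iff L D).mp h
  let _ : DivisionRing D := DivisionRing.ofIsUnitOrEqZero fun x => by
    by_cases hx : x = 0
    · exact Or.inr hx
    · exact Or.inl (hD x hx)
  obtain ⟨h1, h2⟩ := dvd_of_split (K := K) (D := D) hk e
  have h3 : n = k := Nat.pow_left_injective (n := 2) two_ne_zero (hn.symm.trans h1)
  rwa [h3]

/-- **Every class in the Brauer group is split by a finite extension.** -/
theorem exists_finite_splitting (x : BrauerGroup.{u, u} K) :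
    ∃ (L : Type u) (_ : Field L) (_ : Algebra K L), FiniteDimensional K L ∧
      brauerRes K L x = 1 := by
  obtain ⟨D, hD, rfl⟩ := exists_division x
  obtain ⟨L, _, _, hL, f, hf⟩ := exists_maximal_subfield (K := K) hD
  obtain ⟨m, hm, ⟨e⟩⟩ := exists_split_of_selfCentralizing hD f hf
  refine ⟨L, inferInstance, inferInstance, hL, ?_⟩
  have h1 : brauerRes K L (brauerMk (opCSA D)) = 1 :=
    (brauerRes_eq_one_iff L (opCSA D)).mpr ⟨m, hm, ⟨e⟩⟩
  rw [← brauerMk_inv, map_inv, inv_eq_one] at h1
  exact h1

/-- **Every class in the Brauer group of a field of characteristic zero is split by a finite Galois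
extension.** -/
theorem exists_galois_splitting [CharZero K] (x : BrauerGroup.{u, u} K) :
    ∃ (L : Type u) (_ : Field L) (_ : Algebra K L), FiniteDimensional K L ∧ IsGalois K L ∧
      brauerRes K L x = 1 := by
  obtain ⟨L, _, _, hL, hx⟩ := exists_finite_splitting x
  let N := IntermediateField.normalClosure K L (AlgebraicClosure L)
  have hfin : FiniteDimensional K N := inferInstance
  have hnor : Normal K N := inferInstance
  refine ⟨N, inferInstance, inferInstance, hfin, ⟨⟩, ?_⟩
  rw [← brauerRes_comp (K := K) L N, MonoidHom.comp_apply, hx, map_one]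

end Index

end Fermat.Agent.Cor.QA
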