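import Fermat.Agent.Corollaries.QA.LocTriv
import Fermat.Agent.Corollaries.QA.Split
import Fermat.Agent.Corollaries.QA.GalTower

/-!
# The theorem of Albert, Brauer, Hasse and Noether

A central simple algebra over a number field which is split over all completions is split.
-/

set_option autoImplicit false

namespace Fermat.Agent.Cor.QA

open NumberField IsDedekindDomain

/-- The statement for cyclic extensions of prime degree. -/
def PrimeStmt : Prop :=
  ∀ (K N : Type) [Field K] [NumberField K] [Field N] [NumberField N] [Algebra K N] [IsGalois K N]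
    (p : ℕ) [Fact p.Prime], Module.finrank K N = p → ∀ x : BrauerGroup.{0, 0} K,
      LocTrivial K x → brauerRes K N x = 1 → x = 1

/-- A class which becomes trivial over an extension of degree `1` is trivial. -/
theorem eq_one_of_finrank_eq_one {K L : Type} [Field K] [Field L] [Algebra K L]
    (h : Module.finrank K L = 1) {x : BrauerGroup.{0, 0} K} (hx : brauerRes K L x = 1) : x = 1 := by
  let e : K ≃ₐ[K] L := AlgEquiv.ofBijective (Algebra.ofId K L)
    (Algebra.finrank_eq_one_iff_bijective_algebraMap.mp h)
  have h1 := brauerRes_eq_one_of_hom (e.symm : L →ₐ[K] K) hx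
  rw [brauerRes_self] at h1
  exact h1

/-- **Extensions of prime power degree.** -/
theorem eq_one_of_prime_pow (H : PrimeStmt) (p : ℕ) [Fact p.Prime] (r : ℕ) :
    ∀ (K L : Type) [Field K] [NumberField K] [Field L] [NumberField L] [Algebra K L]
      [IsGalois K L], Module.finrank K L = p ^ r → ∀ x : BrauerGroup.{0, 0} K,
        LocTrivial K x → brauerRes K L x = 1 → x = 1 := by
  induction r with
  | zero =>
    intro K L _ _ _ _ _ _ h x _ hL
    rw [pow_zero] at h
    exact eq_one_of_finrank_eq_one h hL
  | succ r ih =>
    intro K L _ _ _ _ _ _ h x hx hL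
    have : FiniteDimensional K L := Module.finite_of_finrank_pos (by
      rw [h]; exact pow_pos (Fact.out (p := p.Prime)).pos _)
    obtain ⟨N, hN, hNp, hNr⟩ := exists_step_field K L p h
    have hNnf : NumberField N := NumberField.of_module_finite K N
    have h1 := DFunLike.congr_fun (brauerRes_comp (K := K) N L) x
    rw [MonoidHom.comp_apply] at h1
    have h2 : brauerRes K N x = 1 :=
      ih N L hNr (brauerRes K N x) hx.res (h1.trans hL)
    exact H K N p hNp x hx h2

theorem eq_one_of_finrank_division {K : Type} [Field K] {D : CSA.{0, 0} K}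
    (h : Module.finrank K D = 1) : brauerMk D = 1 := by
  rw [brauerMk_eq_one_iff]
  let e : K ≃ₐ[K] D := AlgEquiv.ofBijective (Algebra.ofId K D)
    (Algebra.finrank_eq_one_iff_bijective_algebraMap.mp h)
  obtain ⟨g⟩ := exists_equiv_matrix_one (K := K) K
  exact ⟨1, one_ne_zero, ⟨e.symm.trans g⟩⟩

/-- **The theorem of Albert, Brauer, Hasse and Noether**: a class of the Brauer group of a number
field which is trivial over all completions is trivial. -/
theorem albert_brauer_hasse_noether_of (H : PrimeStmt) {K : Type} [Field K] [NumberField K]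
    (x : BrauerGroup.{0, 0} K) : x = 1 ↔ LocTrivial K x := by
  constructor
  · rintro rfl
    exact locTrivial_one K
  · intro hx
    obtain ⟨D, hD, rfl⟩ := exists_division x
    obtain ⟨n, hn⟩ := exists_sq_finrank (K := K) D
    have hn0 : n ≠ 0 := by
      rintro rfl
      have h1 : 0 < Module.finrank K D := Module.finrank_pos
      rw [hn] at h1
      exact lt_irrefl _ h1
    by_cases hn1 : n = 1
    · exact eq_one_of_finrank_division (by rw [hn, hn1, one_pow])
    · exfalso
      obtain ⟨p, hp, hpn⟩ := Nat.exists_prime_and_dvd hn1
      have hpf : Fact p.Prime := ⟨hp⟩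
      obtain ⟨L, _, _, hfin, hgal, hL⟩ := exists_galois_splitting (brauerMk D)
      obtain ⟨M, hM, r, hr⟩ := exists_sylow_field K L p
      have hLnf : NumberField L := NumberField.of_module_finite K L
      have hMnf : NumberField M := NumberField.of_module_finite K M
      have h1 := DFunLike.congr_fun (brauerRes_comp (K := K) M L) (brauerMk D)
      rw [MonoidHom.comp_apply] at h1
      have h2 : brauerRes K M (brauerMk D) = 1 :=
        eq_one_of_prime_pow H p r M L hr (brauerRes K M (brauerMk D)) hx.res (h1.trans hL)
      exact hM (hpn.trans (degree_dvd_of_split M hD h2 hn))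

/-- Two classes of the Brauer group of a number field are equal iff they are equal over all
completions. -/
theorem brauer_eq_iff_of (H : PrimeStmt) {K : Type} [Field K] [NumberField K]
    (x y : BrauerGroup.{0, 0} K) : x = y ↔
      (∀ v : HeightOneSpectrum (𝓞 K),
        brauerRes K (v.adicCompletion K) x = brauerRes K (v.adicCompletion K) y) ∧
      ∀ w : InfinitePlace K, brauerRes K w.Completion x = brauerRes K w.Completion y := by
  constructor
  · rintro rfl
    exact ⟨fun _ => rfl, fun _ => rfl⟩
  · rintro ⟨h1, h2⟩
    rw [← div_eq_one, albert_brauer_hasse_noether_of H]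
    exact ⟨fun v => by rw [map_div, h1 v, div_self'], fun w => by rw [map_div, h2 w, div_self']⟩

open scoped TensorProduct in
/-- **A central simple algebra over a number field is split if and only if it is split over all
completions.** -/
theorem split_iff_of (H : PrimeStmt) {K : Type} [Field K] [NumberField K] (A : CSA.{0, 0} K) :
    (∃ k : ℕ, k ≠ 0 ∧ Nonempty (A ≃ₐ[K] Matrix (Fin k) (Fin k) K)) ↔
      (∀ v : HeightOneSpectrum (𝓞 K), ∃ k : ℕ, k ≠ 0 ∧ Nonempty
        (v.adicCompletion K ⊗[K] A ≃ₐ[v.adicCompletion K]
          Matrix (Fin k) (Fin k) (v.adicCompletion K))) ∧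
      ∀ w : InfinitePlace K, ∃ k : ℕ, k ≠ 0 ∧ Nonempty
        (w.Completion ⊗[K] A ≃ₐ[w.Completion] Matrix (Fin k) (Fin k) w.Completion) := by
  rw [← brauerMk_eq_one_iff, albert_brauer_hasse_noether_of H, LocTrivial]
  simp only [brauerRes_eq_one_iff]

end Fermat.Agent.Cor.QA
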