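import Fermat.Agent.Corollaries.QA.ABHN

/-!
# Consequences of the theorem of Albert, Brauer, Hasse and Noether
-/

set_option autoImplicit false

namespace Fermat.Agent.Cor.QA

open NumberField IsDedekindDomain
open scoped TensorProduct

variable {K : Type} [Field K] [NumberField K]

omit [NumberField K] in
/-- **Splitting fields**: an extension `L` of `K` splits the class `x` if and only if all the
completions of `L` split `x`. -/
theorem res_eq_one_iff_of (H : PrimeStmt) {L : Type} [Field L] [NumberField L] [Algebra K L]
    (x : BrauerGroup.{0, 0} K) : brauerRes K L x = 1 ↔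
      (∀ w : HeightOneSpectrum (𝓞 L), brauerRes K (w.adicCompletion L) x = 1) ∧
      ∀ w : InfinitePlace L, brauerRes K w.Completion x = 1 := by
  rw [albert_brauer_hasse_noether_of H, LocTrivial]
  refine and_congr (forall_congr' fun w => ?_) (forall_congr' fun w => ?_)
  · have h1 := DFunLike.congr_fun (brauerRes_comp (K := K) L (w.adicCompletion L)) x
    rw [MonoidHom.comp_apply] at h1
    rw [h1]
  · have : IsScalarTower K L w.Completion := IsScalarTower.of_algebraMap_eq fun _ => rfl
    have h1 := DFunLike.congr_fun (brauerRes_comp (K := K) L w.Completion) x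
    rw [MonoidHom.comp_apply] at h1
    rw [h1]

/-- The order of a class is determined by the completions. -/
theorem pow_eq_one_iff_of (H : PrimeStmt) (x : BrauerGroup.{0, 0} K) (n : ℕ) : x ^ n = 1 ↔
      (∀ v : HeightOneSpectrum (𝓞 K), brauerRes K (v.adicCompletion K) x ^ n = 1) ∧
      ∀ w : InfinitePlace K, brauerRes K w.Completion x ^ n = 1 := by
  rw [albert_brauer_hasse_noether_of H, LocTrivial]
  simp only [map_pow]

/-- **Two central simple algebras of the same dimension over a number field are isomorphic if and
only if they are isomorphic over all completions.** -/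
theorem equiv_iff_of (H : PrimeStmt) (A B : CSA.{0, 0} K)
    (h : Module.finrank K A = Module.finrank K B) : Nonempty (A ≃ₐ[K] B) ↔
      (∀ v : HeightOneSpectrum (𝓞 K), Nonempty
        (v.adicCompletion K ⊗[K] A ≃ₐ[v.adicCompletion K] v.adicCompletion K ⊗[K] B)) ∧
      ∀ w : InfinitePlace K, Nonempty (w.Completion ⊗[K] A ≃ₐ[w.Completion] w.Completion ⊗[K] B) := by
  constructor
  · rintro ⟨e⟩
    exact ⟨fun v => ⟨Algebra.TensorProduct.congr AlgEquiv.refl e⟩,
      fun w => ⟨Algebra.TensorProduct.congr AlgEquiv.refl e⟩⟩
  · rintro ⟨h1, h2⟩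
    have h3 : brauerMk A = brauerMk B := by
      rw [brauer_eq_iff_of H]
      refine ⟨fun v => ?_, fun w => ?_⟩
      · obtain ⟨e⟩ := h1 v
        exact brauerMk_eq_of_equiv (A := resCSA (v.adicCompletion K) A)
          (B := resCSA (v.adicCompletion K) B) e
      · obtain ⟨e⟩ := h2 w
        exact brauerMk_eq_of_equiv (A := resCSA w.Completion A) (B := resCSA w.Completion B) e
    exact equiv_of_finrank_eq h3 h

end Fermat.Agent.Cor.QA
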