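import Fermat.Agent.Corollaries.QA.CyclicAlg
import Fermat.Agent.Corollaries.HM.CyclicReal

/-!
# The local-global principle for Brauer classes which are split by a cyclic extension

`eq_one_of_prime`: `K` is a number field, `N / K` a Galois extension of prime degree. A class in
`BrauerGroup K` which is split by `N` and by all completions of `K` is trivial. The proof: a division
algebra in the class is a cyclic algebra `(N, σ, a)`; `a` is a norm everywhere locally, hence a norm
by the theorem of Hasse, and this contradicts the division property.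
-/

set_option autoImplicit false

open Quaternion TensorProduct MulOpposite
open NumberField IsDedekindDomain

namespace Fermat.Agent.Cor.QA

universe u

/-- A central simple algebra of dimension one is trivial. -/
theorem brauerMk_eq_one_of_finrank {K : Type u} [Field K] {D : CSA.{u, u} K}
    (h : Module.finrank K D = 1) : brauerMk D = 1 := by
  have h5 : Function.Bijective (Algebra.ofId K D) :=
    ⟨(algebraMap K D).injective,
      (LinearMap.injective_iff_surjective_of_finrank_eq_finrank (f := Algebra.linearMap K D)
        (by rw [Module.finrank_self, h])).mp (algebraMap K D).injective⟩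
  obtain ⟨f⟩ := exists_equiv_matrix_one (K := K) K
  exact brauerMk_eq_one_of_matrix one_ne_zero ((AlgEquiv.ofBijective _ h5).symm.trans f)

/-- **The local-global principle for classes split by a Galois extension of prime degree.** -/
theorem eq_one_of_prime {K N : Type} [Field K] [NumberField K] [Field N] [NumberField N]
    [Algebra K N] [IsGalois K N] {p : ℕ} [hp : Fact p.Prime] (hdeg : Module.finrank K N = p)
    {x : BrauerGroup.{0, 0} K}
    (hv : ∀ v : HeightOneSpectrum (𝓞 K), brauerRes K (v.adicCompletion K) x = 1)
    (hw : ∀ w : InfinitePlace K, brauerRes K w.Completion x = 1)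
    (hres : brauerRes K N x = 1) : x = 1 := by
  obtain ⟨D, hD, rfl⟩ := exists_division x
  obtain ⟨n, hn⟩ := exists_sq_finrank (K := K) D
  have hdvd : n ∣ p := hdeg ▸ degree_dvd_of_split N hD hres hn
  rcases (Nat.dvd_prime hp.out).mp hdvd with rfl | rfl
  · exact brauerMk_eq_one_of_finrank (by rw [hn, one_pow])
  · exfalso
    let _ : DivisionRing D := DivisionRing.ofIsUnitOrEqZero fun x => by
      by_cases hx : x = 0
      · exact Or.inr hx
      · exact Or.inl (hD x hx)
    obtain ⟨k, hk, ⟨e⟩⟩ := (brauerRes_eq_one_iff N D).mp hres
    obtain ⟨g⟩ := exists_embedding (K := K) (D := D) hk e (by rw [hn, hdeg])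
    have hcard : Nat.card (N ≃ₐ[K] N) = n := by
      rw [IsGalois.card_aut_eq_finrank, hdeg]
    have hcyc : IsCyclic (N ≃ₐ[K] N) := isCyclic_of_prime_card hcard
    obtain ⟨σ, hσ'⟩ := hcyc.exists_generator
    have hσ : orderOf σ = n := by
      rw [orderOf_eq_card_of_forall_mem_zpowers hσ', hcard]
    obtain ⟨u, a, ha, hu, hup⟩ := exists_cyclic (D := D) σ hσ hdeg hn g
    refine not_norm hp.out σ hσ hdeg g ha hu hup ?_
    refine (Fermat.Agent.Cor.HN.hasse_norm_all_places a).mpr ⟨fun v => ?_, fun w => ?_⟩
    · obtain ⟨k, -, ⟨e⟩⟩ := (brauerRes_eq_one_iff (v.adicCompletion K) D).mp (hv v)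
      exact normOver_of_split σ hσ hdeg hn g hu hup (v.adicCompletion K) e
    · obtain ⟨k, -, ⟨e⟩⟩ := (brauerRes_eq_one_iff w.Completion D).mp (hw w)
      exact normOver_of_split σ hσ hdeg hn g hu hup w.Completion e

end Fermat.Agent.Cor.QA
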