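import Fermat.Agent.Corollaries.QA.ABHNCor
import Fermat.Agent.Corollaries.QA.CyclicStep

/-!
# The theorem of Albert, Brauer, Hasse and Noether (1931/32)

For every number field `K`:

* `albert_brauer_hasse_noether`: a class of the Brauer group of `K` which is trivial over all
  completions of `K` is trivial;
* `split_iff`: a central simple algebra over `K` is a matrix algebra over `K` if and only if it becomes
  a matrix algebra over all completions;
* `csa_equiv_iff_local`: two central simple algebras over `K` of the same dimension are isomorphic if
  and only if they are isomorphic over all completions;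
* `res_eq_one_iff`: an extension `L` of `K` splits a class if and only if all completions of `L` do.
-/

set_option autoImplicit false

namespace Fermat.Agent.Cor.QA

open NumberField IsDedekindDomain
open scoped TensorProduct

theorem primeStmt : PrimeStmt := fun _ _ _ _ _ _ _ _ _ _ h _ hx hres =>
  eq_one_of_prime h hx.1 hx.2 hres

variable {K : Type} [Field K] [NumberField K]

/-- **The theorem of Albert, Brauer, Hasse and Noether**: a class of the Brauer group of a number
field is trivial if and only if it is trivial over all completions. -/
theorem albert_brauer_hasse_noether (x : BrauerGroup.{0, 0} K) : x = 1 ↔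
    (∀ v : HeightOneSpectrum (𝓞 K), brauerRes K (v.adicCompletion K) x = 1) ∧
    ∀ w : InfinitePlace K, brauerRes K w.Completion x = 1 :=
  albert_brauer_hasse_noether_of primeStmt x

/-- Two classes of the Brauer group of a number field are equal if and only if they are equal over
all completions. -/
theorem brauer_eq_iff (x y : BrauerGroup.{0, 0} K) : x = y ↔
    (∀ v : HeightOneSpectrum (𝓞 K),
      brauerRes K (v.adicCompletion K) x = brauerRes K (v.adicCompletion K) y) ∧
    ∀ w : InfinitePlace K, brauerRes K w.Completion x = brauerRes K w.Completion y :=
  brauer_eq_iff_of primeStmt x y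

/-- **A central simple algebra over a number field is a matrix algebra over the field if and only if
it becomes a matrix algebra over all completions.** -/
theorem split_iff (A : CSA.{0, 0} K) :
    (∃ k : ℕ, k ≠ 0 ∧ Nonempty (A ≃ₐ[K] Matrix (Fin k) (Fin k) K)) ↔
      (∀ v : HeightOneSpectrum (𝓞 K), ∃ k : ℕ, k ≠ 0 ∧ Nonempty
        (v.adicCompletion K ⊗[K] A ≃ₐ[v.adicCompletion K]
          Matrix (Fin k) (Fin k) (v.adicCompletion K))) ∧
      ∀ w : InfinitePlace K, ∃ k : ℕ, k ≠ 0 ∧ Nonempty
        (w.Completion ⊗[K] A ≃ₐ[w.Completion] Matrix (Fin k) (Fin k) w.Completion) :=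
  split_iff_of primeStmt A

/-- **Two central simple algebras of the same dimension over a number field are isomorphic if and
only if they are isomorphic over all completions.** -/
theorem csa_equiv_iff_local (A B : CSA.{0, 0} K) (h : Module.finrank K A = Module.finrank K B) :
    Nonempty (A ≃ₐ[K] B) ↔
      (∀ v : HeightOneSpectrum (𝓞 K), Nonempty
        (v.adicCompletion K ⊗[K] A ≃ₐ[v.adicCompletion K] v.adicCompletion K ⊗[K] B)) ∧
      ∀ w : InfinitePlace K, Nonempty (w.Completion ⊗[K] A ≃ₐ[w.Completion] w.Completion ⊗[K] B) :=
  equiv_iff_of primeStmt A B h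

omit [NumberField K] in
/-- **Splitting fields**: an extension `L` of `K` splits the class `x` if and only if all completions
of `L` split `x`. -/
theorem res_eq_one_iff {L : Type} [Field L] [NumberField L] [Algebra K L]
    (x : BrauerGroup.{0, 0} K) : brauerRes K L x = 1 ↔
      (∀ w : HeightOneSpectrum (𝓞 L), brauerRes K (w.adicCompletion L) x = 1) ∧
      ∀ w : InfinitePlace L, brauerRes K w.Completion x = 1 :=
  res_eq_one_iff_of primeStmt x

/-- `xⁿ = 1` in the Brauer group of a number field if and only if this holds over all completions. -/
theorem pow_eq_one_iff_local (x : BrauerGroup.{0, 0} K) (n : ℕ) : x ^ n = 1 ↔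
    (∀ v : HeightOneSpectrum (𝓞 K), brauerRes K (v.adicCompletion K) x ^ n = 1) ∧
    ∀ w : InfinitePlace K, brauerRes K w.Completion x ^ n = 1 :=
  pow_eq_one_iff_of primeStmt x n

end Fermat.Agent.Cor.QA
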