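import Fermat.Agent.Corollaries.QA.Tensor

/-!
# Albert's theorem on biquaternion algebras

`F` is a field, `2 ≠ 0`, and `a, b, c, d ≠ 0` in `F`. The following are equivalent
(`not_division_iff_common_slot`, `common_slot_iff_isotropic`, `common_slot_iff_matrix`):

* `ℍ[F,a,b] ⊗ ℍ[F,c,d]` is not a division algebra;
* `ℍ[F,a,b]` and `ℍ[F,c,d]` have a common slot: `ℍ[F,a,b] ≃ ℍ[F,e,f]`, `ℍ[F,c,d] ≃ ℍ[F,e,g]`;
* the Albert form `a x₀² + b x₁² - a b x₂² - c x₃² - d x₄² + c d x₅²` is isotropic;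
* `ℍ[F,a,b] ⊗ ℍ[F,c,d] ≃ M₂(ℍ[F,e,f])` for some `e, f`.
-/

set_option autoImplicit false

open Quaternion
open scoped TensorProduct

namespace Fermat.Agent.Cor.QA

/-- An element is a unit if it divides units on both sides. -/
theorem isUnit_of_mul {R : Type*} [Monoid R] {w w' : R} (h : IsUnit (w * w'))
    (h' : IsUnit (w' * w)) : IsUnit w := by
  obtain ⟨s, hs⟩ := h
  obtain ⟨t, ht⟩ := h'
  have h1 : w * (w' * ↑s⁻¹) = 1 := by rw [← mul_assoc, ← hs, Units.mul_inv]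
  have h2 : (↑t⁻¹ * w') * w = 1 := by rw [mul_assoc, ← ht, Units.inv_mul]
  have h3 : ↑t⁻¹ * w' = w' * ↑s⁻¹ := left_inv_eq_right_inv h2 h1
  exact ⟨⟨w, w' * ↑s⁻¹, h1, h3 ▸ h2⟩, rfl⟩

section Division

variable {F : Type*} [Field F] {a b : F}

/-- The nonzero elements of a non-split quaternion algebra are invertible. -/
theorem isUnit_of_not_split (h2 : (2 : F) ≠ 0) (ha : a ≠ 0) (hb : b ≠ 0)
    (h : ¬ Nonempty (ℍ[F,a,b] ≃ₐ[F] Matrix (Fin 2) (Fin 2) F)) {x : ℍ[F,a,b]} (hx : x ≠ 0) :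
    IsUnit x := by
  have hN : x.re ^ 2 - a * x.imI ^ 2 - b * x.imJ ^ 2 + a * b * x.imK ^ 2 ≠ 0 := by
    intro h0
    apply h
    refine (mat_iff h2 ha hb).mpr (sol_of_norm_zero (fun h' => hx ?_) h0)
    ext
    · exact h'.1
    · exact h'.2.1
    · exact h'.2.2.1
    · exact h'.2.2.2
  have hu : IsUnit (algebraMap F ℍ[F,a,b]
      (x.re ^ 2 - a * x.imI ^ 2 - b * x.imJ ^ 2 + a * b * x.imK ^ 2)) := hN.isUnit.map _
  have h1 : x * ⟨x.re, -x.imI, -x.imJ, -x.imK⟩ = algebraMap F ℍ[F,a,b]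
      (x.re ^ 2 - a * x.imI ^ 2 - b * x.imJ ^ 2 + a * b * x.imK ^ 2) := by
    rw [QuaternionAlgebra.algebraMap_eq]
    ext <;> simp <;> ring
  have h3 : ⟨x.re, -x.imI, -x.imJ, -x.imK⟩ * x = algebraMap F ℍ[F,a,b]
      (x.re ^ 2 - a * x.imI ^ 2 - b * x.imJ ^ 2 + a * b * x.imK ^ 2) := by
    rw [QuaternionAlgebra.algebraMap_eq]
    ext <;> simp <;> ring
  exact isUnit_of_mul (h1 ▸ hu) (h3 ▸ hu)

/-- The matrix algebra is not a division algebra. -/
theorem exists_nonunit_matrix {A : Type*} [Ring A] [Nontrivial A] :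
    ∃ x : Matrix (Fin 2) (Fin 2) A, x ≠ 0 ∧ ¬ IsUnit x := by
  have h0 : (!![0, 1; 0, 0] : Matrix (Fin 2) (Fin 2) A) ≠ 0 := by
    intro h
    have := congrFun (congrFun h 0) 1
    simp at this
  refine ⟨!![0, 1; 0, 0], h0, fun h => h0 ?_⟩
  have h1 : (!![0, 1; 0, 0] : Matrix (Fin 2) (Fin 2) A) * !![0, 1; 0, 0] = 0 := by
    ext i j
    fin_cases i <;> fin_cases j <;> simp [Matrix.mul_apply]
  exact (h.mul_right_eq_zero).mp h1

end Division

section Slot

variable {F : Type*} [Field F]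

/-- `ℍ[F,a,b]` and `ℍ[F,c,d]` have a common slot. -/
def CommonSlot (a b c d : F) : Prop :=
  ∃ e f g : F, e ≠ 0 ∧ f ≠ 0 ∧ g ≠ 0 ∧ Nonempty (ℍ[F,e,f] ≃ₐ[F] ℍ[F,a,b]) ∧
    Nonempty (ℍ[F,e,g] ≃ₐ[F] ℍ[F,c,d])

variable {a b c d : F}

theorem commonSlot_of_value (h2 : (2 : F) ≠ 0) (ha : a ≠ 0) (hb : b ≠ 0) (hc : c ≠ 0) (hd : d ≠ 0)
    {e : F} (he : e ≠ 0) (h1 : ∃ x y z : F, e = a * x ^ 2 + b * y ^ 2 - a * b * z ^ 2)
    (h3 : ∃ x y z : F, e = c * x ^ 2 + d * y ^ 2 - c * d * z ^ 2) : CommonSlot a b c d := by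
  obtain ⟨x, y, z, h1⟩ := h1
  obtain ⟨x', y', z', h3⟩ := h3
  obtain ⟨f, hf, hf'⟩ := exists_equiv_of_value h2 ha hb he h1
  obtain ⟨g, hg, hg'⟩ := exists_equiv_of_value h2 hc hd he h3
  exact ⟨e, f, g, he, hf, hg, hf', hg'⟩

theorem commonSlot_of_split_left (h2 : (2 : F) ≠ 0) (ha : a ≠ 0) (hb : b ≠ 0) (hc : c ≠ 0)
    (hd : d ≠ 0) (h : Nonempty (ℍ[F,a,b] ≃ₐ[F] Matrix (Fin 2) (Fin 2) F)) : CommonSlot a b c d :=
  commonSlot_of_value h2 ha hb hc hd hc (value_of_split h2 h c) ⟨1, 0, 0, by ring⟩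

theorem commonSlot_of_split_right (h2 : (2 : F) ≠ 0) (ha : a ≠ 0) (hb : b ≠ 0) (hc : c ≠ 0)
    (hd : d ≠ 0) (h : Nonempty (ℍ[F,c,d] ≃ₐ[F] Matrix (Fin 2) (Fin 2) F)) : CommonSlot a b c d :=
  commonSlot_of_value h2 ha hb hc hd ha ⟨1, 0, 0, by ring⟩ (value_of_split h2 h a)

/-- A common slot is a common value of the pure forms. -/
theorem value_of_equiv_slot (h2 : (2 : F) ≠ 0) {f : F}
    (h : Nonempty (ℍ[F,a,f] ≃ₐ[F] ℍ[F,c,d])) :
    ∃ x y z : F, a = c * x ^ 2 + d * y ^ 2 - c * d * z ^ 2 := by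
  obtain ⟨E⟩ := h
  have h1 : E (qi a f) * E (qi a f) = algebraMap F _ a := by
    rw [← map_mul, qi_mul_qi, AlgEquiv.commutes]
  rcases value_or_of_sq h2 h1 with h3 | h3
  · exact ⟨_, _, _, h3.1⟩
  · exfalso
    have h4 : qj a f * qi a f = qi a f * qj a f := by
      apply E.injective
      rw [map_mul, map_mul, h3.1]
      exact (Algebra.commutes _ _).symm
    rw [qj_mul_qi] at h4
    have h5 := congrArg QuaternionAlgebra.imK h4
    simp [qi, qj] at h5
    have h6 : (2 : F) = 0 := by linear_combination -h5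
    exact h2 h6

/-- The Albert form. -/
def albertForm (a b c d : F) (x : Fin 6 → F) : F :=
  a * x 0 ^ 2 + b * x 1 ^ 2 - a * b * x 2 ^ 2 - c * x 3 ^ 2 - d * x 4 ^ 2 + c * d * x 5 ^ 2

/-- **Two quaternion algebras have a common slot iff the Albert form is isotropic.** -/
theorem common_slot_iff_isotropic (h2 : (2 : F) ≠ 0) (ha : a ≠ 0) (hb : b ≠ 0) (hc : c ≠ 0)
    (hd : d ≠ 0) : CommonSlot a b c d ↔ ∃ x : Fin 6 → F, x ≠ 0 ∧ albertForm a b c d x = 0 := by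
  constructor
  · rintro ⟨e, f, g, he, -, -, hf', hg'⟩
    obtain ⟨x, y, z, h1⟩ := value_of_equiv_slot h2 hf'
    obtain ⟨x', y', z', h3⟩ := value_of_equiv_slot h2 hg'
    refine ⟨![x, y, z, x', y', z'], fun h => he ?_, ?_⟩
    · have e0 : x = 0 := by simpa using congrFun h 0
      have e1 : y = 0 := by simpa using congrFun h 1
      have e2 : z = 0 := by simpa using congrFun h 2
      rw [h1, e0, e1, e2]
      ring
    · change a * x ^ 2 + b * y ^ 2 - a * b * z ^ 2 - c * x' ^ 2 - d * y' ^ 2 + c * d * z' ^ 2 = 0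
      linear_combination h3 - h1
  · rintro ⟨x, hx0, hx⟩
    have hsum : a * x 0 ^ 2 + b * x 1 ^ 2 - a * b * x 2 ^ 2 =
        c * x 3 ^ 2 + d * x 4 ^ 2 - c * d * x 5 ^ 2 := by
      rw [albertForm] at hx
      linear_combination hx
    by_cases he : a * x 0 ^ 2 + b * x 1 ^ 2 - a * b * x 2 ^ 2 = 0
    · by_cases h0 : x 0 = 0 ∧ x 1 = 0 ∧ x 2 = 0
      · have h1 : ¬ (x 3 = 0 ∧ x 4 = 0 ∧ x 5 = 0) := by
          rintro ⟨h3, h4, h5⟩
          apply hx0
          funext i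
          fin_cases i
          · exact h0.1
          · exact h0.2.1
          · exact h0.2.2
          · exact h3
          · exact h4
          · exact h5
        rw [he] at hsum
        exact commonSlot_of_split_right h2 ha hb hc hd (split_of_pure h2 hc hd h1 hsum.symm)
      · exact commonSlot_of_split_left h2 ha hb hc hd (split_of_pure h2 ha hb h0 he)
    · exact commonSlot_of_value h2 ha hb hc hd he ⟨_, _, _, rfl⟩ ⟨_, _, _, hsum⟩

/-- The tensor product of quaternion algebras with a common slot. -/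
theorem exists_matrix_of_commonSlot (h2 : (2 : F) ≠ 0) (h : CommonSlot a b c d) :
    ∃ e f : F, e ≠ 0 ∧ f ≠ 0 ∧
      Nonempty (ℍ[F,a,b] ⊗[F] ℍ[F,c,d] ≃ₐ[F] Matrix (Fin 2) (Fin 2) ℍ[F,e,f]) := by
  obtain ⟨e, f, g, he, hf, hg, ⟨E₁⟩, ⟨E₂⟩⟩ := h
  obtain ⟨E₃⟩ := tensor_common_slot_matrix (b := f) h2 he hg
  exact ⟨e, f * g, he, mul_ne_zero hf hg, ⟨(Algebra.TensorProduct.congr E₁ E₂).symm.trans E₃⟩⟩

end Slot

section Key

variable {F : Type*} [Field F] {a b c d : F}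

/-- The key computation: if `s, t ∈ ℍ[F,a,b]` commute and `s² - c t² = d` then there is a common
slot. -/
theorem commonSlot_of_norm (h2 : (2 : F) ≠ 0) (ha : a ≠ 0) (hb : b ≠ 0) (hc : c ≠ 0) (hd : d ≠ 0)
    {s t : ℍ[F,a,b]} (hst : t * s = s * t) (h : s * s - c • (t * t) = algebraMap F _ d) :
    CommonSlot a b c d := by
  by_contra hcon
  have hQ₁ := mt (commonSlot_of_split_left (a := a) (b := b) h2 ha hb hc hd) hcon
  have hQ₂ := mt (commonSlot_of_split_right (c := c) (d := d) h2 ha hb hc hd) hcon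
  -- `c` is not a square
  have hcsq : ∀ p q : F, p ^ 2 - c * q ^ 2 = 0 → p = 0 ∧ q = 0 := by
    intro p q hpq
    by_contra h0
    apply hQ₂
    refine (mat_iff h2 hc hd).mpr ⟨q, 0, p, fun h' => h0 ⟨h'.2.2, h'.1⟩, ?_⟩
    linear_combination -hpq
  -- coordinates
  rw [QuaternionAlgebra.algebraMap_eq] at h
  have hre := congrArg QuaternionAlgebra.re h
  have hi := congrArg QuaternionAlgebra.imI h
  have hj := congrArg QuaternionAlgebra.imJ h
  have hk := congrArg QuaternionAlgebra.imK h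
  have ci := congrArg QuaternionAlgebra.imI hst
  have cj := congrArg QuaternionAlgebra.imJ hst
  have ck := congrArg QuaternionAlgebra.imK hst
  simp at hre hi hj hk ci cj ck
  -- the vector parts are proportional
  have key : ∀ (t₁ t₂ t₃ s₁ s₂ : F), ¬ (t₁ = 0 ∧ t₂ = 0 ∧ t₃ = 0) →
      s.imI = s₁ * t₁ → s.imJ = s₁ * t₂ → s.imK = s₁ * t₃ →
      t.imI = s₂ * t₁ → t.imJ = s₂ * t₂ → t.imK = s₂ * t₃ → ¬ (s₁ = 0 ∧ s₂ = 0) → False := by
    intro t₁ t₂ t₃ s₁ s₂ ht e1 e2 e3 e4 e5 e6 h0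
    have hn : s₁ ^ 2 - c * s₂ ^ 2 ≠ 0 := fun h' => h0 (hcsq _ _ h')
    have he : a * t₁ ^ 2 + b * t₂ ^ 2 - a * b * t₃ ^ 2 ≠ 0 :=
      fun h' => hQ₁ (split_of_pure h2 ha hb ht h')
    rw [e1, e4] at hi
    rw [e2, e5] at hj
    rw [e3, e6] at hk
    rw [e1, e2, e3, e4, e5, e6] at hre
    have h3 : s.re * s₁ - c * (t.re * s₂) = 0 := by
      have e1 : (2 * (s.re * s₁ - c * (t.re * s₂))) * t₁ = 0 := by linear_combination hi
      have e2 : (2 * (s.re * s₁ - c * (t.re * s₂))) * t₂ = 0 := by linear_combination hj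
      have e3 : (2 * (s.re * s₁ - c * (t.re * s₂))) * t₃ = 0 := by linear_combination hk
      by_contra hne
      have h4 : 2 * (s.re * s₁ - c * (t.re * s₂)) ≠ 0 := mul_ne_zero h2 hne
      exact ht ⟨(mul_eq_zero.mp e1).resolve_left h4, (mul_eq_zero.mp e2).resolve_left h4,
        (mul_eq_zero.mp e3).resolve_left h4⟩
    have h4 : s.re ^ 2 - c * t.re ^ 2 +
        (a * t₁ ^ 2 + b * t₂ ^ 2 - a * b * t₃ ^ 2) * (s₁ ^ 2 - c * s₂ ^ 2) = d := by
      linear_combination hre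
    apply hcon
    refine commonSlot_of_value h2 ha hb hc hd he ⟨t₁, t₂, t₃, rfl⟩
      ⟨(t.re * s₁ - s.re * s₂) / (s₁ ^ 2 - c * s₂ ^ 2), s₁ / (s₁ ^ 2 - c * s₂ ^ 2),
        s₂ / (s₁ ^ 2 - c * s₂ ^ 2), ?_⟩
    set n := s₁ ^ 2 - c * s₂ ^ 2 with hndef
    field_simp
    have e7 : (s.re * s₁ - c * (t.re * s₂)) ^ 2 - c * (t.re * s₁ - s.re * s₂) ^ 2 =
        (s.re ^ 2 - c * t.re ^ 2) * n := by
      rw [hndef]
      ring
    rw [h3] at e7
    linear_combination n * h4 + e7 + d * hndef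
  by_cases hs : s.imI = 0 ∧ s.imJ = 0 ∧ s.imK = 0
  · by_cases ht : t.imI = 0 ∧ t.imJ = 0 ∧ t.imK = 0
    · -- both are scalars
      rw [hs.1, hs.2.1, hs.2.2, ht.1, ht.2.1, ht.2.2] at hre
      apply hQ₂
      exact (mat_iff h2 hc hd).mpr ((sol_iff h2 hc).mpr ⟨s.re, t.re, by linear_combination -hre⟩)
    · exact key _ _ _ 0 1 ht (by rw [hs.1, zero_mul]) (by rw [hs.2.1, zero_mul])
        (by rw [hs.2.2, zero_mul]) (by rw [one_mul]) (by rw [one_mul]) (by rw [one_mul])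
        (fun h' => one_ne_zero h'.2)
  · -- the vector part of `t` is a multiple of that of `s`
    have c1 : t.imJ * s.imK = t.imK * s.imJ := by
      have : 2 * b * (t.imJ * s.imK - t.imK * s.imJ) = 0 := by
        linear_combination -ci
      have h4 : 2 * b ≠ 0 := mul_ne_zero h2 hb
      exact sub_eq_zero.mp ((mul_eq_zero.mp this).resolve_left h4)
    have c2 : t.imI * s.imK = t.imK * s.imI := by
      have : 2 * a * (t.imI * s.imK - t.imK * s.imI) = 0 := by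
        linear_combination cj
      have h4 : 2 * a ≠ 0 := mul_ne_zero h2 ha
      exact sub_eq_zero.mp ((mul_eq_zero.mp this).resolve_left h4)
    have c3 : t.imI * s.imJ = t.imJ * s.imI := by
      have : 2 * (t.imI * s.imJ - t.imJ * s.imI) = 0 := by
        linear_combination ck
      exact sub_eq_zero.mp ((mul_eq_zero.mp this).resolve_left h2)
    obtain ⟨r, r1, r2, r3⟩ : ∃ r, t.imI = r * s.imI ∧ t.imJ = r * s.imJ ∧ t.imK = r * s.imK := by
      by_cases h1 : s.imI = 0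
      · by_cases h3 : s.imJ = 0
        · have h4 : s.imK ≠ 0 := fun h4 => hs ⟨h1, h3, h4⟩
          refine ⟨t.imK / s.imK, ?_, ?_, ?_⟩
          · field_simp
            linear_combination c2
          · field_simp
            linear_combination c1
          · field_simp
        · refine ⟨t.imJ / s.imJ, ?_, ?_, ?_⟩
          · field_simp
            linear_combination c3
          · field_simp
          · field_simp
            linear_combination -c1
      · refine ⟨t.imI / s.imI, ?_, ?_, ?_⟩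
        · field_simp
        · field_simp
          linear_combination -c3
        · field_simp
          linear_combination -c2
    exact key _ _ _ 1 r hs (by rw [one_mul]) (by rw [one_mul]) (by rw [one_mul]) r1 r2 r3
      (fun h' => one_ne_zero h'.1)

end Key

section Coord

variable {F : Type*} [Field F] {a b c d : F}

theorem eq_zero_of_eq_neg (h2 : (2 : F) ≠ 0) {M : Type*} [AddCommGroup M] [Module F M] {x : M}
    (h : x = -x) : x = 0 := by
  have h1 : (2 : F) • x = 0 := by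
    rw [two_smul]
    nth_rw 1 [h]
    exact neg_add_cancel x
  exact (smul_eq_zero.mp h1).resolve_left h2

/-- The coordinates of `ℍ[F,a,b] ⊗ ℍ[F,c,d]` over `ℍ[F,a,b]`. -/
noncomputable def co (a b : F) (f : ℍ[F,c,d] →ₗ[F] F) :
    ℍ[F,a,b] ⊗[F] ℍ[F,c,d] →ₗ[F] ℍ[F,a,b] :=
  (TensorProduct.rid F ℍ[F,a,b]).toLinearMap ∘ₗ LinearMap.lTensor _ f

theorem co_tmul (f : ℍ[F,c,d] →ₗ[F] F) (x : ℍ[F,a,b]) (y : ℍ[F,c,d]) :
    co a b f (x ⊗ₜ y) = f y • x := by
  simp [co]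

/-- The elements `u + v i` of the centralizer of `1 ⊗ i`. -/
noncomputable def Lel (c d : F) (u v : ℍ[F,a,b]) : ℍ[F,a,b] ⊗[F] ℍ[F,c,d] :=
  u ⊗ₜ 1 + v ⊗ₜ qi c d

/-- The element `1 ⊗ j`. -/
noncomputable def Jel (a b c d : F) : ℍ[F,a,b] ⊗[F] ℍ[F,c,d] := 1 ⊗ₜ qj c d

theorem exists_coord (x : ℍ[F,a,b] ⊗[F] ℍ[F,c,d]) :
    ∃ u v u' v' : ℍ[F,a,b], x = Lel c d u v + Lel c d u' v' * Jel a b c d := by
  induction x using TensorProduct.induction_on with
  | zero => exact ⟨0, 0, 0, 0, by simp [Lel]⟩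
  | tmul x y =>
    refine ⟨y.re • x, y.imI • x, y.imJ • x, y.imK • x, ?_⟩
    conv_lhs => rw [eq_gen y]
    rw [Lel, Lel, Jel, add_mul, Algebra.TensorProduct.tmul_mul_tmul,
      Algebra.TensorProduct.tmul_mul_tmul, mul_one, mul_one, one_mul, TensorProduct.tmul_add,
      TensorProduct.tmul_add, TensorProduct.tmul_add, Algebra.algebraMap_eq_smul_one]
    simp only [TensorProduct.tmul_smul, TensorProduct.smul_tmul']
    abel
  | add x y hx hy =>
    obtain ⟨u, v, u', v', hx⟩ := hx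
    obtain ⟨s, t, s', t', hy⟩ := hy
    refine ⟨u + s, v + t, u' + s', v' + t', ?_⟩
    rw [hx, hy]
    simp only [Lel, TensorProduct.add_tmul, add_mul]
    abel

theorem Lel_mul (u v u' v' : ℍ[F,a,b]) :
    Lel c d u v * Lel c d u' v' = Lel c d (u * u' + c • (v * v')) (u * v' + v * u') := by
  rw [Lel, Lel, add_mul, mul_add, mul_add, Algebra.TensorProduct.tmul_mul_tmul,
    Algebra.TensorProduct.tmul_mul_tmul, Algebra.TensorProduct.tmul_mul_tmul,
    Algebra.TensorProduct.tmul_mul_tmul, qi_mul_qi, mul_one, mul_one, one_mul, Lel,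
    Algebra.algebraMap_eq_smul_one, TensorProduct.tmul_smul, TensorProduct.add_tmul,
    TensorProduct.add_tmul, TensorProduct.smul_tmul']
  abel

theorem Jel_mul_Lel (u v : ℍ[F,a,b]) :
    Jel a b c d * Lel c d u v = Lel c d u (-v) * Jel a b c d := by
  rw [Lel, Lel, Jel, add_mul, mul_add, Algebra.TensorProduct.tmul_mul_tmul,
    Algebra.TensorProduct.tmul_mul_tmul, Algebra.TensorProduct.tmul_mul_tmul,
    Algebra.TensorProduct.tmul_mul_tmul, qj_mul_qi]
  simp only [mul_one, one_mul, TensorProduct.neg_tmul, TensorProduct.tmul_neg]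

theorem Jel_mul_Jel : Jel a b c d * Jel a b c d = Lel c d (algebraMap F _ d) 0 := by
  rw [Lel, Jel, Algebra.TensorProduct.tmul_mul_tmul, qj_mul_qj, mul_one, TensorProduct.zero_tmul,
    add_zero, Algebra.algebraMap_eq_smul_one, Algebra.algebraMap_eq_smul_one,
    TensorProduct.tmul_smul, TensorProduct.smul_tmul']

theorem Lel_zero_zero : Lel c d (0 : ℍ[F,a,b]) 0 = 0 := by simp [Lel]

theorem Lel_sub (u v u' v' : ℍ[F,a,b]) :
    Lel c d u v - Lel c d u' v' = Lel c d (u - u') (v - v') := by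
  simp only [Lel, TensorProduct.sub_tmul]
  abel

/-- An element of the form `z + z' j` commutes with `1 ⊗ i` only if `z' = 0`. -/
theorem eq_Lel_of_commute (h2 : (2 : F) ≠ 0) (hc : c ≠ 0) {x : ℍ[F,a,b] ⊗[F] ℍ[F,c,d]}
    (h : Lel c d 0 1 * x = x * Lel c d 0 1) : ∃ u v : ℍ[F,a,b], x = Lel c d u v := by
  obtain ⟨u, v, u', v', rfl⟩ := exists_coord x
  refine ⟨u, v, ?_⟩
  rw [mul_add, add_mul, mul_assoc (Lel c d u' v'), Jel_mul_Lel, ← mul_assoc, ← mul_assoc, Lel_mul,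
    Lel_mul, Lel_mul, Lel_mul] at h
  simp only [zero_mul, mul_zero, one_mul, mul_one, zero_add, add_zero, mul_neg, smul_neg] at h
  have h1 := congrArg (co a b (QuaternionAlgebra.imKₗ c 0 d)) h
  have h3 := congrArg (co a b (QuaternionAlgebra.imJₗ c 0 d)) h
  rw [Lel, Lel, Lel, Jel, add_mul, add_mul] at h1 h3
  simp only [Algebra.TensorProduct.tmul_mul_tmul, map_add, co_tmul] at h1 h3
  simp [qi, qj] at h1 h3
  have h4 : v' = 0 := (smul_eq_zero.mp (eq_zero_of_eq_neg h2 h3)).resolve_left hc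
  rw [eq_zero_of_eq_neg h2 h1, h4, Lel_zero_zero, zero_mul, add_zero]

/-- An inverse of an element of the centralizer is in the centralizer. -/
theorem exists_inv_Lel (h2 : (2 : F) ≠ 0) (hc : c ≠ 0) {u v : ℍ[F,a,b]}
    (h : IsUnit (Lel c d u v)) : ∃ s t : ℍ[F,a,b], Lel c d u v * Lel c d s t = 1 := by
  obtain ⟨w, hw⟩ := h
  have h1 : Commute (Lel c d (0 : ℍ[F,a,b]) 1) (w : ℍ[F,a,b] ⊗[F] ℍ[F,c,d]) := by
    rw [hw, Commute, SemiconjBy, Lel_mul, Lel_mul]
    simp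
  obtain ⟨s, t, hst⟩ := eq_Lel_of_commute h2 hc h1.units_inv_right
  exact ⟨s, t, by rw [← hst, ← hw, Units.mul_inv]⟩

theorem isUnit_Lel_zero {u : ℍ[F,a,b]} (hu : IsUnit u) : IsUnit (Lel c d u 0) := by
  have h1 : Lel c d u 0 = (Algebra.TensorProduct.includeLeft :
      ℍ[F,a,b] →ₐ[F] ℍ[F,a,b] ⊗[F] ℍ[F,c,d]) u := by
    rw [Lel, TensorProduct.zero_tmul, add_zero]
    rfl
  rw [h1]
  exact hu.map _

/-- The centralizer of `1 ⊗ i` is a division algebra if there is no common slot. -/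
theorem isUnit_Lel (h2 : (2 : F) ≠ 0) (ha : a ≠ 0) (hb : b ≠ 0) (hc : c ≠ 0) (hd : d ≠ 0)
    (hcon : ¬ CommonSlot a b c d) {u v : ℍ[F,a,b]} (h : ¬ (u = 0 ∧ v = 0)) :
    IsUnit (Lel c d u v) := by
  have hQ₁ : ∀ {x : ℍ[F,a,b]}, x ≠ 0 → IsUnit x := fun hx =>
    isUnit_of_not_split h2 ha hb (mt (commonSlot_of_split_left h2 ha hb hc hd) hcon) hx
  have hQ₂ := mt (commonSlot_of_split_right (c := c) (d := d) h2 ha hb hc hd) hcon
  by_cases hv : v = 0
  · subst hv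
    exact isUnit_Lel_zero (hQ₁ fun hu => h ⟨hu, rfl⟩)
  · obtain ⟨w, hw⟩ := hQ₁ hv
    set s : ℍ[F,a,b] := ↑w⁻¹ * u with hs
    have h1 : Lel c d u v = Lel c d v 0 * Lel c d s 1 := by
      rw [Lel_mul, hs, ← hw, ← mul_assoc, Units.mul_inv]
      simp
    have h3 : s * s - algebraMap F _ c ≠ 0 := by
      intro h0
      rw [sub_eq_zero] at h0
      rcases value_or_of_sq h2 h0 with h4 | h4
      · exact hcon (commonSlot_of_value h2 ha hb hc hd hc ⟨_, _, _, h4.1⟩ ⟨1, 0, 0, by ring⟩)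
      · apply hQ₂
        refine (mat_iff h2 hc hd).mpr ⟨1, 0, s.re, fun h' => one_ne_zero h'.1, ?_⟩
        rw [h4.2]
        ring
    have h4 : Lel c d s 1 * Lel c d s (-1) = Lel c d (s * s - algebraMap F _ c) 0 := by
      rw [Lel_mul, Algebra.algebraMap_eq_smul_one]
      congr 1
      · simp [sub_eq_add_neg]
      · simp
    have h5 : Lel c d s (-1) * Lel c d s 1 = Lel c d (s * s - algebraMap F _ c) 0 := by
      rw [Lel_mul, Algebra.algebraMap_eq_smul_one]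
      congr 1
      · simp [sub_eq_add_neg]
      · simp
    rw [h1]
    exact (isUnit_Lel_zero (hQ₁ hv)).mul (isUnit_of_mul (h4 ▸ isUnit_Lel_zero (hQ₁ h3))
      (h5 ▸ isUnit_Lel_zero (hQ₁ h3)))

/-- **Albert's theorem**: if two quaternion algebras have no common slot then their tensor product
is a division algebra. -/
theorem isUnit_of_not_commonSlot (h2 : (2 : F) ≠ 0) (ha : a ≠ 0) (hb : b ≠ 0) (hc : c ≠ 0)
    (hd : d ≠ 0) (hcon : ¬ CommonSlot a b c d) {x : ℍ[F,a,b] ⊗[F] ℍ[F,c,d]} (hx : x ≠ 0) :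
    IsUnit x := by
  have hB : ∀ {u v : ℍ[F,a,b]}, ¬ (u = 0 ∧ v = 0) → IsUnit (Lel c d u v) := fun h =>
    isUnit_Lel h2 ha hb hc hd hcon h
  have key : ∀ s t : ℍ[F,a,b], IsUnit (Lel c d s t + Jel a b c d) := by
    intro s t
    have e1 : (Lel c d s t + Jel a b c d) * (Lel c d s (-t) - Jel a b c d) =
        Lel c d (s * s - c • (t * t) - algebraMap F _ d) (t * s - s * t) := by
      rw [mul_sub, add_mul, add_mul, Jel_mul_Lel, Jel_mul_Jel, neg_neg]
      have h1 : Lel c d s t * Lel c d s (-t) + Lel c d s t * Jel a b c d -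
          (Lel c d s t * Jel a b c d + Lel c d (algebraMap F _ d) 0) =
          Lel c d s t * Lel c d s (-t) - Lel c d (algebraMap F _ d) 0 := by abel
      rw [h1, Lel_mul, Lel_sub]
      congr 1
      · simp [sub_eq_add_neg]
      · rw [mul_neg, sub_zero]
        abel
    have e2 : (Lel c d s (-t) - Jel a b c d) * (Lel c d s t + Jel a b c d) =
        Lel c d (s * s - c • (t * t) - algebraMap F _ d) (s * t - t * s) := by
      rw [mul_add, sub_mul, sub_mul, Jel_mul_Lel, Jel_mul_Jel]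
      have h1 : Lel c d s (-t) * Lel c d s t - Lel c d s (-t) * Jel a b c d +
          (Lel c d s (-t) * Jel a b c d - Lel c d (algebraMap F _ d) 0) =
          Lel c d s (-t) * Lel c d s t - Lel c d (algebraMap F _ d) 0 := by abel
      rw [h1, Lel_mul, Lel_sub]
      congr 1
      · simp [sub_eq_add_neg]
      · rw [neg_mul, sub_zero, sub_eq_add_neg]
    have h3 : ¬ (s * s - c • (t * t) - algebraMap F _ d = 0 ∧ t * s - s * t = 0) := by
      rintro ⟨h3, h4⟩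
      exact hcon (commonSlot_of_norm h2 ha hb hc hd (sub_eq_zero.mp h4) (sub_eq_zero.mp h3))
    have h4 : ¬ (s * s - c • (t * t) - algebraMap F _ d = 0 ∧ s * t - t * s = 0) := by
      rintro ⟨h4, h5⟩
      refine h3 ⟨h4, ?_⟩
      rw [← neg_sub, h5, neg_zero]
    exact isUnit_of_mul (e1 ▸ hB h3) (e2 ▸ hB h4)
  obtain ⟨u, v, u', v', rfl⟩ := exists_coord x
  by_cases h0 : u' = 0 ∧ v' = 0
  · rw [h0.1, h0.2, Lel_zero_zero, zero_mul, add_zero] at hx ⊢
    refine hB fun h' => hx ?_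
    rw [h'.1, h'.2, Lel_zero_zero]
  · have h1 := hB h0
    obtain ⟨s, t, hst⟩ := exists_inv_Lel h2 hc h1
    have h3 : Lel c d u v + Lel c d u' v' * Jel a b c d = Lel c d u' v' *
        (Lel c d s t * Lel c d u v + Jel a b c d) := by
      rw [mul_add, ← mul_assoc, hst, one_mul]
    rw [h3, Lel_mul s t u v]
    exact h1.mul (key _ _)

end Coord

section Main

variable {F : Type*} [Field F] {a b c d : F}

/-- If the tensor product is `M₂` of an algebra then it is not a division algebra. -/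
theorem exists_nonunit_of_equiv {A : Type*} [Ring A] [Nontrivial A] [Algebra F A]
    (h : Nonempty (ℍ[F,a,b] ⊗[F] ℍ[F,c,d] ≃ₐ[F] Matrix (Fin 2) (Fin 2) A)) :
    ∃ x : ℍ[F,a,b] ⊗[F] ℍ[F,c,d], x ≠ 0 ∧ ¬ IsUnit x := by
  obtain ⟨E⟩ := h
  obtain ⟨x, hx, hx'⟩ := exists_nonunit_matrix (A := A)
  refine ⟨E.symm x, fun h => hx ?_, fun h => hx' ?_⟩
  · rwa [EmbeddingLike.map_eq_zero_iff] at h
  · have h1 := h.map E
    rwa [AlgEquiv.apply_symm_apply] at h1

/-- **Albert's theorem**: `ℍ[F,a,b] ⊗ ℍ[F,c,d]` is a division algebra iff `ℍ[F,a,b]` and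
`ℍ[F,c,d]` have no common slot. -/
theorem division_iff_not_commonSlot (h2 : (2 : F) ≠ 0) (ha : a ≠ 0) (hb : b ≠ 0) (hc : c ≠ 0)
    (hd : d ≠ 0) : (∀ x : ℍ[F,a,b] ⊗[F] ℍ[F,c,d], x ≠ 0 → IsUnit x) ↔ ¬ CommonSlot a b c d := by
  constructor
  · intro h hs
    obtain ⟨e, f, -, -, hE⟩ := exists_matrix_of_commonSlot h2 hs
    obtain ⟨x, hx, hx'⟩ := exists_nonunit_of_equiv hE
    exact hx' (h x hx)
  · exact fun h x hx => isUnit_of_not_commonSlot h2 ha hb hc hd h hx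

/-- **Albert's theorem**: `ℍ[F,a,b] ⊗ ℍ[F,c,d]` is a division algebra iff the Albert form is
anisotropic. -/
theorem division_iff_anisotropic (h2 : (2 : F) ≠ 0) (ha : a ≠ 0) (hb : b ≠ 0) (hc : c ≠ 0)
    (hd : d ≠ 0) : (∀ x : ℍ[F,a,b] ⊗[F] ℍ[F,c,d], x ≠ 0 → IsUnit x) ↔
      ∀ x : Fin 6 → F, albertForm a b c d x = 0 → x = 0 := by
  rw [division_iff_not_commonSlot h2 ha hb hc hd, common_slot_iff_isotropic h2 ha hb hc hd]
  push Not
  exact forall_congr' fun x => ⟨fun h h1 => by_contra fun h3 => h h3 h1, fun h h1 h3 => h1 (h h3)⟩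

/-- `ℍ[F,a,b] ⊗ ℍ[F,c,d]` is `M₂` of a quaternion algebra iff there is a common slot. -/
theorem matrix_iff_commonSlot (h2 : (2 : F) ≠ 0) (ha : a ≠ 0) (hb : b ≠ 0) (hc : c ≠ 0)
    (hd : d ≠ 0) : (∃ e f : F, e ≠ 0 ∧ f ≠ 0 ∧
      Nonempty (ℍ[F,a,b] ⊗[F] ℍ[F,c,d] ≃ₐ[F] Matrix (Fin 2) (Fin 2) ℍ[F,e,f])) ↔
      CommonSlot a b c d := by
  constructor
  · rintro ⟨e, f, -, -, hE⟩
    by_contra h
    obtain ⟨x, hx, hx'⟩ := exists_nonunit_of_equiv hE
    exact hx' (isUnit_of_not_commonSlot h2 ha hb hc hd h hx)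
  · exact exists_matrix_of_commonSlot h2

end Main

end Fermat.Agent.Cor.QA
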