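import Mathlib.Algebra.BrauerGroup.Defs
import Mathlib.Algebra.Azumaya.Basic
import Mathlib.Algebra.Azumaya.Matrix
import Mathlib.RingTheory.SimpleModule.Basic
import Mathlib.RingTheory.SimpleModule.WedderburnArtin
import Mathlib.LinearAlgebra.TensorProduct.Basis
import Mathlib.Algebra.Central.TensorProduct
import Mathlib.Algebra.Algebra.Subalgebra.Centralizer
import Mathlib.LinearAlgebra.FiniteDimensional.Lemmas
import Mathlib.LinearAlgebra.Dimension.Constructions
import Mathlib.LinearAlgebra.FreeModule.Finite.Matrix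

/-!
# Central simple algebras are Azumaya algebras; tensor products

`K` is a field.

* `isAzumaya_of_simple`: a finite-dimensional central simple algebra `A` over `K` is an Azumaya
  algebra: `A ⊗ Aᵐᵒᵖ ≃ End_K(A)`;
* `isSimpleRing_tensor`: `A ⊗ B` is simple if `A` is central simple of finite dimension and `B` is a
  simple ring (of any dimension);
* `isCentral_tensor`: `A ⊗ B` is central if `A` and `B` are.
-/

set_option autoImplicit false

open TensorProduct MulOpposite

namespace Fermat.Agent.Cor.QA

universe u v w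

section Azumaya

variable {K : Type u} [Field K] {A : Type v} [Ring A] [Algebra K A]

/-- A `K`-subspace of a simple ring which is stable under left and right multiplication contains
`1`, if it is not zero. -/
theorem one_mem_of_stable [IsSimpleRing A] (N : AddSubgroup A)
    (hl : ∀ a x : A, x ∈ N → a * x ∈ N) (hr : ∀ a x : A, x ∈ N → x * a ∈ N)
    {x : A} (hx : x ≠ 0) (hxN : x ∈ N) : (1 : A) ∈ N := by
  have h := IsSimpleRing.one_mem_of_ne_zero_mem
    (TwoSidedIdeal.mk' (N : Set A) N.zero_mem N.add_mem N.neg_mem (fun {a x} hx => hl a x hx)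
      (fun {x a} hx => hr a x hx)) hx (by simpa using hxN)
  simpa using h

/-- A ring is simple if every nonzero two-sided ideal contains `1`. -/
theorem isSimpleRing_of_one_mem {R : Type*} [Ring R] [Nontrivial R]
    (h : ∀ I : TwoSidedIdeal R, ∀ x ∈ I, x ≠ 0 → (1 : R) ∈ I) : IsSimpleRing R := by
  refine ⟨⟨fun I => ?_⟩⟩
  by_cases hI : ∃ x ∈ I, x ≠ 0
  · right
    obtain ⟨x, hx, hx0⟩ := hI
    rw [eq_top_iff]
    intro y _
    have := I.mul_mem_left y 1 (h I x hx hx0)
    rwa [mul_one] at this
  · left
    push Not at hI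
    rw [eq_bot_iff]
    intro y hy
    rw [hI y hy]
    exact TwoSidedIdeal.zero_mem _

/-- The bimodule `A` is simple. -/
theorem isSimpleModule_bimodule [IsSimpleRing A] :
    let := instModuleTensorProductMop K A
    IsSimpleModule (A ⊗[K] Aᵐᵒᵖ) A := by
  let := instModuleTensorProductMop K A
  have key : ∀ (a b x : A), ((a ⊗ₜ[K] op b : A ⊗[K] Aᵐᵒᵖ) • x : A) = a * x * b := by
    intro a b x
    exact AlgHom.mulLeftRight_apply K A a (op b) x
  rw [isSimpleModule_iff]
  refine ⟨fun N => ?_⟩
  by_cases hN : ∃ x ∈ N, x ≠ 0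
  · right
    obtain ⟨x, hx, hx0⟩ := hN
    have h1 : (1 : A) ∈ N.toAddSubgroup := by
      refine one_mem_of_stable N.toAddSubgroup ?_ ?_ hx0 hx
      · intro a x hx
        have := N.smul_mem (a ⊗ₜ[K] op 1) hx
        rwa [key, mul_one] at this
      · intro a x hx
        have := N.smul_mem (1 ⊗ₜ[K] op a) hx
        rwa [key, one_mul] at this
    rw [eq_top_iff]
    intro y _
    have := N.smul_mem (y ⊗ₜ[K] op 1) h1
    rwa [key, mul_one, mul_one] at this
  · left
    push Not at hN
    rw [eq_bot_iff]
    intro y hy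
    rw [hN y hy]
    exact Submodule.zero_mem _

/-- **A central simple algebra is an Azumaya algebra**: `A ⊗ Aᵐᵒᵖ ≃ End_K(A)`. -/
theorem isAzumaya_of_simple [Algebra.IsCentral K A] [IsSimpleRing A] [FiniteDimensional K A] :
    IsAzumaya K A := by
  classical
  let := instModuleTensorProductMop K A
  have hsimple : IsSimpleModule (A ⊗[K] Aᵐᵒᵖ) A := isSimpleModule_bimodule
  have key : ∀ (r : A ⊗[K] Aᵐᵒᵖ) (x : A), r • x = AlgHom.mulLeftRight K A r x := fun r x => rfl
  -- the endomorphisms of the bimodule are the scalars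
  have hend : ∀ φ : Module.End (A ⊗[K] Aᵐᵒᵖ) A, ∃ c : K, ∀ x : A, φ x = c • x := by
    intro φ
    have h1 : ∀ x : A, φ x = x * φ 1 := by
      intro x
      have h := φ.map_smul (x ⊗ₜ[K] op 1) 1
      rw [key, key, AlgHom.mulLeftRight_apply, AlgHom.mulLeftRight_apply] at h
      simpa using h
    have h2 : ∀ x : A, φ x = φ 1 * x := by
      intro x
      have h := φ.map_smul (1 ⊗ₜ[K] op x) 1
      rw [key, key, AlgHom.mulLeftRight_apply, AlgHom.mulLeftRight_apply] at h
      simpa using h
    have h3 : φ 1 ∈ Subalgebra.center K A := by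
      rw [Subalgebra.mem_center_iff]
      intro x
      rw [← h1, ← h2]
    rw [Algebra.IsCentral.center_eq_bot, Algebra.mem_bot] at h3
    obtain ⟨c, hc⟩ := h3
    refine ⟨c, fun x => ?_⟩
    rw [h2, ← hc, Algebra.smul_def]
  have hsurj : Function.Surjective (AlgHom.mulLeftRight K A) := by
    intro f
    let f' : Module.End (Module.End (A ⊗[K] Aᵐᵒᵖ) A) A :=
      { toFun := f
        map_add' := f.map_add
        map_smul' := by
          intro φ x
          obtain ⟨c, hc⟩ := hend φ
          rw [Module.End.smul_def, Module.End.smul_def, hc, RingHom.id_apply, hc, f.map_smul] }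
    let b := Module.finBasis K A
    obtain ⟨r, hr⟩ := jacobson_density f' (Finset.univ.image b)
    refine ⟨r, b.ext fun i => ?_⟩
    have h := hr (b i) (Finset.mem_image_of_mem b (Finset.mem_univ i))
    rw [← key, ← h]
    rfl
  have hinj : Function.Injective (AlgHom.mulLeftRight K A) := by
    have h : Module.finrank K (A ⊗[K] Aᵐᵒᵖ) = Module.finrank K (Module.End K A) := by
      rw [Module.finrank_tensorProduct, Module.finrank_linearMap,
        (MulOpposite.opLinearEquiv K (M := A)).symm.finrank_eq]
    exact (LinearMap.injective_iff_surjective_of_finrank_eq_finrank h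
      (f := (AlgHom.mulLeftRight K A).toLinearMap)).mpr hsurj
  exact { bij := ⟨hinj, hsurj⟩ }

/-- Every endomorphism of the vector space `A` is a combination of multiplications. -/
theorem mem_of_multiplications [Algebra.IsCentral K A] [IsSimpleRing A] [FiniteDimensional K A]
    {p : Module.End K A → Prop} (hadd : ∀ f g, p f → p g → p (f + g)) (h0 : p 0)
    (hmul : ∀ a b : A, p (AlgHom.mulLeftRight K A (a ⊗ₜ op b))) (f : Module.End K A) : p f := by
  obtain ⟨r, rfl⟩ := (isAzumaya_of_simple (K := K) (A := A)).bij.2 f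
  induction r using TensorProduct.induction_on with
  | zero => rw [map_zero]; exact h0
  | tmul a b => exact hmul a b.unop
  | add x y hx hy => rw [map_add]; exact hadd _ _ hx hy

section Tensor

variable (B : Type w) [Ring B] [Algebra K B]

theorem includeRight_inj [Nontrivial A] :
    Function.Injective (Algebra.TensorProduct.includeRight : B →ₐ[K] A ⊗[K] B) :=
  Algebra.TensorProduct.includeRight_injective (FaithfulSMul.algebraMap_injective K A)

/-- **`A ⊗ B` is simple** if `A` is central simple and `B` is simple. -/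
theorem isSimpleRing_tensor [Algebra.IsCentral K A] [IsSimpleRing A] [FiniteDimensional K A]
    [IsSimpleRing B] : IsSimpleRing (A ⊗[K] B) := by
  classical
  have hnt : Nontrivial (A ⊗[K] B) := (includeRight_inj (K := K) (A := A) B).nontrivial
  apply isSimpleRing_of_one_mem
  intro I x hx hx0
  -- `I` is stable under the endomorphisms of the first factor
  have h1 : ∀ f : Module.End K A, ∀ y ∈ I, f.rTensor B y ∈ I := by
    intro f
    refine mem_of_multiplications (p := fun f => ∀ y ∈ I, f.rTensor B y ∈ I) ?_ ?_ ?_ f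
    · intro f g hf hg y hy
      rw [LinearMap.rTensor_add, LinearMap.add_apply]
      exact I.add_mem (hf y hy) (hg y hy)
    · intro y _
      rw [LinearMap.rTensor_zero, LinearMap.zero_apply]
      exact I.zero_mem
    · intro a b
      have h2 : ∀ y : A ⊗[K] B, (AlgHom.mulLeftRight K A (a ⊗ₜ op b)).rTensor B y =
          (a ⊗ₜ[K] (1 : B)) * y * (b ⊗ₜ[K] (1 : B)) := by
        intro y
        induction y using TensorProduct.induction_on with
        | zero => simp
        | tmul c d => simp
        | add c d hc hd => rw [map_add, hc, hd, mul_add, add_mul]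
      intro y hy
      rw [h2]
      exact I.mul_mem_right _ _ (I.mul_mem_left _ _ hy)
  let e := Module.finBasis K A
  have h2 : TensorProduct.equivFinsuppOfBasisLeft e x ≠ 0 := by simpa using hx0
  obtain ⟨i, hi⟩ := Finsupp.ne_iff.mp h2
  set b := TensorProduct.equivFinsuppOfBasisLeft e x i with hb
  let f : Module.End K A := (Algebra.linearMap K A).comp (e.coord i)
  have h3 : f.rTensor B x = 1 ⊗ₜ[K] b := by
    rw [hb]
    clear hi h2 hb hx hx0
    induction x using TensorProduct.induction_on with
    | zero => simp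
    | tmul c d =>
      rw [LinearMap.rTensor_tmul, TensorProduct.equivFinsuppOfBasisLeft_apply_tmul_apply,
        LinearMap.comp_apply, Algebra.linearMap_apply, Algebra.algebraMap_eq_smul_one,
        TensorProduct.smul_tmul]
      rfl
    | add c d hc hd => rw [map_add, map_add, Finsupp.add_apply, TensorProduct.tmul_add, hc, hd]
  have h4 : (1 : A) ⊗ₜ[K] b ∈ I := h3 ▸ h1 f x hx
  have h5 := IsSimpleRing.one_mem_of_ne_zero_mem
    (I.comap (Algebra.TensorProduct.includeRight : B →ₐ[K] A ⊗[K] B)) hi
    ((TwoSidedIdeal.mem_comap _).mpr h4)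
  exact (TwoSidedIdeal.mem_comap _).mp h5

/-- **`A ⊗ B` is central** if `A` and `B` are. -/
theorem isCentral_tensor [Nontrivial A] [Algebra.IsCentral K A] [Algebra.IsCentral K B] :
    Algebra.IsCentral K (A ⊗[K] B) := by
  refine ⟨fun z hz => ?_⟩
  rw [Subalgebra.mem_center_iff] at hz
  have h1 : z ∈ Subalgebra.centralizer K
      ((Algebra.TensorProduct.includeLeft : A →ₐ[K] A ⊗[K] B).range : Set (A ⊗[K] B)) := by
    rw [Subalgebra.mem_centralizer_iff]
    exact fun y _ => hz y
  rw [Subalgebra.centralizer_coe_range_includeLeft_eq_center_tensorProduct] at h1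
  obtain ⟨w, rfl⟩ := h1
  have h2 : ∀ w : (Subalgebra.center K A) ⊗[K] B, ∃ b : B,
      (Algebra.TensorProduct.map (Subalgebra.center K A).val (AlgHom.id K B)) w = 1 ⊗ₜ b := by
    intro w
    induction w using TensorProduct.induction_on with
    | zero => exact ⟨0, by simp⟩
    | tmul c d =>
      obtain ⟨k, hk⟩ := Algebra.mem_bot.mp
        ((Algebra.IsCentral.center_eq_bot K A).le c.2)
      refine ⟨k • d, ?_⟩
      rw [Algebra.TensorProduct.map_tmul, Subalgebra.coe_val, ← hk,
        Algebra.algebraMap_eq_smul_one, TensorProduct.smul_tmul]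
      rfl
    | add c d hc hd =>
      obtain ⟨b, hb⟩ := hc
      obtain ⟨b', hb'⟩ := hd
      exact ⟨b + b', by rw [map_add, hb, hb', TensorProduct.tmul_add]⟩
  obtain ⟨b, hb⟩ := h2 w
  change (Algebra.TensorProduct.map (Subalgebra.center K A).val (AlgHom.id K B)) w ∈ _
  have hz' : ∀ y : A ⊗[K] B, y * (1 ⊗ₜ b) = (1 ⊗ₜ b) * y := fun y => hb ▸ hz y
  rw [hb]
  have h3 : b ∈ Subalgebra.center K B := by
    rw [Subalgebra.mem_center_iff]
    intro c
    apply includeRight_inj (K := K) (A := A) B
    have h := hz' (1 ⊗ₜ c)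
    simpa using h
  rw [Algebra.IsCentral.center_eq_bot, Algebra.mem_bot] at h3
  obtain ⟨k, rfl⟩ := h3
  exact Algebra.mem_bot.mpr ⟨k, by
    rw [Algebra.algebraMap_eq_smul_one, Algebra.algebraMap_eq_smul_one, TensorProduct.tmul_smul]
    rfl⟩

end Tensor

end Azumaya

end Fermat.Agent.Cor.QA
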