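import Fermat.Agent.Corollaries.QA.Albert

/-!
# Brauer equivalent quaternion algebras are isomorphic

`F` is a field, `2 ≠ 0`, and `a, b, c, d ≠ 0` in `F`.

* `pow_card_eq_zero`: a nilpotent matrix of size `n` over a division ring satisfies `x ^ n = 0`;
* `false_of_equiv`: `Mₙ(E) ≃ M_m(F)` is impossible for a division algebra `E` and `n < m`;
* `equiv_iff_matrix_equiv`: `Mₙ(ℍ[F,a,b]) ≃ Mₙ(ℍ[F,c,d])` iff `ℍ[F,a,b] ≃ ℍ[F,c,d]`;
* `equiv_iff_brauer`: `Mₙ(ℍ[F,a,b]) ≃ M_m(ℍ[F,c,d])` for some `n`, `m` iff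
  `ℍ[F,a,b] ≃ ℍ[F,c,d]`;
* `equiv_iff_tensor`: `ℍ[F,a,b] ⊗ ℍ[F,c,d] ≃ M₄(F)` iff `ℍ[F,a,b] ≃ ℍ[F,c,d]`.
-/

set_option autoImplicit false

open Quaternion
open scoped TensorProduct

namespace Fermat.Agent.Cor.QA

section Nilpotent

/-- A nilpotent matrix of size `n` over a division ring satisfies `x ^ n = 0`. -/
theorem pow_card_eq_zero {E : Type*} [DivisionRing E] {ι : Type*} [Fintype ι] [DecidableEq ι]
    {x : Matrix ι ι E} {k : ℕ} (h : x ^ k = 0) : x ^ Fintype.card ι = 0 := by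
  have hpow : ∀ n : ℕ, (Matrix.toLinearMapRight' x) ^ n = Matrix.toLinearMapRight' (x ^ n) := by
    intro n
    induction n with
    | zero =>
      rw [pow_zero, pow_zero]
      refine LinearMap.ext fun v => ?_
      rw [Matrix.toLinearMapRight'_apply, Matrix.vecMul_one]
      rfl
    | succ n ih =>
      rw [pow_succ', pow_succ, Matrix.toLinearMapRight'_mul, ih]
      rfl
  have h1 : ∀ m : ℕ, k ≤ m → x ^ m = 0 := fun m hm => pow_eq_zero_of_le hm h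
  have h3 := Module.End.ker_pow_eq_ker_pow_finrank_of_le (f := Matrix.toLinearMapRight' x)
    (m := k + Fintype.card ι) (by rw [Module.finrank_fintype_fun_eq_card]; omega)
  rw [hpow, hpow, h1 _ (by omega), map_zero, LinearMap.ker_zero,
    Module.finrank_fintype_fun_eq_card] at h3
  have h4 : Matrix.toLinearMapRight' (x ^ Fintype.card ι) = 0 := LinearMap.ker_eq_top.mp h3.symm
  exact (LinearEquiv.map_eq_zero_iff _).mp h4

/-- There is a nilpotent matrix `N` of size `m` with `N ^ (m - 1) ≠ 0`. -/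
theorem exists_nilpotent (F : Type*) [Field F] (κ : Type*) [Fintype κ] [DecidableEq κ] :
    ∃ N : Matrix κ κ F, N ^ Fintype.card κ = 0 ∧ ∀ j < Fintype.card κ, N ^ j ≠ 0 := by
  classical
  set m := Fintype.card κ with hm
  have hmonic : (Polynomial.X ^ m : Polynomial F).Monic := Polynomial.monic_X_pow m
  let pb := AdjoinRoot.powerBasis' hmonic
  have hdim : pb.dim = m := by
    rw [AdjoinRoot.powerBasis'_dim, Polynomial.natDegree_X_pow]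
  let b : Module.Basis κ F (AdjoinRoot (Polynomial.X ^ m : Polynomial F)) :=
    pb.basis.reindex ((finCongr hdim).trans (Fintype.equivFin κ).symm)
  let f := Algebra.leftMulMatrix b
  have hf : Function.Injective f := Algebra.leftMulMatrix_injective b
  refine ⟨f (AdjoinRoot.root _), ?_, fun j hj h => ?_⟩
  · rw [← map_pow, ← AdjoinRoot.mk_X, ← map_pow, AdjoinRoot.mk_self, map_zero]
  · rw [← map_pow, ← AdjoinRoot.mk_X, ← map_pow] at h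
    have h1 := (injective_iff_map_eq_zero f).mp hf _ h
    rw [AdjoinRoot.mk_eq_zero, pow_dvd_pow_iff Polynomial.X_ne_zero Polynomial.not_isUnit_X] at h1
    omega

/-- `M_ι(E) ≃ M_κ(F)` is impossible for a division algebra `E` if `|ι| < |κ|`. -/
theorem false_of_equiv {F : Type*} [Field F] {E : Type*} [Ring E] [Nontrivial E] [Algebra F E]
    (hE : ∀ x : E, x ≠ 0 → IsUnit x) {ι κ : Type*} [Fintype ι] [DecidableEq ι] [Fintype κ]
    [DecidableEq κ] (hlt : Fintype.card ι < Fintype.card κ)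
    (h : Nonempty (Matrix ι ι E ≃ₐ[F] Matrix κ κ F)) : False := by
  obtain ⟨e⟩ := h
  obtain ⟨N, hN, hN'⟩ := exists_nilpotent F κ
  let _ : DivisionRing E := DivisionRing.ofIsUnitOrEqZero fun x => by
    by_cases hx : x = 0
    · exact Or.inr hx
    · exact Or.inl (hE x hx)
  have h1 : e.symm N ^ Fintype.card κ = 0 := by rw [← map_pow, hN, map_zero]
  have h3 := pow_card_eq_zero h1
  rw [← map_pow, EmbeddingLike.map_eq_zero_iff] at h3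
  exact hN' _ hlt h3

end Nilpotent

section Brauer

variable {F : Type*} [Field F] {a b c d : F}

/-- `A ⊗ Mₙ(B) ≃ Mₙ(A ⊗ B)`. -/
noncomputable def tensorMatrix (A B : Type*) [Ring A] [Ring B] [Algebra F A] [Algebra F B]
    (ι : Type*) [Fintype ι] [DecidableEq ι] :
    A ⊗[F] Matrix ι ι B ≃ₐ[F] Matrix ι ι (A ⊗[F] B) :=
  ((Algebra.TensorProduct.congr AlgEquiv.refl (matrixEquivTensor ι F B)).trans
    (Algebra.TensorProduct.assoc F F F A B (Matrix ι ι F)).symm).trans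
    (matrixEquivTensor ι F (A ⊗[F] B)).symm

/-- A quaternion algebra `D` with `Mₙ(D) ≃ M₂ₙ(F)` is split. -/
theorem split_of_matrix (h2 : (2 : F) ≠ 0) (ha : a ≠ 0) (hb : b ≠ 0) {ι κ : Type*} [Fintype ι]
    [DecidableEq ι] [Fintype κ] [DecidableEq κ] (hlt : Fintype.card ι < Fintype.card κ)
    (h : Nonempty (Matrix ι ι ℍ[F,a,b] ≃ₐ[F] Matrix κ κ F)) :
    Nonempty (ℍ[F,a,b] ≃ₐ[F] Matrix (Fin 2) (Fin 2) F) := by
  by_contra hcon
  exact false_of_equiv (fun x hx => isUnit_of_not_split h2 ha hb hcon hx) hlt h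

/-- Isomorphic if the product of the second slots is split. -/
theorem equiv_of_split_mul (h2 : (2 : F) ≠ 0) {e f g : F} (he : e ≠ 0) (hf : f ≠ 0) (hg : g ≠ 0)
    (h : Nonempty (ℍ[F,e,f * g] ≃ₐ[F] Matrix (Fin 2) (Fin 2) F)) :
    Nonempty (ℍ[F,e,f] ≃ₐ[F] ℍ[F,e,g]) := by
  have hfg : f * g ≠ 0 := mul_ne_zero hf hg
  obtain ⟨s, t, hst⟩ := (sol_iff h2 he).mp ((mat_iff h2 he hfg).mp h)
  have hn : s ^ 2 - e * t ^ 2 ≠ 0 := by rw [← hst]; exact hfg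
  obtain ⟨E₃⟩ := equiv_mul_norm h2 he hg hn
  have hg2 : g ^ 2 - e * 0 ^ 2 ≠ 0 := by simpa using hg
  obtain ⟨E₄⟩ := equiv_mul_norm h2 he hf hg2
  have h9 : g * (s ^ 2 - e * t ^ 2) = f * (g ^ 2 - e * 0 ^ 2) := by
    rw [← hst]
    ring
  rw [h9] at E₃
  exact ⟨E₄.symm.trans E₃⟩

/-- If `ℍ[F,a,b] ⊗ ℍ[F,c,d]` is a matrix algebra up to matrices then `ℍ[F,a,b] ≃ ℍ[F,c,d]`. -/
theorem equiv_of_tensor_matrix (h2 : (2 : F) ≠ 0) (ha : a ≠ 0) (hb : b ≠ 0) (hc : c ≠ 0)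
    (hd : d ≠ 0) {ι κ : Type*} [Fintype ι] [DecidableEq ι] [Nonempty ι] [Fintype κ]
    [DecidableEq κ] (hcard : Fintype.card κ = 4 * Fintype.card ι)
    (h : Nonempty (Matrix ι ι (ℍ[F,a,b] ⊗[F] ℍ[F,c,d]) ≃ₐ[F] Matrix κ κ F)) :
    Nonempty (ℍ[F,a,b] ≃ₐ[F] ℍ[F,c,d]) := by
  have hι : 0 < Fintype.card ι := Fintype.card_pos
  have hslot : CommonSlot a b c d := by
    by_contra hcon
    exact false_of_equiv (fun x hx => isUnit_of_not_commonSlot h2 ha hb hc hd hcon hx)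
      (by omega) h
  obtain ⟨e, f, g, he, hf, hg, ⟨E₁⟩, ⟨E₂⟩⟩ := hslot
  obtain ⟨E₃⟩ := tensor_common_slot_matrix (b := f) h2 he hg
  obtain ⟨E⟩ := h
  have E₄ : ℍ[F,a,b] ⊗[F] ℍ[F,c,d] ≃ₐ[F] Matrix (Fin 2) (Fin 2) ℍ[F,e,f * g] :=
    (Algebra.TensorProduct.congr E₁ E₂).symm.trans E₃
  have h1 : Nonempty (Matrix (ι × Fin 2) (ι × Fin 2) ℍ[F,e,f * g] ≃ₐ[F] Matrix κ κ F) :=
    ⟨((Matrix.compAlgEquiv ι (Fin 2) ℍ[F,e,f * g] F).symm.trans (E₄.mapMatrix).symm).trans E⟩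
  have h3 := split_of_matrix h2 he (mul_ne_zero hf hg) (by
    rw [Fintype.card_prod, Fintype.card_fin]
    omega) h1
  obtain ⟨E₅⟩ := equiv_of_split_mul h2 he hf hg h3
  exact ⟨E₁.symm.trans (E₅.trans E₂)⟩

/-- **Quaternion algebras are isomorphic if matrix algebras over them are isomorphic.** -/
theorem equiv_iff_matrix_equiv (h2 : (2 : F) ≠ 0) (ha : a ≠ 0) (hb : b ≠ 0) (hc : c ≠ 0)
    (hd : d ≠ 0) (ι : Type*) [Fintype ι] [DecidableEq ι] [Nonempty ι] :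
    Nonempty (Matrix ι ι ℍ[F,a,b] ≃ₐ[F] Matrix ι ι ℍ[F,c,d]) ↔
      Nonempty (ℍ[F,a,b] ≃ₐ[F] ℍ[F,c,d]) := by
  constructor
  · rintro ⟨E⟩
    obtain ⟨S⟩ := tensor_self (a := a) (b := b) h2 ha hb
    refine equiv_of_tensor_matrix (ι := ι) (κ := ι × Fin 4) h2 ha hb hc hd
      (by rw [Fintype.card_prod, Fintype.card_fin, mul_comm]) ⟨?_⟩
    exact (((tensorMatrix ℍ[F,a,b] ℍ[F,c,d] ι).symm.trans
      (Algebra.TensorProduct.congr AlgEquiv.refl E.symm)).trans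
      (tensorMatrix ℍ[F,a,b] ℍ[F,a,b] ι)).trans
      ((S.mapMatrix).trans (Matrix.compAlgEquiv ι (Fin 4) F F))
  · rintro ⟨E⟩
    exact ⟨E.mapMatrix⟩

/-- **Brauer equivalent quaternion algebras are isomorphic.** -/
theorem equiv_iff_brauer (h2 : (2 : F) ≠ 0) (ha : a ≠ 0) (hb : b ≠ 0) (hc : c ≠ 0) (hd : d ≠ 0) :
    (∃ n m : ℕ, n ≠ 0 ∧ m ≠ 0 ∧
      Nonempty (Matrix (Fin n) (Fin n) ℍ[F,a,b] ≃ₐ[F] Matrix (Fin m) (Fin m) ℍ[F,c,d])) ↔
      Nonempty (ℍ[F,a,b] ≃ₐ[F] ℍ[F,c,d]) := by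
  constructor
  · rintro ⟨n, m, hn, hm, ⟨E⟩⟩
    have h1 := E.toLinearEquiv.finrank_eq
    rw [Module.finrank_matrix, Module.finrank_matrix, QuaternionAlgebra.finrank_eq_four,
      QuaternionAlgebra.finrank_eq_four, Fintype.card_fin, Fintype.card_fin] at h1
    have h3 : n = m := by
      have h4 : n * n = m * m := by omega
      exact Nat.mul_self_inj.mp h4
    subst h3
    have : Nonempty (Fin n) := Fin.pos_iff_nonempty.mp (Nat.pos_of_ne_zero hn)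
    exact (equiv_iff_matrix_equiv h2 ha hb hc hd (Fin n)).mp ⟨E⟩
  · rintro ⟨E⟩
    exact ⟨1, 1, one_ne_zero, one_ne_zero, ⟨E.mapMatrix⟩⟩

/-- `ℍ[F,a,b] ⊗ ℍ[F,c,d] ≃ M₄(F)` iff `ℍ[F,a,b] ≃ ℍ[F,c,d]`. -/
theorem equiv_iff_tensor (h2 : (2 : F) ≠ 0) (ha : a ≠ 0) (hb : b ≠ 0) (hc : c ≠ 0) (hd : d ≠ 0) :
    Nonempty (ℍ[F,a,b] ⊗[F] ℍ[F,c,d] ≃ₐ[F] Matrix (Fin 4) (Fin 4) F) ↔
      Nonempty (ℍ[F,a,b] ≃ₐ[F] ℍ[F,c,d]) := by
  constructor
  · rintro ⟨E⟩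
    refine equiv_of_tensor_matrix (ι := Fin 1) (κ := Fin 1 × Fin 4) h2 ha hb hc hd
      (by simp) ⟨?_⟩
    exact E.mapMatrix.trans (Matrix.compAlgEquiv (Fin 1) (Fin 4) F F)
  · rintro ⟨E⟩
    obtain ⟨S⟩ := tensor_self (a := a) (b := b) h2 ha hb
    exact ⟨(Algebra.TensorProduct.congr AlgEquiv.refl E.symm).trans S⟩

/-- The tensor product with a common slot: `ℍ[F,a,b] ⊗ ℍ[F,c,d] ≃ M₂(ℍ[F,e,f])` determines
`ℍ[F,e,f]`. -/
theorem equiv_of_tensor_equiv (h2 : (2 : F) ≠ 0) {e f e' f' : F} (he : e ≠ 0) (hf : f ≠ 0)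
    (he' : e' ≠ 0) (hf' : f' ≠ 0) {A : Type*} [Ring A] [Algebra F A]
    (h : Nonempty (A ≃ₐ[F] Matrix (Fin 2) (Fin 2) ℍ[F,e,f]))
    (h' : Nonempty (A ≃ₐ[F] Matrix (Fin 2) (Fin 2) ℍ[F,e',f'])) :
    Nonempty (ℍ[F,e,f] ≃ₐ[F] ℍ[F,e',f']) := by
  obtain ⟨E⟩ := h
  obtain ⟨E'⟩ := h'
  exact (equiv_iff_matrix_equiv h2 he hf he' hf' (Fin 2)).mp ⟨E.symm.trans E'⟩

end Brauer

end Fermat.Agent.Cor.QA
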