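import Fermat.Agent.Corollaries.QA.BrauerMul

/-!
# Brauer classes and division algebras

* `exists_division`: every class in the Brauer group of a field contains a division algebra;
* `equiv_of_division`: two division algebras in the same class are isomorphic;
* `brauerEquivDivision`: the Brauer group is in bijection with the isomorphism classes of the
  finite-dimensional central division algebras;
* `equiv_of_matrix_division`: uniqueness in Wedderburn's theorem: `Mₙ(D) ≃ M_m(E)` implies `n = m`
  and `D ≃ E`;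
* `exists_sq_finrank`: the dimension of a central simple algebra is a square;
* `equiv_of_finrank_eq`: two equivalent central simple algebras of the same dimension are
  isomorphic.
-/

set_option autoImplicit false

open Quaternion TensorProduct MulOpposite

namespace Fermat.Agent.Cor.QA

universe u v

section General

variable {K : Type u} [Field K]

/-- A central simple algebra is a division algebra. -/
def IsDivision (A : CSA.{u, u} K) : Prop := ∀ x : A, x ≠ 0 → IsUnit x

/-- **Every Brauer class contains a division algebra.** -/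
theorem exists_matrix_division (A : CSA.{u, u} K) :
    ∃ (D : CSA.{u, u} K) (n : ℕ), n ≠ 0 ∧ IsDivision D ∧ brauerMk A = brauerMk D ∧
      Nonempty (A ≃ₐ[K] Matrix (Fin n) (Fin n) D) := by
  have hart : IsArtinianRing A := IsArtinianRing.of_finite K A
  obtain ⟨n, hn, D, _, _, _, ⟨e⟩⟩ := IsSimpleRing.exists_algEquiv_matrix_divisionRing_finite K A
  have hcen : Algebra.IsCentral K D := isCentral_of_matrix hn.out e
  obtain ⟨g⟩ := exists_equiv_matrix_one (K := K) D
  have hdiv : ∀ x : D, x ≠ 0 → IsUnit x := fun x hx => hx.isUnit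
  exact ⟨mkCSA K D, n, hn.out, hdiv,
    brauerMk_eq_iff.mpr (brauerEquivalent_of_matrix A (mkCSA K D) hn.out one_ne_zero e g), ⟨e⟩⟩

/-- **Every Brauer class contains a division algebra.** -/
theorem exists_division (x : BrauerGroup.{u, u} K) :
    ∃ D : CSA.{u, u} K, IsDivision D ∧ brauerMk D = x := by
  induction x using Quotient.inductionOn with
  | _ A =>
    obtain ⟨D, n, -, hD, h, -⟩ := exists_matrix_division A
    exact ⟨D, hD, h.symm⟩

/-- Two division algebras `D`, `E` with `D ⊗ Eᵐᵒᵖ ≃ M_k(K)` are isomorphic. -/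
theorem equiv_of_tensor_op {D E : Type u} [Ring D] [Algebra K D] [Ring E] [Algebra K E]
    [FiniteDimensional K D] [FiniteDimensional K E]
    (hD : ∀ x : D, x ≠ 0 → IsUnit x) (hE : ∀ x : E, x ≠ 0 → IsUnit x) {k : ℕ} (hk : k ≠ 0)
    (e : D ⊗[K] Eᵐᵒᵖ ≃ₐ[K] Matrix (Fin k) (Fin k) K) : Nonempty (E ≃ₐ[K] D) := by
  have hk' : NeZero k := ⟨hk⟩
  -- the representation on `K ^ k`
  let ρ : D ⊗[K] Eᵐᵒᵖ →ₐ[K] Module.End K (Fin k → K) :=
    (Matrix.toLinAlgEquiv' : Matrix (Fin k) (Fin k) K ≃ₐ[K] _).toAlgHom.comp e.toAlgHom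
  let v : Fin k → K := fun _ => 1
  have hv : v ≠ 0 := fun h => one_ne_zero (congrFun h 0)
  let f : D →ₗ[K] (Fin k → K) :=
    (LinearMap.applyₗ v).comp (ρ.comp Algebra.TensorProduct.includeLeft).toLinearMap
  let g : E →ₗ[K] (Fin k → K) :=
    ((LinearMap.applyₗ v).comp (ρ.comp Algebra.TensorProduct.includeRight).toLinearMap).comp
      (MulOpposite.opLinearEquiv K).toLinearMap
  have hf : ∀ x : D, f x = ρ (x ⊗ₜ 1) v := fun x => rfl
  have hg : ∀ y : E, g y = ρ (1 ⊗ₜ op y) v := fun y => rfl
  have hfinj : Function.Injective f := by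
    rw [injective_iff_map_eq_zero]
    intro x hx
    by_contra h0
    obtain ⟨w, rfl⟩ := hD x h0
    apply hv
    have h1 : ρ ((↑w⁻¹ : D) ⊗ₜ 1) (ρ ((w : D) ⊗ₜ 1) v) = v := by
      rw [← Module.End.mul_apply, ← map_mul ρ, Algebra.TensorProduct.tmul_mul_tmul, w.inv_mul,
        mul_one, ← Algebra.TensorProduct.one_def, map_one, Module.End.one_apply]
    rw [← h1, ← hf, hx, map_zero]
  have hginj : Function.Injective g := by
    rw [injective_iff_map_eq_zero]
    intro x hx
    by_contra h0
    obtain ⟨w, rfl⟩ := hE x h0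
    apply hv
    have h1 : ρ ((1 : D) ⊗ₜ op (↑w⁻¹ : E)) (ρ (1 ⊗ₜ op (w : E)) v) = v := by
      rw [← Module.End.mul_apply, ← map_mul ρ, Algebra.TensorProduct.tmul_mul_tmul, ← op_mul,
        w.mul_inv, mul_one, op_one, ← Algebra.TensorProduct.one_def, map_one, Module.End.one_apply]
    rw [← h1, ← hg, hx, map_zero]
  have hdimV : Module.finrank K (Fin k → K) = k := by
    rw [Module.finrank_fintype_fun_eq_card, Fintype.card_fin]
  have hD' : Module.finrank K D ≤ k := hdimV ▸ LinearMap.finrank_le_finrank_of_injective hfinj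
  have hE' : Module.finrank K E ≤ k := hdimV ▸ LinearMap.finrank_le_finrank_of_injective hginj
  have hmul : Module.finrank K D * Module.finrank K E = k * k := by
    have h := e.toLinearEquiv.finrank_eq
    rw [Module.finrank_tensorProduct, Module.finrank_matrix, Fintype.card_fin, Module.finrank_self,
      mul_one, (MulOpposite.opLinearEquiv K (M := E)).symm.finrank_eq] at h
    exact h
  have hkpos : 0 < k := Nat.pos_of_ne_zero hk
  have hdD : Module.finrank K D = k := by
    refine le_antisymm hD' ?_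
    by_contra hlt
    push Not at hlt
    have : Module.finrank K D * Module.finrank K E < k * k :=
      Nat.mul_lt_mul_of_lt_of_le hlt hE' hkpos
    omega
  have hdE : Module.finrank K E = k := by
    rw [hdD] at hmul
    exact Nat.eq_of_mul_eq_mul_left hkpos hmul
  have hfsurj : Function.Surjective f :=
    (LinearMap.injective_iff_surjective_of_finrank_eq_finrank (by rw [hdD, hdimV])).mp hfinj
  have hgsurj : Function.Surjective g :=
    (LinearMap.injective_iff_surjective_of_finrank_eq_finrank (by rw [hdE, hdimV])).mp hginj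
  let f' : D ≃ₗ[K] (Fin k → K) := LinearEquiv.ofBijective f ⟨hfinj, hfsurj⟩
  let g' : E ≃ₗ[K] (Fin k → K) := LinearEquiv.ofBijective g ⟨hginj, hgsurj⟩
  let φ : E ≃ₗ[K] D := g'.trans f'.symm
  have hφ : ∀ y, f (φ y) = g y := fun y => f'.apply_symm_apply (g y)
  refine ⟨AlgEquiv.ofLinearEquiv φ ?_ ?_⟩
  · apply hfinj
    rw [hφ, hf, hg, op_one]
  · intro y y'
    apply hfinj
    have h1 : f (φ y * φ y') = ρ (φ y ⊗ₜ 1) (f (φ y')) := by
      rw [hf, hf, ← Module.End.mul_apply, ← map_mul ρ, Algebra.TensorProduct.tmul_mul_tmul, mul_one]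
    have h2 : ρ (φ y ⊗ₜ 1) (g y') = ρ (1 ⊗ₜ op y') (f (φ y)) := by
      rw [hf, hg, ← Module.End.mul_apply, ← Module.End.mul_apply, ← map_mul ρ, ← map_mul ρ,
        Algebra.TensorProduct.tmul_mul_tmul, Algebra.TensorProduct.tmul_mul_tmul, mul_one, mul_one,
        one_mul, one_mul]
    rw [hφ, h1, hφ, h2, hφ, hg, hg, ← Module.End.mul_apply, ← map_mul ρ,
      Algebra.TensorProduct.tmul_mul_tmul, one_mul, ← op_mul]

/-- **Two division algebras in the same Brauer class are isomorphic.** -/
theorem equiv_of_division {D E : CSA.{u, u} K} (hD : IsDivision D) (hE : IsDivision E)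
    (h : brauerMk D = brauerMk E) : Nonempty (D ≃ₐ[K] E) := by
  have h1 : brauerMk E * (brauerMk D)⁻¹ = 1 := by rw [h, mul_inv_cancel]
  rw [brauerMk_inv, brauerMk_mul, brauerMk_eq_one_iff] at h1
  obtain ⟨k, hk, ⟨e⟩⟩ := h1
  exact equiv_of_tensor_op (D := E) (E := D) hE hD hk e

/-- **Uniqueness in Wedderburn's theorem** for central simple algebras. -/
theorem equiv_of_matrix_division {D E : CSA.{u, u} K} (hD : IsDivision D) (hE : IsDivision E)
    {n m : ℕ} (hn : n ≠ 0) (hm : m ≠ 0)
    (e : Matrix (Fin n) (Fin n) D ≃ₐ[K] Matrix (Fin m) (Fin m) E) :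
    n = m ∧ Nonempty (D ≃ₐ[K] E) := by
  obtain ⟨f⟩ := equiv_of_division hD hE (brauerMk_eq_iff.mpr ⟨n, m, hn, hm, ⟨e⟩⟩)
  refine ⟨?_, ⟨f⟩⟩
  have h := e.toLinearEquiv.finrank_eq
  rw [Module.finrank_matrix, Module.finrank_matrix, Fintype.card_fin, Fintype.card_fin,
    f.toLinearEquiv.finrank_eq] at h
  have h1 : 0 < Module.finrank K E := Module.finrank_pos
  exact Nat.mul_self_inj.mp (Nat.eq_of_mul_eq_mul_right h1 h)

/-- **Two equivalent central simple algebras of the same dimension are isomorphic.** -/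
theorem equiv_of_finrank_eq {A B : CSA.{u, u} K} (h : brauerMk A = brauerMk B)
    (hdim : Module.finrank K A = Module.finrank K B) : Nonempty (A ≃ₐ[K] B) := by
  obtain ⟨D, n, hn, hD, hAD, ⟨e⟩⟩ := exists_matrix_division A
  obtain ⟨E, m, hm, hE, hBE, ⟨f⟩⟩ := exists_matrix_division B
  obtain ⟨g⟩ := equiv_of_division hD hE (hAD.symm.trans (h.trans hBE))
  rw [e.toLinearEquiv.finrank_eq, f.toLinearEquiv.finrank_eq, Module.finrank_matrix,
    Module.finrank_matrix, Fintype.card_fin, Fintype.card_fin, g.toLinearEquiv.finrank_eq] at hdim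
  have h1 : 0 < Module.finrank K E := Module.finrank_pos
  obtain rfl := Nat.mul_self_inj.mp (Nat.eq_of_mul_eq_mul_right h1 hdim)
  exact ⟨(e.trans g.mapMatrix).trans f.symm⟩

/-- The isomorphism relation on the central division algebras. -/
def divisionSetoid (K : Type u) [Field K] : Setoid {D : CSA.{u, u} K // IsDivision D} where
  r D E := Nonempty (D.1 ≃ₐ[K] E.1)
  iseqv := ⟨fun _ => ⟨AlgEquiv.refl⟩, fun ⟨e⟩ => ⟨e.symm⟩, fun ⟨e⟩ ⟨f⟩ => ⟨e.trans f⟩⟩

/-- **The Brauer group classifies the finite-dimensional central division algebras.** -/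
noncomputable def brauerEquivDivision (K : Type u) [Field K] :
    Quotient (divisionSetoid K) ≃ BrauerGroup.{u, u} K :=
  Equiv.ofBijective
    (Quotient.lift (fun D => brauerMk D.1) fun _ _ ⟨e⟩ => brauerMk_eq_of_equiv e) <| by
  constructor
  · intro x y
    induction x, y using Quotient.inductionOn₂ with
    | _ D E => exact fun h => Quotient.sound (equiv_of_division D.2 E.2 h)
  · intro x
    obtain ⟨D, hD, rfl⟩ := exists_division x
    exact ⟨Quotient.mk _ ⟨D, hD⟩, rfl⟩

theorem brauerEquivDivision_mk (D : {D : CSA.{u, u} K // IsDivision D}) :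
    brauerEquivDivision K (Quotient.mk _ D) = brauerMk D.1 := rfl

/-- **The dimension of a central simple algebra is a square.** -/
theorem exists_sq_finrank (A : Type v) [Ring A] [Algebra K A] [Algebra.IsCentral K A]
    [IsSimpleRing A] [FiniteDimensional K A] : ∃ n : ℕ, Module.finrank K A = n ^ 2 := by
  have h1 : IsSimpleRing (A ⊗[K] AlgebraicClosure K) := isSimpleRing_tensor _
  have h2 : IsSimpleRing (AlgebraicClosure K ⊗[K] A) :=
    IsSimpleRing.of_ringEquiv
      (Algebra.TensorProduct.comm K A (AlgebraicClosure K)).toRingEquiv h1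
  obtain ⟨n, _, ⟨e⟩⟩ := IsSimpleRing.exists_algEquiv_matrix_of_isAlgClosed (AlgebraicClosure K)
    (AlgebraicClosure K ⊗[K] A)
  refine ⟨n, ?_⟩
  have h := e.toLinearEquiv.finrank_eq
  rw [Module.finrank_baseChange, Module.finrank_matrix, Fintype.card_fin, Module.finrank_self,
    mul_one] at h
  rw [h, pow_two]

end General

end Fermat.Agent.Cor.QA
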