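import Fermat.Agent.Corollaries.QA.Basic

/-!
# Frobenius' theorem on real division algebras

* `frobenius` (Frobenius 1877): every finite-dimensional division algebra over `ℝ` is isomorphic to
  `ℝ`, `ℂ` or Hamilton's quaternions `ℍ[ℝ]`;
* `simple_real`: every finite-dimensional simple algebra over `ℝ` is isomorphic to `Mₙ(ℝ)`, `Mₙ(ℂ)` or
  `Mₙ(ℍ[ℝ])`.
-/

set_option autoImplicit false

open Quaternion Polynomial

namespace Fermat.Agent.Cor.QA

section Division

variable {D : Type*} [DivisionRing D] [Algebra ℝ D]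

/-- Every element is a root of a quadratic polynomial. -/
lemma exists_quadratic [Module.Finite ℝ D] (x : D) :
    ∃ s t : ℝ, x * x = algebraMap ℝ D s + algebraMap ℝ D t * x := by
  have hint : IsIntegral ℝ x := Algebra.IsIntegral.isIntegral x
  have hirr := minpoly.irreducible hint
  have h0 := minpoly.aeval ℝ x
  have hne := minpoly.ne_zero hint
  have h1 := eq_quadratic_of_degree_le_two hirr.degree_le_two
  set c₂ := (minpoly ℝ x).coeff 2
  set c₁ := (minpoly ℝ x).coeff 1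
  set c₀ := (minpoly ℝ x).coeff 0
  rw [h1] at h0
  simp only [map_add, map_mul, map_pow, aeval_X, aeval_C] at h0
  by_cases h2 : c₂ = 0
  · rw [h2, map_zero, zero_mul, zero_add] at h0
    by_cases h3 : c₁ = 0
    · exfalso
      rw [h3, map_zero, zero_mul, zero_add, map_eq_zero] at h0
      apply hne
      rw [h1, h2, h3, h0]
      simp
    · have h4 : x = algebraMap ℝ D (-c₀ / c₁) := by
        have h5 : algebraMap ℝ D c₁ ≠ 0 := (_root_.map_ne_zero _).mpr h3
        apply mul_left_cancel₀ h5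
        rw [← map_mul, mul_div_cancel₀ _ h3, map_neg]
        exact eq_neg_of_add_eq_zero_left h0
      exact ⟨(-c₀ / c₁) * (-c₀ / c₁), 0, by rw [map_zero, zero_mul, add_zero, map_mul, ← h4]⟩
  · refine ⟨-c₀ / c₂, -c₁ / c₂, ?_⟩
    have h5 : algebraMap ℝ D c₂ ≠ 0 := (_root_.map_ne_zero _).mpr h2
    apply mul_left_cancel₀ h5
    rw [mul_add, ← map_mul, mul_div_cancel₀ _ h2,
      ← mul_assoc (algebraMap ℝ D c₂) (algebraMap ℝ D (-c₁ / c₂)) x, ← map_mul,
      mul_div_cancel₀ _ h2, map_neg, map_neg, ← sq]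
    have h6 : algebraMap ℝ D c₂ * x ^ 2 = -(algebraMap ℝ D c₁ * x + algebraMap ℝ D c₀) := by
      rw [eq_neg_iff_add_eq_zero, ← add_assoc]
      exact h0
    rw [h6, neg_add, neg_mul, add_comm]

/-- Elements outside `ℝ` are of the form `α + β i` with `i ^ 2 = -1`. -/
lemma exists_sq_neg_one [Module.Finite ℝ D] {x : D} (hx : ∀ c : ℝ, x ≠ algebraMap ℝ D c) :
    ∃ (α β : ℝ) (i : D), β ≠ 0 ∧ i * i = -1 ∧ x = algebraMap ℝ D α + algebraMap ℝ D β * i := by
  obtain ⟨s, t, hst⟩ := exists_quadratic x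
  set u : D := x - algebraMap ℝ D (t / 2) with hu
  set a : ℝ := s + (t / 2) * (t / 2) with ha
  have huu : u * u = algebraMap ℝ D a := by
    have hc := Algebra.commutes (t / 2) x
    have h5 : algebraMap ℝ D t = algebraMap ℝ D (t / 2) + algebraMap ℝ D (t / 2) := by
      rw [← map_add]
      congr 1
      ring
    rw [hu, ha, sub_mul, mul_sub, mul_sub, hst, map_add, map_mul, ← hc, h5, add_mul]
    abel
  have hxu : x = algebraMap ℝ D (t / 2) + u := by
    rw [hu, add_sub_cancel]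
  clear_value u a
  have hneg : a < 0 := by
    by_contra hcon
    have h1 : 0 ≤ a := not_lt.mp hcon
    have h2 : (u - algebraMap ℝ D (√a)) * (u + algebraMap ℝ D (√a)) = 0 := by
      rw [sub_mul, mul_add, mul_add, huu, ← Algebra.commutes (√a) u, ← map_mul,
        Real.mul_self_sqrt h1]
      abel
    rcases mul_eq_zero.mp h2 with h | h
    · apply hx (t / 2 + √a)
      rw [hxu, map_add, sub_eq_zero.mp h]
    · apply hx (t / 2 - √a)
      rw [hxu, map_sub, eq_neg_of_add_eq_zero_left h, sub_eq_add_neg]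
  have hβ : √(-a) ≠ 0 := (Real.sqrt_pos.mpr (neg_pos.mpr hneg)).ne'
  refine ⟨t / 2, √(-a), algebraMap ℝ D (√(-a))⁻¹ * u, hβ, ?_, ?_⟩
  · have h1 : algebraMap ℝ D (√(-a))⁻¹ * u * (algebraMap ℝ D (√(-a))⁻¹ * u) =
        algebraMap ℝ D ((√(-a))⁻¹ * (√(-a))⁻¹ * a) := by
      rw [map_mul, map_mul, ← huu, mul_assoc _ u, ← mul_assoc u, ← Algebra.commutes _ u]
      simp only [mul_assoc]
    have h2 : (√(-a))⁻¹ * (√(-a))⁻¹ * a = -1 := by
      rw [← mul_inv, Real.mul_self_sqrt (neg_pos.mpr hneg).le, inv_neg, neg_mul,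
        inv_mul_cancel₀ hneg.ne]
    rw [h1, h2, map_neg, map_one]
  · rw [← mul_assoc, ← map_mul, mul_inv_cancel₀ hβ, map_one, one_mul, hxu]

/-- The centralizer of `i` is `ℝ + ℝ i`. -/
lemma exists_of_commute_real [Module.Finite ℝ D] {i y : D} (hi : i * i = -1) (h : i * y = y * i) :
    ∃ α β : ℝ, y = algebraMap ℝ D α + algebraMap ℝ D β * i := by
  by_cases hy : ∃ c : ℝ, y = algebraMap ℝ D c
  · obtain ⟨c, hc⟩ := hy
    exact ⟨c, 0, by rw [map_zero, zero_mul, add_zero, hc]⟩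
  push Not at hy
  obtain ⟨α, β, j, hβ, hj, hyj⟩ := exists_sq_neg_one hy
  have hij : i * j = j * i := by
    rw [hyj, mul_add, add_mul, ← Algebra.commutes α i, add_right_inj, ← mul_assoc,
      ← Algebra.commutes β i, mul_assoc, mul_assoc] at h
    exact mul_left_cancel₀ ((_root_.map_ne_zero (algebraMap ℝ D)).mpr hβ) h
  have h1 : (i - j) * (i + j) = 0 := by
    rw [sub_mul, mul_add, mul_add, hi, hj, hij]
    abel
  rcases mul_eq_zero.mp h1 with h2 | h2
  · exact ⟨α, β, by rw [hyj, sub_eq_zero.mp h2]⟩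
  · refine ⟨α, -β, ?_⟩
    rw [hyj, eq_neg_of_add_eq_zero_right h2, map_neg, mul_neg, neg_mul]

/-- **Frobenius' theorem**: a finite-dimensional division algebra over `ℝ` is isomorphic to `ℝ`, `ℂ`
or Hamilton's quaternions. -/
theorem frobenius (D : Type*) [DivisionRing D] [Algebra ℝ D] [Module.Finite ℝ D] :
    Nonempty (D ≃ₐ[ℝ] ℝ) ∨ Nonempty (D ≃ₐ[ℝ] ℂ) ∨ Nonempty (D ≃ₐ[ℝ] ℍ[ℝ]) := by
  by_cases hR : ∀ x : D, ∃ c : ℝ, x = algebraMap ℝ D c
  · left
    have hbij : Function.Bijective (algebraMap ℝ D) :=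
      ⟨(algebraMap ℝ D).injective, fun x => by
        obtain ⟨c, hc⟩ := hR x
        exact ⟨c, hc.symm⟩⟩
    exact ⟨(AlgEquiv.ofBijective (Algebra.ofId ℝ D) hbij).symm⟩
  right
  push Not at hR
  obtain ⟨x, hx⟩ := hR
  obtain ⟨-, -, i, -, hi, -⟩ := exists_sq_neg_one hx
  by_cases hC : ∀ y : D, i * y = y * i
  · left
    let f : ℂ →ₐ[ℝ] D := Complex.liftAux i hi
    have hbij : Function.Bijective f :=
      ⟨(f : ℂ →+* D).injective, fun y => by
        obtain ⟨α, β, hy⟩ := exists_of_commute_real hi (hC y)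
        exact ⟨⟨α, β⟩, by
          change algebraMap ℝ D α + β • i = y
          rw [hy, Algebra.smul_def]⟩⟩
    exact ⟨(AlgEquiv.ofBijective f hbij).symm⟩
  right
  push Not at hC
  obtain ⟨y, hy⟩ := hC
  have hi0 : i ≠ 0 := by
    rintro rfl
    rw [zero_mul] at hi
    exact one_ne_zero (neg_eq_zero.mp hi.symm)
  have h2D : (2 : D) ≠ 0 := by
    rw [← map_ofNat (algebraMap ℝ D) 2]
    exact (_root_.map_ne_zero _).mpr two_ne_zero
  -- an anticommuting element
  set u : D := i * y - y * i with hu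
  have hu0 : u ≠ 0 := sub_ne_zero.mpr hy
  have hui : u * i = -(i * u) := by
    rw [hu, sub_mul, mul_sub, mul_assoc y, hi, ← mul_assoc i i y, hi, mul_assoc i y i]
    simp
  clear_value u
  have huu : i * (u * u) = u * u * i := by
    rw [mul_assoc u u i, hui, mul_neg, ← mul_assoc u i u, hui, neg_mul, neg_neg, mul_assoc]
  obtain ⟨s, t, hst⟩ := exists_of_commute_real hi huu
  have ht : t = 0 := by
    have h1 : u * (u * u) = u * u * u := (mul_assoc _ _ _).symm
    rw [hst, mul_add, add_mul, ← Algebra.commutes s u, add_right_inj, ← mul_assoc,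
      ← Algebra.commutes t u, mul_assoc, mul_assoc, hui, mul_neg, neg_eq_iff_add_eq_zero,
      ← two_mul] at h1
    have h3 : algebraMap ℝ D t * (i * u) = 0 := (mul_eq_zero.mp h1).resolve_left h2D
    exact (map_eq_zero _).mp ((mul_eq_zero.mp h3).resolve_right (mul_ne_zero hi0 hu0))
  rw [ht, map_zero, zero_mul, add_zero] at hst
  -- `u ^ 2 < 0`
  have hs : s < 0 := by
    by_contra hcon
    have h1 : 0 ≤ s := not_lt.mp hcon
    have h2 : (u - algebraMap ℝ D (√s)) * (u + algebraMap ℝ D (√s)) = 0 := by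
      rw [sub_mul, mul_add, mul_add, hst, ← Algebra.commutes (√s) u, ← map_mul,
        Real.mul_self_sqrt h1]
      abel
    have h3 : ∃ c : ℝ, u = algebraMap ℝ D c := by
      rcases mul_eq_zero.mp h2 with h | h
      · exact ⟨_, sub_eq_zero.mp h⟩
      · exact ⟨-√s, by rw [map_neg]; exact eq_neg_of_add_eq_zero_left h⟩
    obtain ⟨c, hc⟩ := h3
    rw [hc, ← Algebra.commutes c i, eq_neg_iff_add_eq_zero, ← two_mul, ← hc] at hui
    exact mul_ne_zero h2D (mul_ne_zero hu0 hi0) hui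
  have hβ : √(-s) ≠ 0 := (Real.sqrt_pos.mpr (neg_pos.mpr hs)).ne'
  set j : D := algebraMap ℝ D (√(-s))⁻¹ * u with hj
  have hji : j * i = -(i * j) := by
    rw [hj, mul_assoc, hui, mul_neg, ← mul_assoc, Algebra.commutes, mul_assoc]
  have hjj : j * j = -1 := by
    have h1 : j * j = algebraMap ℝ D ((√(-s))⁻¹ * (√(-s))⁻¹ * s) := by
      rw [hj, map_mul, map_mul, ← hst, mul_assoc _ u, ← mul_assoc u, ← Algebra.commutes _ u]
      simp only [mul_assoc]
    have h2 : (√(-s))⁻¹ * (√(-s))⁻¹ * s = -1 := by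
      rw [← mul_inv, Real.mul_self_sqrt (neg_pos.mpr hs).le, inv_neg, neg_mul,
        inv_mul_cancel₀ hs.ne]
    rw [h1, h2, map_neg, map_one]
  clear_value j
  have hi' : i * i = algebraMap ℝ D (-1) := by rw [hi, map_neg, map_one]
  have hj' : j * j = algebraMap ℝ D (-1) := by rw [hjj, map_neg, map_one]
  let f : ℍ[ℝ,(-1 : ℝ),(-1 : ℝ)] →ₐ[ℝ] D := (mkBasis i j hi' hj' hji).liftHom
  have hf : ∀ a b c d : ℝ, f ⟨a, b, c, d⟩ =
      algebraMap ℝ D a + b • i + c • j + d • (i * j) := fun a b c d => rfl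
  have hinj : Function.Injective f := injective_hom two_ne_zero (by norm_num) (by norm_num) f
  have hsurj : Function.Surjective f := by
    intro z
    -- `z - i z i` commutes with `i`, `z + i z i` anticommutes with `i`
    have h1 : i * (z - i * z * i) = (z - i * z * i) * i := by
      have e1 : i * (i * z * i) = -(z * i) := by
        rw [mul_assoc, ← mul_assoc i i, hi, neg_mul, one_mul]
      have e2 : i * z * i * i = -(i * z) := by
        rw [mul_assoc (i * z), hi, mul_neg, mul_one]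
      rw [mul_sub, sub_mul, e1, e2]
      abel
    have h2 : i * (z + i * z * i) = -((z + i * z * i) * i) := by
      have e1 : i * (i * z * i) = -(z * i) := by
        rw [mul_assoc, ← mul_assoc i i, hi, neg_mul, one_mul]
      have e2 : i * z * i * i = -(i * z) := by
        rw [mul_assoc (i * z), hi, mul_neg, mul_one]
      rw [mul_add, add_mul, e1, e2]
      abel
    obtain ⟨α, β, h3⟩ := exists_of_commute_real hi h1
    have h4 : i * ((z + i * z * i) * j) = (z + i * z * i) * j * i := by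
      rw [← mul_assoc, h2, mul_assoc _ j i, hji, mul_neg, ← mul_assoc, neg_mul]
    obtain ⟨γ, δ, h5⟩ := exists_of_commute_real hi h4
    have h6 : z + i * z * i = -((algebraMap ℝ D γ + algebraMap ℝ D δ * i) * j) := by
      rw [← h5, mul_assoc _ j j, hjj, mul_neg, mul_one, neg_neg]
    refine ⟨⟨α / 2, β / 2, -γ / 2, -δ / 2⟩, ?_⟩
    apply mul_left_cancel₀ h2D
    have h7 : 2 * z = (z - i * z * i) + (z + i * z * i) := by
      rw [two_mul]
      abel
    rw [h7, h3, h6, hf]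
    have h8 : (2 : D) = algebraMap ℝ D 2 := (map_ofNat (algebraMap ℝ D) 2).symm
    rw [h8]
    simp only [Algebra.smul_def, mul_add, ← mul_assoc, ← map_mul]
    have e1 : (2 : ℝ) * (α / 2) = α := by ring
    have e2 : (2 : ℝ) * (β / 2) = β := by ring
    have e3 : (2 : ℝ) * (-γ / 2) = -γ := by ring
    have e4 : (2 : ℝ) * (-δ / 2) = -δ := by ring
    rw [e1, e2, e3, e4, map_neg, map_neg, add_mul, neg_add, neg_mul, neg_mul, neg_mul]
    abel
  exact ⟨(AlgEquiv.ofBijective f ⟨hinj, hsurj⟩).symm⟩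

end Division

/-- A finite-dimensional commutative division algebra over `ℝ` is `ℝ` or `ℂ`. -/
theorem frobenius_comm (F : Type*) [Field F] [Algebra ℝ F] [Module.Finite ℝ F] :
    Nonempty (F ≃ₐ[ℝ] ℝ) ∨ Nonempty (F ≃ₐ[ℝ] ℂ) := by
  rcases frobenius F with h | h | ⟨⟨e⟩⟩
  · exact Or.inl h
  · exact Or.inr h
  · exfalso
    have h1 : ∀ x y : ℍ[ℝ], x * y = y * x := fun x y => e.symm.injective (by
      rw [map_mul, map_mul, mul_comm])
    have h2 := congrArg QuaternionAlgebra.imK (h1 ⟨0, 1, 0, 0⟩ ⟨0, 0, 1, 0⟩)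
    simp at h2
    linarith

/-- The dimension of a finite-dimensional division algebra over `ℝ` is `1`, `2` or `4`. -/
theorem finrank_division_real (D : Type*) [DivisionRing D] [Algebra ℝ D] [Module.Finite ℝ D] :
    Module.finrank ℝ D = 1 ∨ Module.finrank ℝ D = 2 ∨ Module.finrank ℝ D = 4 := by
  rcases frobenius D with ⟨⟨e⟩⟩ | ⟨⟨e⟩⟩ | ⟨⟨e⟩⟩
  · left
    rw [e.toLinearEquiv.finrank_eq, Module.finrank_self]
  · right
    left
    rw [e.toLinearEquiv.finrank_eq, Complex.finrank_real_complex]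
  · right
    right
    rw [e.toLinearEquiv.finrank_eq]
    exact QuaternionAlgebra.finrank_eq_four ..

/-- A finite-dimensional division algebra over `ℝ` with centre `ℝ` is `ℝ` or `ℍ[ℝ]`. -/
theorem frobenius_central (D : Type*) [DivisionRing D] [Algebra ℝ D] [Module.Finite ℝ D]
    [Algebra.IsCentral ℝ D] : Nonempty (D ≃ₐ[ℝ] ℝ) ∨ Nonempty (D ≃ₐ[ℝ] ℍ[ℝ]) := by
  rcases frobenius D with h | ⟨⟨e⟩⟩ | h
  · exact Or.inl h
  · exfalso
    have h1 : e.symm Complex.I ∈ Subalgebra.center ℝ D := by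
      rw [Subalgebra.mem_center_iff]
      intro b
      apply e.injective
      rw [map_mul, map_mul, mul_comm]
    obtain ⟨c, hc⟩ := (Algebra.IsCentral.mem_center_iff ℝ).mp h1
    have h2 : Complex.I = algebraMap ℝ ℂ c := by
      rw [← AlgEquiv.commutes e, ← hc, AlgEquiv.apply_symm_apply]
    have h3 := congrArg Complex.im h2
    simp at h3
  · exact Or.inr h

/-- **Simple algebras over `ℝ`**: every finite-dimensional simple `ℝ`-algebra is a matrix algebra over
`ℝ`, `ℂ` or `ℍ[ℝ]`. -/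
theorem simple_real (A : Type*) [Ring A] [Algebra ℝ A] [Module.Finite ℝ A] [IsSimpleRing A] :
    ∃ n : ℕ, n ≠ 0 ∧ (Nonempty (A ≃ₐ[ℝ] Matrix (Fin n) (Fin n) ℝ) ∨
      Nonempty (A ≃ₐ[ℝ] Matrix (Fin n) (Fin n) ℂ) ∨
      Nonempty (A ≃ₐ[ℝ] Matrix (Fin n) (Fin n) ℍ[ℝ])) := by
  have hart : IsArtinianRing A := IsArtinianRing.of_finite ℝ A
  obtain ⟨n, hn, D, _, _, _, ⟨e⟩⟩ := IsSimpleRing.exists_algEquiv_matrix_divisionRing_finite ℝ A
  refine ⟨n, hn.out, ?_⟩
  rcases frobenius D with ⟨⟨f⟩⟩ | ⟨⟨f⟩⟩ | ⟨⟨f⟩⟩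
  · exact Or.inl ⟨e.trans f.mapMatrix⟩
  · exact Or.inr (Or.inl ⟨e.trans f.mapMatrix⟩)
  · exact Or.inr (Or.inr ⟨e.trans f.mapMatrix⟩)

end Fermat.Agent.Cor.QA
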