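import Fermat.Agent.Corollaries.QA.TensorNF
import Fermat.Agent.Corollaries.QA.Frobenius
import Fermat.Agent.Corollaries.QA.Level
import Mathlib.Algebra.BrauerGroup.Defs
import Mathlib.RingTheory.LittleWedderburn

/-!
# Brauer groups

`BrauerGroup K` is Mathlib's set of the classes of the finite-dimensional central simple algebras
over the field `K`.

* `subsingleton_brauerGroup_of_isAlgClosed`, `subsingleton_brauerGroup_of_finite`: the Brauer group
  of an algebraically closed field and of a finite field is trivial;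
* `card_brauerGroup_real`: `BrauerGroup ℝ` has exactly two elements;
* `quatClass_eq_iff`: the classes of `ℍ[F,a,b]` and `ℍ[F,c,d]` in the Brauer group are equal iff the
  algebras are isomorphic (`2 ≠ 0`);
* `evenClass_injective`: for a number field `K` the finite sets of finite and real places of even
  cardinality inject into `BrauerGroup K`; `infinite_brauerGroup`.
-/

set_option autoImplicit false

open Quaternion

namespace Fermat.Agent.Cor.QA

universe u v

section General

variable {K : Type u} [Field K]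

/-- Matrix algebras over the same algebra are Brauer equivalent. -/
theorem brauerEquivalent_of_matrix (A B : CSA.{u, v} K) {D : Type*} [Ring D] [Algebra K D]
    {n m : ℕ} (hn : n ≠ 0) (hm : m ≠ 0) (eA : A ≃ₐ[K] Matrix (Fin n) (Fin n) D)
    (eB : B ≃ₐ[K] Matrix (Fin m) (Fin m) D) : IsBrauerEquivalent A B :=
  ⟨m, n, hm, hn, ⟨eA.mapMatrix.trans ((Matrix.compAlgEquiv (Fin m) (Fin n) D K).trans
    ((Matrix.reindexAlgEquiv K D (Equiv.prodComm (Fin m) (Fin n))).trans
      ((Matrix.compAlgEquiv (Fin n) (Fin m) D K).symm.trans eB.symm.mapMatrix)))⟩⟩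

/-- If `A ≃ Mₙ(D)` is central then so is `D`. -/
theorem isCentral_of_matrix {A : Type*} [Ring A] [Algebra K A] [Algebra.IsCentral K A] {D : Type*}
    [Ring D] [Algebra K D] {n : ℕ} (hn : n ≠ 0) (e : A ≃ₐ[K] Matrix (Fin n) (Fin n) D) :
    Algebra.IsCentral K D := by
  refine ⟨fun z hz => ?_⟩
  rw [Subalgebra.mem_center_iff] at hz
  have h1 : e.symm (Matrix.scalar (Fin n) z) ∈ Subalgebra.center K A := by
    rw [Subalgebra.mem_center_iff]
    intro x
    apply e.injective
    rw [map_mul, map_mul, AlgEquiv.apply_symm_apply]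
    exact (Matrix.scalar_commute z (fun r => (hz r).symm) (e x)).symm
  rw [Algebra.IsCentral.center_eq_bot, Algebra.mem_bot] at h1
  obtain ⟨c, hc⟩ := h1
  rw [Algebra.mem_bot]
  refine ⟨c, ?_⟩
  have h3 := congrArg e hc
  rw [AlgEquiv.commutes, AlgEquiv.apply_symm_apply] at h3
  have h4 := congrFun (congrFun h3 ⟨0, Nat.pos_of_ne_zero hn⟩) ⟨0, Nat.pos_of_ne_zero hn⟩
  rw [Matrix.algebraMap_matrix_apply, if_pos rfl] at h4
  simpa using h4

/-- `A ≃ M₁(A)`. -/
theorem exists_equiv_matrix_one (A : Type*) [Ring A] [Algebra K A] :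
    Nonempty (A ≃ₐ[K] Matrix (Fin 1) (Fin 1) A) := by
  refine ⟨AlgEquiv.ofBijective (Matrix.scalarAlgHom (Fin 1) K)
    ⟨fun x y h => ?_, fun M => ⟨M 0 0, ?_⟩⟩⟩
  · have h1 := congrFun (congrFun h 0) 0
    simpa [Matrix.scalarAlgHom_apply] using h1
  · ext i j
    obtain rfl := Subsingleton.elim i 0
    obtain rfl := Subsingleton.elim j 0
    simp [Matrix.scalarAlgHom_apply]

/-- **The Brauer group of an algebraically closed field is trivial.** -/
theorem subsingleton_brauerGroup_of_isAlgClosed [IsAlgClosed K] :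
    Subsingleton (BrauerGroup.{u, v} K) := by
  refine ⟨fun x y => ?_⟩
  induction x, y using Quotient.inductionOn₂ with
  | _ A B =>
    obtain ⟨n, hn, ⟨eA⟩⟩ := IsSimpleRing.exists_algEquiv_matrix_of_isAlgClosed K A
    obtain ⟨m, hm, ⟨eB⟩⟩ := IsSimpleRing.exists_algEquiv_matrix_of_isAlgClosed K B
    exact Quotient.sound (brauerEquivalent_of_matrix A B hn.out hm.out eA eB)

/-- A central simple algebra over a finite field is a matrix algebra. -/
theorem exists_matrix_of_finite [Finite K] (A : CSA.{u, v} K) :
    ∃ n : ℕ, n ≠ 0 ∧ Nonempty (A ≃ₐ[K] Matrix (Fin n) (Fin n) K) := by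
  have hart : IsArtinianRing A := IsArtinianRing.of_finite K A
  obtain ⟨n, hn, D, _, _, _, ⟨e⟩⟩ := IsSimpleRing.exists_algEquiv_matrix_divisionRing_finite K A
  have hcen : Algebra.IsCentral K D := isCentral_of_matrix hn.out e
  have hfin : Finite D := Module.finite_of_finite K
  have hfield : IsField D := Finite.isDomain_to_isField D
  have hbij : Function.Bijective (Algebra.ofId K D) := by
    refine ⟨(algebraMap K D).injective, fun x => ?_⟩
    have h1 : x ∈ Subalgebra.center K D := by
      rw [Subalgebra.mem_center_iff]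
      exact fun y => hfield.mul_comm y x
    rw [Algebra.IsCentral.center_eq_bot, Algebra.mem_bot] at h1
    exact h1
  exact ⟨n, hn.out, ⟨e.trans (AlgEquiv.ofBijective _ hbij).symm.mapMatrix⟩⟩

/-- **The Brauer group of a finite field is trivial** (Wedderburn). -/
theorem subsingleton_brauerGroup_of_finite [Finite K] : Subsingleton (BrauerGroup.{u, v} K) := by
  refine ⟨fun x y => ?_⟩
  induction x, y using Quotient.inductionOn₂ with
  | _ A B =>
    obtain ⟨n, hn, ⟨eA⟩⟩ := exists_matrix_of_finite A
    obtain ⟨m, hm, ⟨eB⟩⟩ := exists_matrix_of_finite B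
    exact Quotient.sound (brauerEquivalent_of_matrix A B hn hm eA eB)

/-- A central simple algebra as an element of `CSA K`. -/
def mkCSA (K : Type u) [Field K] (A : Type v) [Ring A] [Algebra K A] [Algebra.IsCentral K A]
    [IsSimpleRing A] [FiniteDimensional K A] : CSA.{u, v} K where
  toAlgCat := AlgCat.of K A
  isCentral := ‹Algebra.IsCentral K A›
  isSimple := ‹IsSimpleRing A›
  fin_dim := ‹FiniteDimensional K A›

end General

section Quat

variable {F : Type u} [Field F]

/-- The quaternion algebra `ℍ[F,a,b]` as an element of `CSA F`. -/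
def quatCSA (h2 : (2 : F) ≠ 0) (p : Fˣ × Fˣ) : CSA.{u, u} F :=
  have := isCentral_quaternion (b := (p.2 : F)) h2 p.1.ne_zero
  have := isSimpleRing_quaternion h2 p.1.ne_zero p.2.ne_zero
  mkCSA F ℍ[F,(p.1 : F),(p.2 : F)]

/-- The class of `ℍ[F,a,b]` in the Brauer group. -/
def quatClass (h2 : (2 : F) ≠ 0) (p : Fˣ × Fˣ) : BrauerGroup.{u, u} F :=
  Quotient.mk _ (quatCSA h2 p)

/-- **Quaternion algebras have the same class in the Brauer group iff they are isomorphic.** -/
theorem quatClass_eq_iff (h2 : (2 : F) ≠ 0) (p q : Fˣ × Fˣ) :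
    quatClass h2 p = quatClass h2 q ↔
      Nonempty (ℍ[F,(p.1 : F),(p.2 : F)] ≃ₐ[F] ℍ[F,(q.1 : F),(q.2 : F)]) := by
  rw [← equiv_iff_brauer h2 p.1.ne_zero p.2.ne_zero q.1.ne_zero q.2.ne_zero, quatClass, quatClass,
    Quotient.eq]
  rfl

end Quat

section Real

instance isCentral_real_quaternion : Algebra.IsCentral ℝ ℍ[ℝ] :=
  isCentral_quaternion two_ne_zero (by norm_num)

instance isSimpleRing_real_quaternion : IsSimpleRing ℍ[ℝ] :=
  isSimpleRing_quaternion two_ne_zero (by norm_num) (by norm_num)

instance finite_real_quaternion : FiniteDimensional ℝ ℍ[ℝ] :=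
  inferInstanceAs (Module.Finite ℝ ℍ[ℝ,-1,0,-1])

/-- The class of `ℝ`. -/
noncomputable def realClass : BrauerGroup.{0, 0} ℝ := Quotient.mk _ (mkCSA ℝ ℝ)

/-- The class of Hamilton's quaternions. -/
noncomputable def hamiltonClass : BrauerGroup.{0, 0} ℝ := Quotient.mk _ (mkCSA ℝ ℍ[ℝ])

theorem realClass_ne_hamiltonClass : realClass ≠ hamiltonClass := by
  intro h
  obtain ⟨n, m, hn, hm, ⟨e⟩⟩ : IsBrauerEquivalent (mkCSA ℝ ℝ) (mkCSA ℝ ℍ[ℝ]) := Quotient.exact h
  let e' : Matrix (Fin n) (Fin n) ℝ ≃ₐ[ℝ] Matrix (Fin m) (Fin m) ℍ[ℝ] := e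
  have h1 := e'.toLinearEquiv.finrank_eq
  rw [Module.finrank_matrix, Module.finrank_matrix, Fintype.card_fin, Fintype.card_fin,
    Module.finrank_self, Quaternion.finrank_eq_four] at h1
  have h3 : m < n := by
    by_contra hle
    push Not at hle
    have h4 : n * n ≤ m * m := Nat.mul_le_mul hle hle
    have h5 : 0 < m * m := Nat.mul_pos (Nat.pos_of_ne_zero hm) (Nat.pos_of_ne_zero hm)
    omega
  exact false_of_equiv (E := ℍ[ℝ]) (fun x hx => hx.isUnit) (ι := Fin m) (κ := Fin n)
    (by simpa using h3) ⟨e'.symm⟩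

/-- **The Brauer group of `ℝ` has exactly two elements**, the classes of `ℝ` and of Hamilton's
quaternions. -/
theorem card_brauerGroup_real : Nat.card (BrauerGroup.{0, 0} ℝ) = 2 := by
  rw [Nat.card_eq_two_iff]
  refine ⟨realClass, hamiltonClass, realClass_ne_hamiltonClass, Set.eq_univ_of_forall fun x => ?_⟩
  induction x using Quotient.inductionOn with
  | _ A =>
    have hart : IsArtinianRing A := IsArtinianRing.of_finite ℝ A
    obtain ⟨n, hn, D, _, _, _, ⟨e⟩⟩ := IsSimpleRing.exists_algEquiv_matrix_divisionRing_finite ℝ A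
    have hcen : Algebra.IsCentral ℝ D := isCentral_of_matrix hn.out e
    rcases frobenius_central D with ⟨⟨f⟩⟩ | ⟨⟨f⟩⟩
    · left
      obtain ⟨g⟩ := exists_equiv_matrix_one (K := ℝ) ℝ
      exact Quotient.sound (brauerEquivalent_of_matrix A (mkCSA ℝ ℝ) hn.out one_ne_zero
        (e.trans f.mapMatrix) g)
    · right
      obtain ⟨g⟩ := exists_equiv_matrix_one (K := ℝ) ℍ[ℝ]
      exact Quotient.sound (brauerEquivalent_of_matrix A (mkCSA ℝ ℍ[ℝ]) hn.out one_ne_zero
        (e.trans f.mapMatrix) g)

end Real

section NumberField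

open NumberField IsDedekindDomain
open Fermat.Agent.Cor.HM

variable (K : Type) [Field K] [NumberField K]

/-- The class in the Brauer group of the quaternion algebra with the given ramified places. -/
noncomputable def evenClass (S : {S : Finset (PlK K) // Even S.card}) : BrauerGroup.{0, 0} K :=
  Quotient.lift (quatClass (two_ne_zero (α := K)))
    (fun p q h => (quatClass_eq_iff two_ne_zero p q).mpr h) ((quatEquiv K).symm S)

/-- **The finite sets of finite and real places of even cardinality inject into the Brauer group of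
the number field.** -/
theorem evenClass_injective : Function.Injective (evenClass K) := by
  intro S T h
  apply (quatEquiv K).symm.injective
  rw [evenClass, evenClass] at h
  revert h
  generalize (quatEquiv K).symm S = x
  generalize (quatEquiv K).symm T = y
  induction x, y using Quotient.inductionOn₂ with
  | _ p q =>
    intro h
    exact Quotient.sound ((quatClass_eq_iff two_ne_zero p q).mp h)

/-- **The Brauer group of a number field is infinite.** -/
theorem infinite_brauerGroup : Infinite (BrauerGroup.{0, 0} K) := by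
  classical
  have h1 : Infinite {S : Finset (PlK K) // Even S.card} := by
    have hinf : Infinite (HeightOneSpectrum (𝓞 K)) := infinite_places K
    have hpl : Infinite (PlK K) := Infinite.of_injective _ Sum.inl_injective
    by_contra hcon
    rw [not_infinite_iff_finite] at hcon
    have hft := Fintype.ofFinite {S : Finset (PlK K) // Even S.card}
    set U : Finset (PlK K) := Finset.univ.biUnion
      fun S : {S : Finset (PlK K) // Even S.card} => S.1 with hU
    obtain ⟨x, hx⟩ := Infinite.exists_notMem_finset U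
    obtain ⟨y, hy⟩ := Infinite.exists_notMem_finset (insert x U)
    rw [Finset.mem_insert, not_or] at hy
    have h3 : Even ({x, y} : Finset (PlK K)).card := by
      rw [Finset.card_pair (Ne.symm hy.1)]
      exact even_two
    apply hx
    rw [hU, Finset.mem_biUnion]
    exact ⟨⟨{x, y}, h3⟩, Finset.mem_univ _, Finset.mem_insert_self _ _⟩
  exact Infinite.of_injective _ (evenClass_injective K)

end NumberField

end Fermat.Agent.Cor.QA
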