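import Mathlib.Algebra.Ring.Subring.Basic
import Mathlib.Algebra.Field.Basic

/-!
# The theorem of Cartan, Brauer and Hua

`cartan_brauer_hua`: a proper division subring of a division ring which is stable under all inner
automorphisms is contained in the center.
-/

set_option autoImplicit false

namespace Fermat.Agent.Cor.QA

/-- An element outside the subring commutes with the elements of the subring. -/
theorem commute_of_notMem {D : Type*} [DivisionRing D] (K : Subring D)
    (hinv : ∀ x ∈ K, x⁻¹ ∈ K) (hnorm : ∀ a : D, a ≠ 0 → ∀ c ∈ K, a * c * a⁻¹ ∈ K)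
    {a c : D} (ha : a ∉ K) (hc : c ∈ K) : a * c = c * a := by
  have ha0 : a ≠ 0 := fun h => ha (h ▸ K.zero_mem)
  have ha1 : 1 + a ≠ 0 := by
    intro h
    apply ha
    rw [eq_neg_of_add_eq_zero_right h]
    exact K.neg_mem K.one_mem
  have h1 := hnorm a ha0 c hc
  have h2 := hnorm (1 + a) ha1 c hc
  set c₁ := a * c * a⁻¹ with hc₁
  set c₂ := (1 + a) * c * (1 + a)⁻¹ with hc₂
  have e1 : a * c = c₁ * a := by
    rw [hc₁, mul_assoc, inv_mul_cancel₀ ha0, mul_one]
  have e2 : (1 + a) * c = c₂ * (1 + a) := by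
    rw [hc₂, mul_assoc, inv_mul_cancel₀ ha1, mul_one]
  have e3 : (c₂ - c₁) * a = c - c₂ := by
    rw [sub_mul, ← e1, eq_sub_iff_add_eq, sub_add_eq_add_sub, sub_eq_iff_eq_add]
    rw [add_mul, one_mul, mul_add, mul_one] at e2
    rw [add_comm (c₂ * a) c₂, ← e2]
  by_cases h : c₂ = c₁
  · rw [h, sub_self, zero_mul] at e3
    rw [e1, ← sub_eq_zero.mp e3.symm]
  · exfalso
    apply ha
    have h3 : a = (c₂ - c₁)⁻¹ * (c - c₂) := by
      rw [← e3, ← mul_assoc, inv_mul_cancel₀ (sub_ne_zero.mpr h), one_mul]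
    rw [h3]
    exact K.mul_mem (hinv _ (K.sub_mem h2 h1)) (K.sub_mem hc h2)

/-- **The theorem of Cartan, Brauer and Hua.** -/
theorem cartan_brauer_hua {D : Type*} [DivisionRing D] (K : Subring D)
    (hinv : ∀ x ∈ K, x⁻¹ ∈ K) (hnorm : ∀ a : D, a ≠ 0 → ∀ c ∈ K, a * c * a⁻¹ ∈ K)
    (hK : K ≠ ⊤) : K ≤ Subring.center D := by
  intro c hc
  rw [Subring.mem_center_iff]
  intro a
  by_cases ha : a ∈ K
  · obtain ⟨b, hb⟩ : ∃ b, b ∉ K := by
      by_contra hcon
      push Not at hcon
      exact hK (eq_top_iff.mpr fun x _ => hcon x)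
    have hab : a + b ∉ K := fun h => hb ((add_sub_cancel_left a b) ▸ K.sub_mem h ha)
    have h1 := commute_of_notMem K hinv hnorm hab hc
    have h2 := commute_of_notMem K hinv hnorm hb hc
    rw [add_mul, mul_add, h2] at h1
    exact add_right_cancel h1
  · exact commute_of_notMem K hinv hnorm ha hc

end Fermat.Agent.Cor.QA
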