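import Fermat.Agent.Corollaries.QA.BrauerGroup
import Fermat.Agent.Corollaries.QA.Azumaya

/-!
# The Brauer group is a group

Mathlib's `BrauerGroup K` is the set of the classes of the central simple algebras over the field
`K`. Here it gets the structure of a commutative group.

* `instCommGroupBrauer : CommGroup (BrauerGroup K)`; `brauerMk_mul : [A] * [B] = [A ⊗ B]`,
  `brauerMk_inv : [A]⁻¹ = [Aᵐᵒᵖ]`, `brauerMk_eq_one_iff : [A] = 1` iff `A` is a matrix algebra;
* `quatClass_mul : [(a, b)] * [(a, c)] = [(a, b c)]`, `quatClass_sq : [(a, b)] ^ 2 = 1`,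
  `quatClass_steinberg : [(a, 1 - a)] = 1` (`2 ≠ 0`);
* `evenClass_symmDiff`: for a number field `K` the injection of the finite sets of finite and real
  places of even cardinality into `BrauerGroup K` is a homomorphism for the symmetric difference;
* `brauer_real`: `BrauerGroup ℝ` consists of `1` and the class of Hamilton's quaternions.
-/

set_option autoImplicit false

open Quaternion TensorProduct MulOpposite

namespace Fermat.Agent.Cor.QA

universe u v

section General

variable {K : Type u} [Field K]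

/-- The class of a central simple algebra. -/
def brauerMk (A : CSA.{u, u} K) : BrauerGroup.{u, u} K := Quotient.mk (Brauer.CSA_Setoid K) A

theorem brauerMk_eq_iff {A B : CSA.{u, u} K} : brauerMk A = brauerMk B ↔ IsBrauerEquivalent A B :=
  Quotient.eq

/-- Isomorphic algebras are equivalent. -/
theorem brauerMk_eq_of_equiv {A B : CSA.{u, u} K} (e : A ≃ₐ[K] B) : brauerMk A = brauerMk B :=
  brauerMk_eq_iff.mpr ⟨1, 1, one_ne_zero, one_ne_zero, ⟨e.mapMatrix⟩⟩

/-- The tensor product of two central simple algebras. -/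
noncomputable def tensorCSA (A B : CSA.{u, u} K) : CSA.{u, u} K :=
  have := isSimpleRing_tensor (K := K) (A := A) B
  have := isCentral_tensor (K := K) (A := A) B
  mkCSA K (A ⊗[K] B)

/-- The opposite algebra. -/
def opCSA (A : CSA.{u, u} K) : CSA.{u, u} K := mkCSA K Aᵐᵒᵖ

/-- The algebra `K`. -/
def oneCSA (K : Type u) [Field K] : CSA.{u, u} K := mkCSA K K

/-- The tensor product is compatible with the equivalence. -/
theorem tensorCSA_congr {A A' B B' : CSA.{u, u} K} (h : IsBrauerEquivalent A A')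
    (h' : IsBrauerEquivalent B B') : IsBrauerEquivalent (tensorCSA A B) (tensorCSA A' B') := by
  obtain ⟨n, m, hn, hm, ⟨e⟩⟩ := h
  obtain ⟨p, q, hp, hq, ⟨e'⟩⟩ := h'
  have key : ∀ (C D : CSA.{u, u} K) (i j : ℕ),
      Nonempty (Matrix (Fin i) (Fin i) C ⊗[K] Matrix (Fin j) (Fin j) D ≃ₐ[K]
        Matrix (Fin (i * j)) (Fin (i * j)) (C ⊗[K] D)) := fun C D i j =>
    ⟨(Matrix.kroneckerTMulAlgEquiv (Fin i) (Fin j) K K C D).trans
      (Matrix.reindexAlgEquiv K (C ⊗[K] D) finProdFinEquiv)⟩
  obtain ⟨f⟩ := key A B n p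
  obtain ⟨g⟩ := key A' B' m q
  exact ⟨n * p, m * q, mul_ne_zero hn hp, mul_ne_zero hm hq,
    ⟨(f.symm.trans (Algebra.TensorProduct.congr e e')).trans g⟩⟩

/-- The multiplication. -/
noncomputable def brauerMul (x y : BrauerGroup.{u, u} K) : BrauerGroup.{u, u} K :=
  Quotient.map₂ tensorCSA (fun _ _ h _ _ h' => tensorCSA_congr h h') x y

theorem brauerMul_mk (A B : CSA.{u, u} K) :
    brauerMul (brauerMk A) (brauerMk B) = brauerMk (tensorCSA A B) := rfl

/-- A matrix algebra has the class of `K`. -/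
theorem brauerMk_eq_one_of_matrix {A : CSA.{u, u} K} {n : ℕ} (hn : n ≠ 0)
    (e : A ≃ₐ[K] Matrix (Fin n) (Fin n) K) : brauerMk A = brauerMk (oneCSA K) := by
  obtain ⟨g⟩ := exists_equiv_matrix_one (K := K) K
  exact brauerMk_eq_iff.mpr (brauerEquivalent_of_matrix A (oneCSA K) hn one_ne_zero e g)

/-- The product with the opposite algebra. -/
theorem brauerMul_op (A : CSA.{u, u} K) :
    brauerMul (brauerMk (opCSA A)) (brauerMk A) = brauerMk (oneCSA K) := by
  rw [brauerMul_mk]
  have haz : IsAzumaya K A := isAzumaya_of_simple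
  have hn : Module.finrank K A ≠ 0 := (Module.finrank_pos (R := K) (M := A)).ne'
  let e1 : A ⊗[K] Aᵐᵒᵖ ≃ₐ[K] Module.End K A := AlgEquiv.ofBijective _ haz.bij
  let e2 : Module.End K A ≃ₐ[K] Matrix (Fin (Module.finrank K A)) (Fin (Module.finrank K A)) K :=
    algEquivMatrix (Module.finBasis K A)
  exact brauerMk_eq_one_of_matrix hn
    (((Algebra.TensorProduct.comm K Aᵐᵒᵖ A).trans e1).trans e2 :
      Aᵐᵒᵖ ⊗[K] A ≃ₐ[K] Matrix (Fin (Module.finrank K A)) (Fin (Module.finrank K A)) K)

theorem exists_brauerMul_eq_one (x : BrauerGroup.{u, u} K) :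
    ∃ y : BrauerGroup.{u, u} K, brauerMul y x = brauerMk (oneCSA K) := by
  induction x using Quotient.inductionOn with
  | _ A => exact ⟨brauerMk (opCSA A), brauerMul_op A⟩

/-- **The Brauer group is a commutative group**, the product of the classes of `A` and `B` is the
class of `A ⊗ B`. -/
noncomputable instance instCommGroupBrauer : CommGroup (BrauerGroup.{u, u} K) where
  mul := brauerMul
  one := brauerMk (oneCSA K)
  inv x := (exists_brauerMul_eq_one x).choose
  mul_assoc x y z := by
    induction x, y, z using Quotient.inductionOn₃ with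
    | _ A B C =>
      exact brauerMk_eq_of_equiv (A := tensorCSA (tensorCSA A B) C)
        (B := tensorCSA A (tensorCSA B C)) (Algebra.TensorProduct.assoc K K K A B C)
  one_mul x := by
    induction x using Quotient.inductionOn with
    | _ A =>
      exact brauerMk_eq_of_equiv (A := tensorCSA (oneCSA K) A) (B := A)
        (Algebra.TensorProduct.lid K A)
  mul_one x := by
    induction x using Quotient.inductionOn with
    | _ A =>
      exact brauerMk_eq_of_equiv (A := tensorCSA A (oneCSA K)) (B := A)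
        (Algebra.TensorProduct.rid K K A)
  inv_mul_cancel x := (exists_brauerMul_eq_one x).choose_spec
  mul_comm x y := by
    induction x, y using Quotient.inductionOn₂ with
    | _ A B =>
      exact brauerMk_eq_of_equiv (A := tensorCSA A B) (B := tensorCSA B A)
        (Algebra.TensorProduct.comm K A B)

/-- `[A] * [B] = [A ⊗ B]`. -/
theorem brauerMk_mul (A B : CSA.{u, u} K) : brauerMk A * brauerMk B = brauerMk (tensorCSA A B) :=
  rfl

/-- `1 = [K]`. -/
theorem brauerMk_one : (1 : BrauerGroup.{u, u} K) = brauerMk (oneCSA K) := rfl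

/-- `[A]⁻¹ = [Aᵐᵒᵖ]`. -/
theorem brauerMk_inv (A : CSA.{u, u} K) : (brauerMk A)⁻¹ = brauerMk (opCSA A) :=
  inv_eq_of_mul_eq_one_left (brauerMul_op A)

/-- If `Mₙ(A) ≃ M_m(K)` then `A` is a matrix algebra over `K`. -/
theorem exists_matrix_of_brauer (A : CSA.{u, u} K) {n m : ℕ} (hn : n ≠ 0)
    (e : Matrix (Fin n) (Fin n) A ≃ₐ[K] Matrix (Fin m) (Fin m) K) :
    ∃ k : ℕ, k ≠ 0 ∧ Nonempty (A ≃ₐ[K] Matrix (Fin k) (Fin k) K) := by
  have hart : IsArtinianRing A := IsArtinianRing.of_finite K A
  obtain ⟨k, hk, D, _, _, _, ⟨f⟩⟩ := IsSimpleRing.exists_algEquiv_matrix_divisionRing_finite K A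
  let g : Matrix (Fin n × Fin k) (Fin n × Fin k) D ≃ₐ[K] Matrix (Fin m) (Fin m) K :=
    ((Matrix.compAlgEquiv (Fin n) (Fin k) D K).symm.trans f.symm.mapMatrix).trans e
  have h1 : m ≤ n * k := by
    by_contra hlt
    push Not at hlt
    exact false_of_equiv (E := D) (fun x hx => hx.isUnit) (ι := Fin n × Fin k) (κ := Fin m)
      (by simpa using hlt) ⟨g⟩
  have h2 := g.toLinearEquiv.finrank_eq
  rw [Module.finrank_matrix, Module.finrank_matrix, Fintype.card_prod, Fintype.card_fin,
    Fintype.card_fin, Fintype.card_fin, Module.finrank_self, mul_one] at h2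
  have h3 : 0 < n * k := Nat.mul_pos (Nat.pos_of_ne_zero hn) (Nat.pos_of_ne_zero hk.out)
  have h4 : Module.finrank K D = 1 := by
    have h5 : 0 < Module.finrank K D := Module.finrank_pos
    have h6 : m * m ≤ (n * k) * (n * k) := Nat.mul_le_mul h1 h1
    have h7 : 0 < (n * k) * (n * k) := Nat.mul_pos h3 h3
    nlinarith
  have h5 : Function.Bijective (Algebra.ofId K D) :=
    ⟨(algebraMap K D).injective,
      (LinearMap.injective_iff_surjective_of_finrank_eq_finrank (f := Algebra.linearMap K D)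
        (by rw [Module.finrank_self, h4])).mp (algebraMap K D).injective⟩
  exact ⟨k, hk.out, ⟨f.trans (AlgEquiv.ofBijective _ h5).symm.mapMatrix⟩⟩

/-- `[A] = 1` iff `A` is a matrix algebra over `K`. -/
theorem brauerMk_eq_one_iff (A : CSA.{u, u} K) :
    brauerMk A = 1 ↔ ∃ k : ℕ, k ≠ 0 ∧ Nonempty (A ≃ₐ[K] Matrix (Fin k) (Fin k) K) := by
  constructor
  · intro h
    obtain ⟨n, m, hn, hm, ⟨e⟩⟩ := brauerMk_eq_iff.mp (h.trans brauerMk_one)
    exact exists_matrix_of_brauer A hn e
  · rintro ⟨k, hk, ⟨e⟩⟩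
    exact brauerMk_eq_one_of_matrix hk e

end General

section Quat

variable {F : Type u} [Field F]

/-- `[(a, b)] * [(a, c)] = [(a, b c)]`. -/
theorem quatClass_mul (h2 : (2 : F) ≠ 0) (a b c : Fˣ) :
    quatClass h2 (a, b) * quatClass h2 (a, c) = quatClass h2 (a, b * c) := by
  obtain ⟨e⟩ := tensor_common_slot_matrix (a := (a : F)) (b := (b : F)) (c := (c : F)) h2
    a.ne_zero c.ne_zero
  have h : ∀ A : CSA.{u, u} F, Nonempty (A ≃ₐ[F] Matrix (Fin 1) (Fin 1) A) := fun A =>
    exists_equiv_matrix_one (K := F) A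
  obtain ⟨g⟩ := h (quatCSA h2 (a, b * c))
  exact brauerMk_eq_iff.mpr (brauerEquivalent_of_matrix
    (tensorCSA (quatCSA h2 (a, b)) (quatCSA h2 (a, c))) (quatCSA h2 (a, b * c)) two_ne_zero
    one_ne_zero (D := quatCSA h2 (a, b * c)) e g)

/-- `[(a, b)] = 1` iff the quaternion algebra is split. -/
theorem quatClass_eq_one_iff (h2 : (2 : F) ≠ 0) (p : Fˣ × Fˣ) :
    quatClass h2 p = 1 ↔
      Nonempty (ℍ[F,(p.1 : F),(p.2 : F)] ≃ₐ[F] Matrix (Fin 2) (Fin 2) F) := by
  have h1 : quatClass h2 ((1 : Fˣ), p.2) = 1 := by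
    obtain ⟨e⟩ := (mat_iff (a := ((1 : Fˣ) : F)) (b := (p.2 : F)) h2 (by simp) p.2.ne_zero).mpr
      ⟨1, 0, 1, fun h => one_ne_zero h.1, by simp⟩
    exact brauerMk_eq_one_of_matrix (A := quatCSA h2 ((1 : Fˣ), p.2)) two_ne_zero e
  constructor
  · intro h
    rw [← h1, quatClass_eq_iff] at h
    obtain ⟨f⟩ := h
    obtain ⟨e⟩ := (mat_iff (a := ((1 : Fˣ) : F)) (b := (p.2 : F)) h2 (by simp) p.2.ne_zero).mpr
      ⟨1, 0, 1, fun h => one_ne_zero h.1, by simp⟩
    exact ⟨f.trans e⟩
  · rintro ⟨e⟩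
    exact brauerMk_eq_one_of_matrix (A := quatCSA h2 p) two_ne_zero e

/-- `[(a, b)] ^ 2 = 1`. -/
theorem quatClass_sq (h2 : (2 : F) ≠ 0) (p : Fˣ × Fˣ) : quatClass h2 p ^ 2 = 1 := by
  obtain ⟨e⟩ := tensor_self (a := (p.1 : F)) (b := (p.2 : F)) h2 p.1.ne_zero p.2.ne_zero
  rw [pow_two]
  exact brauerMk_eq_one_of_matrix (A := tensorCSA (quatCSA h2 p) (quatCSA h2 p)) four_ne_zero e

/-- `[(a, b)] = [(b, a)]`. -/
theorem quatClass_swap (h2 : (2 : F) ≠ 0) (a b : Fˣ) :
    quatClass h2 (a, b) = quatClass h2 (b, a) := by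
  rw [quatClass_eq_iff]
  exact exists_equiv_of_gen h2 a.ne_zero b.ne_zero (QuaternionAlgebra.finrank_eq_four ..)
    (qj (b : F) (a : F)) (qi (b : F) (a : F)) qj_mul_qj qi_mul_qi
    (by rw [qj_mul_qi, neg_neg])

/-- **The Steinberg relation** `[(a, 1 - a)] = 1`. -/
theorem quatClass_steinberg (h2 : (2 : F) ≠ 0) (a b : Fˣ) (hab : (a : F) + b = 1) :
    quatClass h2 (a, b) = 1 := by
  rw [quatClass_eq_one_iff]
  exact (mat_iff h2 a.ne_zero b.ne_zero).mpr ⟨1, 1, 1, fun h => one_ne_zero h.1, by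
    linear_combination hab⟩

end Quat

section Real

theorem realClass_eq_one : realClass = 1 := rfl

/-- `BrauerGroup ℝ` consists of `1` and the class of Hamilton's quaternions. -/
theorem brauer_real (x : BrauerGroup.{0, 0} ℝ) : x = 1 ∨ x = hamiltonClass := by
  obtain ⟨y, hy, huniq⟩ := (Nat.card_eq_two_iff' (1 : BrauerGroup.{0, 0} ℝ)).mp
    card_brauerGroup_real
  by_cases hx : x = 1
  · exact Or.inl hx
  · exact Or.inr ((huniq x hx).trans (huniq hamiltonClass realClass_ne_hamiltonClass.symm).symm)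

/-- The class of Hamilton's quaternions has order `2`. -/
theorem orderOf_hamiltonClass : orderOf hamiltonClass = 2 := by
  rw [orderOf_eq_prime_iff]
  refine ⟨?_, realClass_ne_hamiltonClass.symm⟩
  rcases brauer_real (hamiltonClass ^ 2) with h | h
  · exact h
  · rw [pow_two] at h
    exact absurd (mul_eq_left.mp h) realClass_ne_hamiltonClass.symm

end Real

section NumberField

open NumberField IsDedekindDomain
open Fermat.Agent.Cor.HM

variable (K : Type) [Field K] [NumberField K]

open Classical in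
/-- **The injection of the even sets of places into the Brauer group is a homomorphism.** -/
theorem evenClass_symmDiff (S T U : {S : Finset (PlK K) // Even S.card})
    (h : U.1 = symmDiff S.1 T.1) : evenClass K U = evenClass K S * evenClass K T := by
  obtain ⟨x, rfl⟩ := (quatEquiv K).surjective S
  obtain ⟨y, rfl⟩ := (quatEquiv K).surjective T
  obtain ⟨z, rfl⟩ := (quatEquiv K).surjective U
  rw [evenClass, evenClass, evenClass, Equiv.symm_apply_apply, Equiv.symm_apply_apply,
    Equiv.symm_apply_apply]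
  induction x using Quotient.inductionOn with
  | _ p =>
    induction y using Quotient.inductionOn with
    | _ q =>
      induction z using Quotient.inductionOn with
      | _ r =>
        obtain ⟨e⟩ := (quatEquiv_tensor (K := K) p q r).mpr h
        have h2 : (2 : K) ≠ 0 := two_ne_zero
        have h : ∀ A : CSA.{0, 0} K, Nonempty (A ≃ₐ[K] Matrix (Fin 1) (Fin 1) A) := fun A =>
          exists_equiv_matrix_one (K := K) A
        obtain ⟨g⟩ := h (quatCSA h2 r)
        exact (brauerMk_eq_iff.mpr (brauerEquivalent_of_matrix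
          (tensorCSA (quatCSA h2 p) (quatCSA h2 q)) (quatCSA h2 r) two_ne_zero
          one_ne_zero (D := quatCSA h2 r) e g)).symm

end NumberField

end Fermat.Agent.Cor.QA
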