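import Fermat.Agent.Corollaries.QA.BrauerRes

/-!
# The classes of the quaternion algebras in the Brauer group of a number field

`K` is a number field, `PlK K` the set of its finite and real places.

* `quatSubgroup K`: the classes of the quaternion algebras form a subgroup of `BrauerGroup K`, of
  exponent two;
* `TrivialAt x p`: the restriction of `x : BrauerGroup K` to the completion at `p` is trivial;
* `eq_one_iff_trivialAt`: the subgroup injects into the product of the Brauer groups of the
  completions (Albert, Brauer, Hasse, Noether);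
* `even_not_trivialAt`, `existsUnique_mem_quatSubgroup`: the set of the places where an element of
  the subgroup is not trivial is finite of even cardinality, and every finite set of even cardinality
  belongs to exactly one element of the subgroup.
-/

set_option autoImplicit false

open Quaternion TensorProduct MulOpposite
open NumberField IsDedekindDomain
open Fermat.Agent.Cor.HM

namespace Fermat.Agent.Cor.QA

universe u

/-- An algebra of dimension four is trivial in the Brauer group iff it is `M₂(F)`. -/
theorem exists_matrix_two_iff {F : Type*} [Field F] {A : Type*} [Ring A] [Algebra F A]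
    (h4 : Module.finrank F A = 4) :
    (∃ k : ℕ, k ≠ 0 ∧ Nonempty (A ≃ₐ[F] Matrix (Fin k) (Fin k) F)) ↔
      Nonempty (A ≃ₐ[F] Matrix (Fin 2) (Fin 2) F) := by
  constructor
  · rintro ⟨k, -, ⟨e⟩⟩
    have h := e.toLinearEquiv.finrank_eq
    rw [h4, Module.finrank_matrix, Fintype.card_fin, Module.finrank_self, mul_one] at h
    obtain rfl : k = 2 := by
      have h1 : k * k = 2 * 2 := h.symm
      exact Nat.mul_self_inj.mp h1
    exact ⟨e⟩
  · rintro ⟨e⟩
    exact ⟨2, two_ne_zero, ⟨e⟩⟩

variable (K : Type) [Field K] [NumberField K]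

/-- **The classes of the quaternion algebras over a number field form a subgroup** of the Brauer
group. -/
def quatSubgroup : Subgroup (BrauerGroup.{0, 0} K) where
  carrier := Set.range (quatClass (two_ne_zero (α := K)))
  mul_mem' := by
    rintro _ _ ⟨p, rfl⟩ ⟨q, rfl⟩
    obtain ⟨e, f, he, hf, ⟨E⟩, -⟩ := exists_tensor p.1.ne_zero p.2.ne_zero q.1.ne_zero q.2.ne_zero
    refine ⟨(Units.mk0 e he, Units.mk0 f hf), ?_⟩
    have h : ∀ A : CSA.{0, 0} K, Nonempty (A ≃ₐ[K] Matrix (Fin 1) (Fin 1) A) := fun A =>
      exists_equiv_matrix_one (K := K) A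
    obtain ⟨g⟩ := h (quatCSA (two_ne_zero (α := K)) (Units.mk0 e he, Units.mk0 f hf))
    exact (brauerMk_eq_iff.mpr (brauerEquivalent_of_matrix
      (tensorCSA (quatCSA two_ne_zero p) (quatCSA two_ne_zero q))
      (quatCSA two_ne_zero (Units.mk0 e he, Units.mk0 f hf)) two_ne_zero one_ne_zero
      (D := quatCSA two_ne_zero (Units.mk0 e he, Units.mk0 f hf)) E g)).symm
  one_mem' := ⟨(1, 1), (quatClass_eq_one_iff two_ne_zero _).mpr
    ((mat_iff two_ne_zero (by simp) (by simp)).mpr ⟨1, 0, 1, fun h => one_ne_zero h.1, by simp⟩)⟩
  inv_mem' := by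
    rintro _ ⟨p, rfl⟩
    have h := quatClass_sq (two_ne_zero (α := K)) p
    rw [pow_two] at h
    rw [inv_eq_of_mul_eq_one_right h]
    exact ⟨p, rfl⟩

/-- The subgroup is the image of the even sets of places. -/
theorem range_evenClass : Set.range (evenClass K) = quatSubgroup K := by
  ext x
  constructor
  · rintro ⟨S, rfl⟩
    obtain ⟨y, rfl⟩ := (quatEquiv K).surjective S
    rw [evenClass, Equiv.symm_apply_apply]
    induction y using Quotient.inductionOn with
    | _ p => exact ⟨p, rfl⟩
  · rintro ⟨p, rfl⟩
    refine ⟨quatEquiv K (Quotient.mk _ p), ?_⟩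
    rw [evenClass, Equiv.symm_apply_apply]
    rfl

variable {K}

/-- The restriction to the completion at the place is trivial. -/
def TrivialAt (x : BrauerGroup.{0, 0} K) : PlK K → Prop
  | .inl v => brauerRes K (v.adicCompletion K) x = 1
  | .inr w => brauerRes K w.1.Completion x = 1

/-- The class of a quaternion algebra is trivial at the places where the algebra is not ramified. -/
theorem trivialAt_quat_iff (p : Kˣ × Kˣ) (x : PlK K) :
    TrivialAt (quatClass two_ne_zero p) x ↔ ¬ Ramified ℍ[K,(p.1 : K),(p.2 : K)] x := by
  have h4 : Module.finrank K (quatCSA (two_ne_zero (α := K)) p) = 4 :=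
    QuaternionAlgebra.finrank_eq_four ..
  rcases x with v | w
  · rw [TrivialAt, Ramified, not_isEmpty_iff]
    refine (brauerRes_eq_one_iff (v.adicCompletion K) (quatCSA two_ne_zero p)).trans ?_
    exact exists_matrix_two_iff ((Module.finrank_baseChange ..).trans h4)
  · rw [TrivialAt, Ramified, not_isEmpty_iff]
    refine (brauerRes_eq_one_iff w.1.Completion (quatCSA two_ne_zero p)).trans ?_
    exact exists_matrix_two_iff ((Module.finrank_baseChange ..).trans h4)

/-- **The theorem of Albert, Brauer, Hasse and Noether** for the classes of quaternion algebras: the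
subgroup injects into the product of the Brauer groups of the completions. -/
theorem eq_one_iff_trivialAt {x : BrauerGroup.{0, 0} K} (hx : x ∈ quatSubgroup K) :
    x = 1 ↔ ∀ p : PlK K, TrivialAt x p := by
  obtain ⟨q, rfl⟩ := hx
  have := isCentral_quaternion (b := (q.2 : K)) two_ne_zero q.1.ne_zero
  have := isSimpleRing_quaternion (two_ne_zero (α := K)) q.1.ne_zero q.2.ne_zero
  rw [quatClass_eq_one_iff, csa_iff_local (QuaternionAlgebra.finrank_eq_four ..)]
  exact forall_congr' fun p => (trivialAt_quat_iff q p).symm

/-- Two elements of the subgroup with the same restrictions to all completions are equal. -/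
theorem eq_of_local {x y : BrauerGroup.{0, 0} K} (hx : x ∈ quatSubgroup K)
    (hy : y ∈ quatSubgroup K)
    (hv : ∀ v : HeightOneSpectrum (𝓞 K),
      brauerRes K (v.adicCompletion K) x = brauerRes K (v.adicCompletion K) y)
    (hw : ∀ w : {w : InfinitePlace K // w.IsReal},
      brauerRes K w.1.Completion x = brauerRes K w.1.Completion y) : x = y := by
  rw [← div_eq_one, eq_one_iff_trivialAt ((quatSubgroup K).div_mem hx hy)]
  rintro (v | w)
  · rw [TrivialAt, map_div, hv, div_self']
  · rw [TrivialAt, map_div, hw, div_self']

/-- The finite even set of the places where the class is not trivial. -/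
theorem exists_finset_trivialAt {x : BrauerGroup.{0, 0} K} (hx : x ∈ quatSubgroup K) :
    ∃ S : Finset (PlK K), Even S.card ∧ ∀ p : PlK K, p ∈ S ↔ ¬ TrivialAt x p := by
  obtain ⟨p, rfl⟩ := hx
  refine ⟨(quatEquiv K (Quotient.mk _ p)).1, (quatEquiv K (Quotient.mk _ p)).2, fun y => ?_⟩
  rw [mem_quatEquiv_iff, trivialAt_quat_iff, not_not]

/-- **Every finite set of places of even cardinality is the set of the places where exactly one
element of the subgroup is not trivial.** -/
theorem existsUnique_mem_quatSubgroup (S : Finset (PlK K)) (hS : Even S.card) :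
    ∃! x : BrauerGroup.{0, 0} K, x ∈ quatSubgroup K ∧ ∀ p : PlK K, p ∈ S ↔ ¬ TrivialAt x p := by
  obtain ⟨y, hy⟩ := (quatEquiv K).surjective ⟨S, hS⟩
  induction y using Quotient.inductionOn with
  | _ p =>
    have hS' : (quatEquiv K (Quotient.mk _ p)).1 = S := congrArg Subtype.val hy
    refine ⟨quatClass two_ne_zero p, ⟨⟨p, rfl⟩, fun z => ?_⟩, ?_⟩
    · rw [trivialAt_quat_iff, not_not, ← mem_quatEquiv_iff, hS']
    · rintro _ ⟨⟨q, rfl⟩, hq⟩
      have h : quatEquiv K (Quotient.mk _ q) = quatEquiv K (Quotient.mk _ p) := by
        apply Subtype.ext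
        ext z
        rw [hS', hq z, mem_quatEquiv_iff, trivialAt_quat_iff, not_not]
      exact (quatClass_eq_iff two_ne_zero q p).mpr (Quotient.exact ((quatEquiv K).injective h))

end Fermat.Agent.Cor.QA
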