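import Fermat.Agent.Corollaries.QA.BrauerDiv

/-!
# The Brauer group is a functor

For an extension `L` of the field `K` the map `A ↦ L ⊗ A` induces a homomorphism
`brauerRes K L : BrauerGroup K →* BrauerGroup L`.

* `brauerRes_mk`: the value is the class of `L ⊗ A`;
* `brauerRes_eq_one_iff`: the kernel consists of the classes of the algebras which are split by `L`;
* `brauerRes_comp`: `brauerRes L M ∘ brauerRes K L = brauerRes K M`, `brauerRes_self`;
* `brauerRes_quat`: the image of the class of `ℍ[K,a,b]` is the class of `ℍ[L,a,b]`;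
* `brauerRes_isAlgClosed`: the homomorphism is trivial if `L` is algebraically closed.
-/

set_option autoImplicit false

open Quaternion TensorProduct MulOpposite

namespace Fermat.Agent.Cor.QA

universe u v

section General

variable {K : Type u} [Field K] (L : Type u) [Field L] [Algebra K L]

/-- `L ⊗ A` is simple. -/
theorem isSimpleRing_baseChange (A : Type v) [Ring A] [Algebra K A] [Algebra.IsCentral K A]
    [IsSimpleRing A] [FiniteDimensional K A] : IsSimpleRing (L ⊗[K] A) :=
  IsSimpleRing.of_ringEquiv (Algebra.TensorProduct.comm K A L).toRingEquiv (isSimpleRing_tensor L)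

/-- `L ⊗ A` is central over `L`. -/
theorem isCentral_baseChange (A : Type v) [Ring A] [Algebra K A] [Algebra.IsCentral K A] :
    Algebra.IsCentral L (L ⊗[K] A) := by
  refine ⟨fun z hz => ?_⟩
  rw [Subalgebra.mem_center_iff] at hz
  have h1 : z ∈ Subalgebra.centralizer K
      ((Algebra.TensorProduct.includeRight : A →ₐ[K] L ⊗[K] A).range : Set (L ⊗[K] A)) := by
    rw [Subalgebra.mem_centralizer_iff]
    exact fun y _ => hz y
  rw [Subalgebra.centralizer_range_includeRight_eq_center_tensorProduct] at h1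
  obtain ⟨w, rfl⟩ := h1
  have h2 : ∀ w : L ⊗[K] (Subalgebra.center K A), ∃ l : L,
      (Algebra.TensorProduct.map (AlgHom.id K L) (Subalgebra.center K A).val) w =
        algebraMap L _ l := by
    intro w
    induction w using TensorProduct.induction_on with
    | zero => exact ⟨0, by simp⟩
    | tmul c d =>
      obtain ⟨k, hk⟩ := Algebra.mem_bot.mp ((Algebra.IsCentral.center_eq_bot K A).le d.2)
      refine ⟨k • c, ?_⟩
      rw [Algebra.TensorProduct.map_tmul, Subalgebra.coe_val, ← hk,
        Algebra.algebraMap_eq_smul_one, ← TensorProduct.smul_tmul]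
      rfl
    | add c d hc hd =>
      obtain ⟨b, hb⟩ := hc
      obtain ⟨b', hb'⟩ := hd
      exact ⟨b + b', by rw [map_add, hb, hb', map_add]⟩
  obtain ⟨l, hl⟩ := h2 w
  exact Algebra.mem_bot.mpr ⟨l, hl.symm⟩

/-- The central simple algebra `L ⊗ A` over `L`. -/
noncomputable def resCSA (A : CSA.{u, u} K) : CSA.{u, u} L :=
  have := isSimpleRing_baseChange (K := K) L A
  have := isCentral_baseChange (K := K) L A
  mkCSA L (L ⊗[K] A)

/-- `L ⊗ Mₙ(A) ≃ Mₙ(L ⊗ A)`. -/
theorem exists_baseChange_matrix (A : Type u) [Ring A] [Algebra K A] (n : ℕ) :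
    Nonempty (L ⊗[K] Matrix (Fin n) (Fin n) A ≃ₐ[L] Matrix (Fin n) (Fin n) (L ⊗[K] A)) := by
  obtain ⟨g⟩ := exists_equiv_matrix_one (K := L) L
  exact ⟨((Algebra.TensorProduct.congr g AlgEquiv.refl).trans
    (Matrix.kroneckerTMulAlgEquiv (Fin 1) (Fin n) K L L A)).trans
    (Matrix.reindexAlgEquiv L (L ⊗[K] A) (Equiv.uniqueProd (Fin n) (Fin 1)))⟩

theorem resCSA_congr {A B : CSA.{u, u} K} (h : IsBrauerEquivalent A B) :
    IsBrauerEquivalent (resCSA L A) (resCSA L B) := by
  obtain ⟨n, m, hn, hm, ⟨e⟩⟩ := h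
  obtain ⟨f⟩ := exists_baseChange_matrix (K := K) L A n
  obtain ⟨g⟩ := exists_baseChange_matrix (K := K) L B m
  exact ⟨n, m, hn, hm, ⟨(f.symm.trans (Algebra.TensorProduct.congr AlgEquiv.refl e)).trans g⟩⟩

/-- A homomorphism from a simple algebra to an algebra of the same dimension is an isomorphism. -/
theorem exists_equiv_of_simple {A B : Type*} [Ring A] [Ring B] [Algebra K A] [Algebra K B]
    [IsSimpleRing A] [Nontrivial B] [FiniteDimensional K A] [FiniteDimensional K B]
    (h : Module.finrank K A = Module.finrank K B) (f : A →ₐ[K] B) : Nonempty (A ≃ₐ[K] B) := by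
  have hinj : Function.Injective f := RingHom.injective (f : A →+* B)
  exact ⟨AlgEquiv.ofBijective f ⟨hinj,
    (LinearMap.injective_iff_surjective_of_finrank_eq_finrank (f := f.toLinearMap) h).mp hinj⟩⟩

/-- `L ⊗ (A ⊗ B) ≃ (L ⊗ A) ⊗ (L ⊗ B)`. -/
theorem exists_baseChange_tensor (A B : CSA.{u, u} K) :
    Nonempty (L ⊗[K] (A ⊗[K] B) ≃ₐ[L] (L ⊗[K] A) ⊗[L] (L ⊗[K] B)) := by
  have := isSimpleRing_tensor (K := K) (A := A) B
  have := isCentral_tensor (K := K) (A := A) B
  have := isSimpleRing_baseChange (K := K) L (A ⊗[K] B)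
  have := isSimpleRing_baseChange (K := K) L A
  have := isSimpleRing_baseChange (K := K) L B
  have := isCentral_baseChange (K := K) L A
  have hs : IsSimpleRing ((L ⊗[K] A) ⊗[L] (L ⊗[K] B)) :=
    isSimpleRing_tensor (K := L) (A := L ⊗[K] A) (L ⊗[K] B)
  let f : A →ₐ[K] (L ⊗[K] A) ⊗[L] (L ⊗[K] B) :=
    ((Algebra.TensorProduct.includeLeft : (L ⊗[K] A) →ₐ[L] _).restrictScalars K).comp
      Algebra.TensorProduct.includeRight
  let g : B →ₐ[K] (L ⊗[K] A) ⊗[L] (L ⊗[K] B) :=
    ((Algebra.TensorProduct.includeRight : (L ⊗[K] B) →ₐ[L] _).restrictScalars K).comp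
      Algebra.TensorProduct.includeRight
  have hfg : ∀ x y, Commute (f x) (g y) := by
    intro x y
    change ((1 : L) ⊗ₜ[K] x) ⊗ₜ[L] (1 : L ⊗[K] B) * (1 : L ⊗[K] A) ⊗ₜ[L] ((1 : L) ⊗ₜ[K] y) =
      (1 : L ⊗[K] A) ⊗ₜ[L] ((1 : L) ⊗ₜ[K] y) * ((1 : L) ⊗ₜ[K] x) ⊗ₜ[L] (1 : L ⊗[K] B)
    simp
  let F : L ⊗[K] (A ⊗[K] B) →ₐ[L] (L ⊗[K] A) ⊗[L] (L ⊗[K] B) :=
    Algebra.TensorProduct.lift (Algebra.ofId L _) (Algebra.TensorProduct.lift f g hfg)
      (fun l x => Algebra.commutes l _)
  refine exists_equiv_of_simple (K := L) ?_ F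
  rw [Module.finrank_baseChange, Module.finrank_tensorProduct, Module.finrank_tensorProduct,
    Module.finrank_baseChange, Module.finrank_baseChange]

/-- **The restriction homomorphism** `BrauerGroup K →* BrauerGroup L`. -/
noncomputable def brauerRes (K L : Type u) [Field K] [Field L] [Algebra K L] :
    BrauerGroup.{u, u} K →* BrauerGroup.{u, u} L where
  toFun := Quotient.map (resCSA L) fun _ _ h => resCSA_congr L h
  map_one' := by
    refine brauerMk_eq_of_equiv (A := resCSA L (oneCSA K)) (B := oneCSA L) ?_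
    exact (Algebra.TensorProduct.rid K L L : L ⊗[K] K ≃ₐ[L] L)
  map_mul' x y := by
    induction x, y using Quotient.inductionOn₂ with
    | _ A B =>
      obtain ⟨e⟩ := exists_baseChange_tensor (K := K) L A B
      exact brauerMk_eq_of_equiv (A := resCSA L (tensorCSA A B))
        (B := tensorCSA (resCSA L A) (resCSA L B)) e

theorem brauerRes_mk (A : CSA.{u, u} K) : brauerRes K L (brauerMk A) = brauerMk (resCSA L A) := rfl

/-- **The kernel of the restriction**: the classes of the algebras which are split by `L`. -/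
theorem brauerRes_eq_one_iff (A : CSA.{u, u} K) : brauerRes K L (brauerMk A) = 1 ↔
    ∃ k : ℕ, k ≠ 0 ∧ Nonempty (L ⊗[K] A ≃ₐ[L] Matrix (Fin k) (Fin k) L) := by
  rw [brauerRes_mk, brauerMk_eq_one_iff]
  rfl

/-- The restriction to an algebraically closed field is trivial. -/
theorem brauerRes_isAlgClosed [IsAlgClosed L] (x : BrauerGroup.{u, u} K) : brauerRes K L x = 1 :=
  have := subsingleton_brauerGroup_of_isAlgClosed.{u, u} (K := L)
  Subsingleton.elim _ _

/-- **Functoriality.** -/
theorem brauerRes_comp (M : Type u) [Field M] [Algebra K M] [Algebra L M] [IsScalarTower K L M] :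
    (brauerRes L M).comp (brauerRes K L) = brauerRes K M := by
  ext x
  induction x using Quotient.inductionOn with
  | _ A =>
    have := isSimpleRing_baseChange (K := K) L A
    have := isCentral_baseChange (K := K) L A
    have := isSimpleRing_baseChange (K := L) M (L ⊗[K] A)
    have := isSimpleRing_baseChange (K := K) M A
    let f : L ⊗[K] A →ₐ[L] M ⊗[K] A :=
      Algebra.TensorProduct.lift (Algebra.ofId L _) Algebra.TensorProduct.includeRight
        (fun l x => Algebra.commutes l _)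
    let F : M ⊗[L] (L ⊗[K] A) →ₐ[M] M ⊗[K] A :=
      Algebra.TensorProduct.lift (Algebra.ofId M _) f (fun l x => Algebra.commutes l _)
    obtain ⟨e⟩ := exists_equiv_of_simple (K := M) (by
      rw [Module.finrank_baseChange, Module.finrank_baseChange, Module.finrank_baseChange]) F
    exact brauerMk_eq_of_equiv (A := resCSA M (resCSA L A)) (B := resCSA M A) e

theorem brauerRes_self : brauerRes K K = MonoidHom.id _ := by
  ext x
  induction x using Quotient.inductionOn with
  | _ A =>
    exact brauerMk_eq_of_equiv (A := resCSA K A) (B := A) (Algebra.TensorProduct.lid K A)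

/-- `ℍ[L,a,b] ≃ L ⊗ ℍ[K,a,b]`. -/
theorem exists_baseChange_quat (h2' : (2 : L) ≠ 0) {a b : K} (ha : a ≠ 0) (hb : b ≠ 0) :
    Nonempty (ℍ[L,algebraMap K L a,algebraMap K L b] ≃ₐ[L] L ⊗[K] ℍ[K,a,b]) := by
  have hnt : Nontrivial (L ⊗[K] ℍ[K,a,b]) :=
    (includeRight_inj (K := K) (A := L) ℍ[K,a,b]).nontrivial
  have key : ∀ c : K, (1 : L) ⊗ₜ[K] algebraMap K ℍ[K,a,b] c =
      algebraMap L (L ⊗[K] ℍ[K,a,b]) (algebraMap K L c) := by
    intro c
    rw [Algebra.TensorProduct.algebraMap_apply, Algebra.algebraMap_eq_smul_one,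
      Algebra.algebraMap_eq_smul_one, TensorProduct.tmul_smul, TensorProduct.smul_tmul',
      algebraMap_smul]
  refine exists_equiv_of_gen h2' ((map_ne_zero _).mpr ha) ((map_ne_zero _).mpr hb) ?_
    (1 ⊗ₜ qi a b) (1 ⊗ₜ qj a b) ?_ ?_ ?_
  · rw [Module.finrank_baseChange, QuaternionAlgebra.finrank_eq_four]
  · rw [Algebra.TensorProduct.tmul_mul_tmul, one_mul, qi_mul_qi, key]
  · rw [Algebra.TensorProduct.tmul_mul_tmul, one_mul, qj_mul_qj, key]
  · rw [Algebra.TensorProduct.tmul_mul_tmul, Algebra.TensorProduct.tmul_mul_tmul, qj_mul_qi,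
      TensorProduct.tmul_neg]

/-- The restriction of the class of a quaternion algebra. -/
theorem brauerRes_quat (h2 : (2 : K) ≠ 0) (h2' : (2 : L) ≠ 0) (p : Kˣ × Kˣ) :
    brauerRes K L (quatClass h2 p) =
      quatClass h2' (Units.map (algebraMap K L).toMonoidHom p.1,
        Units.map (algebraMap K L).toMonoidHom p.2) := by
  obtain ⟨e⟩ := exists_baseChange_quat (K := K) L h2' p.1.ne_zero p.2.ne_zero
  exact (brauerMk_eq_of_equiv (A := quatCSA h2' (Units.map (algebraMap K L).toMonoidHom p.1,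
    Units.map (algebraMap K L).toMonoidHom p.2)) (B := resCSA L (quatCSA h2 p)) e).symm

end General

end Fermat.Agent.Cor.QA
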