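import Fermat.Agent.Corollaries.QA.Basic

/-!
# Central simple algebras of dimension four

`F` a field, `2 ≠ 0` in `F`: every central simple `F`-algebra of dimension `4` is a quaternion
algebra `ℍ[F,a,b]` with `a, b ≠ 0` (`exists_equiv_of_csa`).
-/

set_option autoImplicit false

open Quaternion

namespace Fermat.Agent.Cor.QA

section Division

variable {F : Type*} [Field F] {D : Type*} [DivisionRing D] [Algebra F D]

/-- The centralizer of an element is a division ring. -/
lemma isUnit_or_eq_zero_centralizer (x : D) (z : Subalgebra.centralizer F {x}) :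
    IsUnit z ∨ z = 0 := by
  by_cases hz : z = 0
  · exact Or.inr hz
  left
  have hz0 : (z : D) ≠ 0 := fun h => hz (Subtype.ext h)
  have hmem : (z : D)⁻¹ ∈ Subalgebra.centralizer F {x} := by
    rw [Subalgebra.mem_centralizer_iff]
    intro y hy
    have h1 := (Subalgebra.mem_centralizer_iff F).mp z.2 y hy
    exact (Commute.inv_right₀ h1 : y * (z : D)⁻¹ = (z : D)⁻¹ * y)
  refine ⟨⟨z, ⟨(z : D)⁻¹, hmem⟩, Subtype.ext (mul_inv_cancel₀ hz0),
    Subtype.ext (inv_mul_cancel₀ hz0)⟩, rfl⟩

/-- In a central division algebra of dimension `4` the centralizer of a non-central element `x`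
is `F + F x`. -/
lemma exists_of_commute [Algebra.IsCentral F D] (h4 : Module.finrank F D = 4) {x : D}
    (hx : ∀ c : F, x ≠ algebraMap F D c) {z : D} (hz : x * z = z * x) :
    ∃ s t : F, z = algebraMap F D s + algebraMap F D t * x := by
  have hfin : Module.Finite F D := Module.finite_of_finrank_pos (by rw [h4]; norm_num)
  set C := Subalgebra.centralizer F {x} with hC
  let _ : DivisionRing C := DivisionRing.ofIsUnitOrEqZero (isUnit_or_eq_zero_centralizer x)
  have hmul : Module.finrank F C * Module.finrank C D = 4 := by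
    rw [Module.finrank_mul_finrank, h4]
  have hxC : x ∈ C := by
    rw [hC, Subalgebra.mem_centralizer_iff]
    rintro y rfl
    rfl
  have hzC : z ∈ C := by
    rw [hC, Subalgebra.mem_centralizer_iff]
    rintro y rfl
    exact hz
  -- `C ≠ D`
  have hne : C ≠ ⊤ := by
    intro h
    have h1 : x ∈ Subalgebra.center F D := by
      rw [Subalgebra.mem_center_iff]
      intro b
      have hb : b ∈ C := by rw [h]; exact Algebra.mem_top
      exact ((Subalgebra.mem_centralizer_iff F).mp hb x rfl).symm
    obtain ⟨c, hc⟩ := (Algebra.IsCentral.mem_center_iff F).mp h1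
    exact hx c hc
  have hlt : Module.finrank F C < 4 := by
    rw [← h4]
    exact Submodule.finrank_lt (fun h => hne (by
      rw [← Algebra.toSubmodule_eq_top]
      exact h))
  have hli : LinearIndependent F ![(1 : C), ⟨x, hxC⟩] := by
    rw [LinearIndependent.pair_iff]
    intro s t hst
    have h1 : algebraMap F D s + algebraMap F D t * x = 0 := by
      have := congrArg (Subtype.val : C → D) hst
      simpa [Algebra.smul_def] using this
    by_cases ht : t = 0
    · subst ht
      rw [map_zero, zero_mul, add_zero, map_eq_zero] at h1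
      exact ⟨h1, rfl⟩
    · exfalso
      apply hx (-s / t)
      have h2 : algebraMap F D t ≠ 0 := (map_ne_zero _).mpr ht
      apply mul_left_cancel₀ h2
      rw [← map_mul, mul_div_cancel₀ _ ht, map_neg]
      exact eq_neg_of_add_eq_zero_right h1
  have hge : 2 ≤ Module.finrank F C := by
    have := hli.fintype_card_le_finrank
    simpa using this
  have h2 : Module.finrank F C = 2 := by
    have hd : Module.finrank F C ∣ 4 := Dvd.intro _ hmul
    have h3 : Module.finrank F C ∈ Nat.divisors 4 := Nat.mem_divisors.mpr ⟨hd, by norm_num⟩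
    have h5 : Nat.divisors 4 = {1, 2, 4} := by decide
    rw [h5] at h3
    simp only [Finset.mem_insert, Finset.mem_singleton] at h3
    omega
  let B := basisOfLinearIndependentOfCardEqFinrank hli (by rw [h2]; simp)
  have hB : (⟨z, hzC⟩ : C) = B.repr ⟨z, hzC⟩ 0 • (1 : C) + B.repr ⟨z, hzC⟩ 1 • ⟨x, hxC⟩ := by
    have h1 := B.sum_repr ⟨z, hzC⟩
    rw [Fin.sum_univ_two] at h1
    simpa [B] using h1.symm
  refine ⟨B.repr ⟨z, hzC⟩ 0, B.repr ⟨z, hzC⟩ 1, ?_⟩
  have h1 := congrArg (Subtype.val : C → D) hB
  simpa [Algebra.smul_def] using h1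

/-- **Central division algebras of dimension four are quaternion algebras.** -/
theorem exists_equiv_of_division [Algebra.IsCentral F D] (h2 : (2 : F) ≠ 0)
    (h4 : Module.finrank F D = 4) :
    ∃ a b : F, a ≠ 0 ∧ b ≠ 0 ∧ Nonempty (ℍ[F,a,b] ≃ₐ[F] D) := by
  have h2D : (2 : D) ≠ 0 := by
    rw [← map_ofNat (algebraMap F D) 2]
    exact (map_ne_zero _).mpr h2
  -- a non-central element
  obtain ⟨x, hx⟩ : ∃ x : D, ∀ c : F, x ≠ algebraMap F D c := by
    by_contra! hcon
    have h1 : Function.Surjective (algebraMap F D) := fun x => by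
      obtain ⟨c, hc⟩ := hcon x
      exact ⟨c, hc.symm⟩
    have h3 : Module.finrank F D ≤ 1 := by
      refine finrank_le_one (1 : D) fun w => ?_
      obtain ⟨c, hc⟩ := h1 w
      exact ⟨c, by rw [Algebra.smul_def, mul_one, hc]⟩
    omega
  obtain ⟨s, t, hst⟩ := exists_of_commute h4 hx (z := x * x) (mul_assoc x x x).symm
  -- complete the square
  set i : D := x - algebraMap F D (t / 2) with hi
  set a : F := s + (t / 2) * (t / 2) with ha
  have hii : i * i = algebraMap F D a := by
    have hc := Algebra.commutes (t / 2) x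
    have h5 : algebraMap F D t = algebraMap F D (t / 2) + algebraMap F D (t / 2) := by
      rw [← map_add]
      congr 1
      field_simp
      ring
    rw [hi, ha, sub_mul, mul_sub, mul_sub, hst, map_add, map_mul, ← hc, h5, add_mul]
    abel
  have hiF : ∀ c : F, i ≠ algebraMap F D c := by
    intro c hc
    apply hx (c + t / 2)
    rw [map_add, ← hc, hi, sub_add_cancel]
  have hi0 : i ≠ 0 := fun h => hiF 0 (by rw [h, map_zero])
  have ha0 : a ≠ 0 := by
    intro h
    rw [h, map_zero] at hii
    exact hi0 (mul_self_eq_zero.mp hii)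
  clear_value i
  -- an anticommuting element
  obtain ⟨y, hy⟩ : ∃ y : D, i * y ≠ y * i := by
    by_contra! hcon
    have h1 : i ∈ Subalgebra.center F D := by
      rw [Subalgebra.mem_center_iff]
      exact fun b => (hcon b).symm
    obtain ⟨c, hc⟩ := (Algebra.IsCentral.mem_center_iff F).mp h1
    exact hiF c hc
  set j : D := i * y - y * i with hj
  have hj0 : j ≠ 0 := sub_ne_zero.mpr hy
  have hji : j * i = -(i * j) := by
    rw [hj, sub_mul, mul_sub, mul_assoc y, hii, ← mul_assoc i i y, hii, Algebra.commutes a y,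
      mul_assoc i y i]
    abel
  clear_value j
  have hjj : i * (j * j) = j * j * i := by
    rw [mul_assoc j j i, hji, mul_neg, ← mul_assoc j i j, hji, neg_mul, neg_neg, mul_assoc]
  obtain ⟨b, t', hb⟩ := exists_of_commute h4 hiF hjj
  have ht' : t' = 0 := by
    have h1 : j * (j * j) = j * j * j := (mul_assoc _ _ _).symm
    rw [hb, mul_add, add_mul, ← Algebra.commutes b j, add_right_inj, ← mul_assoc,
      ← Algebra.commutes t' j, mul_assoc, mul_assoc, hji, mul_neg, neg_eq_iff_add_eq_zero,
      ← two_mul] at h1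
    have h3 : algebraMap F D t' * (i * j) = 0 := by
      rcases mul_eq_zero.mp h1 with h | h
      · exact absurd h h2D
      · exact h
    rcases mul_eq_zero.mp h3 with h | h
    · exact (map_eq_zero _).mp h
    · exact absurd h (mul_ne_zero hi0 hj0)
  rw [ht', map_zero, zero_mul, add_zero] at hb
  have hb0 : b ≠ 0 := by
    intro h
    rw [h, map_zero] at hb
    exact hj0 (mul_self_eq_zero.mp hb)
  exact ⟨a, b, ha0, hb0, exists_equiv_of_gen h2 ha0 hb0 h4 i j hii hb hji⟩

end Division

section Simple

variable {F : Type*} [Field F] {A : Type*} [Ring A] [Algebra F A]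

/-- **Central simple algebras of dimension four are quaternion algebras.** -/
theorem exists_equiv_of_csa [Algebra.IsCentral F A] [IsSimpleRing A] (h2 : (2 : F) ≠ 0)
    (h4 : Module.finrank F A = 4) :
    ∃ a b : F, a ≠ 0 ∧ b ≠ 0 ∧ Nonempty (ℍ[F,a,b] ≃ₐ[F] A) := by
  have hfin : Module.Finite F A := Module.finite_of_finrank_pos (by rw [h4]; norm_num)
  have hart : IsArtinianRing A := IsArtinianRing.of_finite F A
  obtain ⟨n, hn, D, _, _, _, ⟨e⟩⟩ := IsSimpleRing.exists_algEquiv_matrix_divisionRing_finite F A
  have hcard : n * n * Module.finrank F D = 4 := by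
    rw [← h4, e.toLinearEquiv.finrank_eq, Module.finrank_matrix]
    simp
  have hn0 := hn.out
  have hD0 : 0 < Module.finrank F D := Module.finrank_pos
  have hn2 : n ≤ 2 := by
    by_contra h
    push Not at h
    have h5 : 3 * 3 ≤ n * n := Nat.mul_le_mul h h
    nlinarith
  interval_cases n
  · exact absurd rfl hn0
  · -- a division algebra
    let e' : A ≃ₐ[F] D := e.trans
      { toFun := fun M => M 0 0
        invFun := fun d => Matrix.of fun _ _ => d
        left_inv := fun M => by
          ext i j
          fin_cases i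
          fin_cases j
          rfl
        right_inv := fun _ => rfl
        map_mul' := fun M N => by simp [Matrix.mul_apply]
        map_add' := fun M N => rfl
        commutes' := fun r => by simp [Matrix.algebraMap_matrix_apply] }
    have hcen : Algebra.IsCentral F D := by
      refine ⟨fun z hz => ?_⟩
      have h1 : e'.symm z ∈ Subalgebra.center F A := by
        rw [Subalgebra.mem_center_iff] at hz ⊢
        intro b
        apply e'.injective
        rw [map_mul, map_mul, AlgEquiv.apply_symm_apply]
        exact hz _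
      obtain ⟨c, hc⟩ := (Algebra.IsCentral.mem_center_iff F).mp h1
      rw [Algebra.mem_bot]
      refine ⟨c, ?_⟩
      rw [← AlgEquiv.commutes e', ← hc, AlgEquiv.apply_symm_apply]
    obtain ⟨a, b, ha, hb, ⟨f⟩⟩ := exists_equiv_of_division (F := F) (D := D) h2 (by
      rw [← e'.toLinearEquiv.finrank_eq, h4])
    exact ⟨a, b, ha, hb, ⟨f.trans e'.symm⟩⟩
  · -- the matrix algebra
    have hD1 : Module.finrank F D = 1 := by omega
    have hbij : Function.Bijective (algebraMap F D) := by
      refine ⟨(algebraMap F D).injective, fun d => ?_⟩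
      obtain ⟨c, hc⟩ := (finrank_eq_one_iff_of_nonzero' (1 : D) one_ne_zero).mp hD1 d
      exact ⟨c, by rw [← hc, Algebra.smul_def, mul_one]⟩
    let g : F ≃ₐ[F] D := AlgEquiv.ofBijective (Algebra.ofId F D) hbij
    obtain ⟨f⟩ := (mat_iff (F := F) (a := 1) (b := 1) h2 one_ne_zero one_ne_zero).mpr
      ⟨1, 0, 1, fun h => one_ne_zero h.1, by ring⟩
    exact ⟨1, 1, one_ne_zero, one_ne_zero, ⟨(f.trans g.mapMatrix).trans e.symm⟩⟩

/-- **Quaternion algebras are simple.** -/
theorem isSimpleRing_quaternion {a b : F} (h2 : (2 : F) ≠ 0) (ha : a ≠ 0) (hb : b ≠ 0) :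
    IsSimpleRing ℍ[F,a,b] := by
  have hnt : Nontrivial ℍ[F,a,b] := inferInstance
  refine ⟨{ exists_pair_ne := exists_pair_ne _, eq_bot_or_eq_top := fun I => ?_ }⟩
  by_cases hI : (1 : ℍ[F,a,b]) ∈ I
  · right
    rw [eq_top_iff]
    intro x _
    have h1 := I.mul_mem_left x 1 hI
    rwa [mul_one] at h1
  · left
    let q : ℍ[F,a,b] →ₐ[F] I.ringCon.Quotient :=
      { I.ringCon.mk' with commutes' := fun r => rfl }
    have hnt : Nontrivial I.ringCon.Quotient := by
      refine ⟨⟨1, 0, fun h => hI ?_⟩⟩
      have h1 : I.ringCon 1 0 := (RingCon.eq I.ringCon).mp h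
      exact (TwoSidedIdeal.mem_iff I 1).mpr h1
    have hinj := injective_hom h2 ha hb q
    rw [eq_bot_iff]
    intro x hx
    rw [TwoSidedIdeal.mem_bot]
    apply hinj
    rw [map_zero]
    exact (RingCon.eq I.ringCon).mpr ((TwoSidedIdeal.mem_iff I x).mp hx)

/-- **Quaternion algebras are central.** -/
theorem isCentral_quaternion {a b : F} (h2 : (2 : F) ≠ 0) (ha : a ≠ 0) :
    Algebra.IsCentral F ℍ[F,a,b] := by
  refine ⟨fun z hz => ?_⟩
  rw [Subalgebra.mem_center_iff] at hz
  have h1 := hz ⟨0, 1, 0, 0⟩
  have h3 := hz ⟨0, 0, 1, 0⟩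
  have e1 := congrArg QuaternionAlgebra.imJ h1
  have e2 := congrArg QuaternionAlgebra.imK h1
  have e3 := congrArg QuaternionAlgebra.imK h3
  simp at e1 e2 e3
  rw [Algebra.mem_bot]
  refine ⟨z.re, ?_⟩
  have hk : z.imK = 0 := by
    have : 2 * a * z.imK = 0 := by linear_combination e1
    simpa [h2, ha] using this
  have hj : z.imJ = 0 := by
    have : 2 * z.imJ = 0 := by linear_combination e2
    simpa [h2] using this
  have hi : z.imI = 0 := by
    have : 2 * z.imI = 0 := by linear_combination -e3
    simpa [h2] using this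
  rw [QuaternionAlgebra.algebraMap_eq]
  ext
  · rfl
  · exact hi.symm
  · exact hj.symm
  · exact hk.symm

/-- The central simple algebras of dimension four are exactly the quaternion algebras. -/
theorem csa_iff (h2 : (2 : F) ≠ 0) :
    (Algebra.IsCentral F A ∧ IsSimpleRing A ∧ Module.finrank F A = 4) ↔
      ∃ a b : F, a ≠ 0 ∧ b ≠ 0 ∧ Nonempty (ℍ[F,a,b] ≃ₐ[F] A) := by
  constructor
  · rintro ⟨_, _, h4⟩
    exact exists_equiv_of_csa h2 h4
  · rintro ⟨a, b, ha, hb, ⟨e⟩⟩
    have h1 := isSimpleRing_quaternion h2 ha hb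
    have h3 := isCentral_quaternion (b := b) h2 ha
    refine ⟨⟨fun z hz => ?_⟩, IsSimpleRing.of_ringEquiv e.toRingEquiv h1, ?_⟩
    · have h5 : e.symm z ∈ Subalgebra.center F ℍ[F,a,b] := by
        rw [Subalgebra.mem_center_iff] at hz ⊢
        intro x
        apply e.injective
        rw [map_mul, map_mul, AlgEquiv.apply_symm_apply]
        exact hz _
      obtain ⟨c, hc⟩ := (Algebra.IsCentral.mem_center_iff F).mp h5
      rw [Algebra.mem_bot]
      refine ⟨c, ?_⟩
      rw [← AlgEquiv.commutes e, ← hc, AlgEquiv.apply_symm_apply]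
    · rw [← e.toLinearEquiv.finrank_eq]
      exact QuaternionAlgebra.finrank_eq_four ..

end Simple

end Fermat.Agent.Cor.QA
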