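import Fermat.Agent.Corollaries.QA.SkolemNoether

/-!
# The double centralizer theorem

`A` is a finite-dimensional central simple algebra over the field `K` and `B ⊆ A` a simple
subalgebra.

* `finrank_mul_finrank_centralizer`: `dim B * dim C(B) = dim A`;
* `isSimpleRing_centralizer`: the centralizer `C(B)` is simple;
* `centralizer_centralizer_eq`: `C(C(B)) = B`.
-/

set_option autoImplicit false

open TensorProduct MulOpposite

namespace Fermat.Agent.Cor.QA

universe u v w

section EndDim

/-- The endomorphism ring of a module over a simple finite-dimensional algebra: if `R` has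
dimension `r`, `M` dimension `m` then `End_R(M)` has dimension `m ^ 2 / r`, and it is simple. -/
theorem finrank_end_mul {K R M : Type*} [Field K] [Ring R] [Algebra K R] [IsSimpleRing R]
    [FiniteDimensional K R] [AddCommGroup M] [Module R M] [Module K M] [IsScalarTower K R M]
    [FiniteDimensional K M] [Nontrivial M] :
    Module.finrank K (Module.End R M) * Module.finrank K R = Module.finrank K M ^ 2 ∧
      IsSimpleRing (Module.End R M) := by
  classical
  have hart : IsArtinianRing R := IsArtinianRing.of_finite K R
  have hfM : Module.Finite R M := Module.Finite.of_restrictScalars_finite K R M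
  obtain ⟨r, hr, I, hI, ⟨e⟩⟩ := (IsSimpleRing.isIsotypic R R).linearEquiv_fun
  obtain ⟨m, hm, T, hT, ⟨f⟩⟩ := (IsSimpleRing.isIsotypic R M).linearEquiv_fun
  have hfI : Module.Finite K I :=
    Module.Finite.of_injective (I.subtype.restrictScalars K) Subtype.val_injective
  have hfT : Module.Finite K T :=
    Module.Finite.of_injective (T.subtype.restrictScalars K) Subtype.val_injective
  -- the simple modules `I` and `T` are isomorphic
  obtain ⟨g⟩ : Nonempty (T ≃ₗ[R] I) := by
    let eS := Submodule.equivMapOfInjective (LinearMap.inl R R M) LinearMap.inl_injective I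
    let eT := Submodule.equivMapOfInjective (LinearMap.inr R R M) LinearMap.inr_injective T
    have h1 : IsSimpleModule R (I.map (LinearMap.inl R R M)) := IsSimpleModule.congr eS.symm
    have h2 : IsSimpleModule R (T.map (LinearMap.inr R R M)) := IsSimpleModule.congr eT.symm
    obtain ⟨g⟩ := (IsSimpleRing.isIsotypic R (R × M)) (I.map (LinearMap.inl R R M))
      (T.map (LinearMap.inr R R M))
    exact ⟨(eT.trans g).trans eS.symm⟩
  let E₁ : Rᵐᵒᵖ ≃ₐ[K] Matrix (Fin r) (Fin r) (Module.End R I) :=
    .trans (.moduleEndSelf K) <| .trans (e.conjAlgEquiv K) (endVecAlgEquivMatrixEnd ..)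
  let E₂ : Module.End R M ≃ₐ[K] Matrix (Fin m) (Fin m) (Module.End R I) :=
    .trans ((f.trans (LinearEquiv.piCongrRight fun _ => g)).conjAlgEquiv K)
      (endVecAlgEquivMatrixEnd ..)
  have h1 : Module.finrank K R = r * r * Module.finrank K (Module.End R I) := by
    rw [(MulOpposite.opLinearEquiv K (M := R)).finrank_eq, E₁.toLinearEquiv.finrank_eq,
      Module.finrank_matrix, Fintype.card_fin]
  have h2 : Module.finrank K (Module.End R M) = m * m * Module.finrank K (Module.End R I) := by
    rw [E₂.toLinearEquiv.finrank_eq, Module.finrank_matrix, Fintype.card_fin]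
  have h3 : Module.finrank K R = r * Module.finrank K I := by
    rw [(e.restrictScalars K).finrank_eq, Module.finrank_pi_fintype]
    simp
  have h4 : Module.finrank K M = m * Module.finrank K I := by
    rw [(f.restrictScalars K).finrank_eq, Module.finrank_pi_fintype]
    simp [(g.restrictScalars K).finrank_eq]
  have hrpos : 0 < r := Nat.pos_of_ne_zero hr.out
  have h5 : Module.finrank K I = r * Module.finrank K (Module.End R I) := by
    apply Nat.eq_of_mul_eq_mul_left hrpos
    rw [← h3, h1, mul_assoc]
  refine ⟨?_, ?_⟩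
  · rw [h2, h1, h4, h5]
    ring
  · have hs : IsSimpleRing (Module.End R I) := inferInstance
    exact IsSimpleRing.of_ringEquiv E₂.symm.toRingEquiv inferInstance

end EndDim

section Main

variable {K : Type u} [Field K] {A : Type v} [Ring A] [Algebra K A] [Algebra.IsCentral K A]
  [IsSimpleRing A] [FiniteDimensional K A]

/-- An element of `A` as an element of the bimodule. -/
def toBi (B : Subalgebra K A) (x : A) : Bimod B.val := x

/-- An element of the bimodule as an element of `A`. -/
def ofBi (B : Subalgebra K A) (x : Bimod B.val) : A := x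

omit [Algebra.IsCentral K A] [IsSimpleRing A] [FiniteDimensional K A] in
theorem bimod_tmul_smul (B : Subalgebra K A) (b : B) (a : Aᵐᵒᵖ) (x : Bimod B.val) :
    ofBi B ((b ⊗ₜ[K] a) • x) = b * ofBi B x * a.unop :=
  bimodHom_tmul B.val b a.unop (ofBi B x)

omit [Algebra.IsCentral K A] [IsSimpleRing A] [FiniteDimensional K A] in
theorem ofBi_add (B : Subalgebra K A) (x y : Bimod B.val) :
    ofBi B (x + y) = ofBi B x + ofBi B y := rfl

omit [Algebra.IsCentral K A] [IsSimpleRing A] [FiniteDimensional K A] in
theorem ofBi_zero (B : Subalgebra K A) : ofBi B 0 = 0 := rfl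

/-- The left multiplication with an element of the centralizer. -/
def leftMul (B : Subalgebra K A) (c : Subalgebra.centralizer K (B : Set A)) :
    Module.End (B ⊗[K] Aᵐᵒᵖ) (Bimod B.val) where
  toFun := fun x => toBi B (c * ofBi B x)
  map_add' := fun x y => mul_add (c : A) (ofBi B x) (ofBi B y)
  map_smul' := fun r x => by
    rw [RingHom.id_apply]
    induction r using TensorProduct.induction_on with
    | zero =>
      have h0 : ∀ y : Bimod B.val, (0 : B ⊗[K] Aᵐᵒᵖ) • y = 0 := fun y => by
        rw [bimod_smul_def, map_zero]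
        rfl
      refine Eq.trans ?_ (h0 _).symm
      exact (congrArg (fun z => toBi B (c * ofBi B z)) (h0 x)).trans (mul_zero (c : A))
    | tmul b a =>
      have h := (Subalgebra.mem_centralizer_iff K).mp c.2 b b.2
      change (c : A) * ofBi B ((b ⊗ₜ[K] a) • x) = ofBi B ((b ⊗ₜ[K] a) • toBi B (c * ofBi B x))
      rw [bimod_tmul_smul, bimod_tmul_smul]
      change (c : A) * (b * ofBi B x * a.unop) = b * (c * ofBi B x) * a.unop
      rw [← mul_assoc, ← mul_assoc, ← mul_assoc, h]
    | add r s hr hs =>
      rw [add_smul, add_smul, ← hr, ← hs]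
      exact mul_add (c : A) _ _

omit [Algebra.IsCentral K A] [IsSimpleRing A] [FiniteDimensional K A] in
/-- The centralizer of `B` is the endomorphism ring of the bimodule `A`. -/
theorem exists_equiv_end (B : Subalgebra K A) :
    Nonempty (Subalgebra.centralizer K (B : Set A) ≃ₐ[K]
      Module.End (B ⊗[K] Aᵐᵒᵖ) (Bimod B.val)) := by
  let F : Subalgebra.centralizer K (B : Set A) →ₐ[K] Module.End (B ⊗[K] Aᵐᵒᵖ) (Bimod B.val) :=
    { toFun := leftMul B
      map_one' := LinearMap.ext fun x => one_mul (ofBi B x)
      map_mul' := fun c d => LinearMap.ext fun x => mul_assoc (c : A) (d : A) (ofBi B x)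
      map_zero' := LinearMap.ext fun x => zero_mul (ofBi B x)
      map_add' := fun c d => LinearMap.ext fun x => add_mul (c : A) (d : A) (ofBi B x)
      commutes' := fun k => LinearMap.ext fun x => (Algebra.smul_def k (ofBi B x)).symm }
  refine ⟨AlgEquiv.ofBijective F ⟨fun c d h => ?_, fun φ => ?_⟩⟩
  · have h1 : (c : A) * 1 = (d : A) * 1 := LinearMap.congr_fun h (toBi B 1)
    rw [mul_one, mul_one] at h1
    exact Subtype.ext h1
  · let c : A := ofBi B (φ (toBi B 1))
    have h1 : ∀ x : A, ofBi B (φ (toBi B x)) = c * x := by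
      intro x
      have h := congrArg (ofBi B) (φ.map_smul ((1 : B) ⊗ₜ[K] op x) (toBi B 1))
      rw [bimod_tmul_smul] at h
      have h3 : ((1 : B) ⊗ₜ[K] op x) • toBi B 1 = toBi B x := by
        change ofBi B (((1 : B) ⊗ₜ[K] op x) • toBi B 1) = x
        rw [bimod_tmul_smul]
        change ((1 : B) : A) * 1 * x = x
        simp
      rw [h3] at h
      simpa using h
    have h2 : ∀ b : B, ofBi B (φ (toBi B b)) = b * c := by
      intro b
      have h := congrArg (ofBi B) (φ.map_smul (b ⊗ₜ[K] op (1 : A)) (toBi B 1))
      rw [bimod_tmul_smul] at h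
      have h3 : (b ⊗ₜ[K] op (1 : A)) • toBi B 1 = toBi B b := by
        change ofBi B ((b ⊗ₜ[K] op (1 : A)) • toBi B 1) = b
        rw [bimod_tmul_smul]
        change (b : A) * 1 * 1 = b
        simp
      rw [h3] at h
      simpa using h
    have hc : c ∈ Subalgebra.centralizer K (B : Set A) := by
      rw [Subalgebra.mem_centralizer_iff]
      intro b hb
      rw [← h2 ⟨b, hb⟩, ← h1]
    exact ⟨⟨c, hc⟩, LinearMap.ext fun x => (h1 (ofBi B x)).symm⟩

/-- **The dimension of the centralizer.** -/
theorem finrank_mul_finrank_centralizer (B : Subalgebra K A) [IsSimpleRing B] :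
    Module.finrank K B * Module.finrank K (Subalgebra.centralizer K (B : Set A)) =
      Module.finrank K A := by
  have h1 : IsSimpleRing (Aᵐᵒᵖ ⊗[K] B) := isSimpleRing_tensor B
  have h2 : IsSimpleRing (B ⊗[K] Aᵐᵒᵖ) :=
    IsSimpleRing.of_ringEquiv (Algebra.TensorProduct.comm K Aᵐᵒᵖ B).toRingEquiv h1
  have hfB : FiniteDimensional K B := inferInstanceAs (Module.Finite K B.toSubmodule)
  have hnt : Nontrivial (Bimod B.val) := inferInstanceAs (Nontrivial A)
  obtain ⟨e⟩ := exists_equiv_end B
  have h3 := (finrank_end_mul (K := K) (R := B ⊗[K] Aᵐᵒᵖ) (M := Bimod B.val)).1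
  have h4 : Module.finrank K (Bimod B.val) = Module.finrank K A := rfl
  have hpos : 0 < Module.finrank K A := Module.finrank_pos
  rw [← e.toLinearEquiv.finrank_eq, Module.finrank_tensorProduct, h4,
    (MulOpposite.opLinearEquiv K (M := A)).symm.finrank_eq] at h3
  apply Nat.eq_of_mul_eq_mul_right hpos
  rw [← pow_two, ← h3]
  ring

/-- The centralizer of a simple subalgebra is simple. -/
theorem isSimpleRing_centralizer (B : Subalgebra K A) [IsSimpleRing B] :
    IsSimpleRing (Subalgebra.centralizer K (B : Set A)) := by
  have h1 : IsSimpleRing (Aᵐᵒᵖ ⊗[K] B) := isSimpleRing_tensor B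
  have h2 : IsSimpleRing (B ⊗[K] Aᵐᵒᵖ) :=
    IsSimpleRing.of_ringEquiv (Algebra.TensorProduct.comm K Aᵐᵒᵖ B).toRingEquiv h1
  have hfB : FiniteDimensional K B := inferInstanceAs (Module.Finite K B.toSubmodule)
  have hnt : Nontrivial (Bimod B.val) := inferInstanceAs (Nontrivial A)
  obtain ⟨e⟩ := exists_equiv_end B
  exact IsSimpleRing.of_ringEquiv e.symm.toRingEquiv
    (finrank_end_mul (K := K) (R := B ⊗[K] Aᵐᵒᵖ) (M := Bimod B.val)).2

/-- **The double centralizer theorem.** -/
theorem centralizer_centralizer_eq (B : Subalgebra K A) [IsSimpleRing B] :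
    Subalgebra.centralizer K (Subalgebra.centralizer K (B : Set A) : Set A) = B := by
  have h1 := finrank_mul_finrank_centralizer B
  have hs := isSimpleRing_centralizer B
  have h2 := finrank_mul_finrank_centralizer (Subalgebra.centralizer K (B : Set A))
  have hle : B ≤ Subalgebra.centralizer K (Subalgebra.centralizer K (B : Set A) : Set A) := by
    intro b hb
    rw [Subalgebra.mem_centralizer_iff]
    intro c hc
    rw [SetLike.mem_coe, Subalgebra.mem_centralizer_iff] at hc
    exact (hc b hb).symm
  have hpos : 0 < Module.finrank K (Subalgebra.centralizer K (B : Set A)) := by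
    have : FiniteDimensional K (Subalgebra.centralizer K (B : Set A)) :=
      inferInstanceAs (Module.Finite K (Subalgebra.centralizer K (B : Set A)).toSubmodule)
    exact Module.finrank_pos
  have h3 : Module.finrank K B = Module.finrank K
      (Subalgebra.centralizer K (Subalgebra.centralizer K (B : Set A) : Set A)) := by
    apply Nat.eq_of_mul_eq_mul_left hpos
    rw [h2, mul_comm, h1]
  have h4 := Submodule.eq_of_le_of_finrank_eq (K := K) (V := A)
    (S₁ := Subalgebra.toSubmodule B) (S₂ := Subalgebra.toSubmodule
      (Subalgebra.centralizer K (Subalgebra.centralizer K (B : Set A) : Set A))) hle h3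
  exact (Subalgebra.toSubmodule_injective h4).symm

end Main

end Fermat.Agent.Cor.QA
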