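import Fermat.Agent.Corollaries.QA.Split
import Fermat.Agent.Corollaries.HM.GalAlg
import Fermat.Agent.Corollaries.HM.NormForm
import Mathlib.FieldTheory.PrimitiveElement
import Mathlib.LinearAlgebra.Eigenspace.Basic
import Mathlib.GroupTheory.CosetCover
import Mathlib.RingTheory.Unramified.Field
import Mathlib.RingTheory.Artinian.Module

/-!
# Cyclic algebras of prime degree

`K` is a field, `N / K` a Galois extension of prime degree `p` with generator `σ`, and `D` a central
division algebra over `K` which is split by `N`, `D ≠ K`. Then `D` has dimension `p ^ 2` and is a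
cyclic algebra: `D = ⨁ N u ^ i`, `u l = σ(l) u`, `u ^ p = a ∈ K`.

* `exists_embedding`, `exists_cyclic`: the structure of `D`;
* `not_norm`: `a` is not a norm from `N`;
* `normOver_of_split`: if an extension `F` of `K` splits `D` then `a` is a norm from `F ⊗ N`.
-/

set_option autoImplicit false

open Quaternion TensorProduct MulOpposite

namespace Fermat.Agent.Cor.QA

universe u v

section Embed

variable {K : Type u} [Field K] {N : Type u} [Field N] [Algebra K N] [FiniteDimensional K N]
  {D : Type u} [DivisionRing D] [Algebra K D] [FiniteDimensional K D]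

/-- A splitting field of degree `n` of a division algebra of dimension `n ^ 2` is a subfield. -/
theorem exists_embedding {k : ℕ} (hk : k ≠ 0)
    (e : N ⊗[K] D ≃ₐ[N] Matrix (Fin k) (Fin k) N)
    (hdim : Module.finrank K D = Module.finrank K N ^ 2) : Nonempty (N →ₐ[K] D) := by
  obtain ⟨h1, -⟩ := dvd_of_split (K := K) (D := D) hk e
  have h2 : Module.finrank K N = k :=
    Nat.pow_left_injective (n := 2) two_ne_zero (hdim.symm.trans h1)
  have hk' : NeZero k := ⟨hk⟩
  let ρ : D →ₐ[K] Module.End N (Fin k → N) :=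
    (((Matrix.toLinAlgEquiv' : Matrix (Fin k) (Fin k) N ≃ₐ[N] _).toAlgHom.comp
      e.toAlgHom).restrictScalars K).comp Algebra.TensorProduct.includeRight
  let v : Fin k → N := fun _ => 1
  have hv : v ≠ 0 := fun h => one_ne_zero (congrFun h 0)
  let F : D →ₗ[K] (Fin k → N) :=
    { toFun := fun d => ρ d v
      map_add' := fun d d' => by rw [map_add, LinearMap.add_apply]
      map_smul' := fun c d => by rw [map_smul, LinearMap.smul_apply, RingHom.id_apply] }
  have hF : ∀ d, F d = ρ d v := fun d => rfl
  have hinj : Function.Injective F := by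
    rw [injective_iff_map_eq_zero]
    intro d hd
    by_contra h0
    apply hv
    have h3 : ρ d⁻¹ (ρ d v) = v := by
      rw [← Module.End.mul_apply, ← map_mul ρ, inv_mul_cancel₀ h0, map_one, Module.End.one_apply]
    rw [← h3, ← hF, hd, map_zero]
  have hdimV : Module.finrank K (Fin k → N) = Module.finrank K D := by
    rw [← Module.finrank_mul_finrank K N (Fin k → N), Module.finrank_fintype_fun_eq_card,
      Fintype.card_fin, h1, h2, pow_two]
  have hsurj : Function.Surjective F :=
    (LinearMap.injective_iff_surjective_of_finrank_eq_finrank hdimV.symm).mp hinj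
  let F' : D ≃ₗ[K] (Fin k → N) := LinearEquiv.ofBijective F ⟨hinj, hsurj⟩
  let g : N → D := fun l => F'.symm (l • v)
  have hg : ∀ l, F (g l) = l • v := fun l => F'.apply_symm_apply (l • v)
  have e1 : g 1 = 1 := by
    apply hinj
    rw [hg, one_smul, hF, map_one, Module.End.one_apply]
  have e2 : ∀ l l', g (l * l') = g l * g l' := by
    intro l l'
    apply hinj
    have h3 : F (g l * g l') = ρ (g l) (F (g l')) := by
      rw [hF, map_mul ρ, Module.End.mul_apply, hF]
    rw [h3, hg, hg, map_smul, ← hF, hg, smul_smul, mul_comm]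
  have e3 : g 0 = 0 := by
    apply hinj
    rw [hg, zero_smul, map_zero]
  have e4 : ∀ l l', g (l + l') = g l + g l' := by
    intro l l'
    apply hinj
    rw [hg, map_add, hg, hg, add_smul]
  have e5 : ∀ c : K, g (algebraMap K N c) = algebraMap K D c := by
    intro c
    apply hinj
    rw [hg, hF, AlgHom.commutes, Module.algebraMap_end_apply, algebraMap_smul]
  exact ⟨{
    toFun := g
    map_one' := e1
    map_mul' := e2
    map_zero' := e3
    map_add' := e4
    commutes' := e5 }⟩

end Embed

section Indep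

variable {K : Type u} [Field K] {N : Type u} [Field N] [Algebra K N] [FiniteDimensional K N]
  [IsGalois K N] {D : Type u} [Ring D] [Nontrivial D] [Algebra K D]

/-- The powers of `u` are linearly independent over `N`. -/
theorem powers_independent {p : ℕ} (σ : N ≃ₐ[K] N) (hσ : orderOf σ = p) (g : N →ₐ[K] D)
    (u : Dˣ) (hu : ∀ l, g (σ l) * u = u * g l) (c : Fin p → N)
    (h : ∑ i, g (c i) * (u : D) ^ (i : ℕ) = 0) : c = 0 := by
  classical
  obtain ⟨θ, hθ⟩ := Field.exists_primitive_element K N
  let _ : Module N D := Module.compHom D g.toRingHom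
  have hN : ∀ (l : N) (x : D), l • x = g l * x := fun l x => rfl
  have hpow : ∀ (i : ℕ) (l : N), g ((σ ^ i) l) * (u : D) ^ i = (u : D) ^ i * g l := by
    intro i
    induction i with
    | zero => intro l; simp
    | succ i ih =>
      intro l
      rw [pow_succ σ, AlgEquiv.mul_apply, pow_succ (u : D), ← mul_assoc, ih, mul_assoc, hu,
        ← mul_assoc]
  let f : Module.End N D :=
    { toFun := fun x => x * g θ
      map_add' := fun x y => add_mul x y _
      map_smul' := fun l x => by rw [hN, RingHom.id_apply, hN, mul_assoc] }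
  have hinj : Function.Injective fun i : Fin p => (σ ^ (i : ℕ)) θ := by
    intro i j hij
    have h1 : σ ^ (i : ℕ) = σ ^ (j : ℕ) := by
      apply AlgEquiv.coe_toAlgHom_injective
      apply (IntermediateField.adjoin.powerBasis (Algebra.IsIntegral.isIntegral (R := K) θ) |>.map
        ((IntermediateField.equivOfEq hθ).trans IntermediateField.topEquiv)).algHom_ext
      simpa using hij
    rw [pow_inj_mod, hσ, Nat.mod_eq_of_lt i.2, Nat.mod_eq_of_lt j.2] at h1
    exact Fin.ext h1
  have hind : LinearIndependent N fun i : Fin p => (u : D) ^ (i : ℕ) := by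
    refine Module.End.eigenvectors_linearIndependent' f (fun i : Fin p => (σ ^ (i : ℕ)) θ) hinj _
      fun i => ?_
    rw [Module.End.hasEigenvector_iff, Module.End.mem_eigenspace_iff]
    refine ⟨?_, (u ^ (i : ℕ)).ne_zero⟩
    rw [hN, hpow]
    rfl
  rw [Fintype.linearIndependent_iff] at hind
  funext i
  exact hind c h i

end Indep

section Cyclic

variable {K : Type u} [Field K] {N : Type u} [Field N] [Algebra K N] [FiniteDimensional K N]
  [IsGalois K N] {D : Type u} [DivisionRing D] [Algebra K D] [FiniteDimensional K D]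

omit [FiniteDimensional K N] [IsGalois K N] [FiniteDimensional K D] in
/-- `σ^i(l) u^i = u^i l`. -/
theorem pow_mul_apply (σ : N ≃ₐ[K] N) (g : N →ₐ[K] D) {u : D}
    (hu : ∀ l, g (σ l) * u = u * g l) (i : ℕ) (l : N) :
    g ((σ ^ i) l) * u ^ i = u ^ i * g l := by
  induction i generalizing l with
  | zero => simp
  | succ i ih =>
    rw [pow_succ σ, AlgEquiv.mul_apply, pow_succ u, ← mul_assoc, ih, mul_assoc, hu, ← mul_assoc]

/-- **The structure of a division algebra which is split by a cyclic extension of prime degree.** -/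
theorem exists_cyclic [Algebra.IsCentral K D] {p : ℕ} (σ : N ≃ₐ[K] N) (hσ : orderOf σ = p)
    (hdeg : Module.finrank K N = p) (hdim : Module.finrank K D = p ^ 2) (g : N →ₐ[K] D) :
    ∃ (u : Dˣ) (a : K), a ≠ 0 ∧ (∀ l, g (σ l) * u = u * g l) ∧
      (u : D) ^ p = algebraMap K D a := by
  classical
  obtain ⟨u, hu'⟩ := skolem_noether g (g.comp (σ : N →ₐ[K] N))
  have hu : ∀ l, g (σ l) * u = u * g l := by
    intro l
    have h := hu' l
    rw [AlgHom.comp_apply] at h
    change g (σ l) = _ at h
    rw [h, mul_assoc, u.inv_mul, mul_one]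
  -- the powers of `u` span
  let Φ : (Fin p → N) →ₗ[K] D :=
    { toFun := fun c => ∑ i, g (c i) * (u : D) ^ (i : ℕ)
      map_add' := fun c d => by
        rw [← Finset.sum_add_distrib]
        exact Finset.sum_congr rfl fun i _ => by rw [Pi.add_apply, map_add, add_mul]
      map_smul' := fun r c => by
        rw [RingHom.id_apply, Finset.smul_sum]
        exact Finset.sum_congr rfl fun i _ => by rw [Pi.smul_apply, map_smul, smul_mul_assoc] }
  have hinj : Function.Injective Φ := by
    rw [injective_iff_map_eq_zero]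
    exact fun c hc => powers_independent σ hσ g u hu c hc
  have hdimΦ : Module.finrank K (Fin p → N) = Module.finrank K D := by
    rw [Module.finrank_pi_fintype, hdim, Finset.sum_const, Finset.card_univ, Fintype.card_fin,
      hdeg, smul_eq_mul, pow_two]
  have hsurj : Function.Surjective Φ :=
    (LinearMap.injective_iff_surjective_of_finrank_eq_finrank hdimΦ).mp hinj
  have hcomm : ∀ l, (u : D) ^ p * g l = g l * (u : D) ^ p := by
    intro l
    rw [← pow_mul_apply σ g hu p l, ← hσ, pow_orderOf_eq_one, AlgEquiv.one_apply]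
  have hcen : (u : D) ^ p ∈ Subalgebra.center K D := by
    rw [Subalgebra.mem_center_iff]
    intro x
    obtain ⟨c, rfl⟩ := hsurj x
    change (∑ i, g (c i) * (u : D) ^ (i : ℕ)) * _ = _ * ∑ i, g (c i) * (u : D) ^ (i : ℕ)
    rw [Finset.sum_mul, Finset.mul_sum]
    refine Finset.sum_congr rfl fun i _ => ?_
    rw [← mul_assoc, hcomm, mul_assoc, mul_assoc, ← pow_add, ← pow_add, add_comm]
  rw [Algebra.IsCentral.center_eq_bot, Algebra.mem_bot] at hcen
  obtain ⟨a, ha⟩ := hcen
  refine ⟨u, a, ?_, hu, ha.symm⟩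
  rintro rfl
  rw [map_zero] at ha
  exact pow_ne_zero p u.ne_zero ha.symm

omit [FiniteDimensional K D] in
/-- The product over the Galois group. -/
theorem prod_gal {M : Type*} [CommMonoid M] (σ : N ≃ₐ[K] N)
    (hσ : orderOf σ = Module.finrank K N) (F : (N ≃ₐ[K] N) → M) :
    ∏ τ, F τ = ∏ i ∈ Finset.range (Module.finrank K N), F (σ ^ i) := by
  classical
  have hinj : Set.InjOn (fun i : ℕ => σ ^ i) (Finset.range (Module.finrank K N)) := by
    intro i hi j hj hij
    rw [Finset.coe_range, ← hσ] at hi hj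
    exact pow_injOn_Iio_orderOf hi hj hij
  have himg : (Finset.range (Module.finrank K N)).image (fun i : ℕ => σ ^ i) = Finset.univ := by
    apply Finset.eq_univ_of_card
    rw [Finset.card_image_of_injOn hinj, Finset.card_range, ← Nat.card_eq_fintype_card,
      IsGalois.card_aut_eq_finrank]
  rw [← himg, Finset.prod_image hinj]

omit [FiniteDimensional K N] [IsGalois K N] [FiniteDimensional K D] in
/-- `(w u)^i = w σ(w) ⋯ σ^(i-1)(w) u^i`. -/
theorem mul_pow_apply (σ : N ≃ₐ[K] N) (g : N →ₐ[K] D) {u : D}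
    (hu : ∀ l, g (σ l) * u = u * g l) (w : N) (i : ℕ) :
    (g w * u) ^ i = g (∏ j ∈ Finset.range i, (σ ^ j) w) * u ^ i := by
  induction i with
  | zero => simp
  | succ i ih =>
    rw [pow_succ, ih, Finset.prod_range_succ, map_mul, pow_succ, mul_assoc, ← mul_assoc (u ^ i),
      ← pow_mul_apply σ g hu i w]
    simp only [mul_assoc]

/-- **`a` is not a norm.** -/
theorem not_norm {p : ℕ} (hp : p.Prime) (σ : N ≃ₐ[K] N) (hσ : orderOf σ = p)
    (hdeg : Module.finrank K N = p) (g : N →ₐ[K] D) {u : Dˣ} {a : K} (ha : a ≠ 0)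
    (hu : ∀ l, g (σ l) * u = u * g l) (hup : (u : D) ^ p = algebraMap K D a) :
    ¬ ∃ z : N, Algebra.norm K z = a := by
  rintro ⟨z, hz⟩
  have hz0 : z ≠ 0 := by
    rintro rfl
    rw [Algebra.norm_zero] at hz
    exact ha hz.symm
  have hgz : g z⁻¹ ≠ 0 := (map_ne_zero g).mpr (inv_ne_zero hz0)
  let u' : Dˣ := Units.mk0 (g z⁻¹ * u) (mul_ne_zero hgz u.ne_zero)
  have hu'v : (u' : D) = g z⁻¹ * u := rfl
  have hu' : ∀ l, g (σ l) * u' = u' * g l := by
    intro l
    rw [hu'v, ← mul_assoc, ← map_mul, mul_comm, map_mul, mul_assoc, hu, mul_assoc]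
  have h1 : (u' : D) ^ p = 1 := by
    rw [hu'v, mul_pow_apply σ g hu, hup]
    have h2 : ∏ j ∈ Finset.range p, (σ ^ j) z⁻¹ = algebraMap K N (a⁻¹) := by
      have h3 : Algebra.norm K z⁻¹ = a⁻¹ := by
        apply eq_inv_of_mul_eq_one_left
        rw [← hz, ← map_mul, inv_mul_cancel₀ hz0, map_one]
      rw [← hdeg, ← prod_gal σ (hσ.trans hdeg.symm) (fun τ => τ z⁻¹),
        ← Algebra.norm_eq_prod_automorphisms, h3]
    rw [h2, AlgHom.commutes, ← map_mul, inv_mul_cancel₀ ha, map_one]
  have h2 := geom_sum_mul (u' : D) p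
  rw [h1, sub_self, mul_eq_zero] at h2
  rcases h2 with h2 | h2
  · have h3 := powers_independent σ hσ g u' hu' (fun _ => 1) (by
      simp only [map_one, one_mul]
      rw [← h2, Finset.sum_range])
    exact one_ne_zero (congrFun h3 ⟨0, hp.pos⟩)
  · have h3 : (u' : D) = 1 := sub_eq_zero.mp h2
    have h4 : σ = 1 := by
      ext l
      apply (g : N →+* D).injective
      have h5 := hu' l
      rw [h3, mul_one, one_mul] at h5
      exact h5
    rw [h4, orderOf_one] at hσ
    exact hp.one_lt.ne hσ

end Cyclic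

section Annihilator

/-- An element with annihilator zero in a faithful representation of a reduced algebra. -/
theorem exists_zero_annihilator {F E V : Type*} [Field F] [Infinite F] [CommRing E] [Algebra F E]
    [FiniteDimensional F E] [IsReduced E] [AddCommGroup V] [Module F V]
    (ρ : E →ₐ[F] Module.End F V) (hρ : Function.Injective ρ) :
    ∃ v : V, ∀ r : E, ρ r v = 0 → r = 0 := by
  classical
  have hart : IsArtinianRing E := IsArtinianRing.of_finite F E
  let e := IsArtinianRing.equivPi E
  have hft : Fintype (MaximalSpectrum E) := Fintype.ofFinite _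
  let ε : MaximalSpectrum E → E := fun m => e.symm (Pi.single m 1)
  have hε : ∀ m, ε m ≠ 0 := by
    intro m h
    have h1 : (Pi.single m 1 : ∀ I : MaximalSpectrum E, E ⧸ I.asIdeal) = 0 := by
      apply e.symm.injective
      rw [map_zero]
      exact h
    have h2 := congrFun h1 m
    rw [Pi.single_eq_same, Pi.zero_apply] at h2
    have : Nontrivial (E ⧸ m.asIdeal) := Ideal.Quotient.nontrivial_iff.mpr m.isMaximal.ne_top
    exact one_ne_zero h2
  let s : Finset (Subspace F V) := Finset.univ.image fun m => LinearMap.ker (ρ (ε m))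
  have hs : ⊤ ∉ s := by
    intro h
    obtain ⟨m, -, hm⟩ := Finset.mem_image.mp h
    apply hε m
    apply hρ
    rw [map_zero]
    exact LinearMap.ker_eq_top.mp hm
  obtain ⟨v, hv⟩ := (Set.ne_univ_iff_exists_notMem _).mp
    (Subspace.biUnion_ne_univ_of_top_notMem hs)
  refine ⟨v, fun r hr => ?_⟩
  by_contra h0
  have h1 : e r ≠ 0 := fun h => h0 (e.injective (by rw [h, map_zero]))
  obtain ⟨m, hm⟩ := Function.ne_iff.mp h1
  have hmax := m.isMaximal
  let _ : Field (E ⧸ m.asIdeal) := Ideal.Quotient.field m.asIdeal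
  let t : E := e.symm (Pi.single m (e r m)⁻¹)
  have h2 : t * r = ε m := by
    apply e.injective
    rw [map_mul, AlgEquiv.apply_symm_apply, AlgEquiv.apply_symm_apply]
    funext n
    rw [Pi.mul_apply]
    by_cases hn : n = m
    · subst hn
      rw [Pi.single_eq_same, Pi.single_eq_same]
      exact inv_mul_cancel₀ hm
    · rw [Pi.single_eq_of_ne hn, Pi.single_eq_of_ne hn, zero_mul]
  apply hv
  rw [Set.mem_iUnion₂]
  refine ⟨_, Finset.mem_image_of_mem _ (Finset.mem_univ m), ?_⟩
  rw [SetLike.mem_coe, LinearMap.mem_ker, ← h2, map_mul, Module.End.mul_apply, hr, map_zero]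

end Annihilator

section Split

open Fermat.Agent.Cor.HN

variable {K : Type u} [Field K] [CharZero K] {N : Type u} [Field N] [Algebra K N]
  [FiniteDimensional K N] [IsGalois K N] {D : Type u} [DivisionRing D] [Algebra K D]
  [FiniteDimensional K D]

/-- **If the extension `F` of `K` splits `D` then `a` is a norm from `F ⊗ N`.** -/
theorem normOver_of_split {p : ℕ} (σ : N ≃ₐ[K] N) (hσ : orderOf σ = p)
    (hdeg : Module.finrank K N = p) (hdim : Module.finrank K D = p ^ 2) (g : N →ₐ[K] D) {u : Dˣ}
    {a : K} (hu : ∀ l, g (σ l) * u = u * g l) (hup : (u : D) ^ p = algebraMap K D a)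
    (F : Type u) [Field F] [Algebra K F] {k : ℕ}
    (e : F ⊗[K] D ≃ₐ[F] Matrix (Fin k) (Fin k) F) : NormOver K N F (algebraMap K F a) := by
  classical
  have hcF : CharZero F := charZero_of_injective_algebraMap (algebraMap K F).injective
  have hk : k = p := by
    have h := e.toLinearEquiv.finrank_eq
    rw [Module.finrank_baseChange, Module.finrank_matrix, Fintype.card_fin, Module.finrank_self,
      mul_one, hdim] at h
    rw [← pow_two] at h
    exact (Nat.pow_left_injective (n := 2) two_ne_zero h).symm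
  let ρ : F ⊗[K] D →ₐ[F] Module.End F (Fin k → F) :=
    (Matrix.toLinAlgEquiv' : Matrix (Fin k) (Fin k) F ≃ₐ[F] _).toAlgHom.comp e.toAlgHom
  have hρ : Function.Injective ρ :=
    (Matrix.toLinAlgEquiv' : Matrix (Fin k) (Fin k) F ≃ₐ[F] _).injective.comp e.injective
  let φ : F ⊗[K] N →ₐ[F] F ⊗[K] D := Algebra.TensorProduct.map (AlgHom.id F F) g
  have hφ : Function.Injective φ := by
    have h1 : Function.Injective (g.toLinearMap.lTensor F) :=
      Module.Flat.lTensor_preserves_injective_linearMap g.toLinearMap (g : N →+* D).injective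
    intro x y hxy
    apply h1
    have h2 : ∀ z : F ⊗[K] N, g.toLinearMap.lTensor F z = φ z := by
      intro z
      induction z using TensorProduct.induction_on with
      | zero => simp
      | tmul x y => rfl
      | add x y hx hy => rw [map_add, map_add, hx, hy]
    rw [h2, h2, hxy]
  have hunr : Algebra.FormallyUnramified K N := Algebra.FormallyUnramified.of_isSeparable K N
  have hred : IsReduced (F ⊗[K] N) := Algebra.FormallyUnramified.isReduced_of_field F (F ⊗[K] N)
  obtain ⟨v, hv⟩ := exists_zero_annihilator (ρ.comp φ) (hρ.comp hφ)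
  let Ψ : F ⊗[K] N →ₗ[F] (Fin k → F) := (LinearMap.applyₗ v).comp (ρ.comp φ).toLinearMap
  have hΨ : ∀ z, Ψ z = ρ (φ z) v := fun z => rfl
  have hΨinj : Function.Injective Ψ := by
    rw [injective_iff_map_eq_zero]
    exact hv
  have hΨsurj : Function.Surjective Ψ := by
    refine (LinearMap.injective_iff_surjective_of_finrank_eq_finrank ?_).mp hΨinj
    rw [Module.finrank_baseChange, Module.finrank_fintype_fun_eq_card, Fintype.card_fin, hdeg, hk]
  obtain ⟨c, hc⟩ := hΨsurj (ρ (1 ⊗ₜ (u : D)) v)
  -- the commutation rule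
  have hcomm : ∀ (i : ℕ) (z : F ⊗[K] N), (1 ⊗ₜ[K] (u : D)) ^ i * φ z =
      φ (act F ((σ ^ i : N ≃ₐ[K] N) : N →ₐ[K] N) z) * (1 ⊗ₜ[K] (u : D)) ^ i := by
    intro i z
    induction z using TensorProduct.induction_on with
    | zero => simp
    | tmul r l =>
      rw [act_tmul]
      change _ * r ⊗ₜ[K] g l = r ⊗ₜ[K] g ((σ ^ i) l) * _
      rw [Algebra.TensorProduct.tmul_pow, one_pow, Algebra.TensorProduct.tmul_mul_tmul,
        Algebra.TensorProduct.tmul_mul_tmul, one_mul, mul_one, pow_mul_apply σ g hu]
    | add x y hx hy => rw [map_add, mul_add, hx, hy, map_add, map_add, add_mul]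
  have hpow : ∀ i : ℕ, ρ ((1 ⊗ₜ[K] (u : D)) ^ i) v =
      Ψ (∏ j ∈ Finset.range i, act F ((σ ^ j : N ≃ₐ[K] N) : N →ₐ[K] N) c) := by
    intro i
    induction i with
    | zero => simp [hΨ]
    | succ i ih =>
      rw [pow_succ, map_mul ρ, Module.End.mul_apply, ← hc, hΨ, ← Module.End.mul_apply,
        ← map_mul ρ, hcomm, map_mul ρ, Module.End.mul_apply, ih, hΨ, ← Module.End.mul_apply,
        ← map_mul ρ, ← map_mul φ, Finset.prod_range_succ, mul_comm, hΨ]
  have h1 : (1 ⊗ₜ[K] (u : D)) ^ p = algebraMap F (F ⊗[K] D) (algebraMap K F a) := by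
    rw [Algebra.TensorProduct.tmul_pow, one_pow, hup, Algebra.TensorProduct.algebraMap_apply,
      Algebra.algebraMap_eq_smul_one, Algebra.algebraMap_eq_smul_one, TensorProduct.tmul_smul,
      TensorProduct.smul_tmul', algebraMap_smul]
  have h2 : Ψ (∏ j ∈ Finset.range p, act F ((σ ^ j : N ≃ₐ[K] N) : N →ₐ[K] N) c) =
      Ψ (algebraMap F (F ⊗[K] N) (algebraMap K F a)) := by
    rw [← hpow, h1, hΨ, AlgHom.commutes, AlgHom.commutes, AlgHom.commutes]
  have h3 := hΨinj h2
  refine ⟨c, (algebraMap F (F ⊗[K] N)).injective ?_⟩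
  rw [← h3, ← prodAct_eq, prodAct, prod_gal σ (hσ.trans hdeg.symm)
    (fun τ => act F (τ : N →ₐ[K] N) c), hdeg]

end Split

end Fermat.Agent.Cor.QA
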