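import Fermat.Agent.Corollaries.QA.NumberField

/-!
# Quadratic subfields of quaternion algebras over number fields

* `value_adic`: over `K_v` the pure quaternions of `ℍ[K_v,a,b]` represent every `c` which is not a
  square;
* `exists_sq_iff_ramified`: `c` is the square of an element of `ℍ[K,a,b]` iff it is not a square at
  the ramified places (if it is not a square in `K`);
* `exists_algHom_iff`: a quadratic extension `L = K(√c)` of `K` embeds into `ℍ[K,a,b]` iff `c` is not
  a square at the ramified places;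
* `ternary_iff`: the representation of `c` by `a x ^ 2 + b y ^ 2 - a b z ^ 2`.
-/

set_option autoImplicit false
set_option maxHeartbeats 400000

open Quaternion

namespace Fermat.Agent.Cor.QA

open IsDedekindDomain NumberField
open Fermat.Agent.Cor.HM
open Fermat.Agent.CFT.Global (locPow LocalSymbols)

variable {K : Type} [Field K] [NumberField K] {a b c : K}

/-- Over `K_v` the form `a x ^ 2 + b y ^ 2 - a b z ^ 2` represents every non-square. -/
theorem value_adic (ha : a ≠ 0) (hb : b ≠ 0) (hc : c ≠ 0) (v : HeightOneSpectrum (𝓞 K))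
    (h : IsSplitAt v a b ∨ ¬ IsSquare (algebraMap K (v.adicCompletion K) c)) :
    ∃ x y z : v.adicCompletion K, algebraMap K (v.adicCompletion K) c =
      algebraMap K (v.adicCompletion K) a * x ^ 2 + algebraMap K (v.adicCompletion K) b * y ^ 2 -
        algebraMap K (v.adicCompletion K) a * algebraMap K (v.adicCompletion K) b * z ^ 2 := by
  by_cases hs : IsSplitAt v a b
  · exact value_of_split (two_adic v) ((mat_adic_iff ha hb v).mpr hs) _
  have hsq := h.resolve_left hs
  obtain ⟨LS⟩ := Fermat.Agent.CFT.Bridge.nonempty_localSymbols_all (p := 2) K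
    (Fermat.Agent.CFT.Global2.Unr.isPrimitiveRoot_neg_one' K)
  set A := Units.mk0 a ha with hA
  set B := Units.mk0 b hb with hB
  set C := Units.mk0 c hc with hC
  have hD : A * B * -(A * B) * -C ∉ locPow 2 v := by
    intro hm
    apply hsq
    have h1 : A * B * -(A * B) * -C = (A * B) ^ 2 * C := by
      rw [mul_neg, mul_neg, neg_mul, neg_neg, sq]
    rw [h1] at hm
    have h2 := div_mem hm (Fermat.Agent.CFT.Global.pow_mem_locPow 2 v (A * B))
    rw [mul_div_cancel_left] at h2
    exact (mem_locPow_two_iff C).mp h2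
  obtain ⟨e, h1, h2⟩ := exists_rep_of_disc (LS := LS) hD
  have h1' : Rep LS v A B (-(-e)) := by rwa [neg_neg]
  obtain ⟨z, hz0, hz⟩ := isotropic_four_of_three
    (a := algebraMap K (v.adicCompletion K) (A : K))
    (b := algebraMap K (v.adicCompletion K) (B : K))
    (c := algebraMap K (v.adicCompletion K) ((-(A * B) : Kˣ) : K))
    (d := algebraMap K (v.adicCompletion K) ((-C : Kˣ) : K))
    (x := algebraMap K (v.adicCompletion K) (e : K))
    ((map_ne_zero _).mpr e.ne_zero) (by
      have h3 := adic_of_rep h1'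
      rwa [Units.val_neg, map_neg] at h3) (adic_of_rep h2)
  rw [Fin.sum_univ_four] at hz
  simp only [Matrix.cons_val_zero, Matrix.cons_val_one, Matrix.cons_val, Units.val_neg,
    Units.val_mul, map_neg, map_mul] at hz
  change algebraMap K (v.adicCompletion K) a * z 0 ^ 2 + algebraMap K (v.adicCompletion K) b * z 1 ^ 2
    + -(algebraMap K (v.adicCompletion K) a * algebraMap K (v.adicCompletion K) b) * z 2 ^ 2 +
    -(algebraMap K (v.adicCompletion K) c) * z 3 ^ 2 = 0 at hz
  by_cases h3 : z 3 = 0
  · exfalso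
    apply hs
    rw [← mat_adic_iff ha hb]
    refine split_of_pure (two_adic v) ((map_ne_zero _).mpr ha) ((map_ne_zero _).mpr hb)
      (x := z 0) (y := z 1) (z := z 2) (fun h' => hz0 ?_) ?_
    · funext i
      fin_cases i
      · exact h'.1
      · exact h'.2.1
      · exact h'.2.2
      · exact h3
    · rw [h3] at hz
      linear_combination hz
  · refine ⟨z 0 / z 3, z 1 / z 3, z 2 / z 3, ?_⟩
    field_simp
    linear_combination -hz

/-- **The values of the pure quaternions of a quaternion algebra over a number field.** -/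
theorem ternary_iff (ha : a ≠ 0) (hb : b ≠ 0) (hc : c ≠ 0) :
    (∃ x y z : K, c = a * x ^ 2 + b * y ^ 2 - a * b * z ^ 2) ↔
      (∀ v : HeightOneSpectrum (𝓞 K), ¬ IsSplitAt v a b →
        ¬ IsSquare (algebraMap K (v.adicCompletion K) c)) ∧
      ∀ σ : K →+* ℝ, σ a < 0 → σ b < 0 → σ c < 0 := by
  constructor
  · rintro ⟨x, y, z, h⟩
    have h0 : ¬ (x = 0 ∧ y = 0 ∧ z = 0) := by
      rintro ⟨rfl, rfl, rfl⟩
      apply hc
      rw [h]
      ring
    refine ⟨fun v hv ⟨r, hr⟩ => hv ?_, fun σ h1 h2 => ?_⟩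
    · refine sol_of_norm_zero (r := r) (x := algebraMap K (v.adicCompletion K) x)
        (y := algebraMap K (v.adicCompletion K) y) (z := algebraMap K (v.adicCompletion K) z)
        (fun h' => h0 ?_) ?_
      · exact ⟨(map_eq_zero _).mp h'.2.1, (map_eq_zero _).mp h'.2.2.1, (map_eq_zero _).mp h'.2.2.2⟩
      · have h3 := congrArg (algebraMap K (v.adicCompletion K)) h
        rw [map_sub, map_add, map_mul, map_mul, map_mul, map_mul, map_pow, map_pow, map_pow] at h3
        linear_combination h3 - hr
    · have h3 := congrArg σ h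
      rw [map_sub, map_add, map_mul, map_mul, map_mul, map_mul, map_pow, map_pow, map_pow] at h3
      have h4 : σ c ≤ 0 := by
        rw [h3]
        nlinarith [mul_nonneg (neg_nonneg.mpr h1.le) (sq_nonneg (σ x)),
          mul_nonneg (neg_nonneg.mpr h2.le) (sq_nonneg (σ y)),
          mul_nonneg (mul_pos_of_neg_of_neg h1 h2).le (sq_nonneg (σ z))]
      exact lt_of_le_of_ne h4 ((map_ne_zero σ).mpr hc)
  · rintro ⟨h1, h2⟩
    obtain ⟨x, hx⟩ := (exists_value_diag_nf (a := ![a, b, -(a * b)]) (fun i => by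
      fin_cases i
      · exact ha
      · exact hb
      · exact neg_ne_zero.mpr (mul_ne_zero ha hb)) hc).mpr ⟨fun v => by
        obtain ⟨x, y, z, h⟩ := value_adic ha hb hc v (by
          by_cases hs : IsSplitAt v a b
          · exact Or.inl hs
          · exact Or.inr (h1 v hs))
        refine ⟨![x, y, z], ?_⟩
        rw [Fin.sum_univ_three, h]
        simp only [Matrix.cons_val_zero, Matrix.cons_val_one, Matrix.cons_val, map_neg, map_mul]
        ring, fun σ => by
        have ha' : σ a ≠ 0 := (map_ne_zero σ).mpr ha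
        have hb' : σ b ≠ 0 := (map_ne_zero σ).mpr hb
        have hc' : σ c ≠ 0 := (map_ne_zero σ).mpr hc
        have e0 : σ ((![a, b, -(a * b)] : Fin 3 → K) 0) = σ a := rfl
        have e1 : σ ((![a, b, -(a * b)] : Fin 3 → K) 1) = σ b := rfl
        have e2 : σ ((![a, b, -(a * b)] : Fin 3 → K) 2) = -(σ a * σ b) := by
          rw [← map_mul, ← map_neg]
          rfl
        rcases lt_or_gt_of_ne hc' with h | h
        · rcases lt_or_gt_of_ne ha' with h3 | h3
          · exact ⟨0, by rw [e0]; exact mul_pos_of_neg_of_neg h3 h⟩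
          rcases lt_or_gt_of_ne hb' with h4 | h4
          · exact ⟨1, by rw [e1]; exact mul_pos_of_neg_of_neg h4 h⟩
          exact ⟨2, by rw [e2]; exact mul_pos_of_neg_of_neg (neg_neg_of_pos (mul_pos h3 h4)) h⟩
        · rcases lt_or_gt_of_ne ha' with h3 | h3
          · rcases lt_or_gt_of_ne hb' with h4 | h4
            · exact absurd (h2 σ h3 h4) (not_lt.mpr h.le)
            · exact ⟨1, by rw [e1]; exact mul_pos h4 h⟩
          · exact ⟨0, by rw [e0]; exact mul_pos h3 h⟩⟩
    refine ⟨x 0, x 1, x 2, ?_⟩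
    rw [← hx, Fin.sum_univ_three]
    simp only [Matrix.cons_val_zero, Matrix.cons_val_one, Matrix.cons_val]
    ring

/-- **Square roots in quaternion algebras over number fields.** -/
theorem exists_sq_iff_ramified (ha : a ≠ 0) (hb : b ≠ 0) (hc : c ≠ 0) (hsq : ¬ IsSquare c) :
    (∃ q : ℍ[K,a,b], q * q = algebraMap K _ c) ↔
      (∀ v : HeightOneSpectrum (𝓞 K), ¬ IsSplitAt v a b →
        ¬ IsSquare (algebraMap K (v.adicCompletion K) c)) ∧
      ∀ σ : K →+* ℝ, σ a < 0 → σ b < 0 → σ c < 0 := by
  rw [exists_sq_iff two_ne_zero, or_iff_right hsq]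
  exact ternary_iff ha hb hc

open Polynomial in
/-- **The embedding theorem**: the quadratic extension `K(√c)` embeds into `ℍ[K,a,b]` iff `c` is not
a square at the places where `ℍ[K,a,b]` is ramified. -/
theorem exists_algHom_iff (ha : a ≠ 0) (hb : b ≠ 0) (hc : c ≠ 0) (hsq : ¬ IsSquare c) :
    Nonempty (AdjoinRoot (X ^ 2 - C c) →ₐ[K] ℍ[K,a,b]) ↔
      (∀ v : HeightOneSpectrum (𝓞 K), ¬ IsSplitAt v a b →
        ¬ IsSquare (algebraMap K (v.adicCompletion K) c)) ∧
      ∀ σ : K →+* ℝ, σ a < 0 → σ b < 0 → σ c < 0 := by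
  rw [← exists_sq_iff_ramified ha hb hc hsq]
  constructor
  · rintro ⟨f⟩
    refine ⟨f (AdjoinRoot.root _), ?_⟩
    rw [← map_mul, ← sq, root_X_pow_sub_C_pow]
    exact f.commutes c
  · rintro ⟨q, hq⟩
    have hz : aeval q (X ^ 2 - C c) = 0 := by
      rw [map_sub, map_pow, aeval_X, aeval_C, sq, hq, sub_self]
    refine ⟨Ideal.Quotient.liftₐ (Ideal.span {X ^ 2 - C c}) (aeval q) ?_⟩
    intro p hp
    obtain ⟨g, rfl⟩ := Ideal.mem_span_singleton.mp hp
    rw [map_mul, hz, zero_mul]

end Fermat.Agent.Cor.QA
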