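import Fermat.Agent.Corollaries.QA.NumberField
import Fermat.Agent.Corollaries.QA.CSA
import Fermat.Agent.Corollaries.HM.RealExist

/-!
# Existence of quaternion algebras and the classification of the central simple algebras of
dimension four over a number field

`K` is a number field.  A central simple `K`-algebra `A` of dimension `4` (these are the
quaternion algebras `ℍ[K,a,b]`, see `exists_equiv_of_csa`) is ramified at a place if it is not a
matrix algebra over the completion (`Ramified A p`; `p` is a finite or a real place).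

* `exists_quaternion`: for all finite sets `T` of finite places and `R` of real embeddings with
  `|T| + |R|` even there is a quaternion algebra over `K` ramified exactly at `T` and `R`;
* `csa_iff_local` (Albert, Brauer, Hasse, Noether): `A` is a matrix algebra iff it is nowhere
  ramified;
* `csa_equiv_iff`: `A` and `B` are isomorphic iff they are ramified at the same places;
* `finite_ramified`, `even_ramified`: the set of the ramified places is finite of even
  cardinality;
* `exists_csa`: every finite set of places of even cardinality occurs;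
* `quatEquiv`: the bijection between the classes of quaternion algebras and these sets.
-/

set_option autoImplicit false

open Quaternion

namespace Fermat.Agent.Cor.QA

open IsDedekindDomain NumberField
open Fermat.Agent.Cor.HM
open scoped TensorProduct

section BaseChange

variable {F : Type*} [Field F] {a b : F}

/-- Base change of a quaternion algebra. -/
theorem exists_equiv_tensor (h2 : (2 : F) ≠ 0) (ha : a ≠ 0) (hb : b ≠ 0) (E : Type*) [Field E]
    [Algebra F E] :
    Nonempty (ℍ[E,algebraMap F E a,algebraMap F E b] ≃ₐ[E] E ⊗[F] ℍ[F,a,b]) := by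
  have hE : (2 : E) ≠ 0 := by
    rw [← map_ofNat (algebraMap F E) 2]
    exact (map_ne_zero _).mpr h2
  have h4 : Module.finrank E (E ⊗[F] ℍ[F,a,b]) = 4 := by
    rw [Module.finrank_baseChange]
    exact QuaternionAlgebra.finrank_eq_four ..
  have hnt : Nontrivial (E ⊗[F] ℍ[F,a,b]) :=
    Module.nontrivial_of_finrank_pos (R := E) (by rw [h4]; norm_num)
  have key : ∀ (x : ℍ[F,a,b]) (c : F), x * x = algebraMap F _ c →
      ((1 : E) ⊗ₜ[F] x) * ((1 : E) ⊗ₜ[F] x) = algebraMap E _ (algebraMap F E c) := by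
    intro x c hx
    rw [Algebra.TensorProduct.tmul_mul_tmul, hx, one_mul, Algebra.TensorProduct.algebraMap_apply,
      Algebra.algebraMap_eq_smul_one c, Algebra.algebraMap_eq_smul_one c,
      Algebra.algebraMap_self_apply, TensorProduct.smul_tmul]
  refine exists_equiv_of_gen hE ((map_ne_zero _).mpr ha) ((map_ne_zero _).mpr hb) h4
    (1 ⊗ₜ ⟨0, 1, 0, 0⟩) (1 ⊗ₜ ⟨0, 0, 1, 0⟩) (key _ _ ?_) (key _ _ ?_) ?_
  · rw [QuaternionAlgebra.algebraMap_eq]
    ext <;> simp
  · rw [QuaternionAlgebra.algebraMap_eq]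
    ext <;> simp
  · rw [Algebra.TensorProduct.tmul_mul_tmul, Algebra.TensorProduct.tmul_mul_tmul,
      ← TensorProduct.tmul_neg]
    congr 1
    ext <;> simp

/-- Base change of an isomorphism. -/
theorem mat_tensor_iff {A : Type*} [Ring A] [Algebra F A] (h2 : (2 : F) ≠ 0) (ha : a ≠ 0)
    (hb : b ≠ 0) (e : ℍ[F,a,b] ≃ₐ[F] A) (E : Type*) [Field E] [Algebra F E] :
    Nonempty (E ⊗[F] A ≃ₐ[E] Matrix (Fin 2) (Fin 2) E) ↔
      Nonempty (ℍ[E,algebraMap F E a,algebraMap F E b] ≃ₐ[E] Matrix (Fin 2) (Fin 2) E) := by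
  obtain ⟨f⟩ := exists_equiv_tensor h2 ha hb E
  let g : E ⊗[F] ℍ[F,a,b] ≃ₐ[E] E ⊗[F] A := Algebra.TensorProduct.congr AlgEquiv.refl e
  exact ⟨fun ⟨h⟩ => ⟨(f.trans g).trans h⟩, fun ⟨h⟩ => ⟨(f.trans g).symm.trans h⟩⟩

end BaseChange

section Real

variable {K : Type*} [Field K] {w : InfinitePlace K}

/-- Quaternion algebras over the completion at a real place. -/
theorem mat_completion_iff (hw : w.IsReal) {a b : K} (ha : a ≠ 0) (hb : b ≠ 0) :
    Nonempty (ℍ[w.Completion,algebraMap K w.Completion a,algebraMap K w.Completion b]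
      ≃ₐ[w.Completion] Matrix (Fin 2) (Fin 2) w.Completion) ↔
      ¬ (InfinitePlace.embedding_of_isReal hw a < 0 ∧
        InfinitePlace.embedding_of_isReal hw b < 0) := by
  let e := InfinitePlace.Completion.ringEquivRealOfIsReal hw
  have he : ∀ x : K, e (algebraMap K w.Completion x) = InfinitePlace.embedding_of_isReal hw x :=
    extension_algebraMap hw
  have h2 : (2 : w.Completion) ≠ 0 := by
    rw [← map_ofNat e.symm 2]
    exact (map_ne_zero _).mpr two_ne_zero
  rw [mat_iff h2 ((map_ne_zero _).mpr ha) ((map_ne_zero _).mpr hb),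
    ← isSplit_real_iff _ _ ((map_ne_zero _).mpr ha) ((map_ne_zero _).mpr hb)]
  constructor
  · rintro ⟨x, y, z, h0, h⟩
    refine ⟨e x, e y, e z, fun h' => h0 ?_, ?_⟩
    · simpa only [map_eq_zero] using h'
    · rw [← he, ← he, ← map_pow, ← map_pow, ← map_pow, ← map_mul, ← map_mul, ← map_add, h]
  · rintro ⟨x, y, z, h0, h⟩
    refine ⟨e.symm x, e.symm y, e.symm z, fun h' => h0 ?_, ?_⟩
    · simpa only [map_eq_zero] using h'
    · apply e.injective
      rw [map_add, map_mul, map_mul, map_pow, map_pow, map_pow, he, he, e.apply_symm_apply,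
        e.apply_symm_apply, e.apply_symm_apply, h]

end Real

section Main

variable {K : Type} [Field K] [NumberField K]

/-- **Existence of quaternion algebras over number fields**: `T` is a finite set of finite places,
`R` a set of real embeddings, `|T| + |R|` is even; then there is a quaternion algebra over `K` which
is ramified exactly at the places in `T` and `R`. -/
theorem exists_quaternion (T : Finset (HeightOneSpectrum (𝓞 K))) (R : Finset (K →+* ℝ))
    (hTR : Even (T.card + R.card)) :
    ∃ a b : K, a ≠ 0 ∧ b ≠ 0 ∧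
      (∀ v : HeightOneSpectrum (𝓞 K),
        IsEmpty (ℍ[v.adicCompletion K,algebraMap K (v.adicCompletion K) a,
          algebraMap K (v.adicCompletion K) b] ≃ₐ[v.adicCompletion K]
            Matrix (Fin 2) (Fin 2) (v.adicCompletion K)) ↔ v ∈ T) ∧
      ∀ σ : K →+* ℝ, IsEmpty (ℍ[ℝ,σ a,σ b] ≃ₐ[ℝ] Matrix (Fin 2) (Fin 2) ℝ) ↔ σ ∈ R := by
  obtain ⟨a, b, ha, hb, h1, h2⟩ := exists_ramified_all T R hTR
  refine ⟨a, b, ha, hb, fun v => ?_, fun σ => ?_⟩
  · rw [← not_nonempty_iff, mat_adic_iff ha hb, h1]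
  · rw [← not_nonempty_iff, mat_real_iff ((map_ne_zero σ).mpr ha) ((map_ne_zero σ).mpr hb),
      not_not, h2]

/-- `A` is not a matrix algebra over the completion at the place `p` (finite or real). -/
def Ramified (A : Type*) [Ring A] [Algebra K A] : PlK K → Prop
  | .inl v => IsEmpty (v.adicCompletion K ⊗[K] A ≃ₐ[v.adicCompletion K]
      Matrix (Fin 2) (Fin 2) (v.adicCompletion K))
  | .inr w => IsEmpty (w.1.Completion ⊗[K] A ≃ₐ[w.1.Completion]
      Matrix (Fin 2) (Fin 2) w.1.Completion)

/-- the invariants of `(a, b)` -/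
def RamPair (a b : K) : PlK K → Prop
  | .inl v => ¬ IsSplitAt v a b
  | .inr w => InfinitePlace.embedding_of_isReal w.2 a < 0 ∧
      InfinitePlace.embedding_of_isReal w.2 b < 0

theorem ramified_iff {A : Type*} [Ring A] [Algebra K A] {a b : K} (ha : a ≠ 0) (hb : b ≠ 0)
    (e : ℍ[K,a,b] ≃ₐ[K] A) (p : PlK K) : Ramified A p ↔ RamPair a b p := by
  rcases p with v | w
  · rw [Ramified, RamPair, ← not_nonempty_iff, mat_tensor_iff two_ne_zero ha hb e,
      mat_adic_iff ha hb]
  · rw [Ramified, RamPair, ← not_nonempty_iff, mat_tensor_iff two_ne_zero ha hb e,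
      mat_completion_iff w.2 ha hb, not_not]

theorem ramified_quaternion_iff {a b : K} (ha : a ≠ 0) (hb : b ≠ 0) (p : PlK K) :
    Ramified ℍ[K,a,b] p ↔ RamPair a b p :=
  ramified_iff ha hb AlgEquiv.refl p

lemma ramPair_forall_iff {a b c d : K} :
    (∀ p : PlK K, RamPair a b p ↔ RamPair c d p) ↔
      (∀ v : HeightOneSpectrum (𝓞 K), IsSplitAt v a b ↔ IsSplitAt v c d) ∧
      ∀ σ : K →+* ℝ, (σ a < 0 ∧ σ b < 0) ↔ (σ c < 0 ∧ σ d < 0) := by
  constructor
  · intro h
    refine ⟨fun v => not_iff_not.mp (h (.inl v)), fun σ => ?_⟩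
    obtain ⟨w, hw, rfl⟩ := exists_place_of_ringHom σ
    exact h (.inr ⟨w, hw⟩)
  · rintro ⟨h1, h2⟩ (v | w)
    · exact not_congr (h1 v)
    · exact h2 _

/-- the real places and the embeddings `K →+* ℝ` -/
noncomputable def realEquiv : {w : InfinitePlace K // w.IsReal} ≃ (K →+* ℝ) :=
  Equiv.ofBijective (fun w => InfinitePlace.embedding_of_isReal w.2) ⟨by
    rintro ⟨w, hw⟩ ⟨w', hw'⟩ h
    rw [Subtype.mk.injEq, ← InfinitePlace.mk_embedding w, ← InfinitePlace.mk_embedding w']
    congr 1
    ext x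
    rw [← InfinitePlace.embedding_of_isReal_apply hw, ← InfinitePlace.embedding_of_isReal_apply hw']
    exact congrArg _ (RingHom.congr_fun h x), fun σ => by
    obtain ⟨w, hw, h⟩ := exists_place_of_ringHom σ
    exact ⟨⟨w, hw⟩, h⟩⟩

omit [NumberField K] in
lemma realEquiv_apply (w : {w : InfinitePlace K // w.IsReal}) :
    realEquiv w = InfinitePlace.embedding_of_isReal w.2 := rfl

/-- The set of the places where `(a, b)` is ramified is finite. -/
theorem finite_ramPair {a b : K} (ha : a ≠ 0) (hb : b ≠ 0) : {p : PlK K | RamPair a b p}.Finite := by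
  have h1 := (hilbert_reciprocity_all ha hb).1
  have h2 : {p : PlK K | RamPair a b p} =
      Sum.inl '' {v : HeightOneSpectrum (𝓞 K) | ¬ IsSplitAt v a b} ∪
        Sum.inr '' {w : {w : InfinitePlace K // w.IsReal} | RamPair a b (.inr w)} := by
    ext p
    rcases p with v | w
    · simp [RamPair]
    · simp
  rw [h2]
  exact (h1.image _).union ((Set.toFinite _).image _)

/-- The number of the ramified places is even. -/
theorem even_ramPair {a b : K} (ha : a ≠ 0) (hb : b ≠ 0) :
    Even {p : PlK K | RamPair a b p}.ncard := by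
  obtain ⟨h1, h3⟩ := hilbert_reciprocity_all ha hb
  have h2 : {p : PlK K | RamPair a b p} =
      Sum.inl '' {v : HeightOneSpectrum (𝓞 K) | ¬ IsSplitAt v a b} ∪
        Sum.inr '' {w : {w : InfinitePlace K // w.IsReal} | RamPair a b (.inr w)} := by
    ext p
    rcases p with v | w
    · simp [RamPair]
    · simp
  have h4 : {σ : K →+* ℝ | σ a < 0 ∧ σ b < 0} =
      realEquiv '' {w : {w : InfinitePlace K // w.IsReal} | RamPair a b (.inr w)} := by
    ext σ
    constructor
    · intro h
      refine ⟨realEquiv.symm σ, ?_, realEquiv.apply_symm_apply σ⟩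
      have h5 := realEquiv.apply_symm_apply σ
      rw [realEquiv_apply] at h5
      rw [Set.mem_ofPred_eq, RamPair, h5]
      exact h
    · rintro ⟨w, hw, rfl⟩
      exact hw
  rw [h2, Set.ncard_union_eq (by
      rw [Set.disjoint_left]
      rintro _ ⟨v, -, rfl⟩ ⟨w, -, h⟩
      exact Sum.inr_ne_inl h) (h1.image _) ((Set.toFinite _).image _),
    Set.ncard_image_of_injective _ Sum.inl_injective,
    Set.ncard_image_of_injective _ Sum.inr_injective]
  rw [h4, Set.ncard_image_of_injective _ realEquiv.injective] at h3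
  exact h3

/-- Every finite set of places of even cardinality is the set of ramified places of some `(a, b)`. -/
theorem exists_ramPair (S : Finset (PlK K)) (hS : Even S.card) :
    ∃ a b : K, a ≠ 0 ∧ b ≠ 0 ∧ ∀ p, RamPair a b p ↔ p ∈ S := by
  classical
  obtain ⟨a, b, ha, hb, h1, h2⟩ := exists_ramified_all S.toLeft (S.toRight.map realEquiv.toEmbedding)
    (by rw [Finset.card_map, Finset.card_toLeft_add_card_toRight]; exact hS)
  refine ⟨a, b, ha, hb, ?_⟩
  rintro (v | w)
  · rw [RamPair, h1, Finset.mem_toLeft]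
  · rw [RamPair, h2, ← realEquiv_apply, Finset.mem_map_equiv, Equiv.symm_apply_apply,
      Finset.mem_toRight]

section CSA

variable {A B : Type*} [Ring A] [Algebra K A] [Ring B] [Algebra K B]
  [Algebra.IsCentral K A] [IsSimpleRing A] [Algebra.IsCentral K B] [IsSimpleRing B]

/-- **The theorem of Albert, Brauer, Hasse and Noether** for central simple algebras of dimension
`4` over a number field. -/
theorem csa_iff_local (h4 : Module.finrank K A = 4) :
    Nonempty (A ≃ₐ[K] Matrix (Fin 2) (Fin 2) K) ↔ ∀ p : PlK K, ¬ Ramified A p := by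
  obtain ⟨a, b, ha, hb, ⟨e⟩⟩ := exists_equiv_of_csa (two_ne_zero (α := K)) h4
  have h1 : Nonempty (A ≃ₐ[K] Matrix (Fin 2) (Fin 2) K) ↔
      Nonempty (ℍ[K,a,b] ≃ₐ[K] Matrix (Fin 2) (Fin 2) K) :=
    ⟨fun ⟨f⟩ => ⟨e.trans f⟩, fun ⟨f⟩ => ⟨e.symm.trans f⟩⟩
  rw [h1, mat_nf_iff ha hb]
  constructor
  · rintro ⟨h2, h3⟩ p hp
    rw [ramified_iff ha hb e] at hp
    rcases p with v | w
    · exact hp (h2 v)
    · exact h3 _ hp
  · intro h
    refine ⟨fun v => ?_, fun σ hσ => ?_⟩
    · have h2 := h (.inl v)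
      rw [ramified_iff ha hb e] at h2
      exact not_not.mp h2
    · obtain ⟨w, hw, rfl⟩ := exists_place_of_ringHom σ
      have h2 := h (.inr ⟨w, hw⟩)
      rw [ramified_iff ha hb e] at h2
      exact h2 hσ

/-- **Classification of the central simple algebras of dimension `4` over a number field**: they are
isomorphic iff they are ramified at the same places. -/
theorem csa_equiv_iff (h4 : Module.finrank K A = 4) (h4' : Module.finrank K B = 4) :
    Nonempty (A ≃ₐ[K] B) ↔ ∀ p : PlK K, Ramified A p ↔ Ramified B p := by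
  obtain ⟨a, b, ha, hb, ⟨e⟩⟩ := exists_equiv_of_csa (two_ne_zero (α := K)) h4
  obtain ⟨c, d, hc, hd, ⟨f⟩⟩ := exists_equiv_of_csa (two_ne_zero (α := K)) h4'
  have h1 : Nonempty (A ≃ₐ[K] B) ↔ Nonempty (ℍ[K,a,b] ≃ₐ[K] ℍ[K,c,d]) :=
    ⟨fun ⟨g⟩ => ⟨(e.trans g).trans f.symm⟩, fun ⟨g⟩ => ⟨(e.symm.trans g).trans f⟩⟩
  rw [h1, equiv_iff_ramified ha hb hc hd, ← ramPair_forall_iff]
  exact forall_congr' fun p => by rw [ramified_iff ha hb e, ramified_iff hc hd f]

/-- The set of the ramified places is finite. -/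
theorem finite_ramified (h4 : Module.finrank K A = 4) : {p : PlK K | Ramified A p}.Finite := by
  obtain ⟨a, b, ha, hb, ⟨e⟩⟩ := exists_equiv_of_csa (two_ne_zero (α := K)) h4
  have h1 : {p : PlK K | Ramified A p} = {p : PlK K | RamPair a b p} := by
    ext p
    exact ramified_iff ha hb e p
  rw [h1]
  exact finite_ramPair ha hb

/-- **Hilbert's reciprocity law**: the number of the ramified places is even. -/
theorem even_ramified (h4 : Module.finrank K A = 4) : Even {p : PlK K | Ramified A p}.ncard := by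
  obtain ⟨a, b, ha, hb, ⟨e⟩⟩ := exists_equiv_of_csa (two_ne_zero (α := K)) h4
  have h1 : {p : PlK K | Ramified A p} = {p : PlK K | RamPair a b p} := by
    ext p
    exact ramified_iff ha hb e p
  rw [h1]
  exact even_ramPair ha hb

end CSA

/-- **Existence**: every finite set of places of even cardinality is the set of the ramified places
of a quaternion algebra over `K`. -/
theorem exists_csa (S : Finset (PlK K)) (hS : Even S.card) :
    ∃ a b : K, a ≠ 0 ∧ b ≠ 0 ∧ ∀ p, Ramified ℍ[K,a,b] p ↔ p ∈ S := by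
  obtain ⟨a, b, ha, hb, h⟩ := exists_ramPair S hS
  exact ⟨a, b, ha, hb, fun p => (ramified_quaternion_iff ha hb p).trans (h p)⟩

variable (K) in
/-- isomorphism of the quaternion algebras `ℍ[K,a,b]` and `ℍ[K,c,d]` -/
def quatSetoid : Setoid (Kˣ × Kˣ) where
  r p q := Nonempty (ℍ[K,(p.1 : K),(p.2 : K)] ≃ₐ[K] ℍ[K,(q.1 : K),(q.2 : K)])
  iseqv := ⟨fun _ => ⟨AlgEquiv.refl⟩, fun ⟨e⟩ => ⟨e.symm⟩, fun ⟨e⟩ ⟨f⟩ => ⟨e.trans f⟩⟩

/-- the finite set of the ramified places -/
noncomputable def ramFinset (p : Kˣ × Kˣ) : Finset (PlK K) :=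
  (finite_ramPair p.1.ne_zero p.2.ne_zero).toFinset

lemma mem_ramFinset {p : Kˣ × Kˣ} {x : PlK K} : x ∈ ramFinset p ↔ RamPair (p.1 : K) p.2 x := by
  rw [ramFinset, Set.Finite.mem_toFinset, Set.mem_ofPred_eq]

lemma even_ramFinset (p : Kˣ × Kˣ) : Even (ramFinset p).card := by
  rw [ramFinset, ← Set.ncard_eq_toFinset_card _ (finite_ramPair p.1.ne_zero p.2.ne_zero)]
  exact even_ramPair p.1.ne_zero p.2.ne_zero

lemma ramFinset_eq_iff {p q : Kˣ × Kˣ} : ramFinset p = ramFinset q ↔ (quatSetoid K).r p q := by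
  have h1 : (quatSetoid K).r p q ↔ ∀ x : PlK K, RamPair (p.1 : K) p.2 x ↔ RamPair (q.1 : K) q.2 x :=
    (equiv_iff_ramified p.1.ne_zero p.2.ne_zero q.1.ne_zero q.2.ne_zero).trans
      ramPair_forall_iff.symm
  rw [h1, Finset.ext_iff]
  exact forall_congr' fun x => by rw [mem_ramFinset, mem_ramFinset]

variable (K) in
/-- **The quaternion algebras over a number field up to isomorphism correspond to the finite sets of
(finite and real) places of even cardinality.** -/
noncomputable def quatEquiv :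
    Quotient (quatSetoid K) ≃ {S : Finset (PlK K) // Even S.card} :=
  Equiv.ofBijective (Quotient.lift (fun p => ⟨ramFinset p, even_ramFinset p⟩)
    fun _ _ h => Subtype.ext (ramFinset_eq_iff.mpr h)) ⟨by
      intro x y
      induction x using Quotient.inductionOn with | _ p
      induction y using Quotient.inductionOn with | _ q
      intro h
      exact Quotient.sound (ramFinset_eq_iff.mp (congrArg Subtype.val h)), by
      rintro ⟨S, hS⟩
      obtain ⟨a, b, ha, hb, h⟩ := exists_ramPair S hS
      refine ⟨Quotient.mk _ (Units.mk0 a ha, Units.mk0 b hb), Subtype.ext ?_⟩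
      ext x
      exact mem_ramFinset.trans (h x)⟩

/-- The bijection `quatEquiv` maps `ℍ[K,a,b]` to the set of its ramified places. -/
theorem mem_quatEquiv_iff (p : Kˣ × Kˣ) (x : PlK K) :
    x ∈ (quatEquiv K (Quotient.mk _ p)).1 ↔ Ramified ℍ[K,(p.1 : K),(p.2 : K)] x :=
  mem_ramFinset.trans (ramified_quaternion_iff p.1.ne_zero p.2.ne_zero x).symm

end Main

end Fermat.Agent.Cor.QA
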