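import Fermat.Agent.Corollaries.QA.Albert

/-!
# Generic quaternion algebras and biquaternion division algebras

`k` is a field, `2 ≠ 0`.

* `aniso_ratFunc`: if the diagonal forms `q₁`, `q₂` over `k` are anisotropic then so is
  `q₁ ⊥ t q₂` over `k(t)`;
* `isUnit_generic`: the generic quaternion algebra `ℍ[k(s)(t),s,t]` is a division algebra;
* `isUnit_biquaternion`: if `ℍ[k,a,b]` is a division algebra then so is
  `ℍ[K,a,b] ⊗ ℍ[K,s,t]`, `K = k(s)(t)`, of dimension `16`; `isUnit_biquaternion_real`;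
* `tensor_self_biquaternion`: biquaternion algebras have exponent at most two.
-/

set_option autoImplicit false

open Quaternion
open scoped TensorProduct

namespace Fermat.Agent.Cor.QA

section Aniso

/-- The diagonal form with the coefficients `a` is anisotropic. -/
def Aniso {k : Type*} [Field k] {ι : Type*} [Fintype ι] (a : ι → k) : Prop :=
  ∀ x : ι → k, ∑ i, a i * x i ^ 2 = 0 → x = 0

variable {k : Type*} [Field k] {ι κ : Type*} [Fintype ι] [Fintype κ] {a : ι → k} {b : κ → k}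

open Polynomial in
/-- The form `q₁ ⊥ X q₂` over `k[X]`. -/
theorem eq_zero_of_poly (ha : Aniso a) (hb : Aniso b) (n : ℕ) :
    ∀ (f : ι → k[X]) (g : κ → k[X]), (∀ i m, n ≤ m → (f i).coeff m = 0) →
      (∀ j m, n ≤ m → (g j).coeff m = 0) →
      ∑ i, C (a i) * f i ^ 2 + X * ∑ j, C (b j) * g j ^ 2 = 0 → f = 0 ∧ g = 0 := by
  induction n with
  | zero =>
    intro f g hf hg _
    exact ⟨funext fun i => Polynomial.ext fun m => by rw [hf i m (Nat.zero_le _)]; simp,
      funext fun j => Polynomial.ext fun m => by rw [hg j m (Nat.zero_le _)]; simp⟩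
  | succ n ih =>
    intro f g hf hg h
    -- the constant coefficients of `f` vanish
    have h1 : (fun i => (f i).coeff 0) = 0 := by
      apply ha
      have h2 := congrArg (Polynomial.eval 0) h
      rw [eval_add, eval_mul, eval_X, zero_mul, add_zero, eval_finsetSum, eval_zero] at h2
      simpa [coeff_zero_eq_eval_zero] using h2
    have hf1 : ∀ i, f i = X * divX (f i) := by
      intro i
      conv_lhs => rw [← divX_mul_X_add (f i), congrFun h1 i]
      simp [mul_comm]
    have h3 : X * ∑ i, C (a i) * divX (f i) ^ 2 + ∑ j, C (b j) * g j ^ 2 = 0 := by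
      have h4 : X * (X * ∑ i, C (a i) * divX (f i) ^ 2 + ∑ j, C (b j) * g j ^ 2) = 0 := by
        rw [← h, mul_add, Finset.mul_sum, Finset.mul_sum]
        refine congrArg₂ (· + ·) (Finset.sum_congr rfl fun i _ => ?_) rfl
        conv_rhs => rw [hf1 i]
        ring
      exact (mul_eq_zero.mp h4).resolve_left X_ne_zero
    -- the constant coefficients of `g` vanish
    have h5 : (fun j => (g j).coeff 0) = 0 := by
      apply hb
      have h2 := congrArg (Polynomial.eval 0) h3
      rw [eval_add, eval_mul, eval_X, zero_mul, zero_add, eval_finsetSum, eval_zero] at h2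
      simpa [coeff_zero_eq_eval_zero] using h2
    have hg1 : ∀ j, g j = X * divX (g j) := by
      intro j
      conv_lhs => rw [← divX_mul_X_add (g j), congrFun h5 j]
      simp [mul_comm]
    have h6 : ∑ i, C (a i) * divX (f i) ^ 2 + X * ∑ j, C (b j) * divX (g j) ^ 2 = 0 := by
      have h4 : X * (∑ i, C (a i) * divX (f i) ^ 2 + X * ∑ j, C (b j) * divX (g j) ^ 2) = 0 := by
        rw [← h3, mul_add, Finset.mul_sum, Finset.mul_sum, Finset.mul_sum]
        refine congrArg₂ (· + ·) rfl (Finset.sum_congr rfl fun j _ => ?_)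
        conv_rhs => rw [hg1 j]
        ring
      exact (mul_eq_zero.mp h4).resolve_left X_ne_zero
    obtain ⟨h7, h8⟩ := ih (fun i => divX (f i)) (fun j => divX (g j))
      (fun i m hm => by rw [coeff_divX]; exact hf i _ (by omega))
      (fun j m hm => by rw [coeff_divX]; exact hg j _ (by omega)) h6
    refine ⟨funext fun i => ?_, funext fun j => ?_⟩
    · rw [hf1 i, congrFun h7 i]
      simp
    · rw [hg1 j, congrFun h8 j]
      simp

/-- **Anisotropic forms over `k(t)`**: `q₁ ⊥ t q₂` is anisotropic if `q₁` and `q₂` are anisotropic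
over `k`. -/
theorem aniso_ratFunc (ha : Aniso a) (hb : Aniso b) :
    Aniso (Sum.elim (fun i => RatFunc.C (a i)) (fun j => RatFunc.X * RatFunc.C (b j)) :
      ι ⊕ κ → RatFunc k) := by
  intro x hx
  obtain ⟨d, hd⟩ := IsLocalization.exist_integer_multiples (nonZeroDivisors (Polynomial k))
    Finset.univ x
  have hd0 : algebraMap (Polynomial k) (RatFunc k) d ≠ 0 :=
    IsLocalization.to_map_ne_zero_of_mem_nonZeroDivisors _ le_rfl d.2
  choose f hf using fun i => hd i (Finset.mem_univ i)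
  have hf' : ∀ i, algebraMap (Polynomial k) (RatFunc k) (f i) =
      algebraMap (Polynomial k) (RatFunc k) d * x i := fun i => by
    rw [hf i, Algebra.smul_def]
  rw [Fintype.sum_sum_type] at hx
  simp only [Sum.elim_inl, Sum.elim_inr] at hx
  have h1 : ∑ i, Polynomial.C (a i) * f (Sum.inl i) ^ 2 +
      Polynomial.X * ∑ j, Polynomial.C (b j) * f (Sum.inr j) ^ 2 = 0 := by
    apply RatFunc.algebraMap_injective k
    rw [map_zero, map_add, map_mul, map_sum, map_sum, RatFunc.algebraMap_X]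
    simp only [map_mul, map_pow, RatFunc.algebraMap_C, hf']
    have h3 : ∑ i, RatFunc.C (a i) * (algebraMap (Polynomial k) (RatFunc k) d * x (Sum.inl i)) ^ 2 +
        RatFunc.X * ∑ j, RatFunc.C (b j) *
          (algebraMap (Polynomial k) (RatFunc k) d * x (Sum.inr j)) ^ 2 =
        algebraMap (Polynomial k) (RatFunc k) d ^ 2 *
          (∑ i, RatFunc.C (a i) * x (Sum.inl i) ^ 2 +
            ∑ j, RatFunc.X * RatFunc.C (b j) * x (Sum.inr j) ^ 2) := by
      rw [mul_add, Finset.mul_sum, Finset.mul_sum, Finset.mul_sum]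
      exact congrArg₂ (· + ·) (Finset.sum_congr rfl fun i _ => by ring)
        (Finset.sum_congr rfl fun i _ => by ring)
    rw [h3, hx, mul_zero]
  set n := (∑ i, (f i).natDegree) + 1 with hn
  have h2 : ∀ i m, n ≤ m → (f i).coeff m = 0 := by
    intro i m hm
    refine Polynomial.coeff_eq_zero_of_natDegree_lt ?_
    have h3 : (f i).natDegree ≤ ∑ i, (f i).natDegree :=
      Finset.single_le_sum (f := fun i => (f i).natDegree) (fun _ _ => Nat.zero_le _)
        (Finset.mem_univ i)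
    omega
  obtain ⟨h3, h4⟩ := eq_zero_of_poly ha hb n (fun i => f (Sum.inl i)) (fun j => f (Sum.inr j))
    (fun i m hm => h2 _ m hm) (fun j m hm => h2 _ m hm) h1
  have h5 : ∀ i, f i = 0 := by
    rintro (i | j)
    · exact congrFun h3 i
    · exact congrFun h4 j
  funext i
  have h6 := hf' i
  rw [h5 i, map_zero] at h6
  exact (mul_eq_zero.mp h6.symm).resolve_left hd0

/-- The one-dimensional forms are anisotropic. -/
theorem aniso_one {c : k} (hc : c ≠ 0) : Aniso (fun _ : Fin 1 => c) := by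
  intro x hx
  rw [Fin.sum_univ_one] at hx
  funext i
  rw [Subsingleton.elim i 0]
  exact pow_eq_zero_iff two_ne_zero |>.mp ((mul_eq_zero.mp hx).resolve_left hc)

end Aniso

section Generic

variable (k : Type*) [Field k]

/-- The field `k(s)(t)`. -/
abbrev RF2 : Type _ := RatFunc (RatFunc k)

/-- The first variable `s`. -/
noncomputable def sv : RF2 k := RatFunc.C RatFunc.X

/-- The second variable `t`. -/
noncomputable def tv : RF2 k := RatFunc.X

theorem sv_ne_zero : sv k ≠ 0 := by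
  rw [sv]
  exact (map_ne_zero _).mpr RatFunc.X_ne_zero

theorem tv_ne_zero : tv k ≠ 0 := RatFunc.X_ne_zero

variable {k}

theorem two_ne_zero_rf2 (h2 : (2 : k) ≠ 0) : (2 : RF2 k) ≠ 0 := by
  have h : (2 : RF2 k) = RatFunc.C (RatFunc.C (2 : k)) := by
    rw [map_ofNat, map_ofNat]
  rw [h]
  exact (map_ne_zero _).mpr ((map_ne_zero _).mpr h2)

/-- **The generic quaternion algebra is a division algebra.** -/
theorem isUnit_generic (h2 : (2 : k) ≠ 0) {x : ℍ[RF2 k,sv k,tv k]} (hx : x ≠ 0) : IsUnit x := by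
  refine isUnit_of_not_split (two_ne_zero_rf2 h2) (sv_ne_zero k) (tv_ne_zero k) (fun h => ?_) hx
  obtain ⟨x, y, z, h0, h⟩ := (mat_iff (two_ne_zero_rf2 h2) (sv_ne_zero k) (tv_ne_zero k)).mp h
  have h1 : Aniso (fun _ : Fin 1 => (-1 : k)) := aniso_one (neg_ne_zero.mpr one_ne_zero)
  have h3 : Aniso (fun _ : Fin 1 => (1 : k)) := aniso_one one_ne_zero
  have h4 : Aniso (fun _ : Fin 1 => (1 : RatFunc k)) := aniso_one one_ne_zero
  have h5 := aniso_ratFunc (aniso_ratFunc h1 h3) h4 (Sum.elim (Sum.elim ![z] ![x]) ![y]) (by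
    simp [Fintype.sum_sum_type]
    rw [sv, tv] at h
    linear_combination h)
  refine h0 ⟨?_, ?_, ?_⟩
  · exact congrFun h5 (Sum.inl (Sum.inr 0))
  · exact congrFun h5 (Sum.inr 0)
  · exact congrFun h5 (Sum.inl (Sum.inl 0))

/-- **Biquaternion division algebras**: if `ℍ[k,a,b]` is a division algebra then
`ℍ[k(s)(t),a,b] ⊗ ℍ[k(s)(t),s,t]` is a division algebra. -/
theorem isUnit_biquaternion (h2 : (2 : k) ≠ 0) {a b : k} (ha : a ≠ 0) (hb : b ≠ 0)
    (h : ∀ x : ℍ[k,a,b], x ≠ 0 → IsUnit x)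
    {x : ℍ[RF2 k,RatFunc.C (RatFunc.C a),RatFunc.C (RatFunc.C b)] ⊗[RF2 k] ℍ[RF2 k,sv k,tv k]}
    (hx : x ≠ 0) : IsUnit x := by
  have ha' : (RatFunc.C (RatFunc.C a) : RF2 k) ≠ 0 := (map_ne_zero _).mpr ((map_ne_zero _).mpr ha)
  have hb' : (RatFunc.C (RatFunc.C b) : RF2 k) ≠ 0 := (map_ne_zero _).mpr ((map_ne_zero _).mpr hb)
  refine (division_iff_anisotropic (two_ne_zero_rf2 h2) ha' hb' (sv_ne_zero k)
    (tv_ne_zero k)).mpr (fun x hx => ?_) x hx
  have hns : ¬ Nonempty (ℍ[k,a,b] ≃ₐ[k] Matrix (Fin 2) (Fin 2) k) := by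
    rintro ⟨e⟩
    obtain ⟨y, hy, hy'⟩ := exists_nonunit_matrix (A := k)
    apply hy'
    have h1 : e.symm y ≠ 0 := by rwa [Ne, EmbeddingLike.map_eq_zero_iff]
    have h3 := (h _ h1).map e
    rwa [AlgEquiv.apply_symm_apply] at h3
  have h1 : Aniso (![a, b, -(a * b)] : Fin 3 → k) := by
    intro y hy
    by_contra h0
    apply hns
    refine split_of_pure h2 ha hb (x := y 0) (y := y 1) (z := y 2) (fun h' => h0 ?_) ?_
    · funext i
      fin_cases i
      · exact h'.1
      · exact h'.2.1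
      · exact h'.2.2
    · rw [Fin.sum_univ_three] at hy
      simp at hy
      linear_combination hy
  have h3 : Aniso (fun _ : Fin 1 => (-1 : k)) := aniso_one (neg_ne_zero.mpr one_ne_zero)
  have h4 : Aniso (fun _ : Fin 1 => (1 : k)) := aniso_one one_ne_zero
  have h5 := aniso_ratFunc (aniso_ratFunc h1 h3) (aniso_ratFunc h3 h4)
    (Sum.elim (Sum.elim ![x 0, x 1, x 2] ![x 3]) (Sum.elim ![x 4] ![x 5])) (by
      rw [albertForm, sv, tv] at hx
      simp [Fintype.sum_sum_type, Fin.sum_univ_three]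
      linear_combination hx)
  funext i
  fin_cases i
  · exact congrFun h5 (Sum.inl (Sum.inl 0))
  · exact congrFun h5 (Sum.inl (Sum.inl 1))
  · exact congrFun h5 (Sum.inl (Sum.inl 2))
  · exact congrFun h5 (Sum.inl (Sum.inr 0))
  · exact congrFun h5 (Sum.inr (Sum.inl 0))
  · exact congrFun h5 (Sum.inr (Sum.inr 0))

/-- The real quaternions are a division algebra. -/
theorem isUnit_real {x : ℍ[ℝ,-1,-1]} (hx : x ≠ 0) : IsUnit x := by
  refine isUnit_of_not_split two_ne_zero (by norm_num) (by norm_num) (fun h => ?_) hx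
  obtain ⟨x, y, z, h0, h⟩ := (mat_iff two_ne_zero (by norm_num) (by norm_num)).mp h
  have h1 : x ^ 2 + y ^ 2 + z ^ 2 = 0 := by linarith
  have hx := sq_nonneg x
  have hy := sq_nonneg y
  have hz := sq_nonneg z
  exact h0 ⟨pow_eq_zero_iff two_ne_zero |>.mp (by linarith),
    pow_eq_zero_iff two_ne_zero |>.mp (by linarith),
    pow_eq_zero_iff two_ne_zero |>.mp (by linarith)⟩

/-- **A biquaternion division algebra over `ℝ(s)(t)`**: `ℍ[-1,-1] ⊗ ℍ[s,t]`. -/
theorem isUnit_biquaternion_real {x : ℍ[RF2 ℝ,-1,-1] ⊗[RF2 ℝ] ℍ[RF2 ℝ,sv ℝ,tv ℝ]}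
    (hx : x ≠ 0) : IsUnit x := by
  have key : ∀ (a' : RF2 ℝ), RatFunc.C (RatFunc.C (-1 : ℝ)) = a' →
      ∀ x : ℍ[RF2 ℝ,a',a'] ⊗[RF2 ℝ] ℍ[RF2 ℝ,sv ℝ,tv ℝ], x ≠ 0 → IsUnit x := by
    rintro _ rfl x hx
    exact isUnit_biquaternion two_ne_zero (by norm_num) (by norm_num)
      (fun x hx => isUnit_real hx) hx
  exact key (-1) (by rw [map_neg, map_neg, map_one, map_one]) x hx

/-- **Biquaternion algebras have exponent at most two**. -/
theorem tensor_self_biquaternion {F : Type*} [Field F] {a b c d : F} (h2 : (2 : F) ≠ 0)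
    (ha : a ≠ 0) (hb : b ≠ 0) (hc : c ≠ 0) (hd : d ≠ 0) :
    Nonempty ((ℍ[F,a,b] ⊗[F] ℍ[F,c,d]) ⊗[F] (ℍ[F,a,b] ⊗[F] ℍ[F,c,d]) ≃ₐ[F]
      Matrix (Fin 16) (Fin 16) F) := by
  obtain ⟨S⟩ := tensor_self (a := a) (b := b) h2 ha hb
  obtain ⟨T⟩ := tensor_self (a := c) (b := d) h2 hc hd
  exact ⟨((Algebra.TensorProduct.tensorTensorTensorComm F F F F ℍ[F,a,b] ℍ[F,c,d] ℍ[F,a,b]
    ℍ[F,c,d]).trans (Algebra.TensorProduct.congr S T)).trans
    ((Matrix.kroneckerAlgEquiv (Fin 4) (Fin 4) F).trans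
      (Matrix.reindexAlgEquiv F F finProdFinEquiv))⟩

/-- The dimension of a biquaternion algebra. -/
theorem finrank_biquaternion {F : Type*} [Field F] (a b c d : F) :
    Module.finrank F (ℍ[F,a,b] ⊗[F] ℍ[F,c,d]) = 16 := by
  rw [Module.finrank_tensorProduct, QuaternionAlgebra.finrank_eq_four,
    QuaternionAlgebra.finrank_eq_four]

end Generic

end Fermat.Agent.Cor.QA
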