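import Fermat.Agent.Corollaries.QA.TraceIdem
import Fermat.Agent.Corollaries.QA.Level

/-!
# The level of a number field from its local degrees at `2`

For a place `v ∣ 2` of a number field `K` with ramification index `e` and `N v = 2 ^ f`: the
quaternion algebra `(-1, -1)` splits at `v` iff `-1` is a sum of two squares in `K_v` iff `e f`
(the degree of `K_v` over `ℚ_2`) is even. Hence a number field without real embedding has level `≤ 2`
iff all its local degrees at `2` are even, and level `4` iff one of them is odd.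
-/

set_option autoImplicit false
set_option maxHeartbeats 400000

namespace Fermat.Agent.Cor.QA

open IsDedekindDomain NumberField
open Fermat.Agent.Cor.HM
open Fermat.Agent.CFT.Global (locPow LocalSymbols)

variable {K : Type} [Field K] [NumberField K]

lemma exists_absNorm_eq_two_pow {v : HeightOneSpectrum (𝓞 K)} (hv : ((2 : ℕ) : 𝓞 K) ∈ v.asIdeal) :
    ∃ f : ℕ, Ideal.absNorm v.asIdeal = 2 ^ f := by
  have := v.isMaximal
  obtain ⟨p, n, -, hp, hpp, h⟩ := Ideal.exists_prime_and_absNorm_eq_pow v.asIdeal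
  rcases eq_or_ne p 2 with rfl | hne
  · exact ⟨n, h⟩
  · exfalso
    have h1 : IsCoprime (p : ℤ) 2 :=
      (Nat.isCoprime_iff_coprime (n := 2)).mpr ((Nat.coprime_primes hpp Nat.prime_two).mpr hne)
    obtain ⟨a, b, hab⟩ := h1
    refine v.isPrime.ne_top ((Ideal.eq_top_iff_one _).mpr ?_)
    have h2 := congrArg (Int.cast : ℤ → 𝓞 K) hab
    push_cast at h2
    rw [← h2]
    refine add_mem (Ideal.mul_mem_left _ _ hp) (Ideal.mul_mem_left _ _ ?_)
    exact_mod_cast hv

/-- The residue field of `v ∣ 2` has `2 ^ f` elements, `f` Mathlib's inertia degree. -/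
theorem absNorm_eq_two_pow {v : HeightOneSpectrum (𝓞 K)} (hv : ((2 : ℕ) : 𝓞 K) ∈ v.asIdeal) :
    Ideal.absNorm v.asIdeal = 2 ^ Ideal.inertiaDeg' (Ideal.span {(2 : ℤ)}) v.asIdeal := by
  have := v.isPrime
  have hl : v.asIdeal.LiesOver (Ideal.span {((2 : ℕ) : ℤ)}) := by
    refine ⟨?_⟩
    have h1 : Ideal.span {((2 : ℕ) : ℤ)} ≤ v.asIdeal.under ℤ := by
      rw [Ideal.span_singleton_le_iff_mem, Ideal.mem_comap, map_natCast]
      exact hv
    exact (Ideal.IsMaximal.eq_of_le
      (PrincipalIdealRing.isMaximal_of_irreducible (Int.prime_two.irreducible))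
      (Ideal.IsPrime.ne_top inferInstance) h1)
  exact_mod_cast Ideal.absNorm_eq_pow_inertiaDeg' v.asIdeal Nat.prime_two

/-- `(-1, -1)` splits at `v ∣ 2` iff the local degree is even. -/
theorem split_neg_one_iff_even {v : HeightOneSpectrum (𝓞 K)} (hv : ((2 : ℕ) : 𝓞 K) ∈ v.asIdeal)
    {f : ℕ} (hf : Ideal.absNorm v.asIdeal = 2 ^ f) :
    IsSplitAt v (-1 : K) (-1) ↔ Even (ram v * f) := by
  obtain ⟨LS⟩ := Fermat.Agent.CFT.Bridge.nonempty_localSymbols_all (p := 2) K
    (Fermat.Agent.CFT.Global2.Unr.isPrimitiveRoot_neg_one' K)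
  have h1 := sym_eq_one_iff LS v (-1) (-1)
  rw [Units.val_neg, Units.val_one] at h1
  rw [← h1, ← ZMod.natCast_eq_zero_iff_even, ← sym_neg_one_neg_one_eq LS hv hf]
  exact Iff.rfl

/-- **`-1` is a sum of two squares in `K_v`, `v ∣ 2`, iff the local degree `e f` is even.** -/
theorem sum_two_squares_adic_iff_even {v : HeightOneSpectrum (𝓞 K)}
    (hv : ((2 : ℕ) : 𝓞 K) ∈ v.asIdeal) {f : ℕ} (hf : Ideal.absNorm v.asIdeal = 2 ^ f) :
    (∃ x y : v.adicCompletion K, x ^ 2 + y ^ 2 = -1) ↔ Even (ram v * f) := by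
  rw [← isSplitAt_neg_one_iff, split_neg_one_iff_even hv hf]

/-- `ram v` is the exponent of `v` in `2`. -/
theorem two_mem_pow_iff (v : HeightOneSpectrum (𝓞 K)) (n : ℕ) :
    (2 : 𝓞 K) ∈ v.asIdeal ^ n ↔ n ≤ ram v := by
  rw [← v.intValuation_le_pow_iff_mem, intValuation_two, WithZero.exp_le_exp, neg_le_neg_iff,
    Nat.cast_le]

/-- `ram v` is Mathlib's ramification index of `v` over `2`. -/
theorem ram_eq_ramificationIdx (v : HeightOneSpectrum (𝓞 K)) :
    Ideal.ramificationIdx' (Ideal.span {(2 : ℤ)}) v.asIdeal = ram v := by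
  have h : ∀ n : ℕ, Ideal.map (algebraMap ℤ (𝓞 K)) (Ideal.span {(2 : ℤ)}) ≤ v.asIdeal ^ n ↔
      n ≤ ram v := by
    intro n
    rw [Ideal.map_span, Set.image_singleton, Ideal.span_singleton_le_iff_mem, map_ofNat,
      two_mem_pow_iff]
  exact Ideal.ramificationIdx'_spec ((h _).mpr le_rfl) (by rw [h]; omega)

/-- **The level of a number field is at most `2` iff its local degrees at `2` are even.** -/
theorem level_le_two_iff_even (h : IsEmpty (K →+* ℝ)) : level K ≤ 2 ↔
    ∀ (v : HeightOneSpectrum (𝓞 K)) (f : ℕ), ((2 : ℕ) : 𝓞 K) ∈ v.asIdeal →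
      Ideal.absNorm v.asIdeal = 2 ^ f → Even (ram v * f) := by
  rw [level_le_two_iff h]
  constructor
  · intro H v f hv hf
    exact (sum_two_squares_adic_iff_even hv hf).mp (H v hv)
  · intro H v hv
    obtain ⟨f, hf⟩ := exists_absNorm_eq_two_pow hv
    exact (sum_two_squares_adic_iff_even hv hf).mpr (H v f hv hf)

/-- **The level of a number field is at most `2` iff all its local degrees at `2` are even**, with
Mathlib's ramification index and inertia degree. -/
theorem level_le_two_iff_even' (h : IsEmpty (K →+* ℝ)) : level K ≤ 2 ↔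
    ∀ v : HeightOneSpectrum (𝓞 K), ((2 : ℕ) : 𝓞 K) ∈ v.asIdeal →
      Even (Ideal.ramificationIdx' (Ideal.span {(2 : ℤ)}) v.asIdeal *
        Ideal.inertiaDeg' (Ideal.span {(2 : ℤ)}) v.asIdeal) := by
  rw [level_le_two_iff_even h]
  constructor
  · intro H v hv
    rw [ram_eq_ramificationIdx]
    exact H v _ hv (absNorm_eq_two_pow hv)
  · intro H v f hv hf
    have h1 := H v hv
    rw [ram_eq_ramificationIdx] at h1
    rwa [Nat.pow_right_injective (le_refl 2) (hf.symm.trans (absNorm_eq_two_pow hv))]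

/-- **A number field without real embedding has level `4` iff one of its local degrees at `2` is
odd.** -/
theorem level_eq_four_iff_odd (h : IsEmpty (K →+* ℝ)) : level K = 4 ↔
    ∃ v : HeightOneSpectrum (𝓞 K), ((2 : ℕ) : 𝓞 K) ∈ v.asIdeal ∧
      Odd (Ideal.ramificationIdx' (Ideal.span {(2 : ℤ)}) v.asIdeal *
        Ideal.inertiaDeg' (Ideal.span {(2 : ℤ)}) v.asIdeal) := by
  have h1 : level K = 4 ↔ ¬ level K ≤ 2 := by
    have := level_mem h
    omega
  rw [h1, level_le_two_iff_even' h]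
  push Not
  simp only [Nat.not_even_iff_odd]

end Fermat.Agent.Cor.QA
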