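import Fermat.Agent.Corollaries.HM.Cyclic

/-!
# Completions of an extension of number fields

`K ⊆ M` number fields: every completion of `M` contains a completion of `K`, as a `K`-algebra.
-/

set_option autoImplicit false

namespace Fermat.Agent.Cor.QA

open NumberField IsDedekindDomain Fermat.Agent.LT.Ext

variable {K M : Type} [Field K] [NumberField K] [Field M] [NumberField M] [Algebra K M]

/-- finite places -/
theorem exists_adic_hom (w : HeightOneSpectrum (𝓞 M)) : ∃ v : HeightOneSpectrum (𝓞 K),
    Nonempty (v.adicCompletion K →ₐ[K] w.adicCompletion M) := by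
  refine ⟨w.under (𝓞 K), ?_⟩
  have hover : w.asIdeal.LiesOver (w.under (𝓞 K)).asIdeal := ⟨rfl⟩
  let hc := compat_liesOver (K := K) (L := M) (w.under (𝓞 K)) w
  exact ⟨{ hc.ext with
      commutes' := fun x => by
        change hc.ext (algebraMap K _ x) = _
        rw [hc.ext_algebraMap]
        exact (IsScalarTower.algebraMap_apply K M (w.adicCompletion M) x).symm }⟩

omit [NumberField K] [NumberField M] in
open scoped NumberField.LiesOver in
/-- infinite places -/
theorem exists_infinite_hom (w : InfinitePlace M) : ∃ v : InfinitePlace K,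
    Nonempty (v.Completion →ₐ[K] w.Completion) := by
  have h : w.LiesOver (w.comap (algebraMap K M)) := ⟨rfl⟩
  exact ⟨w.comap (algebraMap K M), ⟨IsScalarTower.toAlgHom K _ _⟩⟩

end Fermat.Agent.Cor.QA
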