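import Fermat.Agent.Corollaries.QA.BrauerRes
import Fermat.Agent.Corollaries.QA.LocRes

/-!
# Locally trivial classes of the Brauer group of a number field
-/

set_option autoImplicit false

namespace Fermat.Agent.Cor.QA

open NumberField IsDedekindDomain

/-- The class `x` of the Brauer group of `K` is trivial over all completions of `K`. -/
def LocTrivial (K : Type) [Field K] [NumberField K] (x : BrauerGroup.{0, 0} K) : Prop :=
  (∀ v : HeightOneSpectrum (𝓞 K), brauerRes K (v.adicCompletion K) x = 1) ∧
    ∀ w : InfinitePlace K, brauerRes K w.Completion x = 1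

theorem locTrivial_one (K : Type) [Field K] [NumberField K] : LocTrivial K 1 :=
  ⟨fun _ => map_one _, fun _ => map_one _⟩

/-- If `F ⊆ F'` are extensions of `K` and `x` becomes trivial over `F`, then `x` becomes trivial over
`F'`. -/
theorem brauerRes_eq_one_of_hom {K F F' : Type} [Field K] [Field F] [Field F'] [Algebra K F]
    [Algebra K F'] (f : F →ₐ[K] F') {x : BrauerGroup.{0, 0} K} (h : brauerRes K F x = 1) :
    brauerRes K F' x = 1 := by
  let _ : Algebra F F' := f.toRingHom.toAlgebra
  have : IsScalarTower K F F' := IsScalarTower.of_algebraMap_eq fun y => (f.commutes y).symm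
  have h1 := DFunLike.congr_fun (brauerRes_comp (K := K) F F') x
  rw [MonoidHom.comp_apply, h, map_one] at h1
  exact h1.symm

/-- The restriction of a locally trivial class is locally trivial. -/
theorem LocTrivial.res {K M : Type} [Field K] [NumberField K] [Field M] [NumberField M]
    [Algebra K M] {x : BrauerGroup.{0, 0} K} (hx : LocTrivial K x) :
    LocTrivial M (brauerRes K M x) := by
  refine ⟨fun w => ?_, fun w => ?_⟩
  · obtain ⟨v, ⟨f⟩⟩ := exists_adic_hom (K := K) w
    have h1 := DFunLike.congr_fun (brauerRes_comp (K := K) M (w.adicCompletion M)) x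
    rw [MonoidHom.comp_apply] at h1
    rw [h1]
    exact brauerRes_eq_one_of_hom f (hx.1 v)
  · obtain ⟨v, ⟨f⟩⟩ := exists_infinite_hom (K := K) w
    have : IsScalarTower K M w.Completion := IsScalarTower.of_algebraMap_eq fun _ => rfl
    have h1 := DFunLike.congr_fun (brauerRes_comp (K := K) M w.Completion) x
    rw [MonoidHom.comp_apply] at h1
    rw [h1]
    exact brauerRes_eq_one_of_hom f (hx.2 v)

end Fermat.Agent.Cor.QA
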