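import Fermat.Agent.Corollaries.QA.Basic
import Fermat.Agent.Corollaries.HM.Hilb.LocalInst

/-!
# Quaternion algebras over local fields

`F` is `ℚ_p`, a completion of a number field at a finite place (more generally a field with
`H : LocalHilb F`), or `ℝ`.

* `mat_iff_hilb`: `ℍ[F,a,b]` is a matrix algebra iff the Hilbert symbol `(a, b)` is `1`;
* `forall_isUnit_iff`: it is a division algebra iff `(a, b) = -1`;
* `local_equiv_iff`: `ℍ[F,a,b]` and `ℍ[F,c,d]` are isomorphic iff `(a, b) = (c, d)`;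
* `local_classes`: there are exactly two classes;
* `local_exists_sq`: every element of `F` has a square root in `ℍ[F,a,b]`;
* `local_exists_norm`: the reduced norm is onto;
* `padic_equiv_iff`, `adic_equiv_iff`: the classification over `ℚ_p` and `K_v`;
* `real_equiv_iff`, `real_classes`: the same over `ℝ`.
-/

set_option autoImplicit false

open Quaternion

namespace Fermat.Agent.Cor.QA

open Fermat.Agent.Cor.HM Fermat.Agent.Cor.Hilb

section General

variable {F : Type*} [Field F] {a b : F}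

/-- `ℍ[F,a,b]` is a matrix algebra iff the Hilbert symbol is `1`. -/
theorem mat_iff_hilb (h2 : (2 : F) ≠ 0) (ha : a ≠ 0) (hb : b ≠ 0) :
    Nonempty (ℍ[F,a,b] ≃ₐ[F] Matrix (Fin 2) (Fin 2) F) ↔ hilb a b = 1 := by
  rw [mat_iff h2 ha hb, hilb_eq_one_iff]
  constructor
  · rintro ⟨x, y, z, h0, h⟩
    exact ⟨x, y, z, h0, h.symm⟩
  · rintro ⟨x, y, z, h0, h⟩
    exact ⟨x, y, z, h0, h.symm⟩

/-- the reduced norm -/
theorem mul_star_eq (q : ℍ[F,a,b]) : q * star q =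
    algebraMap F _ (q.re ^ 2 - a * q.imI ^ 2 - b * q.imJ ^ 2 + a * b * q.imK ^ 2) := by
  rw [QuaternionAlgebra.algebraMap_eq]
  ext <;> simp <;> ring

theorem star_mul_eq (q : ℍ[F,a,b]) : star q * q =
    algebraMap F _ (q.re ^ 2 - a * q.imI ^ 2 - b * q.imJ ^ 2 + a * b * q.imK ^ 2) := by
  rw [QuaternionAlgebra.algebraMap_eq]
  ext <;> simp <;> ring

/-- the reduced norm of a division quaternion algebra is anisotropic -/
theorem eq_zero_of_norm (h2 : (2 : F) ≠ 0) (ha : a ≠ 0) (h : ¬ Sol a b) (q : ℍ[F,a,b])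
    (hq : q.re ^ 2 - a * q.imI ^ 2 - b * q.imJ ^ 2 + a * b * q.imK ^ 2 = 0) : q = 0 := by
  have hsq : ∀ x y : F, x ^ 2 - a * y ^ 2 = 0 → x = 0 ∧ y = 0 := by
    intro x y hxy
    have hy : y = 0 := by
      by_contra hy
      exact h ⟨y, 0, x, fun h' => hy h'.1, by linear_combination hxy⟩
    rw [hy] at hxy
    exact ⟨by simpa using hxy, hy⟩
  have h1 : q.imJ ^ 2 - a * q.imK ^ 2 = 0 := by
    by_contra h1
    apply h
    rw [sol_iff_norm h2 ha]
    refine ⟨(q.re * q.imJ - a * (q.imI * q.imK)) / (q.imJ ^ 2 - a * q.imK ^ 2),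
      (q.re * q.imK - q.imI * q.imJ) / (q.imJ ^ 2 - a * q.imK ^ 2), ?_⟩
    field_simp
    linear_combination (-(q.imJ ^ 2 - a * q.imK ^ 2)) * hq
  obtain ⟨h3, h4⟩ := hsq _ _ h1
  obtain ⟨h5, h6⟩ := hsq q.re q.imI (by
    rw [h3, h4] at hq
    linear_combination hq)
  ext
  · exact h5
  · exact h6
  · exact h3
  · exact h4

/-- **`ℍ[F,a,b]` is a division algebra iff the Hilbert symbol is `-1`.** -/
theorem forall_isUnit_iff (h2 : (2 : F) ≠ 0) (ha : a ≠ 0) (hb : b ≠ 0) :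
    (∀ q : ℍ[F,a,b], q ≠ 0 → IsUnit q) ↔ hilb a b = -1 := by
  constructor
  · intro h
    rw [hilb_eq_neg_one_iff, ← hilb_eq_one_iff, ← mat_iff_hilb h2 ha hb]
    rintro ⟨e⟩
    set N : Matrix (Fin 2) (Fin 2) F := !![0, 1; 0, 0] with hN
    have hN0 : N ≠ 0 := by
      intro h'
      have := congrFun (congrFun h' 0) 1
      simp [hN] at this
    have hNN : N * N = 0 := by
      ext i j
      fin_cases i <;> fin_cases j <;> simp [hN, Matrix.mul_apply]
    have h3 : IsUnit (e.symm N) := h _ (by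
      intro h0
      apply hN0
      rw [← e.apply_symm_apply N, h0, map_zero])
    have h4 : IsUnit N := by
      have h5 := h3.map e
      rwa [AlgEquiv.apply_symm_apply] at h5
    have h6 := h4.mul_left_cancel (hNN.trans (mul_zero N).symm)
    exact hN0 h6
  · intro h q hq
    rw [hilb_eq_neg_one_iff] at h
    set N : F := q.re ^ 2 - a * q.imI ^ 2 - b * q.imJ ^ 2 + a * b * q.imK ^ 2 with hN
    have hN0 : N ≠ 0 := fun h0 => hq (eq_zero_of_norm h2 ha h q h0)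
    refine ⟨⟨q, star q * algebraMap F _ N⁻¹, ?_, ?_⟩, rfl⟩
    · rw [← mul_assoc, mul_star_eq, ← hN, ← map_mul, mul_inv_cancel₀ hN0, map_one]
    · rw [mul_assoc, Algebra.commutes, ← mul_assoc, star_mul_eq, ← hN, ← map_mul,
        mul_inv_cancel₀ hN0, map_one]

/-- isomorphic quaternion algebras have the same symbol -/
theorem hilb_eq_of_equiv (h2 : (2 : F) ≠ 0) (ha : a ≠ 0) (hb : b ≠ 0) {c d : F} (hc : c ≠ 0)
    (hd : d ≠ 0) (h : Nonempty (ℍ[F,a,b] ≃ₐ[F] ℍ[F,c,d])) : hilb a b = hilb c d := by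
  obtain ⟨e⟩ := h
  have key : hilb a b = 1 ↔ hilb c d = 1 := by
    rw [← mat_iff_hilb h2 ha hb, ← mat_iff_hilb h2 hc hd]
    exact ⟨fun ⟨f⟩ => ⟨e.symm.trans f⟩, fun ⟨f⟩ => ⟨e.trans f⟩⟩
  by_cases h1 : hilb a b = 1
  · rw [h1, key.mp h1]
  · rw [eq_neg_one_of_ne h1, eq_neg_one_of_ne fun h3 => h1 (key.mpr h3)]

/-- scaling of the second generator -/
theorem equiv_mul_sq (h2 : (2 : F) ≠ 0) (ha : a ≠ 0) (hb : b ≠ 0) {s : F} (hs : s ≠ 0) :
    Nonempty (ℍ[F,a,b * s ^ 2] ≃ₐ[F] ℍ[F,a,b]) := by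
  have h := equiv_mul_norm (s := s) (t := 0) h2 ha hb (by simpa using hs)
  have e : s ^ 2 - a * 0 ^ 2 = s ^ 2 := by ring
  rwa [e] at h

end General

section Local

variable {F : Type*} [Field F] (H : LocalHilb F)

include H

/-- the pure part of the norm form represents every non-square -/
theorem local_exists_value {a b c : F} (ha : a ≠ 0) (hb : b ≠ 0) (hc : c ≠ 0)
    (hs : ¬ IsSquare c) : ∃ x y z : F, c = a * x ^ 2 + b * y ^ 2 - a * b * z ^ 2 := by
  have h1 := (H.exists_value_iff ![Units.mk0 a ha, Units.mk0 b hb, -(Units.mk0 a ha *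
    Units.mk0 b hb)] (Units.mk0 c hc)).mpr (Or.inr (Or.inr (Or.inl ⟨rfl, Or.inl fun h => hs (by
      rw [isSquare_unit_iff, Fin.prod_univ_three] at h
      simp only [Matrix.cons_val_zero, Matrix.cons_val_one, Matrix.cons_val, Units.val_neg,
        Units.val_mul, Units.val_mk0] at h
      obtain ⟨r, hr⟩ := h
      refine ⟨r / (a * b), ?_⟩
      field_simp
      linear_combination hr)⟩)))
  obtain ⟨x, hx⟩ := h1
  refine ⟨x 0, x 1, x 2, ?_⟩
  rw [wf_apply, Fin.sum_univ_three] at hx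
  simp only [Matrix.cons_val_zero, Matrix.cons_val_one, Matrix.cons_val, Units.val_neg,
    Units.val_mul, Units.val_mk0] at hx
  linear_combination -hx

/-- **Every element of `F` has a square root in every quaternion algebra over `F`**: every
quadratic extension of `F` embeds in the division quaternion algebra. -/
theorem local_exists_sq {a b : F} (ha : a ≠ 0) (hb : b ≠ 0) (c : F) :
    ∃ q : ℍ[F,a,b], q * q = algebraMap F _ c := by
  rw [exists_sq_iff H.two]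
  by_cases hs : IsSquare c
  · exact Or.inl hs
  · refine Or.inr (local_exists_value H ha hb ?_ hs)
    rintro rfl
    exact hs ⟨0, by ring⟩

/-- **The reduced norm is onto.** -/
theorem local_exists_norm {a b : F} (ha : a ≠ 0) (hb : b ≠ 0) (c : F) :
    ∃ q : ℍ[F,a,b], q * star q = algebraMap F _ c := by
  by_cases hc : c = 0
  · exact ⟨0, by rw [hc, zero_mul, map_zero]⟩
  have h1 := (H.exists_value_iff ![1, -Units.mk0 a ha, -Units.mk0 b hb, Units.mk0 a ha *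
    Units.mk0 b hb] (Units.mk0 c hc)).mpr (Or.inr (Or.inr (Or.inr le_rfl)))
  obtain ⟨x, hx⟩ := h1
  refine ⟨⟨x 0, x 1, x 2, x 3⟩, ?_⟩
  rw [mul_star_eq]
  congr 1
  rw [wf_apply, Fin.sum_univ_four] at hx
  simp only [Matrix.cons_val_zero, Matrix.cons_val_one, Matrix.cons_val, Units.val_neg,
    Units.val_mul, Units.val_mk0, Units.val_one] at hx
  linear_combination hx

/-- **Quaternion algebras over a local field are classified by the Hilbert symbol.** -/
theorem local_equiv_iff {a b c d : F} (ha : a ≠ 0) (hb : b ≠ 0) (hc : c ≠ 0) (hd : d ≠ 0) :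
    Nonempty (ℍ[F,a,b] ≃ₐ[F] ℍ[F,c,d]) ↔ hilb a b = hilb c d := by
  have h2 := H.two
  refine ⟨hilb_eq_of_equiv h2 ha hb hc hd, fun h => ?_⟩
  by_cases h1 : hilb a b = 1
  · obtain ⟨e⟩ := (mat_iff_hilb h2 ha hb).mpr h1
    obtain ⟨f⟩ := (mat_iff_hilb h2 hc hd).mpr (h ▸ h1)
    exact ⟨e.trans f.symm⟩
  · have h3 : hilb a b = -1 := eq_neg_one_of_ne h1
    have h4 : hilb c d = -1 := h ▸ h3
    have hs : ¬ IsSquare c := by
      rintro ⟨r, rfl⟩
      rw [hilb_comm, ← sq, hilb_sq_right] at h4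
      exact absurd h4 (by decide)
    obtain ⟨x, y, z, hv⟩ := local_exists_value H ha hb hc hs
    obtain ⟨d', hd', ⟨e⟩⟩ := exists_equiv_of_value h2 ha hb hc hv
    have h5 : hilb c d' = -1 := (hilb_eq_of_equiv h2 hc hd' ha hb ⟨e⟩).trans h3
    -- `d d'` is a norm from `F(√c)`
    have h6 : hilb c (d * d') = 1 := by
      rw [hilb_comm, H.mul_left d d' c hd hd' hc, hilb_comm d, hilb_comm d', h4, h5]
      decide
    rw [hilb_eq_one_iff, sol_iff_norm h2 hc] at h6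
    obtain ⟨s, t, hst⟩ := h6
    have hn : s ^ 2 - c * t ^ 2 ≠ 0 := hst ▸ mul_ne_zero hd hd'
    obtain ⟨f⟩ := equiv_mul_norm h2 hc hd' hn
    obtain ⟨g⟩ := equiv_mul_sq h2 hc hd hd'
    have e1 : d' * (s ^ 2 - c * t ^ 2) = d * d' ^ 2 := by rw [← hst]; ring
    rw [e1] at f
    exact ⟨(e.symm.trans f.symm).trans g⟩

/-- **There are exactly two quaternion algebras over a local field**: the matrix algebra and one
division algebra. -/
theorem local_classes : ∃ a b : F, a ≠ 0 ∧ b ≠ 0 ∧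
    (∀ q : ℍ[F,a,b], q ≠ 0 → IsUnit q) ∧ ∀ c d : F, c ≠ 0 → d ≠ 0 →
      (Nonempty (ℍ[F,c,d] ≃ₐ[F] Matrix (Fin 2) (Fin 2) F) ∧
        ¬ Nonempty (ℍ[F,c,d] ≃ₐ[F] ℍ[F,a,b])) ∨
      (¬ Nonempty (ℍ[F,c,d] ≃ₐ[F] Matrix (Fin 2) (Fin 2) F) ∧
        Nonempty (ℍ[F,c,d] ≃ₐ[F] ℍ[F,a,b])) := by
  obtain ⟨y, hy⟩ := H.exists_nonsquare
  obtain ⟨x, hx⟩ := H.exists_eq hy (-1)
  have hx' : hilb (x : F) (y : F) = -1 := hx
  refine ⟨x, y, x.ne_zero, y.ne_zero, (forall_isUnit_iff H.two x.ne_zero y.ne_zero).mpr hx',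
    fun c d hc hd => ?_⟩
  rw [mat_iff_hilb H.two hc hd, local_equiv_iff H hc hd x.ne_zero y.ne_zero, hx']
  rcases Int.units_eq_one_or (hilb c d) with h | h
  · rw [h]; decide
  · rw [h]; decide

end Local

section Real

/-- The quaternion algebras over `ℝ` are classified by the Hilbert symbol. -/
theorem real_equiv_iff {a b c d : ℝ} (ha : a ≠ 0) (hb : b ≠ 0) (hc : c ≠ 0) (hd : d ≠ 0) :
    Nonempty (ℍ[ℝ,a,b] ≃ₐ[ℝ] ℍ[ℝ,c,d]) ↔ hilb a b = hilb c d := by
  have h2 : (2 : ℝ) ≠ 0 := two_ne_zero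
  -- a non-split algebra is the algebra of Hamilton's quaternions
  have key : ∀ a b : ℝ, a ≠ 0 → b ≠ 0 → hilb a b = -1 →
      Nonempty (ℍ[ℝ,a,b] ≃ₐ[ℝ] ℍ[ℝ,-1,-1]) := by
    intro a b ha hb h
    have h3 : a < 0 ∧ b < 0 := by
      by_contra h3
      rw [hilb_eq_neg_one_iff, ← hilb_eq_one_iff, hilb_real ha hb, if_neg h3] at h
      exact h rfl
    refine exists_equiv_of_gen h2 ha hb (QuaternionAlgebra.finrank_eq_four ..)
      ⟨0, Real.sqrt (-a), 0, 0⟩ ⟨0, 0, Real.sqrt (-b), 0⟩ ?_ ?_ ?_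
    · have h4 := Real.mul_self_sqrt (neg_pos.mpr h3.1).le
      rw [QuaternionAlgebra.algebraMap_eq]
      ext <;> simp
      linear_combination -h4
    · have h4 := Real.mul_self_sqrt (neg_pos.mpr h3.2).le
      rw [QuaternionAlgebra.algebraMap_eq]
      ext <;> simp
      linear_combination -h4
    · ext <;> simp
      ring
  refine ⟨hilb_eq_of_equiv h2 ha hb hc hd, fun h => ?_⟩
  by_cases h1 : hilb a b = 1
  · obtain ⟨e⟩ := (mat_iff_hilb h2 ha hb).mpr h1
    obtain ⟨f⟩ := (mat_iff_hilb h2 hc hd).mpr (h ▸ h1)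
    exact ⟨e.trans f.symm⟩
  · have h3 : hilb a b = -1 := eq_neg_one_of_ne h1
    obtain ⟨e⟩ := key a b ha hb h3
    obtain ⟨f⟩ := key c d hc hd (h ▸ h3)
    exact ⟨e.trans f.symm⟩

/-- **The quaternion algebras over `ℝ`**: `M₂(ℝ)` if `a > 0` or `b > 0`, Hamilton's quaternions if
`a, b < 0`. -/
theorem real_classes {a b : ℝ} (ha : a ≠ 0) (hb : b ≠ 0) :
    (Nonempty (ℍ[ℝ,a,b] ≃ₐ[ℝ] Matrix (Fin 2) (Fin 2) ℝ) ↔ 0 < a ∨ 0 < b) ∧
      (Nonempty (ℍ[ℝ,a,b] ≃ₐ[ℝ] ℍ[ℝ]) ↔ a < 0 ∧ b < 0) := by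
  have h2 : (2 : ℝ) ≠ 0 := two_ne_zero
  have h1 : hilb (-1 : ℝ) (-1) = -1 := by
    rw [hilb_real (by norm_num) (by norm_num), if_pos ⟨by norm_num, by norm_num⟩]
  have h3 : ℍ[ℝ] = ℍ[ℝ,-1,-1] := rfl
  constructor
  · rw [mat_iff_hilb h2 ha hb, hilb_real ha hb]
    split_ifs with h
    · refine iff_of_false (by decide) ?_
      rintro (h4 | h4)
      · exact lt_asymm h4 h.1
      · exact lt_asymm h4 h.2
    · refine iff_of_true rfl ?_
      by_contra! h4
      exact h ⟨lt_of_le_of_ne h4.1 ha, lt_of_le_of_ne h4.2 hb⟩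
  · have h4 : Nonempty (ℍ[ℝ,a,b] ≃ₐ[ℝ] ℍ[ℝ]) ↔ hilb a b = hilb (-1 : ℝ) (-1) :=
      real_equiv_iff ha hb (by norm_num) (by norm_num)
    rw [h4, h1, hilb_real ha hb]
    split_ifs with h
    · exact iff_of_true rfl h
    · exact iff_of_false (by decide) h

end Real

section Instances

/-- **Quaternion algebras over `K_v`** (`v` a finite place of the number field `K`) are classified
by the Hilbert symbol. -/
theorem adic_equiv_iff {K : Type} [Field K] [NumberField K]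
    (v : IsDedekindDomain.HeightOneSpectrum (NumberField.RingOfIntegers K))
    {a b c d : v.adicCompletion K} (ha : a ≠ 0) (hb : b ≠ 0) (hc : c ≠ 0) (hd : d ≠ 0) :
    Nonempty (ℍ[v.adicCompletion K,a,b] ≃ₐ[v.adicCompletion K] ℍ[v.adicCompletion K,c,d]) ↔
      hilb a b = hilb c d :=
  local_equiv_iff (localHilb_adic v) ha hb hc hd

/-- **Quaternion algebras over `ℚ_p`** are classified by the Hilbert symbol. -/
theorem padic_equiv_iff (p : ℕ) [Fact p.Prime] {a b c d : ℚ_[p]} (ha : a ≠ 0) (hb : b ≠ 0)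
    (hc : c ≠ 0) (hd : d ≠ 0) :
    Nonempty (ℍ[ℚ_[p],a,b] ≃ₐ[ℚ_[p]] ℍ[ℚ_[p],c,d]) ↔ hilb a b = hilb c d :=
  local_equiv_iff (localHilb_padic p) ha hb hc hd

end Instances

end Fermat.Agent.Cor.QA
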