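import Fermat.Agent.Corollaries.QA.TameNeg

/-!
# The symbol `(-1, -1)_v` at the places above `2`
-/

set_option autoImplicit false
set_option maxHeartbeats 400000

namespace Fermat.Agent.Cor.QA

open IsDedekindDomain NumberField WithZero
open Fermat.Agent.Cor.HM
open Fermat.Agent.CFT Fermat.Agent.CFT.Global
open Fermat.Agent.CFT.SUnits (ord ord_mul ord_div ord_pow ord_one)

section

variable {K : Type} [Field K] [NumberField K]

lemma mem_cong_of_mem_pow {w : HeightOneSpectrum (𝓞 K)} {n : ℕ} {u : Kˣ} {r : 𝓞 K}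
    (h : (u : K) - 1 = algebraMap (𝓞 K) K r) (hr : r ∈ w.asIdeal ^ (n + 1)) : u ∈ cong w n := by
  rw [mem_cong, h, HeightOneSpectrum.valuation_of_algebraMap]
  have := (w.intValuation_le_pow_iff_mem r (n + 1)).mpr hr
  push_cast at this
  exact this

lemma ord_eq_zero_of_notMem {w : HeightOneSpectrum (𝓞 K)} {u : Kˣ} {r : 𝓞 K}
    (h : (u : K) = algebraMap (𝓞 K) K r) (hr : r ∉ w.asIdeal) : ord w u = 0 := by
  rw [Fermat.Agent.CFT.SUnits.ord_eq_zero_iff, h]
  exact (w.valuation_eq_one_iff_notMem (K := K)).mpr hr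

lemma ord_nonneg_of_int {w : HeightOneSpectrum (𝓞 K)} {u : Kˣ} {r : 𝓞 K}
    (h : (u : K) = algebraMap (𝓞 K) K r) : 0 ≤ ord w u := by
  have h1 := Fermat.Agent.CFT.SUnits.valuation_eq_exp_neg_ord K (R := 𝓞 K) w u
  have h2 : w.valuation K (u : K) ≤ 1 := by
    rw [h]
    exact w.valuation_le_one r
  rw [h1, ← exp_zero, exp_le_exp] at h2
  omega

/-- The multiplier of the tame symbol. -/
noncomputable def eps (w : HeightOneSpectrum (𝓞 K)) : ℕ := if Ideal.absNorm w.asIdeal % 4 = 3 then 1 else 0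

lemma chi_absNorm {w : HeightOneSpectrum (𝓞 K)} (hw : ((2 : ℕ) : 𝓞 K) ∉ w.asIdeal) :
    ZMod.χ₄ ((Ideal.absNorm w.asIdeal : ℕ) : ZMod 4) = (-1) ^ eps w := by
  have : Fact (Nat.Prime 2) := ⟨Nat.prime_two⟩
  have h1 := Recip.isUnit_absNorm (ℓ := 2) hw
  have h2 : Ideal.absNorm w.asIdeal % 2 = 1 := by
    rw [isUnit_iff_ne_zero, Ne, ZMod.natCast_eq_zero_iff] at h1
    omega
  rw [ZMod.χ₄_nat_eq_if_mod_four, if_neg (by omega), eps]
  by_cases h3 : Ideal.absNorm w.asIdeal % 4 = 3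
  · rw [if_neg (by omega), if_pos h3, pow_one]
  · rw [if_pos (by omega), if_neg h3, pow_zero]

/-- **The symbol `(-1, -1)_v`** at a place above `2`, computed from a trace. -/
theorem sym_neg_one_neg_one (LS : LocalSymbols 2 K) {v : HeightOneSpectrum (𝓞 K)}
    (hv : ((2 : ℕ) : 𝓞 K) ∈ v.asIdeal) {n N₀ : ℕ}
    (H : ∀ z : 𝓞 K, z - 1 ∈ v.asIdeal ^ N₀ → (∀ w : HeightOneSpectrum (𝓞 K), w ≠ v →
      ((2 : ℕ) : 𝓞 K) ∈ w.asIdeal → z ∈ w.asIdeal ^ N₀) →
      ((Algebra.trace ℤ (𝓞 K) z : ℤ) : ZMod 2) = n) :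
    (LS.sym v (-1) (-1)).toAdd = (n : ZMod 2) := by
  classical
  set T2 := (finite_aboveP (K := K) 2 two_ne_zero).toFinset with hT2
  have hmemT2 : ∀ w : HeightOneSpectrum (𝓞 K), w ∈ T2 ↔ ((2 : ℕ) : 𝓞 K) ∈ w.asIdeal := by
    intro w
    rw [hT2, Set.Finite.mem_toFinset]
    exact Iff.rfl
  choose m hm using fun w : HeightOneSpectrum (𝓞 K) => exists_cong_le_locPow 2 two_ne_zero w
  set N : ℕ := max N₀ (T2.sup m) + 1 with hN
  have hNm : ∀ w ∈ T2, m w + 1 ≤ N := by
    intro w hw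
    have := Finset.le_sup (f := m) hw
    omega
  -- an approximate idempotent
  obtain ⟨z₀, hz₀⟩ := IsDedekindDomain.exists_forall_sub_mem_ideal (s := T2)
    (fun w : HeightOneSpectrum (𝓞 K) => w.asIdeal) (fun _ => N) (fun w _ => w.prime)
    (fun w _ w' _ h h' => h (HeightOneSpectrum.ext h')) (fun w => if w.1 = v then (1 : 𝓞 K) else 0)
  -- total positivity
  obtain ⟨M, hM⟩ : ∃ M : ℕ, ∀ σ : K →+* ℝ, |σ ((1 - 2 * z₀ : 𝓞 K) : K)| < M := by
    obtain ⟨M, hM⟩ := exists_nat_gt (∑ σ : K →+* ℝ, |σ ((1 - 2 * z₀ : 𝓞 K) : K)|)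
    exact ⟨M, fun σ => lt_of_le_of_lt (Finset.single_le_sum
      (f := fun σ : K →+* ℝ => |σ ((1 - 2 * z₀ : 𝓞 K) : K)|) (fun _ _ => abs_nonneg _)
      (Finset.mem_univ σ)) hM⟩
  set z : 𝓞 K := z₀ - 2 ^ N * M with hz
  have h2w : ∀ w ∈ T2, (2 : 𝓞 K) ^ N ∈ w.asIdeal ^ N := by
    intro w hw
    have h3 := (hmemT2 w).mp hw
    exact Ideal.pow_mem_pow (by exact_mod_cast h3) N
  have hzv : z - 1 ∈ v.asIdeal ^ N := by
    have h3 := hz₀ v ((hmemT2 v).mpr hv)
    rw [if_pos rfl] at h3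
    have e : z - 1 = (z₀ - 1) - 2 ^ N * M := by rw [hz]; ring
    rw [e]
    exact sub_mem h3 (Ideal.mul_mem_right _ _ (h2w v ((hmemT2 v).mpr hv)))
  have hzw : ∀ w : HeightOneSpectrum (𝓞 K), w ≠ v → ((2 : ℕ) : 𝓞 K) ∈ w.asIdeal →
      z ∈ w.asIdeal ^ N := by
    intro w hwv hw
    have h3 := hz₀ w ((hmemT2 w).mpr hw)
    rw [if_neg hwv, sub_zero] at h3
    exact sub_mem h3 (Ideal.mul_mem_right _ _ (h2w w ((hmemT2 w).mpr hw)))
  have hTr := H z (Ideal.pow_le_pow_right (by omega) hzv)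
    (fun w hwv hw => Ideal.pow_le_pow_right (by omega) (hzw w hwv hw))
  set y : 𝓞 K := 1 - 2 * z with hy
  have hpos : ∀ σ : K →+* ℝ, 0 < σ (y : K) := by
    intro σ
    have h3 := hM σ
    have e : (y : K) = ((1 - 2 * z₀ : 𝓞 K) : K) + 2 * (2 ^ N * (M : K)) := by
      rw [hy, hz]
      simp only [map_sub, map_mul, map_pow, map_ofNat, map_natCast, map_one]
      ring
    rw [e, map_add, map_mul, map_mul, map_pow, map_ofNat, map_natCast]
    have h4 : (1 : ℝ) ≤ 2 ^ N := one_le_pow₀ (by norm_num)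
    have h5 : (0 : ℝ) ≤ M := Nat.cast_nonneg M
    have h6 := (abs_lt.mp h3).1
    nlinarith [mul_nonneg (sub_nonneg.mpr h4) h5]
  have hyv : y ∉ v.asIdeal := by
    intro h
    have h3 : (2 : 𝓞 K) ∈ v.asIdeal := by exact_mod_cast hv
    have h4 : (1 : 𝓞 K) = y + 2 * z := by rw [hy]; ring
    apply v.isPrime.ne_top
    rw [Ideal.eq_top_iff_one, h4]
    exact add_mem h (Ideal.mul_mem_right _ _ h3)
  have hy0 : y ≠ 0 := by
    intro h
    rw [h] at hyv
    exact hyv (zero_mem _)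
  have hy0' : (y : K) ≠ 0 := by exact_mod_cast hy0
  set Y : Kˣ := Units.mk0 (y : K) hy0' with hY
  have hYval : (Y : K) = algebraMap (𝓞 K) K y := rfl
  have hyw : ∀ w ∈ T2, y ∉ w.asIdeal := by
    intro w hw h
    have h3 : (2 : 𝓞 K) ∈ w.asIdeal := by exact_mod_cast (hmemT2 w).mp hw
    have h4 : (1 : 𝓞 K) = y + 2 * z := by rw [hy]; ring
    apply w.isPrime.ne_top
    rw [Ideal.eq_top_iff_one, h4]
    exact add_mem h (Ideal.mul_mem_right _ _ h3)
  have hord0 : ∀ w ∈ T2, ord w Y = 0 := fun w hw => ord_eq_zero_of_notMem hYval (hyw w hw)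
  -- the symbols above `2`
  have hsymw : ∀ w ∈ T2, w ≠ v → LS.sym w (-1) Y = 1 := by
    intro w hw hwv
    refine LS.sym_eq_one_of_right (hm w (mem_cong_of_mem_pow (r := -(2 * z)) ?_ ?_))
    · rw [hYval, hy]
      simp only [map_sub, map_mul, map_neg, map_ofNat, map_one]
      ring
    · refine neg_mem (Ideal.mul_mem_left _ _ ?_)
      exact Ideal.pow_le_pow_right (hNm w hw) (hzw w hwv ((hmemT2 w).mp hw))
  have hsymv : LS.sym v (-1) Y = LS.sym v (-1) (-1) := by
    have h3 : LS.sym v (-1) (-Y) = 1 := by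
      refine LS.sym_eq_one_of_right (hm v (mem_cong_of_mem_pow (r := 2 * (z - 1)) ?_ ?_))
      · rw [Units.val_neg, hYval, hy]
        simp only [map_sub, map_mul, map_ofNat, map_one]
        ring
      · exact Ideal.mul_mem_left _ _ (Ideal.pow_le_pow_right (hNm v ((hmemT2 v).mpr hv)) hzv)
    rw [← neg_one_mul Y, map_mul] at h3
    have h4 := mul_self_eq_one (LS.sym v (-1) (-1))
    exact (mul_left_cancel (h3.trans h4.symm))
  -- the exponents
  set k : HeightOneSpectrum (𝓞 K) → ℕ := fun w => (ord w Y).toNat with hk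
  have hkord : ∀ w, ((k w : ℕ) : ℤ) = ord w Y := fun w =>
    Int.toNat_of_nonneg (ord_nonneg_of_int hYval)
  set T := T2 ∪ (Fermat.Agent.CFT.SUnits.finite_ord_ne_zero K Y (R := 𝓞 K)).toFinset with hT
  have hT0 : ∀ w ∉ T, ord w Y = 0 := by
    intro w hw
    by_contra h
    exact hw (Finset.mem_union_right _ ((Set.Finite.mem_toFinset _).mpr h))
  have hsum := sum_symVec_of_pos LS (c := Y) hpos (-1)
  rw [Finsupp.sum_of_support_subset (s := T) _ (fun w hw => by
    by_contra h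
    have hw2 : ((2 : ℕ) : 𝓞 K) ∉ w.asIdeal := fun h' =>
      h (Finset.mem_union_left _ ((hmemT2 w).mpr h'))
    rw [Finsupp.mem_support_iff, symVec_apply, sym_neg_one LS hw2, hT0 w h, Int.cast_zero,
      zero_mul] at hw
    exact hw rfl) _ (fun _ _ => rfl)] at hsum
  have hsum2 : ∑ w ∈ T, symVec LS two_ne_zero (-1) Y w =
      (LS.sym v (-1) (-1)).toAdd + ((∑ w ∈ T, k w * eps w : ℕ) : ZMod 2) := by
    have h3 : ∀ w ∈ T, symVec LS two_ne_zero (-1) Y w =
        (if w = v then (LS.sym v (-1) (-1)).toAdd else 0) + ((k w * eps w : ℕ) : ZMod 2) := by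
      intro w _
      rw [symVec_apply]
      by_cases hw2 : w ∈ T2
      · have hk0 : k w = 0 := by
          have := hkord w
          rw [hord0 w hw2] at this
          exact_mod_cast this
        rw [hk0, zero_mul, Nat.cast_zero, add_zero]
        by_cases hwv : w = v
        · rw [if_pos hwv, hwv, hsymv]
        · rw [if_neg hwv, hsymw w hw2 hwv]
          rfl
      · have hwv : w ≠ v := fun h => hw2 (by rw [h]; exact (hmemT2 v).mpr hv)
        rw [if_neg hwv, zero_add, sym_neg_one LS (fun h => hw2 ((hmemT2 w).mpr h)), ← hkord w, eps]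
        push_cast
        rfl
    rw [Finset.sum_congr rfl h3, Finset.sum_add_distrib, Finset.sum_ite_eq' T v,
      if_pos (Finset.mem_union_left _ ((hmemT2 v).mpr hv)), Nat.cast_sum]
  rw [hsum2] at hsum
  -- the norm
  have hnorm := Recip.absNorm_span_eq_prod Y hYval T hT0
  have hchi : ZMod.χ₄ ((Ideal.absNorm (Ideal.span {y}) : ℕ) : ZMod 4) =
      (-1) ^ (∑ w ∈ T, k w * eps w) := by
    rw [hnorm, Nat.cast_prod, map_prod, ← Finset.prod_pow_eq_pow_sum]
    refine Finset.prod_congr rfl fun w _ => ?_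
    rw [Nat.cast_pow, map_pow]
    change ZMod.χ₄ ((Ideal.absNorm w.asIdeal : ℕ) : ZMod 4) ^ k w = _
    by_cases hw2 : w ∈ T2
    · have hk0 : k w = 0 := by
        have := hkord w
        rw [hord0 w hw2] at this
        exact_mod_cast this
      rw [hk0, zero_mul, pow_zero, pow_zero]
    · rw [chi_absNorm (fun h => hw2 ((hmemT2 w).mpr h)), ← pow_mul, mul_comm]
  have hnpos : (0 : ℤ) < Algebra.norm ℤ y := by
    have h3 : (0 : ℚ) < ((Algebra.norm ℤ y : ℤ) : ℚ) := by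
      rw [Algebra.coe_norm_int]
      exact norm_pos_of_pos hy0' hpos
    exact_mod_cast h3
  obtain ⟨q, hq⟩ := norm_one_sub_two_mul z
  have habs : ((Ideal.absNorm (Ideal.span {y}) : ℕ) : ℤ) =
      1 - 2 * Algebra.trace ℤ (𝓞 K) z + 4 * q := by
    rw [Ideal.absNorm_span_singleton, Int.natAbs_of_nonneg hnpos.le, ← hq]
  set t := Algebra.trace ℤ (𝓞 K) z with ht
  have hpar : ((∑ w ∈ T, k w * eps w : ℕ) : ZMod 2) = (t : ZMod 2) := by
    have h3 := ZMod.χ₄_int_eq_if_mod_four ((Ideal.absNorm (Ideal.span {y}) : ℕ) : ℤ)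
    rw [Int.cast_natCast, hchi, habs] at h3
    rw [if_neg (by omega)] at h3
    rcases Int.emod_two_eq_zero_or_one t with h4 | h4
    · rw [if_pos (by omega)] at h3
      have h5 : Even (∑ w ∈ T, k w * eps w) := by
        by_contra h
        rw [Nat.not_even_iff_odd] at h
        rw [h.neg_one_pow] at h3
        exact absurd h3 (by norm_num)
      rw [(ZMod.natCast_eq_zero_iff_even).mpr h5]
      exact ((ZMod.intCast_zmod_eq_zero_iff_dvd t 2).mpr (by exact_mod_cast Int.dvd_of_emod_eq_zero h4)).symm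
    · rw [if_neg (by omega)] at h3
      have h5 : Odd (∑ w ∈ T, k w * eps w) := by
        by_contra h
        rw [Nat.not_odd_iff_even] at h
        rw [h.neg_one_pow] at h3
        exact absurd h3 (by norm_num)
      have h6 : ∀ x : ZMod 2, x ≠ 0 → x = 1 := by decide
      rw [h6 _ (fun h => (Nat.not_even_iff_odd.mpr h5) ((ZMod.natCast_eq_zero_iff_even).mp h)),
        h6 (t : ZMod 2) (fun h => ?_)]
      have h7 := (ZMod.intCast_zmod_eq_zero_iff_dvd t 2).mp h
      omega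
  rw [hpar, hTr] at hsum
  have h8 : ∀ a b : ZMod 2, a + b = 0 → a = b := by decide
  exact h8 _ _ hsum

end

end Fermat.Agent.Cor.QA
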