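import Fermat.Agent.Corollaries.QA.Local
import Fermat.Agent.Corollaries.HM.Hilb.QuadExt

/-!
# Quadratic extensions and quaternion algebras over local fields

`F` is `ℚ_p` or a completion of a number field at a finite place (`H : LocalHilb F`), `L / F` any
quadratic extension. Then `L` embeds into every quaternion algebra over `F`, and every quaternion
algebra over `F` becomes a matrix algebra over `L`.
-/

set_option autoImplicit false

open Quaternion

namespace Fermat.Agent.Cor.QA

open Fermat.Agent.Cor.HM Fermat.Agent.Cor.Hilb Module IntermediateField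

variable {F L : Type*} [Field F] [Field L] [Algebra F L] {a b : F}

/-- a quadratic extension is generated by a square root -/
theorem exists_gen_of_quadratic (h2 : (2 : F) ≠ 0) (hL : finrank F L = 2) :
    ∃ (d : F) (r : L), ¬ IsSquare d ∧ r ^ 2 = algebraMap F L d ∧ F⟮r⟯ = ⊤ := by
  obtain ⟨d, r, hd, hr, h⟩ := exists_sqrt_of_finrank (E := (⊤ : IntermediateField F L)) h2
    (by rw [IntermediateField.finrank_top', hL])
  exact ⟨d, r, hd, hr, h.symm⟩

/-- an element of an algebra whose square is `d` gives a homomorphism -/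
theorem exists_algHom_of_sq {A : Type*} [Ring A] [Algebra F A] (hL : finrank F L = 2) {d : F}
    {r : L} (hr : r ^ 2 = algebraMap F L d) (htop : F⟮r⟯ = ⊤) {q : A}
    (hq : q * q = algebraMap F A d) : Nonempty (L →ₐ[F] A) := by
  have hfin : FiniteDimensional F L := Module.finite_of_finrank_pos (by rw [hL]; norm_num)
  have hint : IsIntegral F r := IsIntegral.of_finite F r
  have hdeg : (minpoly F r).natDegree = 2 := by
    rw [← IntermediateField.adjoin.finrank hint, htop, IntermediateField.finrank_top', hL]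
  have hmin : minpoly F r = Polynomial.X ^ 2 - Polynomial.C d := by
    symm
    apply Polynomial.eq_of_monic_of_dvd_of_natDegree_le (minpoly.monic hint)
      (Polynomial.monic_X_pow_sub_C d two_ne_zero)
    · apply minpoly.dvd
      simp [hr]
    · rw [Polynomial.natDegree_X_pow_sub_C, hdeg]
  let f : F⟮r⟯ →ₐ[F] A := (IntermediateField.adjoin.powerBasis hint).lift q (by
    rw [IntermediateField.adjoin.powerBasis_gen, IntermediateField.minpoly_gen, hmin]
    simp only [map_sub, map_pow, Polynomial.aeval_X, Polynomial.aeval_C]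
    rw [sq, hq, sub_self])
  let e : L ≃ₐ[F] F⟮r⟯ := IntermediateField.topEquiv.symm.trans
    (IntermediateField.equivOfEq htop.symm)
  exact ⟨f.comp e.toAlgHom⟩

/-- **Every quadratic extension of a local field embeds into every quaternion algebra.** -/
theorem local_exists_algHom (H : LocalHilb F) (hL : finrank F L = 2) (ha : a ≠ 0) (hb : b ≠ 0) :
    Nonempty (L →ₐ[F] ℍ[F,a,b]) := by
  obtain ⟨d, r, -, hr, htop⟩ := exists_gen_of_quadratic (L := L) H.two hL
  obtain ⟨q, hq⟩ := local_exists_sq H ha hb d
  exact exists_algHom_of_sq hL hr htop hq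

/-- **Every quadratic extension of a local field splits every quaternion algebra.** -/
theorem local_split (H : LocalHilb F) (hL : finrank F L = 2) (ha : a ≠ 0) (hb : b ≠ 0) :
    Nonempty (ℍ[L,algebraMap F L a,algebraMap F L b] ≃ₐ[L] Matrix (Fin 2) (Fin 2) L) := by
  obtain ⟨d, r, hd, hr, -⟩ := exists_gen_of_quadratic (L := L) H.two hL
  have hd0 : d ≠ 0 := by
    rintro rfl
    exact hd ⟨0, by ring⟩
  have hr0 : r ≠ 0 := by
    rintro rfl
    apply hd0
    apply (algebraMap F L).injective
    rw [← hr, map_zero]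
    ring
  have h2 : (2 : L) ≠ 0 := by
    have := (map_ne_zero (algebraMap F L)).mpr H.two
    rwa [map_ofNat] at this
  obtain ⟨x, y, z, hv⟩ := local_exists_value H ha hb hd0 hd
  rw [mat_iff h2 ((map_ne_zero _).mpr ha) ((map_ne_zero _).mpr hb)]
  refine sol_of_norm_zero (r := r) (x := algebraMap F L x) (y := algebraMap F L y)
    (z := algebraMap F L z) (fun h => hr0 h.1) ?_
  rw [hr, hv]
  simp only [map_sub, map_add, map_mul, map_pow]
  ring

/-- over `ℚ_p` -/
theorem padic_split (p : ℕ) [Fact p.Prime] {L : Type*} [Field L] [Algebra ℚ_[p] L]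
    (hL : finrank ℚ_[p] L = 2) {a b : ℚ_[p]} (ha : a ≠ 0) (hb : b ≠ 0) :
    Nonempty (L →ₐ[ℚ_[p]] ℍ[ℚ_[p],a,b]) ∧
      Nonempty (ℍ[L,algebraMap ℚ_[p] L a,algebraMap ℚ_[p] L b] ≃ₐ[L]
        Matrix (Fin 2) (Fin 2) L) :=
  ⟨local_exists_algHom (localHilb_padic p) hL ha hb, local_split (localHilb_padic p) hL ha hb⟩

/-- over `K_v` -/
theorem adic_split {K : Type} [Field K] [NumberField K]
    (v : IsDedekindDomain.HeightOneSpectrum (NumberField.RingOfIntegers K))
    {L : Type*} [Field L] [Algebra (v.adicCompletion K) L]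
    (hL : finrank (v.adicCompletion K) L = 2) {a b : v.adicCompletion K} (ha : a ≠ 0)
    (hb : b ≠ 0) :
    Nonempty (L →ₐ[v.adicCompletion K] ℍ[v.adicCompletion K,a,b]) ∧
      Nonempty (ℍ[L,algebraMap (v.adicCompletion K) L a,algebraMap (v.adicCompletion K) L b] ≃ₐ[L]
        Matrix (Fin 2) (Fin 2) L) :=
  ⟨local_exists_algHom (localHilb_adic v) hL ha hb, local_split (localHilb_adic v) hL ha hb⟩

end Fermat.Agent.Cor.QA
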