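import Fermat.Agent.Corollaries.QA.Basic
import Fermat.Agent.Corollaries.HM.NumberField
import Fermat.Agent.Corollaries.HM.RealFinal

/-!
# Quaternion algebras over number fields

`K` is any number field, `a, b, c, d ∈ Kˣ`.

* `split_iff_local`: the theorem of Albert, Brauer, Hasse and Noether for quaternion algebras:
  `ℍ[K,a,b]` is a matrix algebra iff it is one over every completion;
* `exists_common_slot`: two quaternion algebras have a common slot (a common maximal subfield);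
* `equiv_iff_ramified`: `ℍ[K,a,b]` and `ℍ[K,c,d]` are isomorphic iff they are ramified at the same
  places; `equiv_iff_local`;
* `exists_sq_iff_ramified`: `K(√c)` embeds in `ℍ[K,a,b]` iff `c` is not a square at the places
  where `ℍ[K,a,b]` is ramified.
-/

set_option autoImplicit false
set_option maxHeartbeats 400000

open Quaternion

namespace Fermat.Agent.Cor.QA

open IsDedekindDomain NumberField
open Fermat.Agent.Cor.HM

variable {K : Type} [Field K] [NumberField K] {a b c d : K}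

theorem two_adic (v : HeightOneSpectrum (𝓞 K)) : (2 : v.adicCompletion K) ≠ 0 := by
  rw [← map_ofNat (algebraMap K (v.adicCompletion K)) 2]
  exact (map_ne_zero _).mpr two_ne_zero

/-- `ℍ[K,a,b]` splits at the finite place `v`. -/
theorem mat_adic_iff (ha : a ≠ 0) (hb : b ≠ 0) (v : HeightOneSpectrum (𝓞 K)) :
    Nonempty (ℍ[v.adicCompletion K,algebraMap K (v.adicCompletion K) a,
      algebraMap K (v.adicCompletion K) b] ≃ₐ[v.adicCompletion K]
        Matrix (Fin 2) (Fin 2) (v.adicCompletion K)) ↔ IsSplitAt v a b :=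
  mat_iff (two_adic v) ((map_ne_zero _).mpr ha) ((map_ne_zero _).mpr hb)

/-- `ℍ[ℝ,a,b]` is a matrix algebra unless `a` and `b` are negative. -/
theorem mat_real_iff {a b : ℝ} (ha : a ≠ 0) (hb : b ≠ 0) :
    Nonempty (ℍ[ℝ,a,b] ≃ₐ[ℝ] Matrix (Fin 2) (Fin 2) ℝ) ↔ ¬ (a < 0 ∧ b < 0) :=
  (mat_iff two_ne_zero ha hb).trans (isSplit_real_iff a b ha hb)

theorem mat_nf_iff (ha : a ≠ 0) (hb : b ≠ 0) :
    Nonempty (ℍ[K,a,b] ≃ₐ[K] Matrix (Fin 2) (Fin 2) K) ↔
      (∀ v : HeightOneSpectrum (𝓞 K), IsSplitAt v a b) ∧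
      ∀ σ : K →+* ℝ, ¬ (σ a < 0 ∧ σ b < 0) :=
  (mat_iff two_ne_zero ha hb).trans (split_nf ha hb)

/-- **The theorem of Albert, Brauer, Hasse and Noether** for quaternion algebras over a number
field. -/
theorem split_iff_local (ha : a ≠ 0) (hb : b ≠ 0) :
    Nonempty (ℍ[K,a,b] ≃ₐ[K] Matrix (Fin 2) (Fin 2) K) ↔
      (∀ v : HeightOneSpectrum (𝓞 K),
        Nonempty (ℍ[v.adicCompletion K,algebraMap K (v.adicCompletion K) a,
          algebraMap K (v.adicCompletion K) b] ≃ₐ[v.adicCompletion K]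
            Matrix (Fin 2) (Fin 2) (v.adicCompletion K))) ∧
      ∀ σ : K →+* ℝ, Nonempty (ℍ[ℝ,σ a,σ b] ≃ₐ[ℝ] Matrix (Fin 2) (Fin 2) ℝ) := by
  rw [mat_nf_iff ha hb]
  refine and_congr (forall_congr' fun v => (mat_adic_iff ha hb v).symm)
    (forall_congr' fun σ => (mat_real_iff ((map_ne_zero σ).mpr ha) ((map_ne_zero σ).mpr hb)).symm)

/-- Isomorphic quaternion algebras are ramified at the same places. -/
theorem ramified_of_equiv (ha : a ≠ 0) (hb : b ≠ 0) (hc : c ≠ 0) (hd : d ≠ 0)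
    (h : Nonempty (ℍ[K,c,d] ≃ₐ[K] ℍ[K,a,b])) :
    (∀ v : HeightOneSpectrum (𝓞 K), IsSplitAt v a b ↔ IsSplitAt v c d) ∧
      ∀ σ : K →+* ℝ, (σ a < 0 ∧ σ b < 0) ↔ (σ c < 0 ∧ σ d < 0) := by
  refine ⟨fun v => ?_, fun σ => ?_⟩
  · rw [← mat_adic_iff ha hb, ← mat_adic_iff hc hd]
    obtain ⟨e⟩ := equiv_baseChange two_ne_zero hc hd h (v.adicCompletion K)
    exact ⟨fun ⟨f⟩ => ⟨e.trans f⟩, fun ⟨f⟩ => ⟨e.symm.trans f⟩⟩
  · let _ : Algebra K ℝ := σ.toAlgebra
    obtain ⟨e⟩ := equiv_baseChange two_ne_zero hc hd h ℝ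
    rw [← not_iff_not]
    have h1 := mat_real_iff ((map_ne_zero σ).mpr ha) ((map_ne_zero σ).mpr hb)
    have h2 := mat_real_iff ((map_ne_zero σ).mpr hc) ((map_ne_zero σ).mpr hd)
    rw [← h1, ← h2]
    exact ⟨fun ⟨f⟩ => ⟨e.trans f⟩, fun ⟨f⟩ => ⟨e.symm.trans f⟩⟩

/-- Pure quaternions of two quaternion algebras over a number field have a common square. -/
theorem exists_common_value (ha : a ≠ 0) (hb : b ≠ 0) (hc : c ≠ 0) (hd : d ≠ 0) :
    ∃ e : K, e ≠ 0 ∧ (∃ x y z : K, e = a * x ^ 2 + b * y ^ 2 - a * b * z ^ 2) ∧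
      ∃ x y z : K, e = c * x ^ 2 + d * y ^ 2 - c * d * z ^ 2 := by
  obtain ⟨x, hx0, hx⟩ := allFive_nf K 6 ![a, b, -(a * b), -c, -d, c * d] (by norm_num)
    (fun i => by
      fin_cases i
      · exact ha
      · exact hb
      · exact neg_ne_zero.mpr (mul_ne_zero ha hb)
      · exact neg_ne_zero.mpr hc
      · exact neg_ne_zero.mpr hd
      · exact mul_ne_zero hc hd) (fun σ => by
      have ha' : σ a ≠ 0 := (map_ne_zero σ).mpr ha
      have hb' : σ b ≠ 0 := (map_ne_zero σ).mpr hb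
      have hc' : σ c ≠ 0 := (map_ne_zero σ).mpr hc
      have hd' : σ d ≠ 0 := (map_ne_zero σ).mpr hd
      have hneg : ∃ i, σ ((![a, b, -(a * b), -c, -d, c * d] : Fin 6 → K) i) < 0 := by
        rcases lt_or_gt_of_ne ha' with h | h
        · exact ⟨0, h⟩
        rcases lt_or_gt_of_ne hb' with h' | h'
        · exact ⟨1, h'⟩
        refine ⟨2, ?_⟩
        change σ (-(a * b)) < 0
        rw [map_neg, map_mul]
        exact neg_neg_of_pos (mul_pos h h')
      have hpos : ∃ i, 0 < σ ((![a, b, -(a * b), -c, -d, c * d] : Fin 6 → K) i) := by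
        rcases lt_or_gt_of_ne hc' with h | h
        · refine ⟨3, ?_⟩
          change 0 < σ (-c)
          rw [map_neg]
          exact neg_pos.mpr h
        rcases lt_or_gt_of_ne hd' with h' | h'
        · refine ⟨4, ?_⟩
          change 0 < σ (-d)
          rw [map_neg]
          exact neg_pos.mpr h'
        refine ⟨5, ?_⟩
        change 0 < σ (c * d)
        rw [map_mul]
        exact mul_pos h h'
      obtain ⟨j, hj⟩ := hneg
      obtain ⟨i, hi⟩ := hpos
      exact ⟨i, j, hi, hj⟩)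
  have hsum : a * x 0 ^ 2 + b * x 1 ^ 2 - a * b * x 2 ^ 2 =
      c * x 3 ^ 2 + d * x 4 ^ 2 - c * d * x 5 ^ 2 := by
    simp [Fin.sum_univ_succ] at hx
    linear_combination hx
  by_cases he : a * x 0 ^ 2 + b * x 1 ^ 2 - a * b * x 2 ^ 2 = 0
  · by_cases h0 : x 0 = 0 ∧ x 1 = 0 ∧ x 2 = 0
    · have h1 : ¬ (x 3 = 0 ∧ x 4 = 0 ∧ x 5 = 0) := by
        rintro ⟨h3, h4, h5⟩
        apply hx0
        funext i
        fin_cases i
        · exact h0.1
        · exact h0.2.1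
        · exact h0.2.2
        · exact h3
        · exact h4
        · exact h5
      rw [he] at hsum
      exact ⟨a, ha, ⟨1, 0, 0, by ring⟩,
        value_of_split two_ne_zero (split_of_pure two_ne_zero hc hd h1 hsum.symm) a⟩
    · exact ⟨c, hc, value_of_split two_ne_zero (split_of_pure two_ne_zero ha hb h0 he) c,
        ⟨1, 0, 0, by ring⟩⟩
  · exact ⟨_, he, ⟨_, _, _, rfl⟩, ⟨_, _, _, hsum⟩⟩

/-- **Linkage**: two quaternion algebras over a number field have a common slot. -/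
theorem exists_common_slot (ha : a ≠ 0) (hb : b ≠ 0) (hc : c ≠ 0) (hd : d ≠ 0) :
    ∃ e f g : K, e ≠ 0 ∧ f ≠ 0 ∧ g ≠ 0 ∧ Nonempty (ℍ[K,e,f] ≃ₐ[K] ℍ[K,a,b]) ∧
      Nonempty (ℍ[K,e,g] ≃ₐ[K] ℍ[K,c,d]) := by
  obtain ⟨e, he, ⟨x, y, z, h1⟩, ⟨x', y', z', h2⟩⟩ := exists_common_value ha hb hc hd
  obtain ⟨f, hf, hf'⟩ := exists_equiv_of_value two_ne_zero ha hb he h1
  obtain ⟨g, hg, hg'⟩ := exists_equiv_of_value two_ne_zero hc hd he h2
  exact ⟨e, f, g, he, hf, hg, hf', hg'⟩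

/-- **Classification of the quaternion algebras over a number field**: two quaternion algebras are
isomorphic iff they are ramified at the same places. -/
theorem equiv_iff_ramified (ha : a ≠ 0) (hb : b ≠ 0) (hc : c ≠ 0) (hd : d ≠ 0) :
    Nonempty (ℍ[K,a,b] ≃ₐ[K] ℍ[K,c,d]) ↔
      (∀ v : HeightOneSpectrum (𝓞 K), IsSplitAt v a b ↔ IsSplitAt v c d) ∧
      ∀ σ : K →+* ℝ, (σ a < 0 ∧ σ b < 0) ↔ (σ c < 0 ∧ σ d < 0) := by
  constructor
  · rintro ⟨e⟩
    exact ramified_of_equiv ha hb hc hd ⟨e.symm⟩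
  · rintro ⟨h1, h2⟩
    obtain ⟨e, f, g, he, hf, hg, ⟨E₁⟩, ⟨E₂⟩⟩ := exists_common_slot ha hb hc hd
    obtain ⟨h3, h4⟩ := ramified_of_equiv ha hb he hf ⟨E₁⟩
    obtain ⟨h5, h6⟩ := ramified_of_equiv hc hd he hg ⟨E₂⟩
    obtain ⟨LS⟩ := Fermat.Agent.CFT.Bridge.nonempty_localSymbols_all (p := 2) K
      (Fermat.Agent.CFT.Global2.Unr.isPrimitiveRoot_neg_one' K)
    have hfg : f * g ≠ 0 := mul_ne_zero hf hg
    obtain ⟨s, t, hst⟩ := (hasse_norm_nf he hfg).mpr ⟨fun v => by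
      have h7 : IsSplitAt v e f ↔ IsSplitAt v e g :=
        (h3 v).symm.trans ((h1 v).trans (h5 v))
      have e1 := sym_eq_one_iff LS v (Units.mk0 e he) (Units.mk0 f hf)
      have e2 := sym_eq_one_iff LS v (Units.mk0 e he) (Units.mk0 g hg)
      have e3 := sym_eq_one_iff LS v (Units.mk0 e he) (Units.mk0 f hf * Units.mk0 g hg)
      rw [Units.val_mk0, Units.val_mk0] at e1 e2
      rw [Units.val_mul, Units.val_mk0, Units.val_mk0, Units.val_mk0] at e3
      have h8 : IsSplitAt v e (f * g) := by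
        rw [← e3, map_mul]
        rcases val_cases (LS.sym v (Units.mk0 e he) (Units.mk0 f hf)) with h | h
        · rw [h, e2.mpr (h7.mp (e1.mp h)), one_mul]
        · rcases val_cases (LS.sym v (Units.mk0 e he) (Units.mk0 g hg)) with h' | h'
          · rw [e1.mpr (h7.mpr (e2.mp h'))] at h
            exact absurd h (by decide)
          · rw [h, h']
            decide
      exact (sol_iff (two_adic v) ((map_ne_zero _).mpr he)).mp h8, fun σ hσ => by
      have h7 : σ f < 0 ↔ σ g < 0 := by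
        have h8 := (h4 σ).symm.trans ((h2 σ).trans (h6 σ))
        exact ⟨fun h => (h8.mp ⟨hσ, h⟩).2, fun h => (h8.mpr ⟨hσ, h⟩).2⟩
      rw [map_mul]
      rcases lt_or_gt_of_ne ((map_ne_zero σ).mpr hf) with h | h
      · exact mul_pos_of_neg_of_neg h (h7.mp h)
      · refine mul_pos h ?_
        rcases lt_or_gt_of_ne ((map_ne_zero σ).mpr hg) with h' | h'
        · exact absurd (h7.mpr h') (not_lt.mpr h.le)
        · exact h'⟩
    have hn : s ^ 2 - e * t ^ 2 ≠ 0 := by rw [← hst]; exact hfg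
    obtain ⟨E₃⟩ := equiv_mul_norm two_ne_zero he hg hn
    have hg2 : g ^ 2 - e * 0 ^ 2 ≠ 0 := by simpa using hg
    obtain ⟨E₄⟩ := equiv_mul_norm two_ne_zero he hf hg2
    have h9 : g * (s ^ 2 - e * t ^ 2) = f * (g ^ 2 - e * 0 ^ 2) := by
      rw [← hst]
      ring
    rw [h9] at E₃
    exact ⟨E₁.symm.trans (E₄.symm.trans (E₃.trans E₂))⟩

/-- Quaternion algebras over a number field are isomorphic iff they are locally isomorphic. -/
theorem equiv_iff_local (ha : a ≠ 0) (hb : b ≠ 0) (hc : c ≠ 0) (hd : d ≠ 0) :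
    Nonempty (ℍ[K,a,b] ≃ₐ[K] ℍ[K,c,d]) ↔
      (∀ v : HeightOneSpectrum (𝓞 K),
        Nonempty (ℍ[v.adicCompletion K,algebraMap K (v.adicCompletion K) a,
          algebraMap K (v.adicCompletion K) b] ≃ₐ[v.adicCompletion K]
          ℍ[v.adicCompletion K,algebraMap K (v.adicCompletion K) c,
          algebraMap K (v.adicCompletion K) d])) ∧
      ∀ σ : K →+* ℝ, Nonempty (ℍ[ℝ,σ a,σ b] ≃ₐ[ℝ] ℍ[ℝ,σ c,σ d]) := by
  constructor
  · intro h
    refine ⟨fun v => equiv_baseChange two_ne_zero ha hb h (v.adicCompletion K), fun σ => ?_⟩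
    let _ : Algebra K ℝ := σ.toAlgebra
    exact equiv_baseChange two_ne_zero ha hb h ℝ
  · rintro ⟨h1, h2⟩
    rw [equiv_iff_ramified ha hb hc hd]
    refine ⟨fun v => ?_, fun σ => ?_⟩
    · rw [← mat_adic_iff ha hb, ← mat_adic_iff hc hd]
      obtain ⟨e⟩ := h1 v
      exact ⟨fun ⟨f⟩ => ⟨e.symm.trans f⟩, fun ⟨f⟩ => ⟨e.trans f⟩⟩
    · rw [← not_iff_not, ← mat_real_iff ((map_ne_zero σ).mpr ha) ((map_ne_zero σ).mpr hb),
        ← mat_real_iff ((map_ne_zero σ).mpr hc) ((map_ne_zero σ).mpr hd)]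
      obtain ⟨e⟩ := h2 σ
      exact ⟨fun ⟨f⟩ => ⟨e.symm.trans f⟩, fun ⟨f⟩ => ⟨e.trans f⟩⟩

end Fermat.Agent.Cor.QA
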