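import Fermat.Agent.Corollaries.QA.Split
import Fermat.Agent.Corollaries.QA.CSA

/-!
# Classes which are split by a quadratic extension

`F` is a field, `2 ≠ 0`.

* `mem_range_quatClass_iff`: a class in the Brauer group of `F` is the class of a quaternion algebra
  iff it is split by an extension of degree one or two;
* `exists_quadratic_splitting`: `F(√a)` splits `ℍ[F,a,b]`.
-/

set_option autoImplicit false

open Quaternion TensorProduct MulOpposite Polynomial

namespace Fermat.Agent.Cor.QA

universe u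

variable {F : Type u} [Field F]

/-- The quaternion algebra is split if its first slot is a square. -/
theorem quatClass_eq_one_of_sq (h2 : (2 : F) ≠ 0) (p : Fˣ × Fˣ) {s : F} (hs : s ^ 2 = p.1) :
    quatClass h2 p = 1 := by
  rw [quatClass_eq_one_iff]
  exact (mat_iff h2 p.1.ne_zero p.2.ne_zero).mpr ⟨1, 0, s, fun h => one_ne_zero h.1, by
    rw [hs]; ring⟩

/-- `F(√a)` splits `ℍ[F,a,b]`. -/
theorem exists_quadratic_splitting (h2 : (2 : F) ≠ 0) (p : Fˣ × Fˣ) :
    ∃ (L : Type u) (_ : Field L) (_ : Algebra F L), Module.finrank F L ∣ 2 ∧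
      brauerRes F L (quatClass h2 p) = 1 := by
  by_cases hsq : ∃ s : F, s ^ 2 = p.1
  · obtain ⟨s, hs⟩ := hsq
    refine ⟨F, inferInstance, inferInstance, ?_, ?_⟩
    · rw [Module.finrank_self]
      exact one_dvd 2
    · rw [quatClass_eq_one_of_sq h2 p hs, map_one]
  · have hirr : Irreducible (X ^ 2 - C (p.1 : F)) := by
      refine X_pow_sub_C_irreducible_of_prime Nat.prime_two fun b hb => hsq ⟨b, hb⟩
    have : Fact (Irreducible (X ^ 2 - C (p.1 : F))) := ⟨hirr⟩
    have h0 : (X ^ 2 - C (p.1 : F)) ≠ 0 := hirr.ne_zero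
    have h2' : (2 : AdjoinRoot (X ^ 2 - C (p.1 : F))) ≠ 0 := by
      have h := (map_ne_zero (algebraMap F (AdjoinRoot (X ^ 2 - C (p.1 : F))))).mpr h2
      rwa [map_ofNat] at h
    refine ⟨AdjoinRoot (X ^ 2 - C (p.1 : F)), inferInstance, inferInstance, ?_, ?_⟩
    · rw [(AdjoinRoot.powerBasis h0).finrank, AdjoinRoot.powerBasis_dim, natDegree_X_pow_sub_C]
    · rw [brauerRes_quat _ h2 h2']
      refine quatClass_eq_one_of_sq h2' _ (s := AdjoinRoot.root _) ?_
      have h := AdjoinRoot.eval₂_root (X ^ 2 - C (p.1 : F))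
      rw [eval₂_sub, eval₂_X_pow, eval₂_C, sub_eq_zero] at h
      exact h

/-- **A Brauer class is the class of a quaternion algebra iff it is split by an extension of degree
one or two.** -/
theorem mem_range_quatClass_iff (h2 : (2 : F) ≠ 0) (x : BrauerGroup.{u, u} F) :
    x ∈ Set.range (quatClass h2) ↔ ∃ (L : Type u) (_ : Field L) (_ : Algebra F L),
      Module.finrank F L ∣ 2 ∧ brauerRes F L x = 1 := by
  constructor
  · rintro ⟨p, rfl⟩
    exact exists_quadratic_splitting h2 p
  · rintro ⟨L, _, _, hL, hx⟩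
    have hfin : FiniteDimensional F L :=
      Module.finite_of_finrank_pos (Nat.pos_of_dvd_of_pos hL two_pos)
    obtain ⟨D, hD, rfl⟩ := exists_division x
    obtain ⟨n, hn⟩ := exists_sq_finrank (K := F) D
    have hdvd : n ∣ 2 := (degree_dvd_of_split L hD hx hn).trans hL
    rcases (Nat.dvd_prime Nat.prime_two).mp hdvd with rfl | rfl
    · have h5 : Function.Bijective (Algebra.ofId F D) :=
        ⟨(algebraMap F D).injective,
          (LinearMap.injective_iff_surjective_of_finrank_eq_finrank (f := Algebra.linearMap F D)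
            (by rw [Module.finrank_self, hn, one_pow])).mp (algebraMap F D).injective⟩
      obtain ⟨f⟩ := exists_equiv_matrix_one (K := F) F
      have h6 : brauerMk D = 1 :=
        brauerMk_eq_one_of_matrix one_ne_zero ((AlgEquiv.ofBijective _ h5).symm.trans f)
      rw [h6]
      exact ⟨(1, 1), quatClass_eq_one_of_sq h2 _ (s := 1) (by simp)⟩
    · obtain ⟨a, b, ha, hb, ⟨e⟩⟩ := exists_equiv_of_csa h2 (A := D) (by rw [hn]; norm_num)
      exact ⟨(Units.mk0 a ha, Units.mk0 b hb), brauerMk_eq_of_equiv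
        (A := quatCSA h2 (Units.mk0 a ha, Units.mk0 b hb)) (B := D) e⟩

end Fermat.Agent.Cor.QA
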