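import Fermat.Agent.Corollaries.QA.QuadSplit

/-!
# The Brauer group of a real closed field

`card_brauerGroup_of_realClosed`: let `F` be a field in which `-1` is not a square and `L` an
algebraically closed extension of degree two of `F` which contains a square root of `-1` (so `F` is
a real closed field). Then the Brauer group of `F` has exactly two elements, `1` and the class of
`ℍ[F,-1,-1]`.
-/

set_option autoImplicit false

open Quaternion TensorProduct

namespace Fermat.Agent.Cor.QA

universe u

variable {F : Type u} [Field F] {L : Type u} [Field L] [Algebra F L]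

/-- The elements of `L = F(i)` are `x + y i`. -/
theorem exists_coordinates (hi : ∀ s : F, s ^ 2 ≠ -1) (hdeg : Module.finrank F L = 2) {i : L}
    (hi2 : i ^ 2 = -1) (z : L) : ∃ x y : F, z = algebraMap F L x + algebraMap F L y * i := by
  have hind : LinearIndependent F ![(1 : L), i] := by
    rw [LinearIndependent.pair_iff]
    intro s t h
    have ht : t = 0 := by
      by_contra ht
      apply hi (s / t)
      apply (algebraMap F L).injective
      have h1 : i = -algebraMap F L (s / t) := by
        rw [Algebra.smul_def, Algebra.smul_def, mul_one] at h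
        have ht' : algebraMap F L t ≠ 0 := (map_ne_zero _).mpr ht
        rw [map_div₀]
        field_simp
        linear_combination h
      rw [map_pow, map_neg, map_one, ← hi2, h1, neg_sq]
    refine ⟨?_, ht⟩
    rw [ht, zero_smul, add_zero, Algebra.smul_def, mul_one] at h
    exact (map_eq_zero _).mp h
  have hfin : FiniteDimensional F L := Module.finite_of_finrank_pos (by rw [hdeg]; norm_num)
  have hspan := hind.span_eq_top_of_card_eq_finrank (by rw [hdeg]; rfl)
  have hz : z ∈ Submodule.span F (Set.range ![(1 : L), i]) := by rw [hspan]; trivial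
  rw [Matrix.range_cons, Matrix.range_cons, Matrix.range_empty, Set.union_empty,
    Set.singleton_union, Submodule.mem_span_pair] at hz
  obtain ⟨x, y, h⟩ := hz
  exact ⟨x, y, by rw [← h, Algebra.smul_def, Algebra.smul_def, mul_one]⟩

/-- The square roots in `L`. -/
theorem exists_root [IsAlgClosed L] (hi : ∀ s : F, s ^ 2 ≠ -1) (hdeg : Module.finrank F L = 2)
    {i : L} (hi2 : i ^ 2 = -1) (a b : F) : ∃ x y : F, x ^ 2 - y ^ 2 = a ∧ 2 * x * y = b := by
  obtain ⟨w, hw⟩ := IsAlgClosed.exists_pow_nat_eq (algebraMap F L a + algebraMap F L b * i)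
    (n := 2) two_pos
  obtain ⟨x, y, rfl⟩ := exists_coordinates hi hdeg hi2 w
  have h1 : algebraMap F L (x ^ 2 - y ^ 2 - a) + algebraMap F L (2 * x * y - b) * i = 0 := by
    simp only [map_sub, map_mul, map_pow, map_ofNat]
    linear_combination hw - algebraMap F L y ^ 2 * hi2
  have h2 : 2 * x * y - b = 0 := by
    by_contra h0
    apply hi ((x ^ 2 - y ^ 2 - a) / (2 * x * y - b))
    apply (algebraMap F L).injective
    have h0' : algebraMap F L (2 * x * y - b) ≠ 0 := (map_ne_zero _).mpr h0
    have h3 : i = -algebraMap F L ((x ^ 2 - y ^ 2 - a) / (2 * x * y - b)) := by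
      rw [map_div₀, ← neg_div, eq_div_iff h0']
      linear_combination h1
    rw [map_pow, map_neg, map_one, ← hi2, h3, neg_sq]
  rw [h2, map_zero, zero_mul, add_zero] at h1
  exact ⟨x, y, sub_eq_zero.mp ((map_eq_zero _).mp h1), sub_eq_zero.mp h2⟩

/-- **The Brauer group of a real closed field has exactly two elements.** -/
theorem card_brauerGroup_of_realClosed [IsAlgClosed L] (h2 : (2 : F) ≠ 0)
    (hi : ∀ s : F, s ^ 2 ≠ -1) (hdeg : Module.finrank F L = 2) {i : L} (hi2 : i ^ 2 = -1) :
    Nat.card (BrauerGroup.{u, u} F) = 2 := by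
  have hroot := exists_root hi hdeg hi2
  have hsq : ∀ a : F, ∃ s : F, s ^ 2 = a ∨ -s ^ 2 = a := by
    intro a
    obtain ⟨x, y, h, h'⟩ := hroot a 0
    rcases mul_eq_zero.mp h' with h0 | h0
    · have hx : x = 0 := (mul_eq_zero.mp h0).resolve_left h2
      exact ⟨y, Or.inr (by rw [← h, hx]; ring)⟩
    · exact ⟨x, Or.inl (by rw [← h, h0]; ring)⟩
  have hsum : ∀ s t : F, ∃ r : F, s ^ 2 + t ^ 2 = r ^ 2 := by
    intro s t
    obtain ⟨x, y, h, h'⟩ := hroot s t
    exact ⟨x ^ 2 + y ^ 2, by rw [← h, ← h']; ring⟩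
  have hnz : ∀ s t : F, s ^ 2 + t ^ 2 = 0 → s = 0 ∧ t = 0 := by
    intro s t h
    have ht : t = 0 := by
      by_contra ht
      apply hi (s / t)
      rw [div_pow, div_eq_iff (pow_ne_zero 2 ht)]
      linear_combination h
    exact ⟨by rw [ht] at h; simpa using h, ht⟩
  -- a square in one slot
  have hs1 : ∀ (a b : Fˣ) (s : F), s ^ 2 = a → quatClass h2 (a, b) = 1 := fun a b s h =>
    quatClass_eq_one_of_sq h2 (a, b) h
  have hs2 : ∀ (a b : Fˣ) (s : F), s ^ 2 = b → quatClass h2 (a, b) = 1 := fun a b s h => by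
    rw [quatClass_swap]
    exact hs1 b a s h
  have hne : quatClass h2 (-1, -1) ≠ 1 := by
    intro h
    rw [quatClass_eq_one_iff] at h
    obtain ⟨x, y, z, h0, hxyz⟩ := (mat_iff h2 (-1 : Fˣ).ne_zero (-1 : Fˣ).ne_zero).mp h
    obtain ⟨r, hr⟩ := hsum x y
    have h3 : r ^ 2 + z ^ 2 = 0 := by
      rw [← hr]
      simp only [Units.val_neg, Units.val_one] at hxyz
      linear_combination -hxyz
    obtain ⟨hr0, hz⟩ := hnz r z h3
    rw [hr0] at hr
    obtain ⟨hx, hy⟩ := hnz x y (by rw [hr]; ring)
    exact h0 ⟨hx, hy, hz⟩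
  have hall : ∀ x : BrauerGroup.{u, u} F, x = 1 ∨ x = quatClass h2 (-1, -1) := by
    intro x
    obtain ⟨⟨a, b⟩, rfl⟩ := (mem_range_quatClass_iff h2 x).mpr
      ⟨L, inferInstance, inferInstance, by rw [hdeg], brauerRes_isAlgClosed L x⟩
    obtain ⟨s, hs | hs⟩ := hsq a
    · exact Or.inl (hs1 a b s hs)
    obtain ⟨t, ht | ht⟩ := hsq b
    · exact Or.inl (hs2 a b t ht)
    right
    have hb : b = -1 * -b := by rw [neg_mul_neg, one_mul]
    have ha : a = -1 * -a := by rw [neg_mul_neg, one_mul]
    have e1 : quatClass h2 (a, b) = quatClass h2 (a, -1) := by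
      conv_lhs => rw [hb]
      rw [← quatClass_mul, hs2 a (-b) t (by rw [Units.val_neg, ← ht, neg_neg]), mul_one]
    have e2 : quatClass h2 (-1, a) = quatClass h2 (-1, -1) := by
      conv_lhs => rw [ha]
      rw [← quatClass_mul, hs2 (-1) (-a) s (by rw [Units.val_neg, ← hs, neg_neg]), mul_one]
    rw [e1, quatClass_swap, e2]
  rw [Nat.card_eq_two_iff]
  refine ⟨1, quatClass h2 (-1, -1), hne.symm, Set.eq_univ_of_forall fun x => ?_⟩
  exact hall x

end Fermat.Agent.Cor.QA
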