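import Fermat.Agent.Corollaries.QA.NumberField
import Fermat.Agent.Corollaries.QA.Local

/-!
# Reduced norms of quaternion algebras over number fields

`K` is a number field, `a, b, c ∈ Kˣ`.  The reduced norm of `q ∈ ℍ[K,a,b]` is `q * star q`.

* `exists_norm_iff`: the norm theorem of Hasse, Schilling and Maass for quaternion algebras: `c` is a
  reduced norm iff `σ c > 0` for all real embeddings `σ` at which the algebra is ramified;
* `exists_norm_iff_local`: the local-global principle for reduced norms.
-/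

set_option autoImplicit false

open Quaternion

namespace Fermat.Agent.Cor.QA

open IsDedekindDomain NumberField
open Fermat.Agent.Cor.HM

variable {K : Type} [Field K] [NumberField K] {a b c : K}

/-- `c` is a reduced norm iff it is a value of `⟨1, -a, -b, ab⟩`. -/
theorem exists_norm_iff_value {F : Type*} [Field F] {a b c : F} :
    (∃ q : ℍ[F,a,b], q * star q = algebraMap F _ c) ↔
      ∃ x : Fin 4 → F, ∑ i, (![1, -a, -b, a * b] : Fin 4 → F) i * x i ^ 2 = c := by
  have hinj : Function.Injective (algebraMap F ℍ[F,a,b]) := (algebraMap F ℍ[F,a,b]).injective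
  constructor
  · rintro ⟨q, hq⟩
    rw [mul_star_eq] at hq
    refine ⟨![q.re, q.imI, q.imJ, q.imK], ?_⟩
    rw [← hinj hq]
    simp [Fin.sum_univ_succ]
    ring
  · rintro ⟨x, hx⟩
    refine ⟨⟨x 0, x 1, x 2, x 3⟩, ?_⟩
    rw [mul_star_eq, ← hx]
    congr 1
    simp [Fin.sum_univ_succ]
    ring

/-- **The norm theorem of Hasse, Schilling and Maass** for quaternion algebras over a number field:
`c` is a reduced norm from `ℍ[K,a,b]` iff it is positive at the real places where `ℍ[K,a,b]` is
ramified. -/
theorem exists_norm_iff (ha : a ≠ 0) (hb : b ≠ 0) (hc : c ≠ 0) :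
    (∃ q : ℍ[K,a,b], q * star q = algebraMap K _ c) ↔
      ∀ σ : K →+* ℝ, σ a < 0 → σ b < 0 → 0 < σ c := by
  rw [exists_norm_iff_value, exists_value_diag_nf (fun i => by
    fin_cases i
    · exact one_ne_zero
    · exact neg_ne_zero.mpr ha
    · exact neg_ne_zero.mpr hb
    · exact mul_ne_zero ha hb) hc]
  constructor
  · rintro ⟨-, h⟩ σ h1 h2
    obtain ⟨i, hi⟩ := h σ
    by_contra h3
    have h4 : σ c ≤ 0 := not_lt.mp h3
    have h5 : 0 ≤ σ ((![1, -a, -b, a * b] : Fin 4 → K) i) := by
      fin_cases i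
      · change 0 ≤ σ 1
        rw [map_one]
        exact zero_le_one
      · change 0 ≤ σ (-a)
        rw [map_neg]
        linarith
      · change 0 ≤ σ (-b)
        rw [map_neg]
        linarith
      · change 0 ≤ σ (a * b)
        rw [map_mul]
        exact (mul_pos_of_neg_of_neg h1 h2).le
    exact absurd hi (not_lt.mpr (mul_nonpos_of_nonneg_of_nonpos h5 h4))
  · intro h
    refine ⟨fun v => ?_, fun σ => ?_⟩
    · obtain ⟨x, hx⟩ := (exists_norm_iff_value (c := algebraMap K (v.adicCompletion K) c)).mp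
        (local_exists_norm (Fermat.Agent.Cor.Hilb.localHilb_adic v)
          (a := algebraMap K (v.adicCompletion K) a) (b := algebraMap K (v.adicCompletion K) b)
          ((map_ne_zero _).mpr ha) ((map_ne_zero _).mpr hb) _)
      refine ⟨x, ?_⟩
      rw [← hx]
      refine Finset.sum_congr rfl fun i _ => ?_
      fin_cases i <;> simp
    · have ha' : σ a ≠ 0 := (map_ne_zero σ).mpr ha
      have hb' : σ b ≠ 0 := (map_ne_zero σ).mpr hb
      have hc' : σ c ≠ 0 := (map_ne_zero σ).mpr hc
      rcases lt_or_gt_of_ne hc' with h1 | h1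
      · rcases lt_or_gt_of_ne ha' with h2 | h2
        · rcases lt_or_gt_of_ne hb' with h3 | h3
          · exact absurd (h σ h2 h3) (not_lt.mpr h1.le)
          · refine ⟨2, ?_⟩
            change 0 < σ (-b) * σ c
            rw [map_neg]
            exact mul_pos_of_neg_of_neg (by linarith) h1
        · refine ⟨1, ?_⟩
          change 0 < σ (-a) * σ c
          rw [map_neg]
          exact mul_pos_of_neg_of_neg (by linarith) h1
      · refine ⟨0, ?_⟩
        change 0 < σ 1 * σ c
        rw [map_one, one_mul]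
        exact h1

/-- **The local-global principle for reduced norms.** -/
theorem exists_norm_iff_local (ha : a ≠ 0) (hb : b ≠ 0) (hc : c ≠ 0) :
    (∃ q : ℍ[K,a,b], q * star q = algebraMap K _ c) ↔
      (∀ v : HeightOneSpectrum (𝓞 K), ∃ q : ℍ[v.adicCompletion K,
        algebraMap K (v.adicCompletion K) a,algebraMap K (v.adicCompletion K) b],
        q * star q = algebraMap (v.adicCompletion K) _ (algebraMap K (v.adicCompletion K) c)) ∧
      ∀ σ : K →+* ℝ, ∃ q : ℍ[ℝ,σ a,σ b], q * star q = algebraMap ℝ _ (σ c) := by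
  rw [exists_norm_iff ha hb hc]
  constructor
  · intro h
    refine ⟨fun v => local_exists_norm (Fermat.Agent.Cor.Hilb.localHilb_adic v)
      ((map_ne_zero _).mpr ha) ((map_ne_zero _).mpr hb) _, fun σ => ?_⟩
    obtain ⟨q, hq⟩ := (exists_norm_iff ha hb hc).mpr h
    obtain ⟨x, hx⟩ := exists_norm_iff_value.mp ⟨q, hq⟩
    refine exists_norm_iff_value.mpr ⟨fun i => σ (x i), ?_⟩
    rw [← hx, map_sum]
    refine Finset.sum_congr rfl fun i _ => ?_
    fin_cases i <;> simp
  · rintro ⟨-, h⟩ σ h1 h2
    obtain ⟨q, hq⟩ := h σ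
    rw [mul_star_eq] at hq
    have h3 := (algebraMap ℝ ℍ[ℝ,σ a,σ b]).injective hq
    have h4 : 0 ≤ σ c := by
      rw [← h3]
      have e1 := sq_nonneg q.re
      have e2 := mul_nonneg (neg_nonneg.mpr h1.le) (sq_nonneg q.imI)
      have e3 := mul_nonneg (neg_nonneg.mpr h2.le) (sq_nonneg q.imJ)
      have e4 := mul_nonneg (mul_pos_of_neg_of_neg h1 h2).le (sq_nonneg q.imK)
      nlinarith
    exact lt_of_le_of_ne h4 ((map_ne_zero σ).mpr hc).symm

/-- Over a totally complex number field every element is a reduced norm. -/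
theorem exists_norm_of_isTotallyComplex [IsTotallyComplex K] (ha : a ≠ 0) (hb : b ≠ 0) (c : K) :
    ∃ q : ℍ[K,a,b], q * star q = algebraMap K _ c := by
  by_cases hc : c = 0
  · exact ⟨0, by rw [hc, zero_mul, map_zero]⟩
  refine (exists_norm_iff ha hb hc).mpr fun σ => ?_
  obtain ⟨w, hw, -⟩ := exists_place_of_ringHom σ
  exact absurd hw (InfinitePlace.not_isReal_iff_isComplex.mpr (IsTotallyComplex.isComplex w))

end Fermat.Agent.Cor.QA
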