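import Fermat.Agent.Corollaries.QA.LevelTwo
import Fermat.Agent.Corollaries.HM.Square

/-!
# Sums of three squares in number fields

For a number field `K`: every totally nonnegative element of `K` is a sum of three squares iff `7` is a
sum of three squares in `K` iff `e(v) f(v)` is even for every place `v ∣ 2`.
-/

set_option autoImplicit false
set_option maxHeartbeats 400000

namespace Fermat.Agent.Cor.QA

open IsDedekindDomain NumberField
open Fermat.Agent.Cor.HM

variable {K : Type} [Field K] [NumberField K]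

/-- `-1` is a sum of two squares in `K_v`, `v ∣ 2`, iff `e f` is even. -/
theorem adic_iff_even {v : HeightOneSpectrum (𝓞 K)} (hv : ((2 : ℕ) : 𝓞 K) ∈ v.asIdeal) :
    (∃ x y : v.adicCompletion K, x ^ 2 + y ^ 2 = -1) ↔
      Even (Ideal.ramificationIdx' (Ideal.span {(2 : ℤ)}) v.asIdeal *
        Ideal.inertiaDeg' (Ideal.span {(2 : ℤ)}) v.asIdeal) := by
  rw [sum_two_squares_adic_iff_even hv (absNorm_eq_two_pow hv), ram_eq_ramificationIdx]

/-- `-7` is a square in `K_v` for `v ∣ 2`. -/
theorem isSquare_neg_seven {v : HeightOneSpectrum (𝓞 K)} (hv : ((2 : ℕ) : 𝓞 K) ∈ v.asIdeal) :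
    IsSquare (-7 : v.adicCompletion K) := by
  apply isSquare_of_near
  have h1 : Valued.v (2 : v.adicCompletion K) < 1 := by
    have h2 : (2 : v.adicCompletion K) = algebraMap K _ (algebraMap (𝓞 K) K 2) := by
      rw [map_ofNat, map_ofNat]
    rw [h2, Fermat.Agent.LT.Ext.v_algebraMap, HeightOneSpectrum.valuation_of_algebraMap,
      HeightOneSpectrum.intValuation_lt_one_iff_mem]
    exact_mod_cast hv
  have h3 : (-7 - 1 : v.adicCompletion K) = -(4 * 2) := by norm_num
  rw [h3, Valuation.map_neg, map_mul]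
  have h4 : Valued.v (4 : v.adicCompletion K) ≠ 0 := v_four_ne_zero
  exact mul_lt_of_lt_one_right (zero_lt_iff.mpr h4) h1

/-- **`7` is a sum of three squares in `K` iff all the local degrees at `2` are even.** -/
theorem seven_sum_three_squares_iff : (∃ x y z : K, x ^ 2 + y ^ 2 + z ^ 2 = 7) ↔
    ∀ v : HeightOneSpectrum (𝓞 K), ((2 : ℕ) : 𝓞 K) ∈ v.asIdeal →
      Even (Ideal.ramificationIdx' (Ideal.span {(2 : ℤ)}) v.asIdeal *
        Ideal.inertiaDeg' (Ideal.span {(2 : ℤ)}) v.asIdeal) := by
  rw [sum_three_squares_iff_dyadic (c := (7 : K)) (by norm_num)]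
  constructor
  · rintro ⟨h, -⟩ v hv
    rw [← adic_iff_even hv]
    refine (h v hv).resolve_right (not_not.mpr ?_)
    rw [map_ofNat]
    exact isSquare_neg_seven hv
  · intro h
    refine ⟨fun v hv => Or.inl ((adic_iff_even hv).mpr (h v hv)), fun σ => ?_⟩
    rw [map_ofNat]
    norm_num

/-- **Every totally nonnegative element of `K` is a sum of three squares iff all the local degrees of
`K` at `2` are even.** -/
theorem forall_sum_three_squares_iff :
    (∀ c : K, (∀ σ : K →+* ℝ, 0 ≤ σ c) → ∃ x y z : K, x ^ 2 + y ^ 2 + z ^ 2 = c) ↔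
    ∀ v : HeightOneSpectrum (𝓞 K), ((2 : ℕ) : 𝓞 K) ∈ v.asIdeal →
      Even (Ideal.ramificationIdx' (Ideal.span {(2 : ℤ)}) v.asIdeal *
        Ideal.inertiaDeg' (Ideal.span {(2 : ℤ)}) v.asIdeal) := by
  constructor
  · intro h
    rw [← seven_sum_three_squares_iff]
    refine h 7 fun σ => ?_
    rw [map_ofNat]
    norm_num
  · intro h c hc
    rcases eq_or_ne c 0 with rfl | hc0
    · exact ⟨0, 0, 0, by simp⟩
    · rw [sum_three_squares_iff_dyadic hc0]
      exact ⟨fun v hv => Or.inl ((adic_iff_even hv).mpr (h v hv)), fun σ =>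
        lt_of_le_of_ne (hc σ) ((map_ne_zero σ).mpr hc0).symm⟩

end Fermat.Agent.Cor.QA
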