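import Fermat.Agent.Corollaries.QA.Level
import Fermat.Agent.Corollaries.Recip.Local
import Fermat.Agent.Corollaries.Recip.NormRay

/-!
# The symbols `(-1, y)_v` for `v ∤ 2`, norms of totally positive elements
-/

set_option autoImplicit false
set_option maxHeartbeats 400000

namespace Fermat.Agent.Cor.QA

open IsDedekindDomain NumberField
open Fermat.Agent.Cor.HM
open Fermat.Agent.CFT Fermat.Agent.CFT.Global
open Fermat.Agent.CFT.SUnits (ord ord_mul ord_div ord_pow ord_one)

section Tame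

variable {K : Type} [Field K] [NumberField K] {v : HeightOneSpectrum (𝓞 K)}

lemma ord_neg_one (v : HeightOneSpectrum (𝓞 K)) : ord v (-1 : Kˣ) = 0 := by
  rw [ord_neg]
  exact ord_one (K := K) (R := 𝓞 K) _

/-- `-1` is a square in `K_v`, `v ∤ 2`, iff `N v ≢ 3` modulo `4`. -/
theorem neg_one_mem_locPow_iff (hv : ((2 : ℕ) : 𝓞 K) ∉ v.asIdeal) :
    (-1 : Kˣ) ∈ locPow 2 v ↔ Ideal.absNorm v.asIdeal % 4 ≠ 3 := by
  classical
  have hm1 : (-1 : 𝓞 K) ∉ v.asIdeal := by
    intro h
    exact v.isPrime.ne_top ((Ideal.eq_top_iff_one _).mpr (by simpa using neg_mem h))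
  rw [Recip.mem_locPow_iff_residue v Nat.prime_two hv (a := -1) (by simp) hm1]
  have hmax : v.asIdeal.IsMaximal := v.isMaximal
  let _ : Field (𝓞 K ⧸ v.asIdeal) := Ideal.Quotient.field v.asIdeal
  have hfin : Finite (𝓞 K ⧸ v.asIdeal) := Ideal.finiteQuotientOfFreeOfNeBot v.asIdeal v.ne_bot
  let _ := Fintype.ofFinite (𝓞 K ⧸ v.asIdeal)
  have h1 := FiniteField.isSquare_neg_one_iff (F := 𝓞 K ⧸ v.asIdeal)
  have hcard : Fintype.card (𝓞 K ⧸ v.asIdeal) = Ideal.absNorm v.asIdeal := by
    rw [Ideal.absNorm_apply, Submodule.cardQuot_apply, Nat.card_eq_fintype_card]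
  rw [hcard] at h1
  rw [← h1]
  constructor
  · rintro ⟨y, hy⟩
    refine ⟨Ideal.Quotient.mk _ y, ?_⟩
    rw [← map_mul, ← map_one (Ideal.Quotient.mk v.asIdeal), ← map_neg, Ideal.Quotient.mk_eq_mk_iff_sub_mem]
    have e : (-1 : 𝓞 K) - y * y = -(y ^ 2 - -1) := by ring
    rw [e]
    exact neg_mem hy
  · rintro ⟨r, hr⟩
    obtain ⟨y, rfl⟩ := Ideal.Quotient.mk_surjective r
    refine ⟨y, ?_⟩
    rw [← map_mul, ← map_one (Ideal.Quotient.mk v.asIdeal), ← map_neg, Ideal.Quotient.mk_eq_mk_iff_sub_mem]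
      at hr
    have e : y ^ 2 - -1 = -((-1 : 𝓞 K) - y * y) := by ring
    rw [e]
    exact neg_mem hr

/-- The tame symbol of `-1`. -/
theorem sym_neg_one (LS : LocalSymbols 2 K) (hv : ((2 : ℕ) : 𝓞 K) ∉ v.asIdeal) (y : Kˣ) :
    (LS.sym v (-1) y).toAdd =
      (ord v y : ZMod 2) * (if Ideal.absNorm v.asIdeal % 4 = 3 then 1 else 0) := by
  by_cases h3 : Ideal.absNorm v.asIdeal % 4 = 3
  · rw [if_pos h3, mul_one]
    have hm : (-1 : Kˣ) ∉ locPow 2 v := fun h => (neg_one_mem_locPow_iff hv).mp h h3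
    obtain ⟨π, hπ⟩ := exists_ord_eq_one v
    have key : ∀ x : Kˣ, LS.sym v (-1) x = LS.sym v (-1) π ^ ord v x := by
      intro x
      have h1 : LS.sym v (-1) (x / π ^ ord v x) = 1 := by
        refine LS.unit_mem v hv _ _ (ord_neg_one v) ?_
        rw [ord_div, hmord, hπ, mul_one, sub_self]
      rw [_root_.map_div, map_zpow, div_eq_one] at h1
      exact h1
    have hπ1 : LS.sym v (-1) π = Multiplicative.ofAdd 1 := by
      refine (val_cases _).resolve_left fun h => hm ((LS.mem_locPow_iff v (-1)).mpr fun x => ?_)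
      rw [key x, h, one_zpow]
    rw [key y, hπ1, toAdd_zpow, toAdd_ofAdd, zsmul_one]
  · rw [if_neg h3, mul_zero, LS.sym_eq_one_of_left ((neg_one_mem_locPow_iff hv).mpr h3)]
    rfl

end Tame

section Norm

variable {K : Type} [Field K] [NumberField K]

/-- Totally positive elements have positive norm. -/
theorem norm_pos_of_pos {x : K} (hx0 : x ≠ 0) (hx : ∀ σ : K →+* ℝ, 0 < σ x) :
    0 < Algebra.norm ℚ x := by
  classical
  have h1 : ((Algebra.norm ℚ x : ℚ) : ℂ) = ∏ φ : K →+* ℂ, φ x := by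
    have h := Algebra.norm_eq_prod_embeddings ℚ ℂ x
    rw [eq_ratCast] at h
    rw [h]
    exact (Fintype.prod_equiv (RingHom.equivRatAlgHom K ℂ) (fun φ => φ x) (fun φ => φ x)
      fun φ => by simp [RingHom.equivRatAlgHom_apply]).symm
  rw [← Finset.prod_fiberwise Finset.univ (fun φ => InfinitePlace.mk φ) (fun φ => φ x)] at h1
  have h2 (w : InfinitePlace K) : ∃ r : ℝ, 0 < r ∧
      ∏ φ with InfinitePlace.mk φ = w, φ x = (r : ℂ) := by
    have h3 : (Finset.univ.filter fun φ : K →+* ℂ => InfinitePlace.mk φ = w) =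
        {w.embedding, ComplexEmbedding.conjugate w.embedding} := by
      ext φ
      rw [Finset.mem_filter, Finset.mem_insert, Finset.mem_singleton]
      constructor
      · rintro ⟨-, h⟩
        have h4 : InfinitePlace.mk w.embedding = InfinitePlace.mk φ := by
          rw [h, InfinitePlace.mk_embedding]
        rcases InfinitePlace.mk_eq_iff.mp h4 with h5 | h5
        · exact Or.inl h5.symm
        · exact Or.inr h5.symm
      · rintro (h | h)
        · exact ⟨Finset.mem_univ _, by rw [h, InfinitePlace.mk_embedding]⟩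
        · exact ⟨Finset.mem_univ _, by
            rw [h, InfinitePlace.mk_conjugate_eq, InfinitePlace.mk_embedding]⟩
    by_cases hw : w.IsReal
    · refine ⟨InfinitePlace.embedding_of_isReal hw x, hx _, ?_⟩
      have h6 : ComplexEmbedding.conjugate w.embedding = w.embedding :=
        ComplexEmbedding.isReal_iff.mp (InfinitePlace.isReal_iff.mp hw)
      rw [h3, h6, Finset.pair_eq_singleton, Finset.prod_singleton]
      exact (InfinitePlace.embedding_of_isReal_apply hw x).symm
    · refine ⟨Complex.normSq (w.embedding x), Complex.normSq_pos.mpr ((map_ne_zero _).mpr hx0), ?_⟩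
      have h6 : w.embedding ≠ ComplexEmbedding.conjugate w.embedding := by
        intro h
        exact hw (InfinitePlace.isReal_iff.mpr (ComplexEmbedding.isReal_iff.mpr h.symm))
      rw [h3, Finset.prod_pair h6, ComplexEmbedding.conjugate_coe_eq, Complex.mul_conj]
  choose r hr0 hr using h2
  simp only [hr] at h1
  have h7 : ((Algebra.norm ℚ x : ℚ) : ℝ) = ∏ w : InfinitePlace K, r w := by
    have : (((Algebra.norm ℚ x : ℚ) : ℝ) : ℂ) = ((∏ w : InfinitePlace K, r w : ℝ) : ℂ) := by
      rw [Complex.ofReal_prod]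
      simpa using h1
    exact_mod_cast this
  have h8 : (0 : ℝ) < ((Algebra.norm ℚ x : ℚ) : ℝ) := by
    rw [h7]
    exact Finset.prod_pos fun w _ => hr0 w
  exact_mod_cast h8

/-- The norm of `1 - 2 z` modulo `4`. -/
theorem norm_one_sub_two_mul (z : 𝓞 K) :
    ∃ k : ℤ, Algebra.norm ℤ (1 - 2 * z) = 1 - 2 * Algebra.trace ℤ (𝓞 K) z + 4 * k := by
  classical
  let b := Module.Free.chooseBasis ℤ (𝓞 K)
  have h1 : Algebra.leftMulMatrix b (1 - 2 * z) = 1 + (-2 : ℤ) • Algebra.leftMulMatrix b z := by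
    have h2 : (1 - 2 * z : 𝓞 K) = 1 + (-2 : ℤ) • z := by
      rw [zsmul_eq_mul]
      push_cast
      ring
    rw [h2, map_add, map_one, map_zsmul]
  rw [Algebra.norm_eq_matrix_det b, Algebra.trace_eq_matrix_trace b, h1, Matrix.det_one_add_smul]
  exact ⟨Polynomial.eval (-2) (1 + (Polynomial.X : Polynomial ℤ) •
    (Algebra.leftMulMatrix b z).map Polynomial.C).det.divX.divX, by ring⟩

end Norm

end Fermat.Agent.Cor.QA
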