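import Fermat.Agent.Corollaries.QA.Basic

/-!
# Tensor products of quaternion algebras

`F` is a field, `2 ≠ 0`, and `a, b, c ≠ 0` in `F`.

* `tensor_common_slot : ℍ[F,a,b] ⊗ ℍ[F,a,c] ≃ ℍ[F,a,b * c] ⊗ M₂(F)`;
* `tensor_common_slot_matrix : ℍ[F,a,b] ⊗ ℍ[F,a,c] ≃ M₂(ℍ[F,a,b * c])`;
* `tensor_self : ℍ[F,a,b] ⊗ ℍ[F,a,b] ≃ M₄(F)`.
-/

set_option autoImplicit false

open Quaternion
open scoped TensorProduct

namespace Fermat.Agent.Cor.QA

section Gen

variable {F : Type*} [Field F]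

/-- The first generator. -/
def qi (a b : F) : ℍ[F,a,b] := ⟨0, 1, 0, 0⟩

/-- The second generator. -/
def qj (a b : F) : ℍ[F,a,b] := ⟨0, 0, 1, 0⟩

variable {a b : F}

theorem qi_mul_qi : qi a b * qi a b = algebraMap F _ a := by
  rw [QuaternionAlgebra.algebraMap_eq]
  ext <;> simp [qi]

theorem qj_mul_qj : qj a b * qj a b = algebraMap F _ b := by
  rw [QuaternionAlgebra.algebraMap_eq]
  ext <;> simp [qj]

theorem qj_mul_qi : qj a b * qi a b = -(qi a b * qj a b) := by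
  ext <;> simp [qi, qj]

theorem eq_gen (x : ℍ[F,a,b]) : x = algebraMap F _ x.re + x.imI • qi a b + x.imJ • qj a b +
    x.imK • (qi a b * qj a b) := by
  rw [QuaternionAlgebra.algebraMap_eq]
  ext <;> simp [qi, qj]

/-- A subalgebra containing the generators contains everything. -/
theorem mem_of_gen {A : Type*} [Ring A] [Algebra F A] (f : ℍ[F,a,b] →ₐ[F] A) (S : Subalgebra F A)
    (hi : f (qi a b) ∈ S) (hj : f (qj a b) ∈ S) (x : ℍ[F,a,b]) : f x ∈ S := by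
  rw [eq_gen x, map_add, map_add, map_add, map_smul, map_smul, map_smul, map_mul, AlgHom.commutes]
  exact S.add_mem (S.add_mem (S.add_mem (S.algebraMap_mem _) (S.smul_mem hi _)) (S.smul_mem hj _))
    (S.smul_mem (S.mul_mem hi hj) _)

theorem commute_gen {A : Type*} [Ring A] [Algebra F A] (f : ℍ[F,a,b] →ₐ[F] A) {y : A}
    (hi : Commute (f (qi a b)) y) (hj : Commute (f (qj a b)) y) (x : ℍ[F,a,b]) :
    Commute (f x) y := by
  rw [eq_gen x, map_add, map_add, map_add, map_smul, map_smul, map_smul, map_mul, AlgHom.commutes]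
  exact (((Algebra.commute_algebraMap_left _ _).add_left (hi.smul_left _)).add_left
    (hj.smul_left _)).add_left ((hi.mul_left hj).smul_left _)

/-- The homomorphism given by two anticommuting elements. -/
noncomputable def homOf {A : Type*} [Ring A] [Algebra F A] (I J : A)
    (hI : I * I = algebraMap F A a) (hJ : J * J = algebraMap F A b) (hIJ : J * I = -(I * J)) :
    ℍ[F,a,b] →ₐ[F] A := (mkBasis I J hI hJ hIJ).liftHom

theorem homOf_qi {A : Type*} [Ring A] [Algebra F A] {I J : A}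
    (hI : I * I = algebraMap F A a) (hJ : J * J = algebraMap F A b) (hIJ : J * I = -(I * J)) :
    homOf I J hI hJ hIJ (qi a b) = I := by
  simp [homOf, qi, QuaternionAlgebra.Basis.lift]

theorem homOf_qj {A : Type*} [Ring A] [Algebra F A] {I J : A}
    (hI : I * I = algebraMap F A a) (hJ : J * J = algebraMap F A b) (hIJ : J * I = -(I * J)) :
    homOf I J hI hJ hIJ (qj a b) = J := by
  simp [homOf, qj, QuaternionAlgebra.Basis.lift]

end Gen

section Tensor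

variable {F : Type*} [Field F] {a b c : F}

theorem algebraMap_tmul {A B : Type*} [Ring A] [Ring B] [Algebra F A] [Algebra F B] (r s : F) :
    (algebraMap F A r) ⊗ₜ[F] (algebraMap F B s) = algebraMap F (A ⊗[F] B) (r * s) := by
  rw [Algebra.algebraMap_eq_smul_one, Algebra.algebraMap_eq_smul_one, TensorProduct.smul_tmul_smul,
    Algebra.algebraMap_eq_smul_one, Algebra.TensorProduct.one_def]

/-- The first factor of `ℍ[F,a,b] ⊗ ℍ[F,a,c]`: generated by `i ⊗ 1` and `j ⊗ j`. -/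
noncomputable def fst (a b c : F) : ℍ[F,a,b * c] →ₐ[F] ℍ[F,a,b] ⊗[F] ℍ[F,a,c] :=
  homOf (qi a b ⊗ₜ 1) (qj a b ⊗ₜ qj a c)
    (by
      rw [Algebra.TensorProduct.tmul_mul_tmul, qi_mul_qi, mul_one, ← map_one (algebraMap F _),
        algebraMap_tmul, mul_one])
    (by rw [Algebra.TensorProduct.tmul_mul_tmul, qj_mul_qj, qj_mul_qj, algebraMap_tmul])
    (by
      rw [Algebra.TensorProduct.tmul_mul_tmul, Algebra.TensorProduct.tmul_mul_tmul, qj_mul_qi,
        TensorProduct.neg_tmul, mul_one, one_mul])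

/-- The second factor of `ℍ[F,a,b] ⊗ ℍ[F,a,c]`: generated by `1 ⊗ j` and `i ⊗ i`. -/
noncomputable def snd (a b c : F) : ℍ[F,c,a * a] →ₐ[F] ℍ[F,a,b] ⊗[F] ℍ[F,a,c] :=
  homOf (1 ⊗ₜ qj a c) (qi a b ⊗ₜ qi a c)
    (by
      rw [Algebra.TensorProduct.tmul_mul_tmul, qj_mul_qj, mul_one, ← map_one (algebraMap F _),
        algebraMap_tmul, one_mul])
    (by rw [Algebra.TensorProduct.tmul_mul_tmul, qi_mul_qi, qi_mul_qi, algebraMap_tmul])
    (by
      rw [Algebra.TensorProduct.tmul_mul_tmul, Algebra.TensorProduct.tmul_mul_tmul, qj_mul_qi,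
        TensorProduct.tmul_neg, mul_one, one_mul, neg_neg])

theorem fst_qi : fst a b c (qi a (b * c)) = qi a b ⊗ₜ 1 := homOf_qi _ _ _

theorem fst_qj : fst a b c (qj a (b * c)) = qj a b ⊗ₜ qj a c := homOf_qj _ _ _

theorem snd_qi : snd a b c (qi c (a * a)) = 1 ⊗ₜ qj a c := homOf_qi _ _ _

theorem snd_qj : snd a b c (qj c (a * a)) = qi a b ⊗ₜ qi a c := homOf_qj _ _ _

theorem commute_fst_snd (x : ℍ[F,a,b * c]) (y : ℍ[F,c,a * a]) :
    Commute (fst a b c x) (snd a b c y) := by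
  refine commute_gen _ ?_ ?_ x
  · refine (commute_gen _ ?_ ?_ y).symm
    · rw [fst_qi, snd_qi, Commute, SemiconjBy, Algebra.TensorProduct.tmul_mul_tmul,
        Algebra.TensorProduct.tmul_mul_tmul, one_mul, mul_one, one_mul, mul_one]
    · rw [fst_qi, snd_qj, Commute, SemiconjBy, Algebra.TensorProduct.tmul_mul_tmul,
        Algebra.TensorProduct.tmul_mul_tmul, one_mul, mul_one]
  · refine (commute_gen _ ?_ ?_ y).symm
    · rw [fst_qj, snd_qi, Commute, SemiconjBy, Algebra.TensorProduct.tmul_mul_tmul,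
        Algebra.TensorProduct.tmul_mul_tmul, one_mul, mul_one]
    · rw [fst_qj, snd_qj, Commute, SemiconjBy, Algebra.TensorProduct.tmul_mul_tmul,
        Algebra.TensorProduct.tmul_mul_tmul, qj_mul_qi, qj_mul_qi, TensorProduct.neg_tmul,
        TensorProduct.tmul_neg, neg_neg]

/-- The product of the two factors. -/
noncomputable def prodHom (a b c : F) :
    ℍ[F,a,b * c] ⊗[F] ℍ[F,c,a * a] →ₐ[F] ℍ[F,a,b] ⊗[F] ℍ[F,a,c] :=
  Algebra.TensorProduct.lift (fst a b c) (snd a b c) commute_fst_snd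

theorem fst_mem (x : ℍ[F,a,b * c]) : fst a b c x ∈ (prodHom a b c).range :=
  ⟨x ⊗ₜ 1, by simp [prodHom]⟩

theorem snd_mem (y : ℍ[F,c,a * a]) : snd a b c y ∈ (prodHom a b c).range :=
  ⟨1 ⊗ₜ y, by simp [prodHom]⟩

theorem surjective_prodHom (ha : a ≠ 0) (hc : c ≠ 0) :
    Function.Surjective (prodHom a b c) := by
  set S := (prodHom a b c).range with hS
  have h1 : (qi a b ⊗ₜ[F] (1 : ℍ[F,a,c])) ∈ S := by
    rw [← fst_qi]
    exact fst_mem _
  have h2 : ((1 : ℍ[F,a,b]) ⊗ₜ[F] qj a c) ∈ S := by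
    rw [← snd_qi (b := b)]
    exact snd_mem _
  have h3 : (qj a b ⊗ₜ[F] (1 : ℍ[F,a,c])) ∈ S := by
    have h4 : (qj a b ⊗ₜ[F] qj a c) ∈ S := by
      rw [← fst_qj]
      exact fst_mem _
    have h5 := S.smul_mem (S.mul_mem h4 h2) c⁻¹
    rw [Algebra.TensorProduct.tmul_mul_tmul, qj_mul_qj, mul_one, Algebra.algebraMap_eq_smul_one,
      TensorProduct.tmul_smul, smul_smul, inv_mul_cancel₀ hc, one_smul] at h5
    exact h5
  have h4 : ((1 : ℍ[F,a,b]) ⊗ₜ[F] qi a c) ∈ S := by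
    have h4 : (qi a b ⊗ₜ[F] qi a c) ∈ S := by
      rw [← snd_qj]
      exact snd_mem _
    have h5 := S.smul_mem (S.mul_mem h1 h4) a⁻¹
    rw [Algebra.TensorProduct.tmul_mul_tmul, qi_mul_qi, one_mul, Algebra.algebraMap_eq_smul_one,
      TensorProduct.smul_tmul', smul_smul, inv_mul_cancel₀ ha, one_smul] at h5
    exact h5
  have h5 : ∀ x : ℍ[F,a,b], (x ⊗ₜ[F] (1 : ℍ[F,a,c])) ∈ S := fun x =>
    mem_of_gen (Algebra.TensorProduct.includeLeft : ℍ[F,a,b] →ₐ[F] ℍ[F,a,b] ⊗[F] ℍ[F,a,c]) S h1 h3 x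
  have h6 : ∀ y : ℍ[F,a,c], ((1 : ℍ[F,a,b]) ⊗ₜ[F] y) ∈ S := fun y =>
    mem_of_gen (Algebra.TensorProduct.includeRight : ℍ[F,a,c] →ₐ[F] ℍ[F,a,b] ⊗[F] ℍ[F,a,c]) S h4 h2 y
  have h7 : ∀ z : ℍ[F,a,b] ⊗[F] ℍ[F,a,c], z ∈ S := by
    intro z
    induction z using TensorProduct.induction_on with
    | zero => exact S.zero_mem
    | tmul x y =>
      have h := S.mul_mem (h5 x) (h6 y)
      rwa [Algebra.TensorProduct.tmul_mul_tmul, mul_one, one_mul] at h
    | add x y hx hy => exact S.add_mem hx hy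
  exact fun z => h7 z

theorem bijective_prodHom (ha : a ≠ 0) (hc : c ≠ 0) : Function.Bijective (prodHom a b c) := by
  have hsurj := surjective_prodHom (b := b) ha hc
  refine ⟨?_, hsurj⟩
  have h : Module.finrank F (ℍ[F,a,b * c] ⊗[F] ℍ[F,c,a * a]) =
      Module.finrank F (ℍ[F,a,b] ⊗[F] ℍ[F,a,c]) := by
    rw [Module.finrank_tensorProduct, Module.finrank_tensorProduct,
      QuaternionAlgebra.finrank_eq_four, QuaternionAlgebra.finrank_eq_four,
      QuaternionAlgebra.finrank_eq_four, QuaternionAlgebra.finrank_eq_four]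
  exact (LinearMap.injective_iff_surjective_of_finrank_eq_finrank h
    (f := (prodHom a b c).toLinearMap)).mpr hsurj

/-- `ℍ[F,c,a²]` is a matrix algebra. -/
theorem mat_sq (h2 : (2 : F) ≠ 0) (ha : a ≠ 0) (hc : c ≠ 0) :
    Nonempty (ℍ[F,c,a * a] ≃ₐ[F] Matrix (Fin 2) (Fin 2) F) :=
  (mat_iff h2 hc (mul_ne_zero ha ha)).mpr ⟨0, 1, a, fun h => one_ne_zero h.2.1, by ring⟩

/-- **Quaternion algebras with a common slot**: `ℍ[F,a,b] ⊗ ℍ[F,a,c] ≃ ℍ[F,a,bc] ⊗ M₂(F)`. -/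
theorem tensor_common_slot (h2 : (2 : F) ≠ 0) (ha : a ≠ 0) (hc : c ≠ 0) :
    Nonempty (ℍ[F,a,b] ⊗[F] ℍ[F,a,c] ≃ₐ[F] ℍ[F,a,b * c] ⊗[F] Matrix (Fin 2) (Fin 2) F) := by
  obtain ⟨e⟩ := mat_sq (c := c) h2 ha hc
  exact ⟨(AlgEquiv.ofBijective _ (bijective_prodHom (b := b) ha hc)).symm.trans
    (Algebra.TensorProduct.congr AlgEquiv.refl e)⟩

/-- `ℍ[F,a,b] ⊗ ℍ[F,a,c] ≃ M₂(ℍ[F,a,bc])`. -/
theorem tensor_common_slot_matrix (h2 : (2 : F) ≠ 0) (ha : a ≠ 0) (hc : c ≠ 0) :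
    Nonempty (ℍ[F,a,b] ⊗[F] ℍ[F,a,c] ≃ₐ[F] Matrix (Fin 2) (Fin 2) ℍ[F,a,b * c]) := by
  obtain ⟨e⟩ := tensor_common_slot (b := b) h2 ha hc
  exact ⟨e.trans (matrixEquivTensor (Fin 2) F ℍ[F,a,b * c]).symm⟩

/-- **The class of a quaternion algebra has order `≤ 2`**: `ℍ[F,a,b] ⊗ ℍ[F,a,b] ≃ M₄(F)`. -/
theorem tensor_self (h2 : (2 : F) ≠ 0) (ha : a ≠ 0) (hb : b ≠ 0) :
    Nonempty (ℍ[F,a,b] ⊗[F] ℍ[F,a,b] ≃ₐ[F] Matrix (Fin 4) (Fin 4) F) := by
  obtain ⟨e⟩ := tensor_common_slot (b := b) h2 ha hb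
  obtain ⟨e'⟩ := mat_sq (a := b) (c := a) h2 hb ha
  exact ⟨(e.trans (Algebra.TensorProduct.congr e' AlgEquiv.refl)).trans
    ((Matrix.kroneckerAlgEquiv (Fin 2) (Fin 2) F).trans
      (Matrix.reindexAlgEquiv F F finProdFinEquiv))⟩

end Tensor

end Fermat.Agent.Cor.QA
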