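import Fermat.Agent.Corollaries.QA.Brauer
import Fermat.Agent.Corollaries.QA.Exist

/-!
# Tensor products of quaternion algebras over number fields

`K` is a number field.

* `exists_tensor`: the tensor product of two quaternion algebras over `K` is `M₂` of a quaternion
  algebra, which is ramified at the places where exactly one of the two factors is ramified;
* `csa_tensor_iff`: for central simple algebras `A`, `B`, `D` of dimension `4`:
  `A ⊗ B ≃ M₂(D)` iff the set of the ramified places of `D` is the symmetric difference of those of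
  `A` and `B`; `quatEquiv_tensor`;
* `csa_brauer_iff`: Brauer equivalent central simple algebras of dimension `4` (over any field,
  `2 ≠ 0`) are isomorphic.

So the classes of the quaternion algebras over `K` form a group of exponent `2` under the tensor
product, isomorphic to the group of the finite sets of non-complex places of even cardinality.
-/

set_option autoImplicit false

open Quaternion

namespace Fermat.Agent.Cor.QA

open IsDedekindDomain NumberField
open Fermat.Agent.Cor.HM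
open scoped TensorProduct

section Any

variable {F : Type*} [Field F] {A B : Type*} [Ring A] [Algebra F A] [Ring B] [Algebra F B]
  [Algebra.IsCentral F A] [IsSimpleRing A] [Algebra.IsCentral F B] [IsSimpleRing B]

/-- **Brauer equivalent central simple algebras of dimension `4` are isomorphic.** -/
theorem csa_brauer_iff (h2 : (2 : F) ≠ 0) (h4 : Module.finrank F A = 4)
    (h4' : Module.finrank F B = 4) :
    (∃ n m : ℕ, n ≠ 0 ∧ m ≠ 0 ∧
      Nonempty (Matrix (Fin n) (Fin n) A ≃ₐ[F] Matrix (Fin m) (Fin m) B)) ↔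
      Nonempty (A ≃ₐ[F] B) := by
  obtain ⟨a, b, ha, hb, ⟨e⟩⟩ := exists_equiv_of_csa h2 h4
  obtain ⟨c, d, hc, hd, ⟨f⟩⟩ := exists_equiv_of_csa h2 h4'
  constructor
  · rintro ⟨n, m, hn, hm, ⟨E⟩⟩
    obtain ⟨g⟩ := (equiv_iff_brauer h2 ha hb hc hd).mp ⟨n, m, hn, hm,
      ⟨(e.mapMatrix.trans E).trans f.mapMatrix.symm⟩⟩
    exact ⟨(e.symm.trans g).trans f⟩
  · rintro ⟨E⟩
    exact ⟨1, 1, one_ne_zero, one_ne_zero, ⟨E.mapMatrix⟩⟩

/-- `A ⊗ B ≃ M₄(F)` iff `A ≃ B`, for central simple algebras of dimension `4`. -/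
theorem csa_iff_tensor (h2 : (2 : F) ≠ 0) (h4 : Module.finrank F A = 4)
    (h4' : Module.finrank F B = 4) :
    Nonempty (A ⊗[F] B ≃ₐ[F] Matrix (Fin 4) (Fin 4) F) ↔ Nonempty (A ≃ₐ[F] B) := by
  obtain ⟨a, b, ha, hb, ⟨e⟩⟩ := exists_equiv_of_csa h2 h4
  obtain ⟨c, d, hc, hd, ⟨f⟩⟩ := exists_equiv_of_csa h2 h4'
  constructor
  · rintro ⟨E⟩
    obtain ⟨g⟩ := (equiv_iff_tensor h2 ha hb hc hd).mp ⟨(Algebra.TensorProduct.congr e f).trans E⟩
    exact ⟨(e.symm.trans g).trans f⟩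
  · rintro ⟨E⟩
    obtain ⟨g⟩ := (equiv_iff_tensor h2 ha hb hc hd).mpr ⟨(e.trans E).trans f.symm⟩
    exact ⟨(Algebra.TensorProduct.congr e f).symm.trans g⟩

end Any

variable {K : Type} [Field K] [NumberField K]

/-- Multiplicativity in the second slot at a finite place. -/
theorem isSplitAt_mul {e f g : K} (he : e ≠ 0) (hf : f ≠ 0) (hg : g ≠ 0)
    (v : HeightOneSpectrum (𝓞 K)) :
    IsSplitAt v e (f * g) ↔ (IsSplitAt v e f ↔ IsSplitAt v e g) := by
  obtain ⟨LS⟩ := Fermat.Agent.CFT.Bridge.nonempty_localSymbols_all (p := 2) K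
    (Fermat.Agent.CFT.Global2.Unr.isPrimitiveRoot_neg_one' K)
  have e1 := sym_eq_one_iff LS v (Units.mk0 e he) (Units.mk0 f hf)
  have e2 := sym_eq_one_iff LS v (Units.mk0 e he) (Units.mk0 g hg)
  have e3 := sym_eq_one_iff LS v (Units.mk0 e he) (Units.mk0 f hf * Units.mk0 g hg)
  rw [Units.val_mk0, Units.val_mk0] at e1 e2
  rw [Units.val_mul, Units.val_mk0, Units.val_mk0, Units.val_mk0] at e3
  rw [← e1, ← e2, ← e3, map_mul]
  rcases val_cases (LS.sym v (Units.mk0 e he) (Units.mk0 f hf)) with h | h <;>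
    rcases val_cases (LS.sym v (Units.mk0 e he) (Units.mk0 g hg)) with h' | h' <;>
    rw [h, h'] <;> decide

/-- Multiplicativity in the second slot at a real place. -/
theorem neg_mul_iff {e f g : ℝ} (hf : f ≠ 0) (hg : g ≠ 0) :
    (e < 0 ∧ f * g < 0) ↔ ¬ ((e < 0 ∧ f < 0) ↔ (e < 0 ∧ g < 0)) := by
  rcases lt_or_gt_of_ne hf with h | h <;> rcases lt_or_gt_of_ne hg with h' | h'
  · have h1 := mul_pos_of_neg_of_neg h h'
    simp [h, h', not_lt.mpr h1.le]
  · have h1 := mul_neg_of_neg_of_pos h h'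
    simp [h, not_lt.mpr h'.le, h1]
  · have h1 := mul_neg_of_pos_of_neg h h'
    simp [h', not_lt.mpr h.le, h1]
  · have h1 := mul_pos h h'
    simp [not_lt.mpr h.le, not_lt.mpr h'.le, not_lt.mpr h1.le]

theorem ramPair_mul {e f g : K} (he : e ≠ 0) (hf : f ≠ 0) (hg : g ≠ 0) (p : PlK K) :
    RamPair e (f * g) p ↔ ¬ (RamPair e f p ↔ RamPair e g p) := by
  rcases p with v | w
  · rw [RamPair, RamPair, RamPair, isSplitAt_mul he hf hg]
    tauto
  · rw [RamPair, RamPair, RamPair, map_mul]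
    exact neg_mul_iff ((map_ne_zero _).mpr hf) ((map_ne_zero _).mpr hg)

theorem ramPair_of_equiv {a b c d : K} (ha : a ≠ 0) (hb : b ≠ 0) (hc : c ≠ 0) (hd : d ≠ 0)
    (h : Nonempty (ℍ[K,a,b] ≃ₐ[K] ℍ[K,c,d])) (p : PlK K) : RamPair a b p ↔ RamPair c d p :=
  ramPair_forall_iff.mpr ((equiv_iff_ramified ha hb hc hd).mp h) p

/-- **The tensor product of two quaternion algebras over a number field** is `M₂` of a quaternion
algebra, ramified at the places where exactly one of the factors is ramified. -/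
theorem exists_tensor {a b c d : K} (ha : a ≠ 0) (hb : b ≠ 0) (hc : c ≠ 0) (hd : d ≠ 0) :
    ∃ e f : K, e ≠ 0 ∧ f ≠ 0 ∧
      Nonempty (ℍ[K,a,b] ⊗[K] ℍ[K,c,d] ≃ₐ[K] Matrix (Fin 2) (Fin 2) ℍ[K,e,f]) ∧
      ∀ p : PlK K, Ramified ℍ[K,e,f] p ↔ ¬ (Ramified ℍ[K,a,b] p ↔ Ramified ℍ[K,c,d] p) := by
  obtain ⟨e, f, g, he, hf, hg, ⟨E₁⟩, ⟨E₂⟩⟩ := exists_common_slot ha hb hc hd
  obtain ⟨E₃⟩ := tensor_common_slot_matrix (b := f) (two_ne_zero (α := K)) he hg
  have hfg : f * g ≠ 0 := mul_ne_zero hf hg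
  refine ⟨e, f * g, he, hfg, ⟨(Algebra.TensorProduct.congr E₁ E₂).symm.trans E₃⟩, fun p => ?_⟩
  rw [ramified_quaternion_iff he hfg, ramified_quaternion_iff ha hb, ramified_quaternion_iff hc hd,
    ramPair_mul he hf hg, ramPair_of_equiv he hf ha hb ⟨E₁⟩, ramPair_of_equiv he hg hc hd ⟨E₂⟩]

/-- `ℍ[K,a,b] ⊗ ℍ[K,c,d]` is never a division algebra over a number field. -/
theorem exists_zero_divisor {a b c d : K} (ha : a ≠ 0) (hb : b ≠ 0) (hc : c ≠ 0) (hd : d ≠ 0) :
    ∃ x : ℍ[K,a,b] ⊗[K] ℍ[K,c,d], x ≠ 0 ∧ ¬ IsUnit x := by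
  obtain ⟨e, f, -, -, h, -⟩ := exists_tensor ha hb hc hd
  exact exists_nonunit_of_equiv h

section CSA

variable {A B D : Type*} [Ring A] [Algebra K A] [Ring B] [Algebra K B] [Ring D] [Algebra K D]
  [Algebra.IsCentral K A] [IsSimpleRing A] [Algebra.IsCentral K B] [IsSimpleRing B]
  [Algebra.IsCentral K D] [IsSimpleRing D]

/-- Isomorphic algebras are ramified at the same places. -/
theorem ramified_congr (h4 : Module.finrank K A = 4) (h4' : Module.finrank K B = 4)
    (h : Nonempty (A ≃ₐ[K] B)) (p : PlK K) : Ramified A p ↔ Ramified B p :=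
  (csa_equiv_iff h4 h4').mp h p

/-- **Tensor products of central simple algebras of dimension `4` over a number field**:
`A ⊗ B ≃ M₂(D)` iff the ramification of `D` is the symmetric difference of those of `A` and `B`. -/
theorem csa_tensor_iff (hA : Module.finrank K A = 4) (hB : Module.finrank K B = 4)
    (hD : Module.finrank K D = 4) :
    Nonempty (A ⊗[K] B ≃ₐ[K] Matrix (Fin 2) (Fin 2) D) ↔
      ∀ p : PlK K, Ramified D p ↔ ¬ (Ramified A p ↔ Ramified B p) := by
  have h2 : (2 : K) ≠ 0 := two_ne_zero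
  obtain ⟨a, b, ha, hb, ⟨eA⟩⟩ := exists_equiv_of_csa h2 hA
  obtain ⟨c, d, hc, hd, ⟨eB⟩⟩ := exists_equiv_of_csa h2 hB
  obtain ⟨r, s, hr, hs, ⟨eD⟩⟩ := exists_equiv_of_csa h2 hD
  obtain ⟨e, f, he, hf, ⟨E⟩, hram⟩ := exists_tensor ha hb hc hd
  have h1 : (∀ p : PlK K, Ramified D p ↔ ¬ (Ramified A p ↔ Ramified B p)) ↔
      ∀ p : PlK K, RamPair r s p ↔ RamPair e f p := by
    refine forall_congr' fun p => ?_
    have h3 := hram p
    rw [ramified_quaternion_iff he hf, ramified_quaternion_iff ha hb,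
      ramified_quaternion_iff hc hd] at h3
    rw [ramified_iff hr hs eD, ramified_iff ha hb eA, ramified_iff hc hd eB, h3]
  rw [h1, ramPair_forall_iff, ← equiv_iff_ramified hr hs he hf]
  constructor
  · rintro ⟨G⟩
    exact equiv_of_tensor_equiv h2 hr hs he hf
      ⟨((Algebra.TensorProduct.congr eA eB).trans G).trans eD.mapMatrix.symm⟩ ⟨E⟩
  · rintro ⟨G⟩
    exact ⟨((Algebra.TensorProduct.congr eA eB).symm.trans E).trans
      ((G.symm.trans eD).mapMatrix)⟩

end CSA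

open Classical in
/-- **The bijection `quatEquiv` is a homomorphism**: `ℍ[K,p] ⊗ ℍ[K,q] ≃ M₂(ℍ[K,r])` iff the set of
`r` is the symmetric difference of the sets of `p` and `q`. -/
theorem quatEquiv_tensor (p q r : Kˣ × Kˣ) :
    Nonempty (ℍ[K,(p.1 : K),(p.2 : K)] ⊗[K] ℍ[K,(q.1 : K),(q.2 : K)] ≃ₐ[K]
      Matrix (Fin 2) (Fin 2) ℍ[K,(r.1 : K),(r.2 : K)]) ↔
      (quatEquiv K (Quotient.mk _ r)).1 =
        symmDiff (quatEquiv K (Quotient.mk _ p)).1 (quatEquiv K (Quotient.mk _ q)).1 := by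
  have h2 : (2 : K) ≠ 0 := two_ne_zero
  obtain ⟨e, f, he, hf, ⟨E⟩, hram⟩ := exists_tensor p.1.ne_zero p.2.ne_zero q.1.ne_zero q.2.ne_zero
  have h1 : ((quatEquiv K (Quotient.mk _ r)).1 =
      symmDiff (quatEquiv K (Quotient.mk _ p)).1 (quatEquiv K (Quotient.mk _ q)).1) ↔
      ∀ x : PlK K, RamPair (r.1 : K) r.2 x ↔ RamPair e f x := by
    rw [Finset.ext_iff]
    refine forall_congr' fun x => ?_
    rw [Finset.mem_symmDiff, mem_quatEquiv_iff, mem_quatEquiv_iff, mem_quatEquiv_iff,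
      ← ramified_quaternion_iff r.1.ne_zero r.2.ne_zero, ← ramified_quaternion_iff he hf, hram x]
    tauto
  rw [h1, ramPair_forall_iff, ← equiv_iff_ramified r.1.ne_zero r.2.ne_zero he hf]
  constructor
  · rintro ⟨G⟩
    exact equiv_of_tensor_equiv h2 r.1.ne_zero r.2.ne_zero he hf ⟨G⟩ ⟨E⟩
  · rintro ⟨G⟩
    exact ⟨E.trans G.symm.mapMatrix⟩

end Fermat.Agent.Cor.QA
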