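import Fermat.Agent.Corollaries.QA.LocalDegree

/-!
# The trace of an approximate idempotent of `𝓞 K / 2`

`v ∣ 2`, `2 𝓞 = v ^ e J`, `N v = 2 ^ f`: if `z ≡ 1` modulo a high power of `v` and `z ≡ 0` modulo high
powers of the other places above `2` then `Tr z ≡ e f` modulo `2`.
-/

set_option autoImplicit false
set_option maxHeartbeats 400000

namespace Fermat.Agent.Cor.QA

open IsDedekindDomain NumberField WithZero
open Fermat.Agent.Cor.HM
open Fermat.Agent.CFT Fermat.Agent.CFT.Global
open Fermat.Agent.CFT.SUnits (ord ord_mul ord_div ord_pow ord_one)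

variable {K : Type} [Field K] [NumberField K]

variable (K) in
/-- `2` as a unit of `K` -/
noncomputable def two' : Kˣ := Units.mk0 2 two_ne_zero

/-- The exponent of `w` in `2`. -/
noncomputable def ram (w : HeightOneSpectrum (𝓞 K)) : ℕ := (ord w (two' K)).toNat

lemma two'_val : ((two' K : Kˣ) : K) = algebraMap (𝓞 K) K 2 := by
  rw [two', Units.val_mk0, map_ofNat]

lemma ram_eq (w : HeightOneSpectrum (𝓞 K)) : ((ram w : ℕ) : ℤ) = ord w (two' K) :=
  Int.toNat_of_nonneg (ord_nonneg_of_int two'_val)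

lemma intValuation_two (w : HeightOneSpectrum (𝓞 K)) :
    w.intValuation (2 : 𝓞 K) = exp (-(ram w : ℤ)) := by
  rw [ram_eq, ← Fermat.Agent.CFT.SUnits.valuation_eq_exp_neg_ord, two'_val,
    HeightOneSpectrum.valuation_of_algebraMap]

lemma two_mem_pow (w : HeightOneSpectrum (𝓞 K)) : (2 : 𝓞 K) ∈ w.asIdeal ^ ram w :=
  (w.intValuation_le_pow_iff_mem _ _).mp (intValuation_two w).le

lemma exists_two_mul {x : 𝓞 K} (h : ∀ w : HeightOneSpectrum (𝓞 K), ((2 : ℕ) : 𝓞 K) ∈ w.asIdeal →
    x ∈ w.asIdeal ^ ram w) : ∃ t : 𝓞 K, x = 2 * t := by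
  obtain ⟨t, ht⟩ := HeightOneSpectrum.mem_integers_of_valuation_le_one (R := 𝓞 K) K
    ((x : K) / (two' K : Kˣ)) (fun w => by
      rw [map_div₀, two'_val, HeightOneSpectrum.valuation_of_algebraMap,
        HeightOneSpectrum.valuation_of_algebraMap, intValuation_two]
      have hx : w.intValuation x ≤ exp (-(ram w : ℤ)) := by
        by_cases hw : ((2 : ℕ) : 𝓞 K) ∈ w.asIdeal
        · exact (w.intValuation_le_pow_iff_mem _ _).mpr (h w hw)
        · rw [← intValuation_two]
          have h1 : w.intValuation (2 : 𝓞 K) = 1 := by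
            rw [HeightOneSpectrum.intValuation_eq_one_iff]
            exact_mod_cast hw
          rw [h1]
          exact w.intValuation_le_one x
      exact div_le_one_of_le₀ hx zero_le)
  refine ⟨t, ?_⟩
  have h1 : (algebraMap (𝓞 K) K x) = algebraMap (𝓞 K) K (2 * t) := by
    rw [map_mul, ht, ← two'_val, mul_div_cancel₀ _ (two' K).ne_zero]
  exact FaithfulSMul.algebraMap_injective (𝓞 K) K h1

/-- **The trace of an approximate idempotent.** -/
theorem trace_idem {v : HeightOneSpectrum (𝓞 K)} {f : ℕ} (hf : Ideal.absNorm v.asIdeal = 2 ^ f)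
    {z : 𝓞 K} (h1 : z - 1 ∈ v.asIdeal ^ ram v) (h2 : ∀ w : HeightOneSpectrum (𝓞 K), w ≠ v →
      ((2 : ℕ) : 𝓞 K) ∈ w.asIdeal → z ∈ w.asIdeal ^ ram w) :
    ((Algebra.trace ℤ (𝓞 K) z : ℤ) : ZMod 2) = ((ram v * f : ℕ) : ZMod 2) := by
  classical
  have : Fact (Nat.Prime 2) := ⟨Nat.prime_two⟩
  let b := Module.Free.chooseBasis ℤ (𝓞 K)
  let ι := Module.Free.ChooseBasisIndex ℤ (𝓞 K)
  let π : 𝓞 K →+ (ι → ZMod 2) :=
    { toFun := fun r i => ((b.repr r i : ℤ) : ZMod 2)
      map_zero' := by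
        ext i
        simp
      map_add' := fun r s => by
        ext i
        simp }
  have hπ : ∀ r i, π r i = ((b.repr r i : ℤ) : ZMod 2) := fun _ _ => rfl
  have hπs : Function.Surjective π := by
    intro u
    choose a ha using fun i => ZMod.intCast_surjective (u i)
    refine ⟨∑ i, a i • b i, ?_⟩
    ext i
    rw [hπ]
    have e := congrFun (b.repr_sum_self a) i
    rw [e, ha]
  have hπ0 : ∀ r, π r = 0 ↔ ∃ t : 𝓞 K, r = 2 * t := by
    intro r
    constructor
    · intro h
      choose c hc using fun i => (ZMod.intCast_zmod_eq_zero_iff_dvd (b.repr r i) 2).mp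
        (by rw [← hπ, h]; rfl)
      refine ⟨∑ i, c i • b i, ?_⟩
      apply b.repr.injective
      ext i
      have e : (2 : 𝓞 K) * ∑ i, c i • b i = (2 : ℤ) • ∑ i, c i • b i := by simp
      rw [e, map_smul, Finsupp.smul_apply, hc i, congrFun (b.repr_sum_self c) i]
      simp
    · rintro ⟨t, rfl⟩
      ext i
      have e : (2 : 𝓞 K) * t = (2 : ℤ) • t := by simp
      rw [hπ, e, map_smul, Finsupp.smul_apply]
      have h22 : ((2 : ℤ) : ZMod 2) = 0 := rfl
      rw [smul_eq_mul, Int.cast_mul, h22, zero_mul]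
      rfl
  let P : Matrix ι ι (ZMod 2) := (Int.castRingHom (ZMod 2)).mapMatrix (Algebra.leftMulMatrix b z)
  have hPv : ∀ r, P.mulVec (π r) = π (z * r) := by
    intro r
    ext i
    rw [hπ, ← Algebra.leftMulMatrix_mulVec_repr b z r]
    simp only [Matrix.mulVec, dotProduct, P, RingHom.mapMatrix_apply, Matrix.map_apply, hπ]
    push_cast
    rfl
  have hPP : IsIdempotentElem (Matrix.toLin' P) := by
    change Matrix.toLin' P * Matrix.toLin' P = Matrix.toLin' P
    apply LinearMap.ext
    intro u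
    obtain ⟨r, rfl⟩ := hπs u
    rw [Module.End.mul_apply, Matrix.toLin'_apply, Matrix.toLin'_apply, hPv, hPv]
    rw [← sub_eq_zero, ← map_sub, hπ0]
    refine exists_two_mul fun w hw => ?_
    have e : z * (z * r) - z * r = z * (z - 1) * r := by ring
    rw [e]
    refine Ideal.mul_mem_right _ _ ?_
    by_cases hwv : w = v
    · rw [hwv]
      exact Ideal.mul_mem_left _ _ h1
    · exact Ideal.mul_mem_right _ _ (h2 w hwv hw)
  have htr : ((Algebra.trace ℤ (𝓞 K) z : ℤ) : ZMod 2) =
      LinearMap.trace (ZMod 2) (ι → ZMod 2) (Matrix.toLin' P) := by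
    rw [Algebra.trace_eq_matrix_trace b, Matrix.trace_toLin'_eq]
    exact AddMonoidHom.map_trace (Int.castRingHom (ZMod 2)).toAddMonoidHom _
  rw [htr, (LinearMap.IsIdempotentElem.isProj_range _ hPP).trace]
  congr 1
  -- the rank
  let g : 𝓞 K →+ (ι → ZMod 2) := π.comp (AddMonoidHom.mulLeft z)
  have hg : ∀ r, g r = π (z * r) := fun _ => rfl
  have hker : g.ker = (v.asIdeal ^ ram v).toAddSubgroup := by
    ext r
    rw [AddMonoidHom.mem_ker, hg, hπ0]
    constructor
    · rintro ⟨t, ht⟩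
      change r ∈ v.asIdeal ^ ram v
      have e : r = 2 * t - (z - 1) * r := by rw [← ht]; ring
      rw [e]
      exact sub_mem (Ideal.mul_mem_right _ _ (two_mem_pow v)) (Ideal.mul_mem_right _ _ h1)
    · intro hr
      change r ∈ v.asIdeal ^ ram v at hr
      refine exists_two_mul fun w hw => ?_
      by_cases hwv : w = v
      · rw [hwv]
        exact Ideal.mul_mem_left _ _ hr
      · exact Ideal.mul_mem_right _ _ (h2 w hwv hw)
  have hrange : (g.range : Set (ι → ZMod 2)) = (LinearMap.range (Matrix.toLin' P) : Set _) := by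
    ext u
    constructor
    · rintro ⟨r, rfl⟩
      exact ⟨π r, by rw [Matrix.toLin'_apply, hPv, hg]⟩
    · rintro ⟨u, rfl⟩
      obtain ⟨r, rfl⟩ := hπs u
      exact ⟨r, by rw [Matrix.toLin'_apply, hPv, hg]⟩
  have hcard : Nat.card (LinearMap.range (Matrix.toLin' P)) = 2 ^ (ram v * f) := by
    have h3 : Nat.card (LinearMap.range (Matrix.toLin' P)) = Nat.card g.range :=
      Nat.card_congr (Equiv.setCongr hrange.symm)
    rw [h3, ← AddSubgroup.index_ker, hker]
    have h4 : (v.asIdeal ^ ram v).toAddSubgroup.index = Ideal.absNorm (v.asIdeal ^ ram v) := by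
      rw [Ideal.absNorm_apply]
      rfl
    rw [h4, map_pow, hf, ← pow_mul, mul_comm]
  have h5 := Module.natCard_eq_pow_finrank (K := ZMod 2)
    (V := LinearMap.range (Matrix.toLin' P))
  rw [hcard, Nat.card_zmod] at h5
  exact (Nat.pow_right_injective (le_refl 2) h5).symm

/-- **The symbol `(-1, -1)_v` at a place above `2`** is the parity of the local degree. -/
theorem sym_neg_one_neg_one_eq (LS : LocalSymbols 2 K) {v : HeightOneSpectrum (𝓞 K)}
    (hv : ((2 : ℕ) : 𝓞 K) ∈ v.asIdeal) {f : ℕ} (hf : Ideal.absNorm v.asIdeal = 2 ^ f) :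
    (LS.sym v (-1) (-1)).toAdd = ((ram v * f : ℕ) : ZMod 2) := by
  classical
  set T2 := (finite_aboveP (K := K) 2 two_ne_zero).toFinset with hT2
  refine sym_neg_one_neg_one LS hv (N₀ := T2.sup ram) fun z h1 h2 => trace_idem hf ?_ ?_
  · exact Ideal.pow_le_pow_right (Finset.le_sup (f := ram) ((Set.Finite.mem_toFinset _).mpr hv)) h1
  · intro w hwv hw
    exact Ideal.pow_le_pow_right (Finset.le_sup (f := ram) ((Set.Finite.mem_toFinset _).mpr hw))
      (h2 w hwv hw)

end Fermat.Agent.Cor.QA
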