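import Fermat.Agent.Corollaries.QA.ABHNFinal
import Fermat.Agent.Corollaries.QA.QuadSplit
import Fermat.Agent.Corollaries.QA.BrauerNF

/-!
# Classes which are ramified only at real places

`K` is a number field.

* `mem_quatSubgroup_of_finite`: a class in the Brauer group of `K` which is trivial over the
  completions at all finite places is the class of a quaternion algebra;
* `sq_eq_one_of_finite`: its square is trivial;
* `eq_one_of_finite_of_complex`: it is trivial if `K` has no real place.
-/

set_option autoImplicit false

open Polynomial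
open NumberField IsDedekindDomain

namespace Fermat.Agent.Cor.QA

/-- The Brauer group of the completion at a complex place is trivial. -/
theorem res_complex {K L : Type} [Field K] [Field L] [Algebra K L] {w : InfinitePlace L}
    (hw : w.IsComplex) (x : BrauerGroup.{0, 0} K) : brauerRes K w.Completion x = 1 := by
  have h : IsAlgClosed w.Completion :=
    IsAlgClosed.of_ringEquiv ℂ w.Completion
      (InfinitePlace.Completion.ringEquivComplexOfIsComplex hw).symm
  exact brauerRes_isAlgClosed w.Completion x

/-- An infinite place of a field which contains a square root of `-1` is complex. -/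
theorem isComplex_of_sq {L : Type} [Field L] {i : L} (hi : i ^ 2 = -1) (w : InfinitePlace L) :
    w.IsComplex := by
  rw [← InfinitePlace.not_isReal_iff_isComplex]
  intro hw
  have h := congrArg (InfinitePlace.embedding_of_isReal hw) hi
  rw [map_pow, map_neg, map_one] at h
  nlinarith [sq_nonneg (InfinitePlace.embedding_of_isReal hw i)]

variable {K : Type} [Field K] [NumberField K]

/-- A class which is trivial at the finite places is split by `K(i)`. -/
theorem res_eq_one_of_finite {x : BrauerGroup.{0, 0} K}
    (h : ∀ v : HeightOneSpectrum (𝓞 K), brauerRes K (v.adicCompletion K) x = 1) {L : Type}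
    [Field L] [NumberField L] [Algebra K L] {i : L} (hi : i ^ 2 = -1) : brauerRes K L x = 1 := by
  rw [res_eq_one_iff]
  refine ⟨fun w => ?_, fun w => res_complex (isComplex_of_sq hi w) x⟩
  obtain ⟨v, ⟨f⟩⟩ := exists_adic_hom (K := K) w
  exact brauerRes_eq_one_of_hom f (h v)

/-- **A class in the Brauer group of a number field which is trivial at all finite places is the
class of a quaternion algebra.** -/
theorem mem_quatSubgroup_of_finite {x : BrauerGroup.{0, 0} K}
    (h : ∀ v : HeightOneSpectrum (𝓞 K), brauerRes K (v.adicCompletion K) x = 1) :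
    x ∈ quatSubgroup K := by
  apply (mem_range_quatClass_iff (two_ne_zero (α := K)) x).mpr
  by_cases hsq : ∃ s : K, s ^ 2 = -1
  · obtain ⟨i, hi⟩ := hsq
    exact ⟨K, inferInstance, inferInstance, by rw [Module.finrank_self]; exact one_dvd 2,
      res_eq_one_of_finite h hi⟩
  · have hirr : Irreducible (X ^ 2 - C (-1 : K)) :=
      X_pow_sub_C_irreducible_of_prime Nat.prime_two fun b hb => hsq ⟨b, hb⟩
    have : Fact (Irreducible (X ^ 2 - C (-1 : K))) := ⟨hirr⟩
    have h0 : (X ^ 2 - C (-1 : K)) ≠ 0 := hirr.ne_zero
    have hdeg : Module.finrank K (AdjoinRoot (X ^ 2 - C (-1 : K))) = 2 := by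
      rw [(AdjoinRoot.powerBasis h0).finrank, AdjoinRoot.powerBasis_dim, natDegree_X_pow_sub_C]
    have hfin : FiniteDimensional K (AdjoinRoot (X ^ 2 - C (-1 : K))) :=
      Module.finite_of_finrank_pos (by rw [hdeg]; norm_num)
    have hnf : NumberField (AdjoinRoot (X ^ 2 - C (-1 : K))) :=
      NumberField.of_module_finite K (AdjoinRoot (X ^ 2 - C (-1 : K)))
    have hi : (AdjoinRoot.root (X ^ 2 - C (-1 : K))) ^ 2 = -1 := by
      have h := AdjoinRoot.eval₂_root (X ^ 2 - C (-1 : K))
      rw [eval₂_sub, eval₂_X_pow, eval₂_C, sub_eq_zero] at h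
      exact h.trans (((AdjoinRoot.of (X ^ 2 - C (-1 : K))).map_neg 1).trans
        (congrArg Neg.neg (AdjoinRoot.of (X ^ 2 - C (-1 : K))).map_one))
    exact ⟨AdjoinRoot (X ^ 2 - C (-1 : K)), inferInstance, inferInstance, by rw [hdeg],
      res_eq_one_of_finite h hi⟩

/-- A class which is trivial at all finite places has order at most two. -/
theorem sq_eq_one_of_finite {x : BrauerGroup.{0, 0} K}
    (h : ∀ v : HeightOneSpectrum (𝓞 K), brauerRes K (v.adicCompletion K) x = 1) : x ^ 2 = 1 := by
  obtain ⟨p, rfl⟩ := mem_quatSubgroup_of_finite h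
  exact quatClass_sq two_ne_zero p

/-- **If `K` has no real place, the finite places suffice.** -/
theorem eq_one_of_finite_of_complex (hK : ∀ w : InfinitePlace K, w.IsComplex)
    {x : BrauerGroup.{0, 0} K}
    (h : ∀ v : HeightOneSpectrum (𝓞 K), brauerRes K (v.adicCompletion K) x = 1) : x = 1 :=
  (albert_brauer_hasse_noether x).mpr ⟨h, fun w => res_complex (hK w) x⟩

end Fermat.Agent.Cor.QA
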